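import Mathlib

/-!
# STB-P2, algebraic half (Tower): characters with a `p`-tower lift to integral homomorphisms

`Q` a finitely generated abelian group, `A` an abelian group, `e : ℤ →+ A` onto the `pⁿ`-torsion
of `A`.  If `χ₀ : Q →+ A` is killed by `pⁿ` and is the bottom of a tower `p • χ_{i+1} = χ_i` of
characters of `p`-power order, then `χ₀ = e ∘ φ` for some `φ : Q →+ ℤ`
(`χ₀` kills the torsion of `Q`, and `Q / torsion` is free).

* `stb_tower_abstract` : the statement for `Q`;
* `stb_tower` : the statement for a finitely generated group `G` and characters trivial on a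
  set `P ⊆ G`; the lift `φ` is trivial on `P`.
-/

set_option autoImplicit false
set_option linter.style.haveILetI false

noncomputable section

namespace Fermat.Agent.STB

open scoped DirectSum

section Abstract

variable {Q A : Type*} [AddCommGroup Q] [AddCommGroup A]

theorem stb_tower_pow_smul (p : ℕ) (χ : ℕ → (Q →+ A)) (htow : ∀ i, p • χ (i + 1) = χ i)
    (i j : ℕ) : p ^ j • χ (i + j) = χ i := by
  induction j with
  | zero => simp
  | succ j ih =>
    rw [pow_succ, mul_smul, ← add_assoc, htow, ih]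

/-- an element killed by `m` and by a power of `p` is killed by `p ^ m` -/
theorem stb_tower_kill {p : ℕ} (hp : p.Prime) {m b : ℕ} (hm : 0 < m) {y : A} (h1 : m • y = 0)
    (h2 : p ^ b • y = 0) : p ^ m • y = 0 := by
  have d1 : addOrderOf y ∣ m := addOrderOf_dvd_of_nsmul_eq_zero h1
  have d2 : addOrderOf y ∣ p ^ b := addOrderOf_dvd_of_nsmul_eq_zero h2
  obtain ⟨c, -, hc⟩ := (Nat.dvd_prime_pow hp).mp d2
  have hcm : c ≤ m := by
    have h3 : p ^ c ≤ m := Nat.le_of_dvd hm (hc ▸ d1)
    exact (Nat.lt_pow_self hp.one_lt).le.trans h3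
  have d3 : addOrderOf y ∣ p ^ m := by
    rw [hc]
    exact pow_dvd_pow p hcm
  exact addOrderOf_dvd_iff_nsmul_eq_zero.mp d3

/-- **Tower lemma, abstract form.** -/
theorem stb_tower_abstract [AddGroup.FG Q] (p : ℕ) (hp : p.Prime) (n : ℕ) (e : ℤ →+ A)
    (he : ∀ a : A, p ^ n • a = 0 → ∃ k : ℤ, e k = a)
    (χ : ℕ → (Q →+ A)) (htow : ∀ i, p • χ (i + 1) = χ i)
    (htors : ∀ i, ∃ m, p ^ m • χ i = 0) (hn : p ^ n • χ 0 = 0) :
    ∃ φ : Q →+ ℤ, χ 0 = e.comp φ := by
  classical
  obtain ⟨r, ι, _, q, hq, ex, ⟨f⟩⟩ := AddCommGroup.equiv_free_prod_directSum_zmod Q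
  haveI : ∀ i, NeZero (q i ^ ex i) := fun i => ⟨pow_ne_zero _ (hq i).ne_zero⟩
  haveI : Fintype (⨁ i : ι, ZMod (q i ^ ex i)) :=
    Fintype.ofEquiv _ (DirectSum.addEquivProd (fun i => ZMod (q i ^ ex i))).toEquiv.symm
  set m : ℕ := Fintype.card (⨁ i : ι, ZMod (q i ^ ex i)) with hm
  have hm0 : 0 < m := Fintype.card_pos
  -- `χ 0` kills the torsion part
  have hT : ∀ t : ⨁ i : ι, ZMod (q i ^ ex i), χ 0 (f.symm (0, t)) = 0 := by
    intro t
    have h0 := stb_tower_pow_smul p χ htow 0 m
    rw [zero_add] at h0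
    rw [← h0, AddMonoidHom.smul_apply]
    obtain ⟨b, hb⟩ := htors m
    refine stb_tower_kill hp hm0 ?_ ?_ (b := b)
    · rw [← map_nsmul, ← map_nsmul]
      have h1 : m • ((0, t) : (Fin r →₀ ℤ) × ⨁ i : ι, ZMod (q i ^ ex i)) = 0 := by
        rw [Prod.smul_mk, smul_zero, hm, card_nsmul_eq_zero]
        rfl
      rw [h1, map_zero, map_zero]
    · rw [← AddMonoidHom.smul_apply, hb, AddMonoidHom.zero_apply]
  -- the values on the basis of the free part
  have hk : ∀ i : Fin r, ∃ k : ℤ, e k = χ 0 (f.symm (Finsupp.single i 1, 0)) := by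
    intro i
    apply he
    rw [← AddMonoidHom.smul_apply, hn, AddMonoidHom.zero_apply]
  choose k hk using hk
  set φF : (Fin r →₀ ℤ) →+ ℤ := (Finsupp.linearCombination ℤ k).toAddMonoidHom with hφF
  refine ⟨(φF.comp (AddMonoidHom.fst _ _)).comp f.toAddMonoidHom, ?_⟩
  -- compare on the free part
  have hfree : ((χ 0).comp f.symm.toAddMonoidHom).comp (AddMonoidHom.inl _ _) = e.comp φF := by
    refine Finsupp.addHom_ext fun i z => ?_
    show χ 0 (f.symm (Finsupp.single i z, 0)) = e (Finsupp.linearCombination ℤ k (Finsupp.single i z))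
    rw [Finsupp.linearCombination_single, smul_eq_mul]
    have h1 : ((Finsupp.single i z, 0) : (Fin r →₀ ℤ) × ⨁ i : ι, ZMod (q i ^ ex i))
        = z • (Finsupp.single i 1, 0) := by
      rw [Prod.smul_mk, smul_zero, Finsupp.smul_single, smul_eq_mul, mul_one]
    rw [h1, map_zsmul, map_zsmul, ← hk i, ← map_zsmul, smul_eq_mul]
  refine AddMonoidHom.ext fun x => ?_
  obtain ⟨⟨v, t⟩, rfl⟩ := f.symm.surjective x
  have h2 : ((v, t) : (Fin r →₀ ℤ) × ⨁ i : ι, ZMod (q i ^ ex i)) = (v, 0) + (0, t) := by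
    simp
  have h3 := DFunLike.congr_fun hfree v
  simp only [AddMonoidHom.comp_apply, AddMonoidHom.inl_apply, AddEquiv.coe_toAddMonoidHom,
    AddMonoidHom.coe_fst, AddEquiv.apply_symm_apply] at h3 ⊢
  rw [h2, map_add, map_add, hT t, add_zero, h3]

end Abstract

section Group

variable {G : Type*} [Group G] {A : Type*} [AddCommGroup A]

/-- the abelianisation of `G`, additively -/
abbrev stbGab (G : Type*) [Group G] : Type _ := Additive (Abelianization G)

/-- the canonical map `G → G^ab`, additively -/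
def stbToAb (G : Type*) [Group G] : Additive G →+ stbGab G :=
  MonoidHom.toAdditive (Abelianization.of (G := G))

theorem stbToAb_surjective (G : Type*) [Group G] : Function.Surjective (stbToAb G) := by
  intro x
  obtain ⟨g, hg⟩ := QuotientGroup.mk_surjective (s := commutator G) (Additive.toMul x)
  exact ⟨Additive.ofMul g, congrArg Additive.ofMul hg⟩

/-- a character of `G` factors through `G^ab` -/
def stbLiftAb (χ : Additive G →+ A) : stbGab G →+ A :=
  MonoidHom.toAdditiveLeft (Abelianization.lift (AddMonoidHom.toMultiplicativeRight χ))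

theorem stbLiftAb_comp (χ : Additive G →+ A) : (stbLiftAb χ).comp (stbToAb G) = χ := by
  refine AddMonoidHom.ext fun g => ?_
  show Multiplicative.toAdd (Abelianization.lift (AddMonoidHom.toMultiplicativeRight χ)
    (Abelianization.of (Additive.toMul g))) = χ g
  rw [Abelianization.lift_apply_of]
  rfl

/-- the subgroup of `G^ab` generated by the image of `P` -/
def stbParSub (P : Set G) : AddSubgroup (stbGab G) :=
  AddSubgroup.closure ((fun g : G => stbToAb G (Additive.ofMul g)) '' P)

theorem stbParSub_le_ker (P : Set G) (χ : Additive G →+ A)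
    (hpar : ∀ g ∈ P, χ (Additive.ofMul g) = 0) : stbParSub P ≤ (stbLiftAb χ).ker := by
  rw [stbParSub, AddSubgroup.closure_le]
  rintro _ ⟨g, hg, rfl⟩
  show stbLiftAb χ (stbToAb G (Additive.ofMul g)) = 0
  have := DFunLike.congr_fun (stbLiftAb_comp χ) (Additive.ofMul g)
  rw [AddMonoidHom.comp_apply] at this
  rw [this, hpar g hg]

/-- the quotient `G^ab / ⟨P⟩` -/
abbrev stbQ (P : Set G) : Type _ := stbGab G ⧸ stbParSub P

/-- the projection `G → G^ab / ⟨P⟩` -/
def stbProj (P : Set G) : Additive G →+ stbQ P :=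
  (QuotientAddGroup.mk' (stbParSub P)).comp (stbToAb G)

theorem stbProj_surjective (P : Set G) : Function.Surjective (stbProj P) :=
  (QuotientAddGroup.mk'_surjective _).comp (stbToAb_surjective G)

theorem stbProj_par (P : Set G) {g : G} (hg : g ∈ P) : stbProj P (Additive.ofMul g) = 0 := by
  show QuotientAddGroup.mk' (stbParSub P) (stbToAb G (Additive.ofMul g)) = 0
  rw [QuotientAddGroup.mk'_apply, QuotientAddGroup.eq_zero_iff]
  exact AddSubgroup.subset_closure ⟨g, hg, rfl⟩

/-- a character trivial on `P` factors through `G^ab / ⟨P⟩` -/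
def stbLiftQ (P : Set G) (χ : Additive G →+ A) (hpar : ∀ g ∈ P, χ (Additive.ofMul g) = 0) :
    stbQ P →+ A :=
  QuotientAddGroup.lift (stbParSub P) (stbLiftAb χ) (stbParSub_le_ker P χ hpar)

theorem stbLiftQ_comp (P : Set G) (χ : Additive G →+ A)
    (hpar : ∀ g ∈ P, χ (Additive.ofMul g) = 0) : (stbLiftQ P χ hpar).comp (stbProj P) = χ := by
  refine AddMonoidHom.ext fun g => ?_
  show QuotientAddGroup.lift (stbParSub P) (stbLiftAb χ) (stbParSub_le_ker P χ hpar)
    (QuotientAddGroup.mk' (stbParSub P) (stbToAb G g)) = χ g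
  rw [QuotientAddGroup.mk'_apply, QuotientAddGroup.lift_mk]
  exact DFunLike.congr_fun (stbLiftAb_comp χ) g

instance stbQ_fg [Group.FG G] (P : Set G) : AddGroup.FG (stbQ P) := by
  haveI : AddGroup.FG (Additive G) := AddGroup.fg_of_group_fg
  exact AddGroup.fg_of_surjective (stbProj_surjective P)

/-- **Tower lemma.**  `G` finitely generated, `P ⊆ G`; a character `χ 0 : G → A`, killed by `pⁿ`,
which is the bottom of a `p`-tower of characters of `p`-power order, all trivial on `P`, is
`e ∘ φ` for an integral homomorphism `φ` trivial on `P`. -/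
theorem stb_tower [Group.FG G] (P : Set G) (p : ℕ) (hp : p.Prime) (n : ℕ) (e : ℤ →+ A)
    (he : ∀ a : A, p ^ n • a = 0 → ∃ k : ℤ, e k = a)
    (χ : ℕ → (Additive G →+ A)) (hpar : ∀ i, ∀ g ∈ P, χ i (Additive.ofMul g) = 0)
    (htow : ∀ i, p • χ (i + 1) = χ i) (htors : ∀ i, ∃ m, p ^ m • χ i = 0)
    (hn : p ^ n • χ 0 = 0) :
    ∃ φ : Additive G →+ ℤ, (∀ g ∈ P, φ (Additive.ofMul g) = 0) ∧ χ 0 = e.comp φ := by
  have hcancel : ∀ {B : Type _} [AddCommGroup B] (a b : stbQ P →+ B),
      a.comp (stbProj P) = b.comp (stbProj P) → a = b := by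
    intro B _ a b hab
    refine AddMonoidHom.ext fun x => ?_
    obtain ⟨g, rfl⟩ := stbProj_surjective P x
    exact DFunLike.congr_fun hab g
  obtain ⟨φ, hφ⟩ := stb_tower_abstract (Q := stbQ P) p hp n e he
    (fun i => stbLiftQ P (χ i) (hpar i))
    (fun i => by
      apply hcancel
      rw [stbLiftQ_comp]
      refine AddMonoidHom.ext fun g => ?_
      rw [AddMonoidHom.comp_apply, AddMonoidHom.smul_apply]
      have h1 := DFunLike.congr_fun (stbLiftQ_comp P (χ (i + 1)) (hpar (i + 1))) g
      rw [AddMonoidHom.comp_apply] at h1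
      rw [h1, ← AddMonoidHom.smul_apply, htow i])
    (fun i => by
      obtain ⟨m, hm⟩ := htors i
      refine ⟨m, ?_⟩
      apply hcancel
      refine AddMonoidHom.ext fun g => ?_
      rw [AddMonoidHom.comp_apply, AddMonoidHom.smul_apply]
      have h1 := DFunLike.congr_fun (stbLiftQ_comp P (χ i) (hpar i)) g
      rw [AddMonoidHom.comp_apply] at h1
      rw [h1, ← AddMonoidHom.smul_apply, hm]
      rfl)
    (by
      apply hcancel
      refine AddMonoidHom.ext fun g => ?_
      rw [AddMonoidHom.comp_apply, AddMonoidHom.smul_apply]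
      have h1 := DFunLike.congr_fun (stbLiftQ_comp P (χ 0) (hpar 0)) g
      rw [AddMonoidHom.comp_apply] at h1
      rw [h1, ← AddMonoidHom.smul_apply, hn]
      rfl)
  refine ⟨φ.comp (stbProj P), fun g hg => ?_, ?_⟩
  · rw [AddMonoidHom.comp_apply, stbProj_par P hg, map_zero]
  · rw [← stbLiftQ_comp P (χ 0) (hpar 0), hφ]
    rfl

end Group

end Fermat.Agent.STB
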