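import Fermat.Agent.STB.MuPar
import Fermat.Agent.STB.Tower
import Fermat.Agent.ES.TopFaith
import Fermat.Agent.ES.TorsionUnifProved
import Fermat.Agent.S41.CharInv
import Fermat.Agent.S21
import Fermat.Agent.S31.Helpers

/-!
# STB-P2: a Hecke polynomial which vanishes on `S₂(Γ₀(M))` kills the `p`-divisible torsion of
`J₀(M)(ℚ̄)`

`PDiv M p` is the `p`-divisible part of the `p`-power torsion of `J₀(M)(ℚ̄)` (the `J` of the
package `ESPkgFaith M p`, `ES/TopFaith.lean`), with its Hecke module structure `pDivModule M p`.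

* `stb_p2_unifData` : the G1 contract `TorsionUnifData M p (muMap M)` for the EXPLICIT multiplier
  map `muMap M` (`ES/Mu.lean`);
* `stb_p2_range` : for `x ∈ PDiv M p` with `pⁿ x = 0`, `muMap M x = e(φ / pⁿ)` with `φ` an
  INTEGRAL PARABOLIC homomorphism (MuPar + Tower);
* `stb_p2_wordOp_par`, `stb_p2_wordOp_int` : a word in the good Hecke operators which vanishes on
  the cusp forms kills `Hom_par(Γ₀(M), ℂ)` (S21) and the integral parabolic homomorphisms;
* `stb_p2_kills_word`, `stb_p2_kills` : **(P2)**.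
-/

set_option autoImplicit false
set_option linter.style.haveILetI false

noncomputable section

namespace Fermat.Agent.STB

open ModularCurve AlgebraicCurve CongruenceSubgroup ModularCurve.Period
open Fermat.Agent.ES
open scoped MatrixGroups

variable (M p : ℕ) [NeZero M]

/-! ### The contract for the explicit multiplier map -/

/-- the G1 contract for the explicit multiplier map `muMap M` -/
theorem stb_p2_unifData (hp : 0 < p) : TorsionUnifData M p (muMap M) := by
  have hE : MuExists M := muExists M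
  have hU : MuUnique M := muUnique
  have hA : MuAdd M := muAdd
  have hI : MuInj M := muInj M
  have hH : MuHecke M := muHecke M
  have hS : MuSurj M := Sur.muSurj M
  refine ⟨?_, ?_, ?_, ?_⟩
  · rintro x y ⟨a, ha⟩ ⟨b, hb⟩
    have hn : 0 < p ^ (a + b) := pow_pos hp _
    have hx : p ^ (a + b) • x = 0 := by rw [pow_add, mul_comm, mul_smul, ha, smul_zero]
    have hy : p ^ (a + b) • y = 0 := by rw [pow_add, mul_smul, hb, smul_zero]
    exact muMap_eq hU hn (hA _ hn x y _ _ (muRel_muMap hE hU hn hx) (muRel_muMap hE hU hn hy))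
  · rintro x ⟨a, ha⟩ h0
    have hn : 0 < p ^ a := pow_pos hp _
    have := muRel_muMap hE hU hn ha
    rw [h0] at this
    exact hI _ hn x this
  · rintro ℓ x ⟨a, ha⟩
    have hn : 0 < p ^ a := pow_pos hp _
    exact muMap_eq hU hn (hH p ℓ _ hn x _ (muRel_muMap hE hU hn ha))
  · intro φ hφ n
    have hn : 0 < p ^ n := pow_pos hp _
    obtain ⟨x, hx, hrel⟩ := hS φ hφ (p ^ n) hn
    exact ⟨x, hx, muMap_eq hU hn hrel⟩

/-- the multiplier of a `p`-power torsion class is parabolic -/
theorem stb_p2_muMap_par (hp : 0 < p) {x : JZero M} {a : ℕ} (hx : p ^ a • x = 0) :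
    IsParabolicHom (Gamma0 M) (muMap M x) :=
  stb_mupar M (muRel_muMap (muExists M) muUnique (pow_pos hp a) hx)

/-! ### The range of the multiplier map on the divisible part -/

/-- every `n`-torsion element of `ℂˣ` (additively) is `e(k / n)` -/
theorem stb_p2_expHom_surj {n : ℕ} (hn : n ≠ 0) (a : Additive ℂˣ) (ha : n • a = 0) :
    ∃ k : ℤ, expHom n k = a := by
  have h1 : Additive.toMul a ^ n = 1 := by
    have := congrArg Additive.toMul ha
    rwa [toMul_nsmul] at this
  haveI : NeZero n := ⟨hn⟩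
  have h2 : ((Additive.toMul a : ℂˣ) : ℂ) ^ n = 1 := by
    rw [← Units.val_pow_eq_pow_val, h1, Units.val_one]
  have hz : IsPrimitiveRoot ((zetaUnit n : ℂˣ) : ℂ) n := by
    rw [zetaUnit_val]
    exact Complex.isPrimitiveRoot_exp n hn
  obtain ⟨i, -, hi⟩ := hz.eq_pow_of_pow_eq_one h2
  refine ⟨(i : ℤ), ?_⟩
  rw [expHom_apply, zpow_natCast]
  have h3 : zetaUnit n ^ i = Additive.toMul a := by
    apply Units.ext
    rw [Units.val_pow_eq_pow_val, hi]
  rw [h3]
  rfl

/-- **Range.**  On the `p`-divisible torsion the multiplier is `e(φ / pⁿ)` with `φ` an integral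
parabolic homomorphism. -/
theorem stb_p2_range (hp : p.Prime) {x : JZero M} (hx : x ∈ pDivTors p (JZero M)) {n : ℕ}
    (hn : p ^ n • x = 0) :
    ∃ φ : Additive (Gamma0 M) →+ ℤ, IsParabolicHom (Gamma0 M) φ ∧
      muMap M x = expChar M (p ^ n) φ := by
  have hD := stb_p2_unifData M p hp.pos
  have hm := multData_of_torsionUnifData hp.ne_zero hD
  obtain ⟨⟨a, ha⟩, y, hy0, hy⟩ := hx
  have hpow : ∀ i, p ^ i • y i = x := by
    intro i
    induction i with
    | zero => rw [pow_zero, one_smul, hy0]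
    | succ i ih => rw [pow_succ, mul_smul, hy i, ih]
  have htor : ∀ i, p ^ (a + i) • y i = 0 := by
    intro i
    rw [pow_add, mul_smul, hpow i, ha]
  have hfg : Group.FG (Gamma0 M) :=
    (Group.fg_iff_subgroup_fg _).mpr (Fermat.Agent.S22.gamma0_fg M)
  obtain ⟨φ, hφ, hχ⟩ := stb_tower (G := Gamma0 M) (parabolicSet M) p hp n (expHom (p ^ n))
    (fun a ha => stb_p2_expHom_surj (pow_ne_zero n hp.ne_zero) a ha)
    (fun i => muMap M (y i))
    (fun i g hg => stb_p2_muMap_par M p hp.pos (htor i) g hg)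
    (fun i => by
      rw [← hm.map_nsmul (isPPowerTorsion_of_pow_smul (htor (i + 1))), hy i])
    (fun i => ⟨a + i, by
      rw [← hm.map_nsmul (isPPowerTorsion_of_pow_smul (htor i)), htor i, hm.map_zero]⟩)
    (by
      rw [hy0, ← hm.map_nsmul (isPPowerTorsion_of_pow_smul hn), hn, hm.map_zero])
  refine ⟨φ, fun γ hγ => hφ γ hγ, ?_⟩
  rw [← hy0, hχ]
  rfl

/-! ### Words which vanish on the cusp forms -/

variable {M p}

omit [NeZero M] in
/-- words commute with the involution `ι` -/
theorem stb_p2_wordOp_charInv (w : FreeAlgebra ℤ (GoodPrime M p))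
    (ψ : Additive (Gamma0 M) →+ ℂ) :
    wordOp (heckeOp M p) ℂ w (charInvolution M ℂ ℂ ψ) =
      charInvolution M ℂ ℂ (wordOp (heckeOp M p) ℂ w ψ) := by
  induction w using FreeAlgebra.induction generalizing ψ with
  | grade0 r =>
    rw [AlgHom.commutes, Module.algebraMap_end_apply, Module.algebraMap_end_apply]
    rfl
  | grade1 ℓ =>
    have : Fact ((ℓ : Nat.Primes) : ℕ).Prime := ⟨ℓ.1.2⟩
    rw [wordOp_ι, wordOp_ι, heckeOp_apply, heckeOp_apply]
    exact Fermat.Agent.S41.heckeHom_comp_jConj (GoodPrime.not_dvd ℓ) ψ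
  | mul a b ha hb =>
    rw [map_mul, Module.End.mul_apply, Module.End.mul_apply, hb, ha]
  | add a b ha hb =>
    rw [map_add, LinearMap.add_apply, LinearMap.add_apply, ha, hb, map_add]

/-- a word which vanishes on the cusp forms kills the parabolic classes with complex
coefficients (S21) -/
theorem stb_p2_wordOp_par (w : FreeAlgebra ℤ (GoodPrime M p)) (hw : wordForms M p w = 0)
    (v : Additive (Gamma0 M) →+ ℂ) (hv : IsParabolicHom (Gamma0 M) v) :
    wordOp (heckeOp M p) ℂ w v = 0 := by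
  have hmem : v ∈ parabolicHoms ℂ (Gamma0 M) ℂ := hv
  rw [← (Fermat.Agent.S21.result M).2] at hmem
  obtain ⟨⟨f, g⟩, rfl⟩ := hmem
  have hper : ∀ f : CuspForm (Gamma0 M) 2, wordOp (heckeOp M p) ℂ w (periodMap M f) = 0 := by
    intro f
    rw [← period_wordForms, hw, LinearMap.zero_apply]
    exact map_zero (Fermat.Agent.S21.periodMapLinear M)
  rw [Fermat.Agent.S21.periodHomPair_apply, map_add, map_add, map_sub, stb_p2_wordOp_charInv,
    stb_p2_wordOp_charInv, hper f, hper g, map_zero, add_zero, sub_zero, add_zero]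

/-- a word which vanishes on the cusp forms kills the integral parabolic homomorphisms -/
theorem stb_p2_wordOp_int (w : FreeAlgebra ℤ (GoodPrime M p)) (hw : wordForms M p w = 0)
    (φ : Additive (Gamma0 M) →+ ℤ) (hφ : IsParabolicHom (Gamma0 M) φ) :
    wordOp (heckeOp M p) ℤ w φ = 0 := by
  have h1 := wordOp_natural (T := heckeOp M p)
    (fun ℓ A A' _ _ f ψ => heckeOp_natural ℓ A A' f ψ) w ℤ ℂ (Int.castAddHom ℂ) φ
  have h2 : wordOp (heckeOp M p) ℂ w ((Int.castAddHom ℂ).comp φ) = 0 := by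
    apply stb_p2_wordOp_par w hw
    intro γ hγ
    rw [AddMonoidHom.comp_apply, hφ γ hγ, map_zero]
  rw [h2] at h1
  refine AddMonoidHom.ext fun γ => ?_
  have h3 := DFunLike.congr_fun h1 γ
  rw [AddMonoidHom.zero_apply, AddMonoidHom.comp_apply] at h3
  have h4 : (((wordOp (heckeOp M p) ℤ w φ) γ : ℤ) : ℂ) = 0 := h3.symm
  rw [AddMonoidHom.zero_apply]
  exact Int.cast_eq_zero.mp h4

/-! ### (P2) -/

/-- **(P2), word form.** -/
theorem stb_p2_kills_word (hp : p.Prime) (w : FreeAlgebra ℤ (GoodPrime M p))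
    (hw : wordForms M p w = 0) (x : PDiv M p) :
    (letI := pDivModule M p; wordPoly M p w • x) = 0 := by
  letI := pDivModule M p
  have hD := stb_p2_unifData M p hp.pos
  have hm := multData_of_torsionUnifData hp.ne_zero hD
  obtain ⟨n, hn⟩ := isPPowerTorsion_pDiv x
  have hn' : p ^ n • (x : JZero M) = 0 := (pDiv_smul_eq_zero_iff _ x).mp hn
  obtain ⟨φ, hφ, hμ⟩ := stb_p2_range M p hp x.2 hn'
  apply hm.toHom_injective
  rw [map_zero, multiplier_wordPoly_torsion hm.toHom n
    (fun ℓ z _ => by rw [hm.heckeGen_smul]; exact hm.toHom_pDivOp ℓ z) w x hn,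
    hm.toHom_apply, hμ]
  show wordOp (heckeOp M p) (Additive ℂˣ) w ((expHom (p ^ n)).comp φ) = 0
  rw [wordOp_natural (fun ℓ A A' _ _ f ψ => heckeOp_natural ℓ A A' f ψ), stb_p2_wordOp_int w hw φ hφ,
    AddMonoidHom.comp_zero]

/-- **(P2).**  A Hecke polynomial in the good variables which vanishes on `S₂(Γ₀(M))` kills the
`p`-divisible torsion of `J₀(M)(ℚ̄)`. -/
theorem stb_p2_kills (hp : p.Prime) (t : HeckeAlg)
    (ht : t ∈ MvPolynomial.supported ℤ (goodPrimes M p))
    (h0 : CuspForm.heckeEvalForms M 2 t = 0) (x : PDiv M p) :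
    (letI := pDivModule M p; t • x) = 0 := by
  obtain ⟨w, rfl⟩ := exists_word_of_mem_supported ht
  refine stb_p2_kills_word hp w ?_ x
  rw [wordForms_apply, h0]
  rfl

/-- **(P2)**, for the Hecke algebra away from `S`: a polynomial in the variables outside `S`
whose image in `heckeAlgebra M 2 S` is zero kills the `p`-divisible torsion of `J₀(M)(ℚ̄)`. -/
theorem stb_p2_kills_evalS (hp : p.Prime) (S : Set ℕ)
    (hgood : ∀ r : ℕ, r.Prime → r ∉ S → ¬ r ∣ M * p) (t : HeckeAlg)
    (ht : t ∈ MvPolynomial.supported ℤ (Fermat.Agent.S31.outsideVars S))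
    (h0 : Fermat.Agent.S31.evalS M S t = 0) (x : PDiv M p) :
    (letI := pDivModule M p; t • x) = 0 := by
  have hSg : Fermat.Agent.S31.outsideVars S ⊆ goodPrimes M p := fun r hr => hgood r r.2 hr
  have hSg' : ∀ r ∈ Fermat.Agent.S31.outsideVars S, ¬ (r : ℕ) ∣ M ∧ (r : ℕ) ∉ S := fun r hr =>
    ⟨fun h => hgood r r.2 hr (Dvd.dvd.mul_right h p), hr⟩
  refine stb_p2_kills hp t (MvPolynomial.supported_mono hSg ht) ?_ x
  have h1 := Fermat.Agent.S31.coe_evalS_eq hSg' ht
  rw [h0, ZeroMemClass.coe_zero] at h1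
  apply Subtype.ext
  rw [← h1, ZeroMemClass.coe_zero]

end Fermat.Agent.STB
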