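import Fermat.Agent.STB.PushHecke
import Fermat.Agent.STB.KillsJ

/-!
# STB-P3, polynomial form on the `p`-divisible torsion (helper92)

`PDiv M p` is the `p`-divisible part of the `p`-power torsion of `J₀(M)(ℚ̄)` with the Hecke module
structure `pDivModule M p` (`ES/TopFaith.lean`).  Level `M₁ * q`, `q ∤ M₁` prime, `p` prime.

* `stb_tfEval_comm_of_comm` : generic — an additive map `f : J → J'` which intertwines two
  commuting families `T`, `T'` for the variables in `G` intertwines all Hecke polynomials supported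
  in `G`;
* `stbPushAlphaP`, `stbPushBetaP : PDiv (M₁ * q) p →+ PDiv M₁ p` : the restrictions of `α_*`, `β_*`;
* `stb_p3_poly_alpha`, `stb_p3_poly_beta` : `α_* (t • x) = t • α_* x` for
  `t ∈ supported ℤ (goodPrimes (M₁ * q) p)`;
* `stb_p3_new` : **(P2) + (P3)**: if `t` (supported in the good primes of level `M₁ q`) vanishes
  on `S₂(Γ₀(M₁))` then `t • x` lies in the `q`-new part `stbNew M₁ q` for every `x : PDiv (M₁ q) p`.
-/

set_option autoImplicit false
set_option linter.style.haveILetI false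
set_option linter.unusedSectionVars false

noncomputable section

namespace Fermat.Agent.STB

open AlgebraicCurve ModularCurve Fermat.Agent.ES

section Generic

variable {J J' : Type} [AddCommGroup J] [AddCommGroup J']

/-- an additive map intertwining two commuting families for the variables in `G` intertwines all
Hecke polynomials supported in `G` -/
theorem stb_tfEval_comm_of_comm {T : Nat.Primes → Module.End ℤ J}
    {T' : Nat.Primes → Module.End ℤ J'} (h : TfComm T) (h' : TfComm T') (f : J →+ J')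
    (G : Set Nat.Primes) (hf : ∀ ℓ ∈ G, ∀ x : J, f (T ℓ x) = T' ℓ (f x))
    (t : HeckeAlg) (ht : t ∈ MvPolynomial.supported ℤ G) (x : J) :
    f (tfEval h t x) = tfEval h' t (f x) := by
  rw [MvPolynomial.supported_eq_adjoin_X] at ht
  induction ht using Algebra.adjoin_induction generalizing x with
  | mem t ht =>
    obtain ⟨ℓ, hℓ, rfl⟩ := ht
    rw [tfEval_X, tfEval_X]
    exact hf ℓ hℓ x
  | algebraMap r =>
    rw [MvPolynomial.algebraMap_eq, tfEval_C, tfEval_C, Module.End.intCast_apply,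
      Module.End.intCast_apply]
    exact map_zsmul f r x
  | add s t _ _ hs ht =>
    rw [map_add, map_add, LinearMap.add_apply, LinearMap.add_apply, map_add, hs, ht]
  | mul s t _ _ hs ht =>
    rw [map_mul, map_mul, Module.End.mul_apply, Module.End.mul_apply, hs, ht]

end Generic

section PDiv

variable (M₁ q p : ℕ) [NeZero M₁] [NeZero q]

/-- restriction of an additive map `J₀(M) → J₀(M')` to the `p`-divisible torsion -/
def stbRestrictP {M M' : ℕ} (f : JZero M →+ JZero M') : PDiv M p →+ PDiv M' p where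
  toFun x := ⟨f x, ⟨x.2.1.map f, x.2.2.map f⟩⟩
  map_zero' := Subtype.ext (map_zero f)
  map_add' _ _ := Subtype.ext (map_add f _ _)

theorem stbRestrictP_coe {M M' : ℕ} (f : JZero M →+ JZero M') (x : PDiv M p) :
    ((stbRestrictP p f x : PDiv M' p) : JZero M') = f x := rfl

/-- `α_*` on the `p`-divisible torsion -/
def stbPushAlphaP : PDiv (M₁ * q) p →+ PDiv M₁ p := stbRestrictP p (stbPushAlpha M₁ q)

/-- `β_*` on the `p`-divisible torsion -/
def stbPushBetaP : PDiv (M₁ * q) p →+ PDiv M₁ p := stbRestrictP p (stbPushBeta M₁ q)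

theorem stbPushAlphaP_coe (x : PDiv (M₁ * q) p) :
    ((stbPushAlphaP M₁ q p x : PDiv M₁ p) : JZero M₁) = stbPushAlpha M₁ q x := rfl

theorem stbPushBetaP_coe (x : PDiv (M₁ * q) p) :
    ((stbPushBetaP M₁ q p x : PDiv M₁ p) : JZero M₁) = stbPushBeta M₁ q x := rfl

variable {M₁ q p}

theorem stb_good_of_good {ℓ : Nat.Primes} (hℓ : ℓ ∈ goodPrimes (M₁ * q) p) :
    ¬ (ℓ : ℕ) ∣ M₁ * p := by
  intro h
  apply hℓ
  rcases (Nat.Prime.dvd_mul ℓ.2).1 h with h1 | h1
  · exact (h1.mul_right q).mul_right p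
  · exact h1.mul_left (M₁ * q)

theorem stb_not_dvd_of_good {ℓ : Nat.Primes} (hℓ : ℓ ∈ goodPrimes (M₁ * q) p) :
    ¬ (ℓ : ℕ) ∣ M₁ * q := fun h => hℓ (h.mul_right p)

/-- `α_*` intertwines the operators `T_ℓ` on the `p`-divisible torsion, `ℓ` good -/
theorem stb_p3_pDivOp_alpha (hp : p.Prime) (hq : q.Prime) (hqM₁ : ¬ q ∣ M₁) {ℓ : Nat.Primes}
    (hℓ : ℓ ∈ goodPrimes (M₁ * q) p) (x : PDiv (M₁ * q) p) :
    stbPushAlphaP M₁ q p (pDivOp (M₁ * q) p ℓ x) = pDivOp M₁ p ℓ (stbPushAlphaP M₁ q p x) := by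
  apply Subtype.ext
  obtain ⟨n, hn⟩ := x.2.1
  rw [stbPushAlphaP_coe, pDivOp_of_good hℓ, pDivOp_of_good (stb_good_of_good hℓ),
    stbPushAlphaP_coe]
  exact stb_p3_alpha M₁ q hq hqM₁ ℓ (stb_not_dvd_of_good hℓ) (pow_ne_zero n hp.ne_zero)
    (x : JZero (M₁ * q)) hn

/-- `β_*` intertwines the operators `T_ℓ` on the `p`-divisible torsion, `ℓ` good -/
theorem stb_p3_pDivOp_beta (hp : p.Prime) (hq : q.Prime) (hqM₁ : ¬ q ∣ M₁) {ℓ : Nat.Primes}
    (hℓ : ℓ ∈ goodPrimes (M₁ * q) p) (x : PDiv (M₁ * q) p) :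
    stbPushBetaP M₁ q p (pDivOp (M₁ * q) p ℓ x) = pDivOp M₁ p ℓ (stbPushBetaP M₁ q p x) := by
  apply Subtype.ext
  obtain ⟨n, hn⟩ := x.2.1
  rw [stbPushBetaP_coe, pDivOp_of_good hℓ, pDivOp_of_good (stb_good_of_good hℓ),
    stbPushBetaP_coe]
  exact stb_p3_beta M₁ q hq hqM₁ ℓ (stb_not_dvd_of_good hℓ) (pow_ne_zero n hp.ne_zero)
    (x : JZero (M₁ * q)) hn

/-- the Hecke operators commute on `PDiv M p` -/
theorem stb_tfComm (M : ℕ) [NeZero M] (hp : p.Prime) : TfComm (pDivOp M p) :=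
  (multData_of_torsionUnifData hp.ne_zero (stb_p2_unifData M p hp.pos)).tfComm

/-- the Hecke module structure of `PDiv M p` is the evaluation at the `pDivOp` -/
theorem stb_pDiv_smul_def (M : ℕ) [NeZero M] (hp : p.Prime) (t : HeckeAlg) (x : PDiv M p) :
    (letI := pDivModule M p; t • x) = tfEval (stb_tfComm M hp) t x :=
  tfModule_smul_def (stb_tfComm M hp) t x

/-- **(P3), polynomial form, `α`** -/
theorem stb_p3_poly_alpha (hp : p.Prime) (hq : q.Prime) (hqM₁ : ¬ q ∣ M₁) (t : HeckeAlg)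
    (ht : t ∈ MvPolynomial.supported ℤ (goodPrimes (M₁ * q) p)) (x : PDiv (M₁ * q) p) :
    stbPushAlphaP M₁ q p (letI := pDivModule (M₁ * q) p; t • x) =
      (letI := pDivModule M₁ p; t • stbPushAlphaP M₁ q p x) := by
  rw [stb_pDiv_smul_def (M₁ * q) hp, stb_pDiv_smul_def M₁ hp]
  exact stb_tfEval_comm_of_comm _ _ (stbPushAlphaP M₁ q p) (goodPrimes (M₁ * q) p)
    (fun ℓ hℓ y => stb_p3_pDivOp_alpha hp hq hqM₁ hℓ y) t ht x

/-- **(P3), polynomial form, `β`** -/
theorem stb_p3_poly_beta (hp : p.Prime) (hq : q.Prime) (hqM₁ : ¬ q ∣ M₁) (t : HeckeAlg)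
    (ht : t ∈ MvPolynomial.supported ℤ (goodPrimes (M₁ * q) p)) (x : PDiv (M₁ * q) p) :
    stbPushBetaP M₁ q p (letI := pDivModule (M₁ * q) p; t • x) =
      (letI := pDivModule M₁ p; t • stbPushBetaP M₁ q p x) := by
  rw [stb_pDiv_smul_def (M₁ * q) hp, stb_pDiv_smul_def M₁ hp]
  exact stb_tfEval_comm_of_comm _ _ (stbPushBetaP M₁ q p) (goodPrimes (M₁ * q) p)
    (fun ℓ hℓ y => stb_p3_pDivOp_beta hp hq hqM₁ hℓ y) t ht x

/-- **(P2) + (P3)**: a Hecke polynomial in the good variables of level `M₁ q` which kills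
`PDiv M₁ p` maps `PDiv (M₁ q) p` into the `q`-new part. -/
theorem stb_p3_new_of_kills (hp : p.Prime) (hq : q.Prime) (hqM₁ : ¬ q ∣ M₁) (t : HeckeAlg)
    (ht : t ∈ MvPolynomial.supported ℤ (goodPrimes (M₁ * q) p))
    (hkill : ∀ y : PDiv M₁ p, (letI := pDivModule M₁ p; t • y) = 0) (x : PDiv (M₁ * q) p) :
    (((letI := pDivModule (M₁ * q) p; t • x) : PDiv (M₁ * q) p) : JZero (M₁ * q)) ∈
      stbNew M₁ q := by
  rw [mem_stbNew]
  constructor
  · have h := stb_p3_poly_alpha hp hq hqM₁ t ht x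
    rw [hkill] at h
    have h2 := congrArg (fun y : PDiv M₁ p => (y : JZero M₁)) h
    exact h2
  · have h := stb_p3_poly_beta hp hq hqM₁ t ht x
    rw [hkill] at h
    have h2 := congrArg (fun y : PDiv M₁ p => (y : JZero M₁)) h
    exact h2

/-- **(P2) + (P3)**: a Hecke polynomial in the good variables of level `M₁ q` which vanishes on
`S₂(Γ₀(M₁))` maps `PDiv (M₁ q) p` into the `q`-new part `stbNew M₁ q`. -/
theorem stb_p3_new (hp : p.Prime) (hq : q.Prime) (hqM₁ : ¬ q ∣ M₁) (t : HeckeAlg)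
    (ht : t ∈ MvPolynomial.supported ℤ (goodPrimes (M₁ * q) p))
    (h0 : CuspForm.heckeEvalForms M₁ 2 t = 0) (x : PDiv (M₁ * q) p) :
    (((letI := pDivModule (M₁ * q) p; t • x) : PDiv (M₁ * q) p) : JZero (M₁ * q)) ∈
      stbNew M₁ q := by
  refine stb_p3_new_of_kills hp hq hqM₁ t ht (fun y => ?_) x
  refine stb_p2_kills hp t (MvPolynomial.supported_mono ?_ ht) h0 y
  intro ℓ hℓ
  exact stb_good_of_good hℓ

end PDiv

end Fermat.Agent.STB
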