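import Mathlib

/-!
# STB (S35, phase 2 of item 34): norms along ring homomorphisms of fields, base change in a
commutative square — embedding form (helper92)

`stbNorm φ y` is the norm of `y : F'` down to `F` for the algebra structure `φ.toAlgebra`
(`φ : F →+* F'`); for `φ : F →ₐ[K] F'` the prelude's `algebraAlong φ` is
`φ.toRingHom.toAlgebra`, so `stbNorm φ.toRingHom y` is the norm used in
`NormFormulaAlong` / `ES.G2.FrobAux.frobNorm`.

* `stbNorm_eq_prod` : the norm is the product over a complete list of embeddings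
  (`τ i ∘ φ = ι₀`, pairwise distinct, as many as the degree).
* `stb_norm_square` : **base change of norms in a commutative square**
  `g₂ ∘ φ = φ' ∘ g₁`, `φ : F₁ → F₂`, `φ' : F₃ → F₄` of the same degree:
  `N_φ' (g₂ u) = g₁ (N_φ u)`, provided a complete list `τ` of embeddings of `F₄` over `F₃` is
  still pairwise distinct on `g₂ (F₂)`.  (This replaces the hypothesis `F₄ = F₃ · g₂(F₂)`, which is
  not cheap for modular function fields.)
* `stbNorm_comp` : transitivity, `N_φ (N_ψ y) = N_{ψ ∘ φ} y`.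
* `stbNorm_equiv_comp`, `stb_finrank_equiv_comp`, `stb_finite_equiv_comp` : composing with an
  isomorphism of the top field.
* `stbNorm_comp_equiv` : `N_{φ ∘ e}`, `e` an isomorphism of the bottom field.
-/

set_option autoImplicit false
set_option linter.style.haveILetI false

noncomputable section

namespace Fermat.Agent.STB

section Def

variable {F F' : Type*} [Field F] [Field F']

/-- the norm along a ring homomorphism of fields -/
def stbNorm (φ : F →+* F') (y : F') : F :=
  letI := φ.toAlgebra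
  Algebra.norm F y

/-- the degree along a ring homomorphism of fields -/
def stbDeg (φ : F →+* F') : ℕ :=
  letI := φ.toAlgebra
  Module.finrank F F'

/-- finiteness along a ring homomorphism of fields -/
def StbFinite (φ : F →+* F') : Prop :=
  letI := φ.toAlgebra
  Module.Finite F F'

theorem stbNorm_congr {φ φ' : F →+* F'} (h : φ = φ') (y : F') : stbNorm φ y = stbNorm φ' y := by
  subst h
  rfl

theorem stbDeg_congr {φ φ' : F →+* F'} (h : φ = φ') : stbDeg φ = stbDeg φ' := by
  subst h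
  rfl

theorem StbFinite.congr {φ φ' : F →+* F'} (h : φ = φ') (hfin : StbFinite φ) : StbFinite φ' := by
  subst h
  exact hfin

theorem stbNorm_mul (φ : F →+* F') (a b : F') :
    stbNorm φ (a * b) = stbNorm φ a * stbNorm φ b := by
  letI := φ.toAlgebra
  exact map_mul (Algebra.norm F) a b

theorem stbNorm_one (φ : F →+* F') : stbNorm φ 1 = 1 := by
  letI := φ.toAlgebra
  exact map_one (Algebra.norm F)

theorem stbNorm_ne_zero (φ : F →+* F') (hfin : StbFinite φ) {a : F'} (ha : a ≠ 0) :
    stbNorm φ a ≠ 0 := by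
  letI := φ.toAlgebra
  haveI : Module.Finite F F' := hfin
  exact Algebra.norm_ne_zero_iff.mpr ha

theorem stbNorm_apply (φ : F →+* F') (hfin : StbFinite φ) (x : F) :
    stbNorm φ (φ x) = x ^ stbDeg φ := by
  letI := φ.toAlgebra
  haveI : Module.Finite F F' := hfin
  exact Algebra.norm_algebraMap x

end Def

section Prod

variable {F F' Ω : Type*} [Field F] [Field F'] [Field Ω] [IsAlgClosed Ω]

/-- **norm = product over a complete list of embeddings**, ring-homomorphism form -/
theorem stbNorm_eq_prod (φ : F →+* F') (hfin : StbFinite φ)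
    (hsep : letI := φ.toAlgebra; Algebra.IsSeparable F F')
    (ι₀ : F →+* Ω) {ι : Type*} [Fintype ι] (τ : ι → F' →+* Ω)
    (hτ : ∀ i x, τ i (φ x) = ι₀ x) (hinj : Function.Injective τ)
    (hcard : Fintype.card ι = stbDeg φ) (y : F') :
    ι₀ (stbNorm φ y) = ∏ i, τ i y := by
  classical
  letI := φ.toAlgebra
  letI := ι₀.toAlgebra
  haveI : Module.Finite F F' := hfin
  haveI : Algebra.IsSeparable F F' := hsep
  let e : ι → (F' →ₐ[F] Ω) := fun i => { τ i with commutes' := fun x => hτ i x }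
  have he : Function.Injective e := by
    intro i i' h
    apply hinj
    have := congrArg (fun g : F' →ₐ[F] Ω => (g : F' →+* Ω)) h
    exact this
  have hbij : Function.Bijective e := by
    rw [Fintype.bijective_iff_injective_and_card]
    refine ⟨he, ?_⟩
    rw [hcard, AlgHom.card F F' Ω]
    rfl
  have h1 : algebraMap F Ω (Algebra.norm F y) = ∏ σ : F' →ₐ[F] Ω, σ y :=
    Algebra.norm_eq_prod_embeddings F Ω y
  have h2 : ∏ i, e i y = ∏ σ : F' →ₐ[F] Ω, σ y :=
    Function.Bijective.prod_comp hbij (fun σ : F' →ₐ[F] Ω => σ y)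
  exact h1.trans h2.symm

end Prod

section Square

variable {F₁ F₂ F₃ F₄ Ω : Type*} [Field F₁] [Field F₂] [Field F₃] [Field F₄] [Field Ω]
  [IsAlgClosed Ω]

/-- **Base change of norms in a commutative square**, embedding form. -/
theorem stb_norm_square (φ : F₁ →+* F₂) (φ' : F₃ →+* F₄) (g₁ : F₁ →+* F₃) (g₂ : F₂ →+* F₄)
    (hsq : ∀ x, g₂ (φ x) = φ' (g₁ x))
    (hfin : StbFinite φ) (hfin' : StbFinite φ')
    (hsep : letI := φ.toAlgebra; Algebra.IsSeparable F₁ F₂)
    (hsep' : letI := φ'.toAlgebra; Algebra.IsSeparable F₃ F₄)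
    (ι₃ : F₃ →+* Ω) {ι : Type*} [Fintype ι] (τ : ι → F₄ →+* Ω)
    (hτ : ∀ i x, τ i (φ' x) = ι₃ x)
    (hcard' : Fintype.card ι = stbDeg φ') (hcard : Fintype.card ι = stbDeg φ)
    (hinj : Function.Injective fun i => (τ i).comp g₂) (u : F₂) :
    stbNorm φ' (g₂ u) = g₁ (stbNorm φ u) := by
  have hinjτ : Function.Injective τ := by
    intro i i' h
    apply hinj
    show (τ i).comp g₂ = (τ i').comp g₂
    rw [h]
  have h1 := stbNorm_eq_prod φ' hfin' hsep' ι₃ τ hτ hinjτ hcard' (g₂ u)
  have h2 := stbNorm_eq_prod φ hfin hsep (ι₃.comp g₁) (fun i => (τ i).comp g₂)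
    (fun i x => by
      show τ i (g₂ (φ x)) = ι₃ (g₁ x)
      rw [hsq, hτ]) hinj hcard u
  apply ι₃.injective
  rw [h1]
  exact h2.symm

/-- the same in characteristic zero -/
theorem stb_norm_square_charZero [CharZero F₁] (φ : F₁ →+* F₂) (φ' : F₃ →+* F₄)
    (g₁ : F₁ →+* F₃) (g₂ : F₂ →+* F₄)
    (hsq : ∀ x, g₂ (φ x) = φ' (g₁ x))
    (hfin : StbFinite φ) (hfin' : StbFinite φ')
    (ι₃ : F₃ →+* Ω) {ι : Type*} [Fintype ι] (τ : ι → F₄ →+* Ω)
    (hτ : ∀ i x, τ i (φ' x) = ι₃ x)
    (hcard' : Fintype.card ι = stbDeg φ') (hcard : Fintype.card ι = stbDeg φ)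
    (hinj : Function.Injective fun i => (τ i).comp g₂) (u : F₂) :
    stbNorm φ' (g₂ u) = g₁ (stbNorm φ u) := by
  haveI : CharZero F₃ := charZero_of_injective_ringHom g₁.injective
  refine stb_norm_square φ φ' g₁ g₂ hsq hfin hfin' ?_ ?_ ι₃ τ hτ hcard' hcard hinj u
  · letI := φ.toAlgebra
    haveI : Module.Finite F₁ F₂ := hfin
    infer_instance
  · letI := φ'.toAlgebra
    haveI : Module.Finite F₃ F₄ := hfin'
    infer_instance

end Square

section Trans

variable {F₁ F₂ F₃ : Type*} [Field F₁] [Field F₂] [Field F₃]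

/-- transitivity of finiteness -/
theorem StbFinite.comp {φ : F₁ →+* F₂} {ψ : F₂ →+* F₃} (hφ : StbFinite φ) (hψ : StbFinite ψ) :
    StbFinite (ψ.comp φ) := by
  letI a12 : Algebra F₁ F₂ := φ.toAlgebra
  letI a23 : Algebra F₂ F₃ := ψ.toAlgebra
  letI a13 : Algebra F₁ F₃ := (ψ.comp φ).toAlgebra
  haveI : IsScalarTower F₁ F₂ F₃ := IsScalarTower.of_algebraMap_eq fun _ => rfl
  haveI : Module.Finite F₁ F₂ := hφ
  haveI : Module.Finite F₂ F₃ := hψ
  exact Module.Finite.trans (R := F₁) F₂ F₃

/-- **transitivity of norms** -/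
theorem stbNorm_comp (φ : F₁ →+* F₂) (ψ : F₂ →+* F₃) (hφ : StbFinite φ) (hψ : StbFinite ψ)
    (y : F₃) : stbNorm φ (stbNorm ψ y) = stbNorm (ψ.comp φ) y := by
  letI a12 : Algebra F₁ F₂ := φ.toAlgebra
  letI a23 : Algebra F₂ F₃ := ψ.toAlgebra
  letI a13 : Algebra F₁ F₃ := (ψ.comp φ).toAlgebra
  haveI : IsScalarTower F₁ F₂ F₃ := IsScalarTower.of_algebraMap_eq fun _ => rfl
  haveI : Module.Finite F₁ F₂ := hφ
  haveI : Module.Finite F₂ F₃ := hψ
  exact Algebra.norm_norm (R := F₁) (S := F₂) (A := F₃) (a := y)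

/-- transitivity of degrees -/
theorem stbDeg_comp (φ : F₁ →+* F₂) (ψ : F₂ →+* F₃) :
    stbDeg (ψ.comp φ) = stbDeg φ * stbDeg ψ := by
  letI a12 : Algebra F₁ F₂ := φ.toAlgebra
  letI a23 : Algebra F₂ F₃ := ψ.toAlgebra
  letI a13 : Algebra F₁ F₃ := (ψ.comp φ).toAlgebra
  haveI : IsScalarTower F₁ F₂ F₃ := IsScalarTower.of_algebraMap_eq fun _ => rfl
  exact (Module.finrank_mul_finrank F₁ F₂ F₃).symm

end Trans

section Equiv

variable {F F' F'' : Type*} [Field F] [Field F'] [Field F'']

/-- the linear equivalence behind an isomorphism of the top field -/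
def stbEquivLin (φ : F →+* F') (e : F' ≃+* F'') :
    letI := φ.toAlgebra
    letI := ((e : F' →+* F'').comp φ).toAlgebra
    F' ≃ₐ[F] F'' :=
  letI := φ.toAlgebra
  letI := ((e : F' →+* F'').comp φ).toAlgebra
  { e with commutes' := fun _ => rfl }

theorem stb_finrank_equiv_comp (φ : F →+* F') (e : F' ≃+* F'') :
    stbDeg ((e : F' →+* F'').comp φ) = stbDeg φ := by
  letI := φ.toAlgebra
  letI := ((e : F' →+* F'').comp φ).toAlgebra
  exact (LinearEquiv.finrank_eq (stbEquivLin φ e).toLinearEquiv).symm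

theorem stb_finite_equiv_comp (φ : F →+* F') (e : F' ≃+* F'') (hφ : StbFinite φ) :
    StbFinite ((e : F' →+* F'').comp φ) := by
  letI := φ.toAlgebra
  letI := ((e : F' →+* F'').comp φ).toAlgebra
  haveI : Module.Finite F F' := hφ
  exact Module.Finite.equiv (stbEquivLin φ e).toLinearEquiv

/-- composing with an isomorphism of the top field does not change the norm -/
theorem stbNorm_equiv_comp (φ : F →+* F') (e : F' ≃+* F'') (y : F') :
    stbNorm ((e : F' →+* F'').comp φ) (e y) = stbNorm φ y := by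
  letI := φ.toAlgebra
  letI := ((e : F' →+* F'').comp φ).toAlgebra
  exact Algebra.norm_eq_of_algEquiv (stbEquivLin φ e) y

end Equiv

end Fermat.Agent.STB
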