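import Fermat.Agent.ES.G2.S37Plan
import Fermat.Agent.UNIP.Cheap
import Fermat.Agent.STB.NormSquare

/-!
# STB (S35, phase 2 of item 34): the statement of piece (K), "Kronecker at `q`"

`N = M q`, `q ∤ M` prime, `F_N = modularFunctionFieldBar (M * q) ⊂ ℚ̄((t))`,
`α = heckeAlphaBar Qb M q : F_M → F_N` the inclusion, `w = w_q` the Atkin–Lehner involution
(`UNIP.atkinLehnerBar`), `A ⊂ ℚ̄` a valuation ring over `q`, `τ` a Frobenius element at `A`
acting on the coefficients.

* `stbNorm α.toRingHom y` (`STB/NormSquare.lean`, helper92) : the norm of `y ∈ F_N` down to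
  `F_M` (along `α`);
* `StmtNormQ hq hqM` : the norm formula `N_α y = y · ∏_{b<q} (w y)(ζ^b t^{1/q})` (helper60);
* `StmtKronQ hq hqM` : **(K)** for every `y ∈ F_N^×`:
  `α (N_α y) / (y · τ (w y))` is Gauss-constant at `A`
  (`GaussConst`, `ES/G2/S37Plan.lean`: a nonzero constant times a function reducing to one; the
  constant absorbs the normalisations `a`, `b ^ q` of NOTES/S35-plan.md §1 (K)).
-/

set_option autoImplicit false

noncomputable section

namespace Fermat.Agent.STB

open ModularCurve AlgebraicCurve Fermat.Agent.ES Fermat.Agent.ES.G2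

section

variable {q M : ℕ} [NeZero q] [NeZero M] [NeZero (M * q)] (hq : q.Prime) (hqM : ¬ q ∣ M)

/-- **(K), norm formula** (helper60): `N_α(y) = y · ∏_{b<q} (w_q y)(ζ^b t^{1/q})` in
`q`-expansions, for every `y ∈ F_{Mq}`. -/
def StmtNormQ : Prop :=
  ∀ (ζ : Qbˣ), IsPrimitiveRoot ζ q →
    ∀ y : modularFunctionFieldBar (M * q),
      ((stbNorm (heckeAlphaBar Qb M q).toRingHom y : modularFunctionFieldBar M) :
          LaurentSeries Qb) =
        (y : LaurentSeries Qb) *
          kronNorm q ζ ((Fermat.Agent.UNIP.atkinLehnerBar hq hqM y :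
            modularFunctionFieldBar (M * q)) : LaurentSeries Qb)

/-- **(K)** at one valuation ring `A` and one Frobenius element `τ` -/
def StmtKronQAt (A : ValuationSubring Qb) (τ : Qb ≃ₐ[ℚ] Qb) : Prop :=
  ∀ y : modularFunctionFieldBar (M * q), y ≠ 0 →
    GaussConst A (M * q)
      (heckeAlphaBar Qb M q (stbNorm (heckeAlphaBar Qb M q).toRingHom y) /
        (y * (arithmeticGalois (modularFunctionFieldFull (M * q)) τ •
          Fermat.Agent.UNIP.atkinLehnerBar hq hqM y)))

/-- **(K)** Kronecker at `q` for norms: `α (N_α y) ≡ const · y · τ (w_q y)` at `v_∞`. -/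
def StmtKronQ : Prop :=
  ∀ A : ValuationSubring Qb, A.LiesOverPrime q →
    ∀ τ : Qb ≃ₐ[ℚ] Qb, A.IsFrobeniusAt τ q → StmtKronQAt hq hqM A τ

end

end Fermat.Agent.STB
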