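import Fermat.Agent.STB.PushPoly
import Fermat.Agent.ES.GaloisHecke

/-!
# S33 v2, piece C2: the degeneracy push-forwards are Galois equivariant (helper92)

`q` a prime, `α = heckeAlphaBar ℚ̄ N q`, `β = heckeBetaBar ℚ̄ N q : F_N → F_{Nq}`,
`α_* = stbPushAlpha N q`, `β_* = stbPushBeta N q : J₀(Nq)(ℚ̄) → J₀(N)(ℚ̄)` (`STB/Stmt.lean`,
Kummer form `stb_kummerRel_pushAlpha`, `stb_kummerRel_pushBeta` in `STB/PushHecke.lean`).

* `stbPush_smul` : generic — the push-forward along `φ` commutes with semilinear automorphisms
  intertwined by `φ`;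
* `stbNorm_smul` : generic — the norm along `φ` commutes with semilinear automorphisms
  intertwined by `φ`;
* `stbPushAlpha_galois`, `stbPushBeta_galois` : `α_* (σ • x) = σ • α_* x`, `σ ∈ G_ℚ`;
* `stbNormAlpha_galois`, `stbNormBeta_galois` : the same for the norms of functions;
* `stbPushAlphaP_galois`, `stbPushBetaP_galois` : the same on the `p`-divisible torsion
  `PDiv (N q) p → PDiv N p` (action `pDivGalois`);
* `stbPushAlpha_mem_torsion` etc. : `α_*`, `β_*` preserve `n`-torsion.
-/

set_option autoImplicit false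
set_option linter.style.haveILetI false
set_option linter.unusedSectionVars false

noncomputable section

namespace Fermat.Agent.STB

open AlgebraicCurve AlgebraicCurve.SemilinearAut ModularCurve Fermat.Agent.ES

section Generic

variable {K F F' : Type*} [Field K] [Field F] [Field F'] [Algebra K F] [Algebra K F']
  {g : SemilinearAut K F} {g' : SemilinearAut K F'}

/-- the push-forward on `Pic⁰` is equivariant -/
theorem stbPush_smul (φ : F →ₐ[K] F') (hφ : φ.toRingHom.IsIntegral) (hfin : FiniteAlong K φ)
    (hN : NormFormulaAlong K φ hfin) (h : IntertwinesAlong (φ : F →+* F') g g')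
    (x : Pic0 K F') :
    stbPush φ hφ hfin hN (g' • x) = g • stbPush φ hφ hfin hN x := by
  obtain ⟨D, rfl⟩ := Pic0.mk_surjective x
  rw [SemilinearAut.pic0_smul_mk, stbPush_mk, stbPush_mk, SemilinearAut.pic0_smul_mk]
  refine congrArg Pic0.mk (Subtype.ext ?_)
  rw [coe_stbPushDegZero, SemilinearAut.coe_degZeroSMulHom, SemilinearAut.coe_degZeroSMulHom,
    coe_stbPushDegZero]
  exact pushforwardAlong_smul φ hφ h (D : Divisor K F')

/-- the norm along `φ` is equivariant -/
theorem stbNorm_smul (φ : F →+* F') (h : IntertwinesAlong φ g g') (u : F') :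
    stbNorm φ (g' • u) = g • stbNorm φ u := by
  letI := φ.toAlgebra
  have he : RingHom.comp (algebraMap F F') ((toRingAut g : F ≃+* F) : F →+* F)
      = RingHom.comp ((toRingAut g' : F' ≃+* F') : F' →+* F') (algebraMap F F') := by
    ext x
    exact (h x).symm
  have h1 := Algebra.norm_eq_of_equiv_equiv (toRingAut g) (toRingAut g') he u
  show Algebra.norm F (toRingAut g' u) = toRingAut g (Algebra.norm F u)
  rw [h1, RingEquiv.apply_symm_apply]

end Generic

section Modular

variable (N q : ℕ) [NeZero N] [NeZero q]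

/-- **`α_*` is Galois equivariant** -/
theorem stbPushAlpha_galois (σ : GQ) (x : JZero (N * q)) :
    stbPushAlpha N q (σ • x) = σ • stbPushAlpha N q x := by
  rw [stbPushAlpha_eq, galois_smul_pic0_def, galois_smul_pic0_def]
  exact stbPush_smul _ _ _ _ (intertwines_heckeAlphaBar N q σ) x

/-- **`β_*` is Galois equivariant** -/
theorem stbPushBeta_galois (σ : GQ) (x : JZero (N * q)) :
    stbPushBeta N q (σ • x) = σ • stbPushBeta N q x := by
  rw [stbPushBeta_eq, galois_smul_pic0_def, galois_smul_pic0_def]
  exact stbPush_smul _ _ _ _ (intertwines_heckeBetaBar N q σ) x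

/-- the norm along `α` is Galois equivariant -/
theorem stbNormAlpha_galois (σ : GQ) (u : modularFunctionFieldBar (N * q)) :
    stbNormAlpha N q (arithmeticGalois (modularFunctionFieldFull (N * q)) σ • u)
      = arithmeticGalois (modularFunctionFieldFull N) σ • stbNormAlpha N q u := by
  rw [stbNormAlpha_eq, stbNormAlpha_eq]
  exact stbNorm_smul _ (intertwines_heckeAlphaBar N q σ) u

/-- the norm along `β` is Galois equivariant -/
theorem stbNormBeta_galois (σ : GQ) (u : modularFunctionFieldBar (N * q)) :
    stbNormBeta N q (arithmeticGalois (modularFunctionFieldFull (N * q)) σ • u)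
      = arithmeticGalois (modularFunctionFieldFull N) σ • stbNormBeta N q u := by
  rw [stbNormBeta_eq, stbNormBeta_eq]
  exact stbNorm_smul _ (intertwines_heckeBetaBar N q σ) u

/-- `α_*` preserves `n`-torsion -/
theorem stbPushAlpha_nsmul_eq_zero {n : ℕ} {x : JZero (N * q)} (hx : n • x = 0) :
    n • stbPushAlpha N q x = 0 := by
  rw [← map_nsmul, hx, map_zero]

/-- `β_*` preserves `n`-torsion -/
theorem stbPushBeta_nsmul_eq_zero {n : ℕ} {x : JZero (N * q)} (hx : n • x = 0) :
    n • stbPushBeta N q x = 0 := by
  rw [← map_nsmul, hx, map_zero]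

variable (p : ℕ)

/-- `α_*` on the `p`-divisible torsion is Galois equivariant -/
theorem stbPushAlphaP_galois (σ : GQ) (x : PDiv (N * q) p) :
    stbPushAlphaP N q p (letI := pDivGalois (N * q) p; σ • x)
      = (letI := pDivGalois N p; σ • stbPushAlphaP N q p x) := by
  apply Subtype.ext
  rw [stbPushAlphaP_coe, pDivGalois_coe, pDivGalois_coe, stbPushAlphaP_coe]
  exact stbPushAlpha_galois N q σ x

/-- `β_*` on the `p`-divisible torsion is Galois equivariant -/
theorem stbPushBetaP_galois (σ : GQ) (x : PDiv (N * q) p) :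
    stbPushBetaP N q p (letI := pDivGalois (N * q) p; σ • x)
      = (letI := pDivGalois N p; σ • stbPushBetaP N q p x) := by
  apply Subtype.ext
  rw [stbPushBetaP_coe, pDivGalois_coe, pDivGalois_coe, stbPushBetaP_coe]
  exact stbPushBeta_galois N q σ x

end Modular

end Fermat.Agent.STB
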