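import Fermat.Agent.UNIP.Stmt
import Fermat.Agent.ES.HInputs

/-!
# STB (phase 2 of item 34, S35): the statements

`M = M₁ * q`, `q ∤ M₁`.  `α, β : F_{M₁} → F_{M₁ q}` are the two degeneracy embeddings of the
prelude (`heckeAlphaBar`, `heckeBetaBar`).

* `stbNormAlpha`, `stbNormBeta` : the norms `F_{M₁ q} → F_{M₁}` along `α`, `β`.
* `stbPushAlpha`, `stbPushBeta` : the push-forwards `J₀(M₁ q) → J₀(M₁)` along `α`, `β`.
* `stbFrobExpr g Q u` : `(g² − Q)(g² − 1) u` written multiplicatively.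
* `StmtNewFrobKummerAt M₁ q` : (P7-a) in Kummer form — THE TARGET OF STB-MG.
* `StmtNewFrobJ M₁ q p` : (P7-a) on `J₀(M₁ q)[p^∞]` — proved from the Kummer form in `JForm.lean`.

See NOTES/S35-plan.md.
-/

set_option autoImplicit false

noncomputable section

namespace Fermat.Agent.STB

open ModularCurve AlgebraicCurve Fermat.Agent.ES Fermat.Agent.ES.G2 Fermat.Agent.ES.H
open Fermat.Agent.S24

variable (M₁ q : ℕ) [NeZero M₁] [NeZero q]

/-- the norm `F_{M₁ q} → F_{M₁}` along an embedding -/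
def stbNormAlong (φ : modularFunctionFieldBar M₁ →ₐ[Kb] modularFunctionFieldBar (M₁ * q))
    (y : modularFunctionFieldBar (M₁ * q)) : modularFunctionFieldBar M₁ :=
  letI := algebraAlong φ
  Algebra.norm (modularFunctionFieldBar M₁) y

/-- the norm `F_{M₁ q} → F_{M₁}` along `α` -/
def stbNormAlpha (y : modularFunctionFieldBar (M₁ * q)) : modularFunctionFieldBar M₁ :=
  stbNormAlong M₁ q (heckeAlphaBar Kb M₁ q) y

/-- the norm `F_{M₁ q} → F_{M₁}` along `β` -/
def stbNormBeta (y : modularFunctionFieldBar (M₁ * q)) : modularFunctionFieldBar M₁ :=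
  stbNormAlong M₁ q (heckeBetaBar Kb M₁ q) y

/-- the push-forward `J₀(M₁ q) → J₀(M₁)` along a finite embedding -/
def stbPushAlong (φ : modularFunctionFieldBar M₁ →ₐ[Kb] modularFunctionFieldBar (M₁ * q))
    (hfin : FiniteAlong Kb φ) : JZero (M₁ * q) →+ JZero M₁ :=
  letI := algebraAlong φ
  haveI := isScalarTower_along φ
  haveI : FiniteDimensional (FF M₁) (FF (M₁ * q)) := hfin
  haveI : Algebra.IsIntegral (FF M₁) (FF (M₁ * q)) := Algebra.IsIntegral.of_finite _ _
  haveI := hasPrincipalDivisors_FF (M₁ * q)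
  Pic0.pushforwardHom Kb (FF M₁) (FF (M₁ * q))
    (pushforwardNormFormula (residue_bijective_FF M₁) (residue_bijective_FF (M₁ * q)))

/-- the push-forward `α_* : J₀(M₁ q) → J₀(M₁)` -/
def stbPushAlpha : JZero (M₁ * q) →+ JZero M₁ :=
  stbPushAlong M₁ q (heckeAlphaBar Kb M₁ q) (finiteAlong_heckeAlphaBar M₁ q)

/-- the push-forward `β_* : J₀(M₁ q) → J₀(M₁)` -/
def stbPushBeta : JZero (M₁ * q) →+ JZero M₁ :=
  stbPushAlong M₁ q (heckeBetaBar Kb M₁ q) (finiteAlong_heckeBetaBar M₁ q)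

/-- the `q`-new part of `J₀(M₁ q)` -/
def stbNew : AddSubgroup (JZero (M₁ * q)) :=
  (stbPushAlpha M₁ q).ker ⊓ (stbPushBeta M₁ q).ker

variable {M₁ q}

theorem mem_stbNew {x : JZero (M₁ * q)} :
    x ∈ stbNew M₁ q ↔ stbPushAlpha M₁ q x = 0 ∧ stbPushBeta M₁ q x = 0 := by
  simp [stbNew, AddSubgroup.mem_inf, AddMonoidHom.mem_ker]

/-- `(g² − Q)(g² − 1) u`, multiplicatively:  `g⁴u · u^Q / (g²u)^(Q+1)`. -/
def stbFrobExpr {F : Type*} [Field F] (g : F → F) (Q : ℕ) (u : F) : F :=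
  g (g (g (g u))) * u ^ Q / (g (g u)) ^ (Q + 1)

variable (M₁ q)

/-- **(P7-a) in Kummer form** at level `M₁ q`: if `m ∣ div u` and the norms of `u` along `α` and
`β` are constants times `m`-th powers, then `(φ² − q²)(φ² − 1)u` is an `m`-th power, for every
Frobenius element `φ` at a place `A` of `ℚ̄` over `q`. -/
def StmtNewFrobKummerAt : Prop :=
  ∀ A : ValuationSubring Qb, A.LiesOverPrime q →
    ∀ m : ℕ, ¬ q ∣ m →
      ∀ σ : Qb ≃ₐ[ℚ] Qb, A.IsFrobeniusAt σ q →
        ∀ u : modularFunctionFieldBar (M₁ * q), u ≠ 0 →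
          (∀ P : Place Qb (modularFunctionFieldBar (M₁ * q)), (m : ℤ) ∣ P.ord u) →
          (∃ (c : Qb) (f : modularFunctionFieldBar M₁),
            stbNormAlpha M₁ q u = algebraMap Qb (modularFunctionFieldBar M₁) c * f ^ m) →
          (∃ (c : Qb) (f : modularFunctionFieldBar M₁),
            stbNormBeta M₁ q u = algebraMap Qb (modularFunctionFieldBar M₁) c * f ^ m) →
            ∃ h : modularFunctionFieldBar (M₁ * q),
              h ^ m = stbFrobExpr
                (fun y => arithmeticGalois (modularFunctionFieldFull (M₁ * q)) σ • y)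
                (q ^ 2) u

/-- (P7-a) in Kummer form, all levels. -/
def StmtNewFrobKummer : Prop :=
  ∀ (M₁ q : ℕ) [NeZero M₁] [NeZero q], q.Prime → ¬ q ∣ M₁ → StmtNewFrobKummerAt M₁ q

/-- **(P7-a)** on `J₀(M₁ q)[p^∞]`: `(σ² − 1)(σ² − q²) = 0` on the `p`-power torsion of the
`q`-new part, for every Frobenius element `σ` at `q`. -/
def StmtNewFrobJ (p : ℕ) : Prop :=
  ∀ A : ValuationSubring Qb, A.LiesOverPrime q →
    ∀ σ : Qb ≃ₐ[ℚ] Qb, A.IsFrobeniusAt σ q →
      ∀ x : JZero (M₁ * q), (∃ n : ℕ, p ^ n • x = 0) → x ∈ stbNew M₁ q →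
        σ • σ • σ • σ • x + q ^ 2 • x = (q ^ 2 + 1) • (σ • σ • x)

end Fermat.Agent.STB
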