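/-
S35 phase 2 (plan "STB", NOTES/S35-plan.md §1 (D)), piece STB-D "Descent" (helper18).

Levels `N = M₁ q`, `N' = M₁ q' q` (`q' ∤ N` a prime with `q' + 1` a power of `q` and prime to
`q + 1`; in practice `(q, q') = (2, 3)` or `(3, 2)`).  `F_N = modularFunctionFieldBar N`.

* `stbdUp M₁ q q'` : the inclusion `F_{M₁ q} → F_{M₁ q' q}`;
* `stb_d_deg_alpha`, `stb_d_deg_beta` : `[F_{Nℓ} : F_N] = ℓ + 1` along `α` and along `β`;
* `stb_d_norm_alpha`, `stb_d_norm_beta` : THE HYPOTHESIS ASCENDS,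
    `N_{α'} (u) = N_α (u)`, `N_{β'} (u) = N_β (u)` for `u ∈ F_{M₁ q}`
  (`α, β : F_{M₁} → F_{M₁ q}`, `α', β' : F_{M₁ q'} → F_{M₁ q' q}`);
* `stb_d_dvd_ord` : `m ∣ div u` ascends;
* `stb_d_pow_descent` : THE CONCLUSION DESCENDS, `w ∈ F_{M₁ q}` an `m`-th power in `F_{M₁ q' q}`,
  `gcd(q' + 1, m) = 1` ⇒ `w` is an `m`-th power in `F_{M₁ q}`;
* `newFrobKummerAt_descent` : `StmtNewFrobKummerAt (M₁ * q') q → StmtNewFrobKummerAt M₁ q`
  (`StmtNewFrobKummerAt` = Kummer form of (P7-a), `STB/Stmt.lean`);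
* `stmtNewFrobKummer_of_aux` : **STB-D**, it is enough to prove `StmtNewFrobKummerAt M₁ q` at the
  levels with `(q = 2 → 3 ∣ M₁)` and `(q = 3 → 2 ∣ M₁)`.
-/
import Fermat.Agent.STB.DescentNorm
import Fermat.Agent.STB.Stmt
import Fermat.Agent.UNIP.Descent
import Fermat.Agent.ES.G2.HeckeNorm
import Fermat.Agent.ES.HModular

set_option autoImplicit false

noncomputable section

namespace Fermat.Agent.STB

open ModularCurve AlgebraicCurve Fermat.Agent.ES Fermat.Agent.ES.G2 Fermat.Agent.UNIP Module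

section Generic

/-- degree comparison: `w ∘ φ = ψ` ⇒ `deg φ ≤ deg ψ` -/
theorem stbdDeg_le_of_comp {F F' F'' : Type*} [Field F] [Field F'] [Field F'']
    (φ : F →+* F') (ψ : F →+* F'') (w : F' →+* F'') (hw : ∀ c, w (φ c) = ψ c)
    (hfin : stbdDeg ψ ≠ 0) : stbdDeg φ ≤ stbdDeg ψ := by
  let _ : Algebra F F' := φ.toAlgebra
  let _ : Algebra F F'' := ψ.toAlgebra
  have : Module.Finite F F'' := Module.finite_of_finrank_pos (Nat.pos_of_ne_zero hfin)
  let wa : F' →ₐ[F] F'' := { w with commutes' := hw }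
  exact LinearMap.finrank_le_finrank_of_injective (f := wa.toLinearMap) wa.toRingHom.injective

end Generic

section Degrees

variable (N ℓ : ℕ) [NeZero N] [NeZero ℓ]

theorem stb_d_deg_alpha (hℓ : ℓ.Prime) (hℓN : ¬ ℓ ∣ N) :
    stbdDeg (heckeAlphaBar Qb N ℓ).toRingHom = ℓ + 1 :=
  hdeg_finrank N ℓ hℓ hℓN

theorem stb_d_deg_beta_ne_zero : stbdDeg (heckeBetaBar Qb N ℓ).toRingHom ≠ 0 := by
  have hfin : FiniteAlong Qb (heckeBetaBar Qb N ℓ) := H.finiteAlong_heckeBetaBar N ℓ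
  let _ := algebraAlong (heckeBetaBar Qb N ℓ)
  have : Module.Finite (modularFunctionFieldBar N) (modularFunctionFieldBar (N * ℓ)) := hfin
  exact (Module.finrank_pos (R := modularFunctionFieldBar N)
    (M := modularFunctionFieldBar (N * ℓ))).ne'

theorem stb_d_deg_beta (hℓ : ℓ.Prime) (hℓN : ¬ ℓ ∣ N) :
    stbdDeg (heckeBetaBar Qb N ℓ).toRingHom = ℓ + 1 := by
  obtain ⟨w, hwα, hwβ⟩ := exists_swap N ℓ ((Nat.Prime.coprime_iff_not_dvd hℓ).2 hℓN)
  have hα := stb_d_deg_alpha N ℓ hℓ hℓN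
  apply le_antisymm
  · have h1 := stbdDeg_le_of_comp (heckeBetaBar Qb N ℓ).toRingHom
      (heckeAlphaBar Qb N ℓ).toRingHom w.toRingHom hwβ (by rw [hα]; exact Nat.succ_ne_zero ℓ)
    rwa [hα] at h1
  · have h1 := stbdDeg_le_of_comp (heckeAlphaBar Qb N ℓ).toRingHom
      (heckeBetaBar Qb N ℓ).toRingHom w.toRingHom hwα (stb_d_deg_beta_ne_zero N ℓ)
    rwa [hα] at h1

end Degrees

section Levels

variable (M₁ q q' : ℕ)

theorem stb_d_level_eq :
    modularFunctionFieldBar (M₁ * q * q') = modularFunctionFieldBar (M₁ * q' * q) := by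
  rw [Nat.mul_right_comm]

theorem stb_d_le : modularFunctionFieldBar (M₁ * q) ≤ modularFunctionFieldBar (M₁ * q' * q) := by
  rw [← stb_d_level_eq]
  exact hdeg_bar_le (M₁ * q) q'

/-- the inclusion `F_{M₁ q} → F_{M₁ q' q}` -/
def stbdUp : modularFunctionFieldBar (M₁ * q) →ₐ[Qb] modularFunctionFieldBar (M₁ * q' * q) :=
  IntermediateField.inclusion (stb_d_le M₁ q q')

@[simp]
theorem coe_stbdUp (x : modularFunctionFieldBar (M₁ * q)) :
    (stbdUp M₁ q q' x : LaurentSeries Qb) = (x : LaurentSeries Qb) :=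
  IntermediateField.coe_inclusion _ x

theorem stbdUp_injective : Function.Injective (stbdUp M₁ q q') :=
  (stbdUp M₁ q q').toRingHom.injective

section Up

variable [NeZero q'] [NeZero (M₁ * q)]

theorem stb_d_relfinrank (hq' : q'.Prime) (hq'N : ¬ q' ∣ M₁ * q) :
    (modularFunctionFieldBar (M₁ * q)).relfinrank (modularFunctionFieldBar (M₁ * q' * q))
      = q' + 1 := by
  rw [← stb_d_level_eq]
  exact hdeg_relfinrank (M₁ * q) q' hq' hq'N

theorem stbdUp_isIntegral (hq' : q'.Prime) (hq'N : ¬ q' ∣ M₁ * q) :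
    (stbdUp M₁ q q').toRingHom.IsIntegral :=
  unip_isIntegral_of_finite _ (hdeg_finite_inclusion (stb_d_le M₁ q q')
    (by rw [stb_d_relfinrank M₁ q q' hq' hq'N]; exact Nat.succ_ne_zero q'))

/-- `m ∣ div u` ascends. -/
theorem stb_d_dvd_ord (hq' : q'.Prime) (hq'N : ¬ q' ∣ M₁ * q) (m : ℕ)
    (u : modularFunctionFieldBar (M₁ * q))
    (hdvd : ∀ P : Place Qb (modularFunctionFieldBar (M₁ * q)), (m : ℤ) ∣ P.ord u)
    (P : Place Qb (modularFunctionFieldBar (M₁ * q' * q))) :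
    (m : ℤ) ∣ P.ord (stbdUp M₁ q q' u) := by
  rw [Place.ord_restrictAlong (stbdUp M₁ q q') (stbdUp_isIntegral M₁ q q' hq' hq'N) P u]
  exact Dvd.dvd.mul_left (hdvd _) _

/-- **The conclusion descends.** -/
theorem stb_d_pow_descent (hq' : q'.Prime) (hq'N : ¬ q' ∣ M₁ * q) (m : ℕ)
    (hcop : Nat.Coprime (q' + 1) m) (w : modularFunctionFieldBar (M₁ * q))
    (h' : modularFunctionFieldBar (M₁ * q' * q)) (hh : stbdUp M₁ q q' w = h' ^ m) :
    ∃ h : modularFunctionFieldBar (M₁ * q), w = h ^ m := by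
  have hrel := stb_d_relfinrank M₁ q q' hq' hq'N
  have hw' : (w : LaurentSeries Qb) = (h' : LaurentSeries Qb) ^ m := by
    rw [← coe_stbdUp M₁ q q' w, hh]
    exact SubmonoidClass.coe_pow h' m
  obtain ⟨g, hg, hgw⟩ := unip_descent_generic (stb_d_le M₁ q q')
    (by rw [hrel]; exact Nat.succ_ne_zero q') (by rw [hrel]; exact hcop)
    (w : LaurentSeries Qb) (h' : LaurentSeries Qb) w.2 h'.2 hw'
  refine ⟨⟨g, hg⟩, Subtype.ext ?_⟩
  rw [hgw]
  exact (SubmonoidClass.coe_pow (⟨g, hg⟩ : modularFunctionFieldBar (M₁ * q)) m).symm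


end Up

section Square

variable [NeZero M₁] [NeZero q] [NeZero q']

theorem stb_d_sq_alpha [NeZero (M₁ * q')] (x : modularFunctionFieldBar M₁) :
    (heckeAlphaBar Qb (M₁ * q') q).toRingHom ((heckeAlphaBar Qb M₁ q').toRingHom x) =
      (stbdUp M₁ q q').toRingHom ((heckeAlphaBar Qb M₁ q).toRingHom x) := by
  apply Subtype.ext
  show ((heckeAlphaBar Qb (M₁ * q') q (heckeAlphaBar Qb M₁ q' x) :
      modularFunctionFieldBar (M₁ * q' * q)) : LaurentSeries Qb) =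
    ((stbdUp M₁ q q' (heckeAlphaBar Qb M₁ q x) : modularFunctionFieldBar (M₁ * q' * q)) :
      LaurentSeries Qb)
  rw [coe_heckeAlphaBar, coe_heckeAlphaBar, coe_stbdUp, coe_heckeAlphaBar]

theorem stb_d_sq_beta (x : modularFunctionFieldBar M₁) :
    (heckeBetaBar Qb (M₁ * q') q).toRingHom ((heckeAlphaBar Qb M₁ q').toRingHom x) =
      (stbdUp M₁ q q').toRingHom ((heckeBetaBar Qb M₁ q).toRingHom x) := by
  apply Subtype.ext
  show ((heckeBetaBar Qb (M₁ * q') q (heckeAlphaBar Qb M₁ q' x) :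
      modularFunctionFieldBar (M₁ * q' * q)) : LaurentSeries Qb) =
    ((stbdUp M₁ q q' (heckeBetaBar Qb M₁ q x) : modularFunctionFieldBar (M₁ * q' * q)) :
      LaurentSeries Qb)
  rw [coe_heckeBetaBar, coe_heckeAlphaBar, coe_stbdUp, coe_heckeBetaBar]

variable [NeZero (M₁ * q')]

/-- **The hypothesis ascends**, `α`: `N_{α'} (u) = N_α (u)`. -/
theorem stb_d_norm_alpha (hq : q.Prime) (hq' : q'.Prime) (hqM : ¬ q ∣ M₁) (hq'M : ¬ q' ∣ M₁)
    (hne : q ≠ q') (hcop : Nat.Coprime (q + 1) (q' + 1))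
    (u : modularFunctionFieldBar (M₁ * q)) :
    stbdNorm (heckeAlphaBar Qb (M₁ * q') q).toRingHom ((stbdUp M₁ q q').toRingHom u) =
      (heckeAlphaBar Qb M₁ q').toRingHom (stbdNorm (heckeAlphaBar Qb M₁ q).toRingHom u) := by
  have hqM' : ¬ q ∣ M₁ * q' := fun h =>
    (hq.dvd_mul.mp h).elim hqM fun h2 => hne ((Nat.prime_dvd_prime_iff_eq hq hq').mp h2)
  have h1 := stb_d_deg_alpha M₁ q hq hqM
  have h2 := stb_d_deg_alpha M₁ q' hq' hq'M
  have h3 := stb_d_deg_alpha (M₁ * q') q hq hqM'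
  refine stb_d_norm_square_hom (heckeAlphaBar Qb M₁ q).toRingHom
    (heckeAlphaBar Qb M₁ q').toRingHom (heckeAlphaBar Qb (M₁ * q') q).toRingHom
    (stbdUp M₁ q q').toRingHom (stb_d_sq_alpha M₁ q q') ?_ ?_ ?_ ?_ u
  · rw [h1]; exact Nat.succ_ne_zero q
  · rw [h2]; exact Nat.succ_ne_zero q'
  · rw [h3, h1]
  · rw [h1, h2]; exact hcop

/-- **The hypothesis ascends**, `β`: `N_{β'} (u) = N_β (u)`. -/
theorem stb_d_norm_beta (hq : q.Prime) (hq' : q'.Prime) (hqM : ¬ q ∣ M₁) (hq'M : ¬ q' ∣ M₁)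
    (hne : q ≠ q') (hcop : Nat.Coprime (q + 1) (q' + 1))
    (u : modularFunctionFieldBar (M₁ * q)) :
    stbdNorm (heckeBetaBar Qb (M₁ * q') q).toRingHom ((stbdUp M₁ q q').toRingHom u) =
      (heckeAlphaBar Qb M₁ q').toRingHom (stbdNorm (heckeBetaBar Qb M₁ q).toRingHom u) := by
  have hqM' : ¬ q ∣ M₁ * q' := fun h =>
    (hq.dvd_mul.mp h).elim hqM fun h2 => hne ((Nat.prime_dvd_prime_iff_eq hq hq').mp h2)
  have h1 := stb_d_deg_beta M₁ q hq hqM
  have h2 := stb_d_deg_alpha M₁ q' hq' hq'M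
  have h3 := stb_d_deg_beta (M₁ * q') q hq hqM'
  refine stb_d_norm_square_hom (heckeBetaBar Qb M₁ q).toRingHom
    (heckeAlphaBar Qb M₁ q').toRingHom (heckeBetaBar Qb (M₁ * q') q).toRingHom
    (stbdUp M₁ q q').toRingHom (stb_d_sq_beta M₁ q q') ?_ ?_ ?_ ?_ u
  · rw [h1]; exact Nat.succ_ne_zero q
  · rw [h2]; exact Nat.succ_ne_zero q'
  · rw [h3, h1]
  · rw [h1, h2]; exact hcop

end Square

end Levels

section Bridge

variable (M₁ q : ℕ) [NeZero M₁] [NeZero q]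

theorem stbNormAlpha_eq_stbdNorm (y : modularFunctionFieldBar (M₁ * q)) :
    stbNormAlpha M₁ q y = stbdNorm (heckeAlphaBar Qb M₁ q).toRingHom y := rfl

omit [NeZero M₁] in
theorem stbNormBeta_eq_stbdNorm [NeZero M₁] (y : modularFunctionFieldBar (M₁ * q)) :
    stbNormBeta M₁ q y = stbdNorm (heckeBetaBar Qb M₁ q).toRingHom y := rfl

end Bridge

section Expr

/-- the `q`-expansion of `(g² − Q)(g² − 1) u` -/
theorem coe_stbFrobExpr (N : ℕ) (σ : Qb ≃ₐ[ℚ] Qb) (Q : ℕ) (u : modularFunctionFieldBar N) :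
    ((stbFrobExpr (fun y => arithmeticGalois (modularFunctionFieldFull N) σ • y) Q u :
        modularFunctionFieldBar N) : LaurentSeries Qb) =
      stbFrobExpr (fun y => coeffMap (σ : Qb →+* Qb) y) Q (u : LaurentSeries Qb) := rfl

theorem stbdUp_stbFrobExpr (M₁ q q' : ℕ) (σ : Qb ≃ₐ[ℚ] Qb) (Q : ℕ)
    (u : modularFunctionFieldBar (M₁ * q)) :
    stbdUp M₁ q q'
        (stbFrobExpr (fun y => arithmeticGalois (modularFunctionFieldFull (M₁ * q)) σ • y) Q u) =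
      stbFrobExpr (fun y => arithmeticGalois (modularFunctionFieldFull (M₁ * q' * q)) σ • y) Q
        (stbdUp M₁ q q' u) := by
  apply Subtype.ext
  rw [coe_stbdUp, coe_stbFrobExpr, coe_stbFrobExpr, coe_stbdUp]

end Expr

section Main

/-- **Descent of (P7-a)** along `F_{M₁ q} ⊂ F_{M₁ q' q}`: the hypotheses ascend (norm square with
coprime degrees), the conclusion descends (`[F_{M₁ q' q} : F_{M₁ q}] = q' + 1 = q ^ k` is prime
to `m`). -/
theorem newFrobKummerAt_descent (M₁ q q' : ℕ) [NeZero M₁] [NeZero q] [NeZero q']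
    [NeZero (M₁ * q)] [NeZero (M₁ * q')]
    (hq : q.Prime) (hq' : q'.Prime) (hqM : ¬ q ∣ M₁) (hq'M : ¬ q' ∣ M₁) (hne : q ≠ q')
    (hcop : Nat.Coprime (q + 1) (q' + 1)) (k : ℕ) (hk : q' + 1 = q ^ k)
    (H : StmtNewFrobKummerAt (M₁ * q') q) : StmtNewFrobKummerAt M₁ q := by
  intro A hA m hm σ hσ u hu hdvd hα hβ
  obtain ⟨c, f, hf⟩ := hα
  obtain ⟨c', f', hf'⟩ := hβ
  have hq'N : ¬ q' ∣ M₁ * q := fun h =>
    (hq'.dvd_mul.mp h).elim hq'M fun h2 => hne ((Nat.prime_dvd_prime_iff_eq hq' hq).mp h2).symm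
  have hup0 : stbdUp M₁ q q' u ≠ 0 :=
    (map_ne_zero_iff _ (stbdUp_injective M₁ q q')).mpr hu
  have hcm : Nat.Coprime (q' + 1) m := by
    rw [hk]
    exact Nat.Coprime.pow_left k ((Nat.Prime.coprime_iff_not_dvd hq).mpr hm)
  have hNα : stbNormAlpha (M₁ * q') q (stbdUp M₁ q q' u) =
      algebraMap Qb (modularFunctionFieldBar (M₁ * q')) c * (heckeAlphaBar Qb M₁ q' f) ^ m := by
    have h1 := stb_d_norm_alpha M₁ q q' hq hq' hqM hq'M hne hcop u
    have h2 : stbdNorm (heckeAlphaBar Qb M₁ q).toRingHom u =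
        algebraMap Qb (modularFunctionFieldBar M₁) c * f ^ m := hf
    rw [h2] at h1
    refine Eq.trans (b := heckeAlphaBar Qb M₁ q'
      (algebraMap Qb (modularFunctionFieldBar M₁) c * f ^ m)) h1 ?_
    rw [map_mul, map_pow, AlgHom.commutes]
  have hNβ : stbNormBeta (M₁ * q') q (stbdUp M₁ q q' u) =
      algebraMap Qb (modularFunctionFieldBar (M₁ * q')) c' * (heckeAlphaBar Qb M₁ q' f') ^ m := by
    have h1 := stb_d_norm_beta M₁ q q' hq hq' hqM hq'M hne hcop u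
    have h2 : stbdNorm (heckeBetaBar Qb M₁ q).toRingHom u =
        algebraMap Qb (modularFunctionFieldBar M₁) c' * f' ^ m := hf'
    rw [h2] at h1
    refine Eq.trans (b := heckeAlphaBar Qb M₁ q'
      (algebraMap Qb (modularFunctionFieldBar M₁) c' * f' ^ m)) h1 ?_
    rw [map_mul, map_pow, AlgHom.commutes]
  obtain ⟨h', hh'⟩ := H A hA m hm σ hσ (stbdUp M₁ q q' u) hup0
    (stb_d_dvd_ord M₁ q q' hq' hq'N m u hdvd) ⟨c, _, hNα⟩ ⟨c', _, hNβ⟩
  obtain ⟨h, hh⟩ := stb_d_pow_descent M₁ q q' hq' hq'N m hcm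
    (stbFrobExpr (fun y => arithmeticGalois (modularFunctionFieldFull (M₁ * q)) σ • y)
      (q ^ 2) u) h' (by rw [stbdUp_stbFrobExpr, hh'])
  exact ⟨h, hh.symm⟩

/-- **STB-D.** It is enough to prove (P7-a) in Kummer form at the levels `M₁ q` where the base
line of the KEY route is available: `(q = 2 → 3 ∣ M₁)` and `(q = 3 → 2 ∣ M₁)`. -/
theorem stmtNewFrobKummer_of_aux
    (H : ∀ (M₁ q : ℕ) [NeZero M₁] [NeZero q], q.Prime → ¬ q ∣ M₁ →
      (q = 2 → 3 ∣ M₁) → (q = 3 → 2 ∣ M₁) → StmtNewFrobKummerAt M₁ q) :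
    StmtNewFrobKummer := by
  intro M₁ q _ _ hq hqM
  have hM0 : M₁ ≠ 0 := NeZero.ne M₁
  have : NeZero (M₁ * q) := ⟨Nat.mul_ne_zero hM0 hq.ne_zero⟩
  by_cases h2 : q = 2
  · subst h2
    by_cases h3 : 3 ∣ M₁
    · exact H M₁ 2 hq hqM (fun _ => h3) (fun h => absurd h (by decide))
    · have : NeZero (M₁ * 3) := ⟨Nat.mul_ne_zero hM0 (by decide)⟩
      refine newFrobKummerAt_descent M₁ 2 3 hq (by decide) hqM h3 (by decide) (by decide) 2
        (by norm_num) ?_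
      refine H (M₁ * 3) 2 hq ?_ (fun _ => Dvd.intro_left M₁ rfl) (fun h => absurd h (by decide))
      intro h4
      exact hqM ((Nat.Coprime.dvd_mul_right (by decide : Nat.Coprime 2 3)).mp h4)
  · by_cases h3 : q = 3
    · subst h3
      by_cases h2' : 2 ∣ M₁
      · exact H M₁ 3 hq hqM (fun h => absurd h (by decide)) (fun _ => h2')
      · have : NeZero (M₁ * 2) := ⟨Nat.mul_ne_zero hM0 (by decide)⟩
        refine newFrobKummerAt_descent M₁ 3 2 hq (by decide) hqM h2' (by decide) (by decide) 1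
          (by norm_num) ?_
        refine H (M₁ * 2) 3 hq ?_ (fun h => absurd h (by decide)) (fun _ => Dvd.intro_left M₁ rfl)
        intro h4
        exact hqM ((Nat.Coprime.dvd_mul_right (by decide : Nat.Coprime 3 2)).mp h4)
    · exact H M₁ q hq hqM (fun h => absurd h h2) (fun h => absurd h h3)

end Main

end Fermat.Agent.STB
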