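import Fermat.Agent.STB.PushHecke
import Fermat.Agent.ES.M.FrickeAut

/-!
# S36, piece H3′: the degeneracy push-forwards commute with `T_ℓ`, case `q ∣ N` (helper92)

`q` a prime with `q ∣ N`, `α = heckeAlphaBar ℚ̄ N q`, `β = heckeBetaBar ℚ̄ N q : F_N → F_{Nq}`,
now of degree `q`.

* `stbd_deg_alpha`, `stbd_deg_beta` : `[F_{Nq} : F_N] = q` along `α` and along `β`
  (Igusa's degree theorem, `ψ(Nq) = q ψ(N)`, and the Fricke involution);
* `stbd_fricke_alpha` : `w_{Nq} ∘ α = β ∘ w_N` for the Fricke involutions (`ES/M/FrickeAut.lean`);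
* `stbdRotB`, `stbdRotA` : the `q` embeddings of `F_{Nq}` over `β (F_N)` resp. `α (F_N)`:
  `x ↦ x(ζ^b Q)` resp. `x ↦ (w_{Nq} x)(ζ^b Q)`;
* `stbd_norm_bc_alpha`, `stbd_norm_bc_beta` : base change of the norms in the square
  `F_N ⊂ F_{Nq}`, `F_{Nℓ} ⊂ F_{Nℓq}`;
* `stbd_p3_alpha`, `stbd_p3_beta` : for a prime `ℓ ∤ N q` and every torsion point `x` of
  `J₀(Nq)`: `α_* (T_ℓ x) = T_ℓ (α_* x)`, `β_* (T_ℓ x) = T_ℓ (β_* x)`.
-/

set_option autoImplicit false
set_option linter.style.haveILetI false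
set_option linter.unusedSectionVars false

noncomputable section

namespace Fermat.Agent.STB

open AlgebraicCurve ModularCurve IntermediateField Fermat.Agent.ES Fermat.Agent.ES.G2
  Fermat.Agent.S24 Fermat.Agent.ES.M

/-! ## Degrees -/

section Degree

/-- Igusa + tower law: `[L(j(q^d) : d ∣ Nq) : L(j(q^d) : d ∣ N)] = q` for a prime `q ∣ N`. -/
theorem stbd_relfinrank_fullC (L : Type*) [Field L] [CharZero L] (N q : ℕ) [NeZero N] [NeZero q]
    (hq : q.Prime) (hqN : q ∣ N) :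
    (modularFunctionFieldFullC L N).relfinrank (modularFunctionFieldFullC L (N * q)) = q := by
  have hN : ((N : ℕ) : L) ≠ 0 := Nat.cast_ne_zero.mpr (NeZero.ne N)
  have hNq : ((N * q : ℕ) : L) ≠ 0 := Nat.cast_ne_zero.mpr (NeZero.ne (N * q))
  have h1 := Fermat.Agent.S28.relfinrank_full_eq_dedekindPsi L N hN
  have h2 := Fermat.Agent.S28.relfinrank_full_eq_dedekindPsi L (N * q) hNq
  have hle1 : adjoin L {jqModC L} ≤ modularFunctionFieldFullC L N :=
    Fermat.Agent.S28.UB.K0_le_full L N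
  have hle2 : modularFunctionFieldFullC L N ≤ modularFunctionFieldFullC L (N * q) :=
    Fermat.Agent.S28.UB.full_mono L (Dvd.intro _ rfl)
  have h3 := relfinrank_mul_relfinrank hle1 hle2
  have hψ : dedekindPsi (N * q) = q * dedekindPsi N := by
    rw [Nat.mul_comm]
    exact Fermat.Agent.S28.UB.psi_mul_of_dvd hq hqN (NeZero.ne N)
  rw [h1, h2, hψ] at h3
  have hpos : dedekindPsi N ≠ 0 := by
    intro h0
    rw [h0] at h1
    have hfin := Fermat.Agent.S28.relrank_full_lt_aleph0_of_ne_zero L N hN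
    have hne := Fermat.Agent.S28.UB.relrank_ne_zero (adjoin L {jqModC L})
      (modularFunctionFieldFullC L N)
    rw [relfinrank_eq_toNat_relrank, Cardinal.toNat_eq_zero] at h1
    rcases h1 with h1 | h1
    · exact hne h1
    · exact absurd hfin (not_lt.mpr h1)
  have h4 : dedekindPsi N * (modularFunctionFieldFullC L N).relfinrank
      (modularFunctionFieldFullC L (N * q)) = dedekindPsi N * q := by
    rw [h3, Nat.mul_comm]
  exact Nat.eq_of_mul_eq_mul_left (Nat.pos_of_ne_zero hpos) h4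

/-- `relfinrank F_N F_{Nq} = q` for a prime `q ∣ N`. -/
theorem stbd_relfinrank (N q : ℕ) [NeZero N] [NeZero q] (hq : q.Prime) (hqN : q ∣ N) :
    (modularFunctionFieldBar N).relfinrank (modularFunctionFieldBar (N * q)) = q := by
  show (laurentBaseChange (AlgebraicClosure ℚ) (modularFunctionFieldFull N)).relfinrank
    (laurentBaseChange (AlgebraicClosure ℚ) (modularFunctionFieldFull (N * q))) = q
  rw [hdeg_laurentBaseChange_full, hdeg_laurentBaseChange_full]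
  exact stbd_relfinrank_fullC (AlgebraicClosure ℚ) N q hq hqN

/-- **degree along `α`**, `q ∣ N` -/
theorem stbd_deg_alpha (N q : ℕ) [NeZero N] [NeZero q] (hq : q.Prime) (hqN : q ∣ N) :
    stbDeg (heckeAlphaBar Qb N q).toRingHom = q := by
  have h := hdeg_finrank_inclusion (hdeg_bar_le N q)
  rw [stbd_relfinrank N q hq hqN] at h
  exact h

/-- the degree of an isomorphism is `1` -/
theorem stbDeg_equiv {F F' : Type*} [Field F] [Field F'] (e : F ≃+* F') :
    stbDeg (e : F →+* F') = 1 := by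
  letI := (e : F →+* F').toAlgebra
  have h := Algebra.finrank_eq_of_equiv_equiv (R₀ := F) (S₀ := F') (R₁ := F') (S₁ := F') e
    (RingEquiv.refl F') (by
      ext x
      rfl)
  show Module.finrank F F' = 1
  rw [h]
  exact Module.finrank_self F'

end Degree

/-! ## The Fricke involution and the two degeneracy maps -/

section Fricke

variable (N q : ℕ) [NeZero N] [NeZero q]

theorem stbd_alpha_jdF (d : ℕ) (hd : d ∣ N) :
    heckeAlphaBar Qb N q (jdF N d hd) = jdF (N * q) d (hd.mul_right q) := by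
  apply Subtype.ext
  rw [coe_heckeAlphaBar]
  rfl

theorem stbd_beta_jdF (d : ℕ) (hd : d ∣ N) :
    heckeBetaBar Qb N q (jdF N d hd) = jdF (N * q) (d * q) (Nat.mul_dvd_mul_right hd q) := by
  haveI : NeZero d := ⟨fun h => NeZero.ne N (by subst h; simpa using hd)⟩
  apply Subtype.ext
  rw [coe_heckeBetaBar, jdF_coe, jdF_coe]
  show qExpand Qb q (coeffMap (algebraMap ℚ Qb) (qExpand ℚ d jq))
    = coeffMap (algebraMap ℚ Qb) (qExpand ℚ (d * q) jq)
  rw [coeffMap_qExpand, coeffMap_qExpand, qExpand_qExpand]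
  exact qExpand_congr (Nat.mul_comm q d) _

/-- the Fricke involution, as a ring equivalence -/
def stbdW (M : ℕ) [NeZero M] : modularFunctionFieldBar M ≃+* modularFunctionFieldBar M :=
  (frickeAut M).toRingEquiv

theorem stbdW_apply (M : ℕ) [NeZero M] (x : modularFunctionFieldBar M) :
    stbdW M x = frickeAut M x := rfl

theorem stbdW_stbdW (M : ℕ) [NeZero M] (x : modularFunctionFieldBar M) :
    stbdW M (stbdW M x) = x := frickeAut_frickeAut M x

/-- **`w_{Nq} ∘ α = β ∘ w_N`** -/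
theorem stbd_fricke_alpha (x : modularFunctionFieldBar N) :
    stbdW (N * q) (heckeAlphaBar Qb N q x) = heckeBetaBar Qb N q (stbdW N x) := by
  have h : ((frickeAut (N * q) : FF (N * q) →ₐ[Kb] FF (N * q))).comp (heckeAlphaBar Qb N q)
      = (heckeBetaBar Qb N q).comp ((frickeAut N : FF N →ₐ[Kb] FF N)) := by
    apply FF_algHom_ext
    intro d hd
    have hd0 : d ≠ 0 := fun h => NeZero.ne N (by subst h; simpa using hd)
    show frickeAut (N * q) (heckeAlphaBar Qb N q (jdF N d hd))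
      = heckeBetaBar Qb N q (frickeAut N (jdF N d hd))
    rw [stbd_alpha_jdF, frickeAut_jdF, frickeAut_jdF, stbd_beta_jdF]
    congr 1
    exact Nat.div_mul_right_comm hd q |>.symm ▸ rfl
  exact congrArg (fun f : FF N →ₐ[Kb] FF (N * q) => f x) h

/-- **`w_{Nq} ∘ β = α ∘ w_N`** -/
theorem stbd_fricke_beta (x : modularFunctionFieldBar N) :
    stbdW (N * q) (heckeBetaBar Qb N q x) = heckeAlphaBar Qb N q (stbdW N x) := by
  have h := stbd_fricke_alpha N q (stbdW N x)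
  rw [stbdW_stbdW] at h
  rw [← h, stbdW_stbdW]

theorem stbd_beta_eq_comp :
    (heckeBetaBar Qb N q).toRingHom =
      ((stbdW (N * q) : modularFunctionFieldBar (N * q) →+* modularFunctionFieldBar (N * q))).comp
        ((heckeAlphaBar Qb N q).toRingHom.comp
          (stbdW N : modularFunctionFieldBar N →+* modularFunctionFieldBar N)) := by
  apply RingHom.ext
  intro x
  show heckeBetaBar Qb N q x = stbdW (N * q) (heckeAlphaBar Qb N q (stbdW N x))
  rw [stbd_fricke_alpha, stbdW_stbdW]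

/-- **degree along `β`**, `q ∣ N` -/
theorem stbd_deg_beta (hq : q.Prime) (hqN : q ∣ N) :
    stbDeg (heckeBetaBar Qb N q).toRingHom = q := by
  rw [stbd_beta_eq_comp, stb_finrank_equiv_comp, stbDeg_comp, stbDeg_equiv, one_mul,
    stbd_deg_alpha N q hq hqN]

end Fricke

/-! ## The `q` embeddings -/

section Emb

variable (N q : ℕ) [NeZero N] [NeZero q]

/-- the embedding `x ↦ x(c Q)` of `F_{Nq}` (over `β (F_N)` if `c ^ q = 1`) -/
def stbdRotB (c : Qbˣ) : modularFunctionFieldBar (N * q) →+* HnOmegaBar :=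
  (algebraMap HnOmega HnOmegaBar).comp
    ((kronRot c).comp (algebraMap (modularFunctionFieldBar (N * q)) (LaurentSeries Qb)))

theorem stbdRotB_apply (c : Qbˣ) (x : modularFunctionFieldBar (N * q)) :
    stbdRotB N q c x = algebraMap HnOmega HnOmegaBar (kronRot c (x : LaurentSeries Qb)) := rfl

theorem stbdRotB_beta (c : Qbˣ) (hc : c ^ q = 1) (x : modularFunctionFieldBar N) :
    stbdRotB N q c (heckeBetaBar Qb N q x) = hnBase N q x := by
  rw [stbdRotB_apply, hnBase_apply, coe_heckeBetaBar, qExpand_kronRot_pow, hc, kronRot_one]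

/-- the embedding `x ↦ (w x)(c Q)` of `F_{Nq}` (over `α (F_N)` if `c ^ q = 1`) -/
def stbdRotA (c : Qbˣ) : modularFunctionFieldBar (N * q) →+* HnOmegaBar :=
  (stbdRotB N q c).comp
    (stbdW (N * q) : modularFunctionFieldBar (N * q) →+* modularFunctionFieldBar (N * q))

theorem stbdRotA_apply (c : Qbˣ) (x : modularFunctionFieldBar (N * q)) :
    stbdRotA N q c x = stbdRotB N q c (stbdW (N * q) x) := rfl

/-- the base embedding for `α` -/
def stbdBaseA : modularFunctionFieldBar N →+* HnOmegaBar :=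
  (hnBase N q).comp (stbdW N : modularFunctionFieldBar N →+* modularFunctionFieldBar N)

theorem stbdRotA_alpha (c : Qbˣ) (hc : c ^ q = 1) (x : modularFunctionFieldBar N) :
    stbdRotA N q c (heckeAlphaBar Qb N q x) = stbdBaseA N q x := by
  rw [stbdRotA_apply, stbd_fricke_alpha, stbdRotB_beta N q c hc]
  rfl

theorem stbd_pow_pow_eq_one {ζ : Qbˣ} (hζ : ζ ^ q = 1) (b : ℕ) : (ζ ^ b) ^ q = 1 := by
  rw [← pow_mul, mul_comm, pow_mul, hζ, one_pow]

end Emb

/-! ## Distinctness on the image of `F_{Nq}` -/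

section Distinct

variable (N q ℓ : ℕ) [NeZero N] [NeZero q] [NeZero ℓ]

/-- the rotations of `j(Q^ℓ)` are pairwise distinct -/
theorem stbd_rot_injective_at (hqℓ : Nat.Coprime ℓ q) (ζ : Qbˣ) (hζ : IsPrimitiveRoot ζ q) :
    Function.Injective fun b : Fin q =>
      kronRot (ζ ^ (b : ℕ)) (qExpand Qb ℓ (coeffEmb Qb jq)) := by
  have hcoefJ : (qExpand Qb ℓ (coeffEmb Qb jq)).coeff (-(ℓ : ℤ)) = 1 := by
    have h := qExpand_coeff_mul (R := Qb) ℓ (coeffEmb Qb jq) (-1)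
    rw [mul_neg, mul_one] at h
    rw [h, hn_jBar_coeff]
  have hcoef : ∀ b : Fin q, (kronRot (ζ ^ (b : ℕ)) (qExpand Qb ℓ (coeffEmb Qb jq))).coeff
      (-(ℓ : ℤ)) = (((ζ ^ (b : ℕ)) ^ (-(ℓ : ℤ)) : Qbˣ) : Qb) := by
    intro b
    rw [kronRot_coeff, hcoefJ, mul_one]
  have hζℓ : IsPrimitiveRoot (ζ ^ ℓ) q := hζ.pow_of_coprime ℓ hqℓ
  intro b b' h
  have h2 := congrArg (fun g : LaurentSeries Qb => g.coeff (-(ℓ : ℤ))) h
  simp only [hcoef] at h2
  have h3 : (ζ ^ (b : ℕ)) ^ (-(ℓ : ℤ)) = (ζ ^ (b' : ℕ)) ^ (-(ℓ : ℤ)) := Units.ext h2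
  have h4 : (ζ ^ ℓ) ^ (b : ℕ) = (ζ ^ ℓ) ^ (b' : ℕ) := by
    have h5 := congrArg (fun u : Qbˣ => u⁻¹) h3
    simp only [zpow_neg, inv_inv, zpow_natCast] at h5
    rw [← pow_mul, ← pow_mul] at h5
    rw [← pow_mul, ← pow_mul, mul_comm ℓ, mul_comm ℓ]
    exact h5
  have h6 : (b : ℕ) = (b' : ℕ) := hζℓ.pow_inj b.2 b'.2 h4
  exact Fin.ext h6

/-- the rotations of `j` are pairwise distinct -/
theorem stbd_rot_injective_at_one (ζ : Qbˣ) (hζ : IsPrimitiveRoot ζ q) :
    Function.Injective fun b : Fin q => kronRot (ζ ^ (b : ℕ)) (coeffEmb Qb jq) := by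
  have hcoef : ∀ b : Fin q, (kronRot (ζ ^ (b : ℕ)) (coeffEmb Qb jq)).coeff (-1)
      = (((ζ ^ (b : ℕ)) ^ (-1 : ℤ) : Qbˣ) : Qb) := by
    intro b
    rw [kronRot_coeff, hn_jBar_coeff, mul_one]
  intro b b' h
  have h2 := congrArg (fun g : LaurentSeries Qb => g.coeff (-1)) h
  simp only [hcoef] at h2
  have h3 : (ζ ^ (b : ℕ)) ^ (-1 : ℤ) = (ζ ^ (b' : ℕ)) ^ (-1 : ℤ) := Units.ext h2
  have h4 : ζ ^ (b : ℕ) = ζ ^ (b' : ℕ) := by
    have := congrArg (fun u : Qbˣ => u⁻¹) h3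
    simpa using this
  exact Fin.ext (hζ.pow_inj b.2 b'.2 h4)

/-- `j(Q^{Nq})`, an element of `F_{Nq}`, goes to `j(Q^{Nℓq}) = w (j)` -/
theorem stbd_G2_top :
    stbG2 N q ℓ (jdF (N * q) (N * q) dvd_rfl) = stbdW (N * ℓ * q) (jF (N * ℓ * q)) := by
  rw [stbdW_apply, frickeAut_jF]
  apply Subtype.ext
  rw [stbG2_coe, jdF_coe, jdF_coe]
  show qExpand Qb ℓ (coeffMap (algebraMap ℚ Qb) (qExpand ℚ (N * q) jq))
    = coeffMap (algebraMap ℚ Qb) (qExpand ℚ (N * ℓ * q) jq)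
  rw [coeffMap_qExpand, coeffMap_qExpand, qExpand_qExpand]
  exact qExpand_congr (by ring) _

end Distinct

/-! ## Base change of the norms and the main theorems -/

section MainDiv

variable (N q ℓ : ℕ) [NeZero N] [NeZero q] [NeZero ℓ]

/-- **base change of the norm**, `β`-version, `q ∣ N` -/
theorem stbd_norm_bc_beta (hq : q.Prime) (hqN : q ∣ N) (hqℓ : Nat.Coprime ℓ q)
    (u : modularFunctionFieldBar (N * q)) :
    stbNorm (heckeBetaBar Qb (N * ℓ) q).toRingHom (stbG2 N q ℓ u) =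
      heckeBetaBar Qb N ℓ (stbNorm (heckeBetaBar Qb N q).toRingHom u) := by
  haveI := stb_charZero_bar N
  obtain ⟨ζ, hζ⟩ := frob_exists_primitiveRoot q hq.ne_zero
  refine stb_norm_square_charZero (Ω := HnOmegaBar) (heckeBetaBar Qb N q).toRingHom
    (heckeBetaBar Qb (N * ℓ) q).toRingHom (heckeBetaBar Qb N ℓ).toRingHom (stbG2 N q ℓ)
    (stb_sq_beta N q ℓ) (stbFinite_beta N q) (stbFinite_beta (N * ℓ) q)
    (hnBase (N * ℓ) q) (fun b : Fin q => stbdRotB (N * ℓ) q (ζ ^ (b : ℕ)))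
    (fun b x => stbdRotB_beta (N * ℓ) q _ (stbd_pow_pow_eq_one q hζ.pow_eq_one _) x) ?_ ?_ ?_ u
  · rw [Fintype.card_fin, stbd_deg_beta (N * ℓ) q hq (hqN.mul_right ℓ)]
  · rw [Fintype.card_fin, stbd_deg_beta N q hq hqN]
  · intro b b' h
    apply stbd_rot_injective_at q ℓ hqℓ ζ hζ
    have h1 := congrArg (fun f : modularFunctionFieldBar (N * q) →+* HnOmegaBar =>
      f (hnJ (N * q))) h
    have h2 : ∀ c : Qbˣ, (stbdRotB (N * ℓ) q c).comp (stbG2 N q ℓ) (hnJ (N * q))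
        = algebraMap HnOmega HnOmegaBar (kronRot c (qExpand Qb ℓ (coeffEmb Qb jq))) := by
      intro c
      show stbdRotB (N * ℓ) q c (stbG2 N q ℓ (hnJ (N * q))) = _
      rw [stbdRotB_apply, stbG2_coe, hnJ_coe]
    simp only [h2] at h1
    exact hn_algebraMap_injective h1

/-- **base change of the norm**, `α`-version, `q ∣ N` -/
theorem stbd_norm_bc_alpha (hq : q.Prime) (hqN : q ∣ N)
    (u : modularFunctionFieldBar (N * q)) :
    stbNorm (heckeAlphaBar Qb (N * ℓ) q).toRingHom (stbG2 N q ℓ u) =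
      heckeBetaBar Qb N ℓ (stbNorm (heckeAlphaBar Qb N q).toRingHom u) := by
  haveI := stb_charZero_bar N
  obtain ⟨ζ, hζ⟩ := frob_exists_primitiveRoot q hq.ne_zero
  refine stb_norm_square_charZero (Ω := HnOmegaBar) (heckeAlphaBar Qb N q).toRingHom
    (heckeAlphaBar Qb (N * ℓ) q).toRingHom (heckeBetaBar Qb N ℓ).toRingHom (stbG2 N q ℓ)
    (stb_sq_alpha N q ℓ) (stbFinite_alpha N q) (stbFinite_alpha (N * ℓ) q)
    (stbdBaseA (N * ℓ) q) (fun b : Fin q => stbdRotA (N * ℓ) q (ζ ^ (b : ℕ)))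
    (fun b x => stbdRotA_alpha (N * ℓ) q _ (stbd_pow_pow_eq_one q hζ.pow_eq_one _) x) ?_ ?_ ?_ u
  · rw [Fintype.card_fin, stbd_deg_alpha (N * ℓ) q hq (hqN.mul_right ℓ)]
  · rw [Fintype.card_fin, stbd_deg_alpha N q hq hqN]
  · intro b b' h
    apply stbd_rot_injective_at_one q ζ hζ
    have h1 := congrArg (fun f : modularFunctionFieldBar (N * q) →+* HnOmegaBar =>
      f (jdF (N * q) (N * q) dvd_rfl)) h
    have h2 : ∀ c : Qbˣ, (stbdRotA (N * ℓ) q c).comp (stbG2 N q ℓ)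
        (jdF (N * q) (N * q) dvd_rfl)
        = algebraMap HnOmega HnOmegaBar (kronRot c (coeffEmb Qb jq)) := by
      intro c
      show stbdRotA (N * ℓ) q c (stbG2 N q ℓ (jdF (N * q) (N * q) dvd_rfl)) = _
      rw [stbd_G2_top, stbdRotA_apply, stbdW_stbdW, stbdRotB_apply]
      rfl
    simp only [h2] at h1
    exact hn_algebraMap_injective h1

end MainDiv

section FinalDiv

variable (N q : ℕ) [NeZero N] [NeZero q]

/-- the Kummer functions of `α_* T_ℓ x` and `T_ℓ α_* x` agree, `q ∣ N` -/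
theorem stbd_p3_fun_alpha (hq : q.Prime) (hqN : q ∣ N) (ℓ : ℕ) [NeZero ℓ]
    (u : modularFunctionFieldBar (N * q)) :
    stbNorm (heckeAlphaBar Qb N q).toRingHom
        (stbNorm (heckeAlphaBar Qb (N * q) ℓ).toRingHom (heckeBetaBar Qb (N * q) ℓ u)) =
      stbNorm (heckeAlphaBar Qb N ℓ).toRingHom
        (heckeBetaBar Qb N ℓ (stbNorm (heckeAlphaBar Qb N q).toRingHom u)) := by
  rw [← stbd_norm_bc_alpha N q ℓ hq hqN u,
    stbNorm_comp _ _ (stbFinite_alpha N q) (stbFinite_alpha (N * q) ℓ),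
    stbNorm_comp _ _ (stbFinite_alpha N ℓ) (stbFinite_alpha (N * ℓ) q),
    ← stb_incl_alpha N q ℓ]
  exact (stbNorm_equiv_comp _ (stbEqv N q ℓ) _).symm

/-- the Kummer functions of `β_* T_ℓ x` and `T_ℓ β_* x` agree, `q ∣ N` -/
theorem stbd_p3_fun_beta (hq : q.Prime) (hqN : q ∣ N) (ℓ : ℕ) [NeZero ℓ] (hℓ : ℓ.Prime)
    (hℓNq : ¬ ℓ ∣ N * q) (u : modularFunctionFieldBar (N * q)) :
    stbNorm (heckeBetaBar Qb N q).toRingHom
        (stbNorm (heckeAlphaBar Qb (N * q) ℓ).toRingHom (heckeBetaBar Qb (N * q) ℓ u)) =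
      stbNorm (heckeAlphaBar Qb N ℓ).toRingHom
        (heckeBetaBar Qb N ℓ (stbNorm (heckeBetaBar Qb N q).toRingHom u)) := by
  have hℓq : ℓ ≠ q := fun h => hℓNq (h ▸ dvd_mul_left _ _)
  have hcop : Nat.Coprime ℓ q := (Nat.coprime_primes hℓ hq).2 hℓq
  rw [← stbd_norm_bc_beta N q ℓ hq hqN hcop u,
    stbNorm_comp _ _ (stbFinite_beta N q) (stbFinite_alpha (N * q) ℓ),
    stbNorm_comp _ _ (stbFinite_alpha N ℓ) (stbFinite_beta (N * ℓ) q),
    ← stb_incl_beta N q ℓ]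
  exact (stbNorm_equiv_comp _ (stbEqv N q ℓ) _).symm

/-- **H3′, `α`**: `α_* (T_ℓ x) = T_ℓ (α_* x)` for every torsion point `x` of `J₀(Nq)`,
`q ∣ N`, `ℓ ∤ N q` primes. -/
theorem stbd_p3_alpha (hq : q.Prime) (hqN : q ∣ N) (ℓ : Nat.Primes)
    {n : ℕ} (hn : n ≠ 0) (x : JZero (N * q)) (hx : n • x = 0) :
    stbPushAlpha N q (heckeOperatorBar (N * q) ℓ x) =
      heckeOperatorBar N ℓ (stbPushAlpha N q x) := by
  haveI : NeZero (ℓ : ℕ) := ⟨ℓ.2.ne_zero⟩
  obtain ⟨u, hu⟩ := exists_kummerRel hx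
  have hL := stb_kummerRel_pushAlpha N q (stb_kummerRel_hecke (N * q) ℓ hu)
  have hR := stb_kummerRel_hecke N ℓ (stb_kummerRel_pushAlpha N q hu)
  rw [stbd_p3_fun_alpha N q hq hqN (ℓ : ℕ) u] at hL
  exact KummerRel.unique hn hL hR

/-- **H3′, `β`**: `β_* (T_ℓ x) = T_ℓ (β_* x)` for every torsion point `x` of `J₀(Nq)`,
`q ∣ N`, `ℓ ∤ N q` primes. -/
theorem stbd_p3_beta (hq : q.Prime) (hqN : q ∣ N) (ℓ : Nat.Primes) (hℓ : ¬ (ℓ : ℕ) ∣ N * q)
    {n : ℕ} (hn : n ≠ 0) (x : JZero (N * q)) (hx : n • x = 0) :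
    stbPushBeta N q (heckeOperatorBar (N * q) ℓ x) =
      heckeOperatorBar N ℓ (stbPushBeta N q x) := by
  haveI : NeZero (ℓ : ℕ) := ⟨ℓ.2.ne_zero⟩
  obtain ⟨u, hu⟩ := exists_kummerRel hx
  have hL := stb_kummerRel_pushBeta N q (stb_kummerRel_hecke (N * q) ℓ hu)
  have hR := stb_kummerRel_hecke N ℓ (stb_kummerRel_pushBeta N q hu)
  rw [stbd_p3_fun_beta N q hq hqN (ℓ : ℕ) ℓ.2 hℓ u] at hL
  exact KummerRel.unique hn hL hR

end FinalDiv

end Fermat.Agent.STB
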