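/-
STB (S35, phase 2 of item 34), piece STB-G "gluing invariant" (helper76).  Mathlib only
(+ `UNIP/PowerInd.lean`, itself Mathlib only, for the congruence lemmas `pwi_congr_*`).

Abstract local algebra at a CROSSING point of the special fibre.

* `F` a field (the function field `F′`), `O ⊆ F` a local subring (the local ring `B′_𝔫` of the
  crossing point), `Vinf V0` two valuation subrings of `F` containing `O` (the two vertical
  valuations through the point), `J` an ideal of `O` (`π′ O`);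
* (SS1) `hinter` : `O ∩ 𝔪(Vinf) ∩ 𝔪(V0) ⊆ J`;
* (SS3) `hsum`   : `𝔫 = 𝔭_∞ + 𝔭_0`, `𝔭_c := O ∩ 𝔪(V_c)`;
* `hres` (normality of the branch `O / 𝔭_c` + `V_c = O_{𝔭_c}`): an element `a` of `F` with
  `a ^ n ≡ e` at `V_c` for a unit `e` of `O` is congruent at `V_c` to an element of `O`;
* `Φ : F →+* F` with `Φ 𝔪(V_c) ⊆ 𝔪(V_c)` and `Φ x ≡ x ^ Q` modulo the maximal ideal of `O`
  (`Φ = σ²`, `Q = q²`: the crossing points are `𝔽_{q²}`-rational).

`stb_glue_frob` : if `y = ε γ ^ m` with `ε ∈ O^×` (local factor at the point), and `y ≡ t_c ^ m` at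
`V_c` (`y` is "toric": trivialised by `t_∞`, `t_0` at the two vertical valuations), and `H ≡
Φ t_c / t_c ^ Q` at `V_c`, then `w′ := (Φ y / y ^ Q) / H ^ m` has the local shape of `PwiShape`:
`w′ = ε′ γ′ ^ m`, `ε′ ∈ O`, `ε′ ≡ 1 mod J`, `γ′ ≡ 1` at `Vinf` and `V0`.

(In the language of `NOTES/S35-plan.md` (B3): the gluing invariant `ζ(y; t_∞, t_0)` is the ratio
of the values at `𝔫` of the two branch units `α_c ≡ t_c / γ`; `Φ` raises BOTH values to the
`Q`-th power, so the invariant of `Φ y / y ^ Q` w.r.t. `Φ t_c / t_c ^ Q` is trivial and the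
pair of branch units lifts to a unit `δ ≡ 1 mod 𝔫` of `O`.)
-/
import Mathlib
import Fermat.Agent.UNIP.PowerInd

set_option autoImplicit false

namespace Fermat.Agent.STB

open Fermat.Agent.UNIP

variable {F : Type*} [Field F]

section Congr

variable (V : ValuationSubring F)

/-- `x ≡ 1` at `V` ⇒ `x ≠ 0`. -/
theorem stb_ne_zero_of_congr {x : F} (h : x - 1 ∈ V.nonunits) : x ≠ 0 := by
  intro h0
  have := pwi_val_eq_one V h
  rw [h0, map_zero] at this
  exact zero_ne_one this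

/-- `x ≡ 1` at `V` ⇒ `x⁻¹ ≡ 1`. -/
theorem stb_congr_inv {x : F} (h : x - 1 ∈ V.nonunits) : x⁻¹ - 1 ∈ V.nonunits := by
  have hx0 := stb_ne_zero_of_congr V h
  have hv := pwi_val_eq_one V h
  have e : x⁻¹ - 1 = x⁻¹ * (-(x - 1)) := by field_simp; ring
  rw [e]
  refine pwi_mul_mem_nonunits V ?_ (V.nonunits.neg_mem h)
  rw [← V.valuation_le_one_iff, map_inv₀, hv, inv_one]

/-- `x ≡ 1`, `y ≡ 1` at `V` ⇒ `x / y ≡ 1`. -/
theorem stb_congr_div {x y : F} (hx : x - 1 ∈ V.nonunits) (hy : y - 1 ∈ V.nonunits) :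
    x / y - 1 ∈ V.nonunits := by
  rw [div_eq_mul_inv]
  exact pwi_congr_mul V hx (stb_congr_inv V hy)

/-- A ring endomorphism preserving `𝔪(V)` preserves `1 + 𝔪(V)`. -/
theorem stb_congr_map (Φ : F →+* F) (hΦ : ∀ x ∈ V.nonunits, Φ x ∈ V.nonunits) {x : F}
    (hx : x - 1 ∈ V.nonunits) : Φ x - 1 ∈ V.nonunits := by
  have := hΦ _ hx
  rwa [map_sub, map_one] at this

/-- `a ≡ b` at `V`, `b` a unit of `V` ⇒ `a / b ≡ 1`. -/
theorem stb_div_congr {a b : F} (hb : V.valuation b = 1) (h : a - b ∈ V.nonunits) :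
    a / b - 1 ∈ V.nonunits := by
  have hb0 : b ≠ 0 := by
    intro h0
    rw [h0, map_zero] at hb
    exact zero_ne_one hb
  have e : a / b - 1 = b⁻¹ * (a - b) := by field_simp
  rw [e]
  refine pwi_mul_mem_nonunits V ?_ h
  rw [← V.valuation_le_one_iff, map_inv₀, hb, inv_one]

/-- `a / b ≡ 1` at `V`, `b ∈ V` ⇒ `a ≡ b`. -/
theorem stb_sub_of_div_congr {a b : F} (hb : b ∈ V) (hb0 : b ≠ 0)
    (h : a / b - 1 ∈ V.nonunits) : a - b ∈ V.nonunits := by
  have e : a - b = b * (a / b - 1) := by field_simp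
  rw [e]
  exact pwi_mul_mem_nonunits V hb h

/-- the valuation of an element congruent to a unit -/
theorem stb_val_of_sub {a b : F} (hb : V.valuation b = 1) (h : a - b ∈ V.nonunits) :
    V.valuation a = 1 := by
  have h1 := pwi_val_eq_one V (stb_div_congr V hb h)
  rwa [map_div₀, hb, div_one] at h1

/-- a root of a unit is a unit -/
theorem stb_val_of_pow {a : F} {n : ℕ} (hn : 0 < n) (h : V.valuation (a ^ n) = 1) :
    V.valuation a = 1 := by
  rw [map_pow] at h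
  exact (pow_eq_one_iff_of_nonneg zero_le hn.ne').1 h

/-- `a ≡ b` at `V`, both in `V` ⇒ `a ^ n ≡ b ^ n`. -/
theorem stb_pow_sub_pow {a b : F} (ha : a ∈ V) (hb : b ∈ V) (h : a - b ∈ V.nonunits) (n : ℕ) :
    a ^ n - b ^ n ∈ V.nonunits := by
  induction n with
  | zero => simp [V.nonunits.zero_mem]
  | succ n ih =>
    have e : a ^ (n + 1) - b ^ (n + 1) = a ^ n * (a - b) + b * (a ^ n - b ^ n) := by ring
    rw [e]
    exact V.nonunits.add_mem (pwi_mul_mem_nonunits V (V.pow_mem ha n) h)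
      (pwi_mul_mem_nonunits V hb ih)

end Congr

section Vertical

/-- **Vertical part of the shape.**  `y ≡ t ^ m`, `H ≡ Φ t / t ^ Q` at `V`, `Φ` preserves
`𝔪(V)` ⇒ `(Φ y / y ^ Q) / H ^ m ≡ 1` at `V`. -/
theorem stb_vertical (V : ValuationSubring F) (Φ : F →+* F)
    (hΦ : ∀ x ∈ V.nonunits, Φ x ∈ V.nonunits) (Q m : ℕ) {y t H : F}
    (ht : y / t ^ m - 1 ∈ V.nonunits) (hH : H / (Φ t / t ^ Q) - 1 ∈ V.nonunits) :
    Φ y / y ^ Q / H ^ m - 1 ∈ V.nonunits := by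
  have hr0 := stb_ne_zero_of_congr V ht
  have hy0 : y ≠ 0 := fun h => hr0 (by rw [h, zero_div])
  have htm0 : t ^ m ≠ 0 := fun h => hr0 (by rw [h, div_zero])
  have hH0' := stb_ne_zero_of_congr V hH
  have hH0 : H ≠ 0 := fun h => hH0' (by rw [h, zero_div])
  have hT0 : Φ t / t ^ Q ≠ 0 := fun h => hH0' (by rw [h, div_zero])
  have hΦt0 : Φ t ≠ 0 := fun h => hT0 (by rw [h, zero_div])
  have htQ0 : t ^ Q ≠ 0 := fun h => hT0 (by rw [h, div_zero])
  have hΦy0 : Φ y ≠ 0 := (_root_.map_ne_zero Φ).2 hy0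
  have h1 : Φ (y / t ^ m) / (y / t ^ m) ^ Q - 1 ∈ V.nonunits :=
    stb_congr_div V (stb_congr_map V Φ hΦ ht) (pwi_congr_pow V ht Q)
  have h2 : (H / (Φ t / t ^ Q)) ^ m - 1 ∈ V.nonunits := pwi_congr_pow V hH m
  have h3 := stb_congr_div V h1 h2
  have ht0 : t ≠ 0 := fun h => hΦt0 (by rw [h, map_zero])
  have e : Φ y / y ^ Q / H ^ m
      = Φ (y / t ^ m) / (y / t ^ m) ^ Q / (H / (Φ t / t ^ Q)) ^ m := by
    rw [map_div₀, map_pow]
    simp only [div_pow]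
    field_simp
    ring
  rw [e]
  exact h3

end Vertical

section Branch

variable (O : Subring F) [IsLocalRing O]

/-- an element of `O ∩ 𝔪(V)` is a nonunit of `O` (if `O ⊆ V`) -/
theorem stb_mem_maximalIdeal_of_nonunits (V : ValuationSubring F) (hOV : ∀ x ∈ O, x ∈ V)
    (x : O) (hx : (x : F) ∈ V.nonunits) : x ∈ IsLocalRing.maximalIdeal O := by
  rw [IsLocalRing.mem_maximalIdeal, mem_nonunits_iff]
  intro hu
  obtain ⟨u, rfl⟩ := hu
  have h1 : ((u : O) : F) * (((u⁻¹ : Oˣ) : O) : F) = 1 := by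
    rw [← Subring.coe_mul, Units.mul_inv, Subring.coe_one]
  rw [ValuationSubring.mem_nonunits_iff] at hx
  have h2 : V.valuation (((u⁻¹ : Oˣ) : O) : F) ≤ 1 :=
    (V.valuation_le_one_iff _).2 (hOV _ ((u⁻¹ : Oˣ) : O).2)
  have h3 : V.valuation (((u : O) : F) * (((u⁻¹ : Oˣ) : O) : F)) < 1 := by
    rw [map_mul]
    exact mul_lt_one_of_lt_of_le hx h2
  rw [h1, map_one] at h3
  exact lt_irrefl _ h3

/-- the valuation of a unit of `O` is `1` (if `O ⊆ V`) -/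
theorem stb_val_unit (V : ValuationSubring F) (hOV : ∀ x ∈ O, x ∈ V) {e : O} (he : IsUnit e) :
    V.valuation (e : F) = 1 := by
  have hle : V.valuation (e : F) ≤ 1 := (V.valuation_le_one_iff _).2 (hOV _ e.2)
  refine le_antisymm hle (not_lt.1 fun hlt => ?_)
  have := stb_mem_maximalIdeal_of_nonunits O V hOV e ((ValuationSubring.mem_nonunits_iff V).2 hlt)
  exact (IsLocalRing.mem_maximalIdeal _).1 this he

/-- an element `≡ 1` modulo the maximal ideal is a unit -/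
theorem stb_isUnit_of_sub_one {β : O} (h : β - 1 ∈ IsLocalRing.maximalIdeal O) : IsUnit β := by
  by_contra hu
  have h1 : β ∈ IsLocalRing.maximalIdeal O := (IsLocalRing.mem_maximalIdeal _).2 hu
  have h2 : (1 : O) ∈ IsLocalRing.maximalIdeal O := by
    have := Ideal.sub_mem _ h1 h
    rwa [sub_sub_cancel] at this
  exact (IsLocalRing.mem_maximalIdeal _).1 h2 isUnit_one

omit [IsLocalRing O] in
/-- coercion of the inverse of a unit of `O` -/
theorem stb_coe_inv (u : Oˣ) : (((u⁻¹ : Oˣ) : O) : F) = (((u : O) : F))⁻¹ := by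
  have h1 : ((u : O) : F) * (((u⁻¹ : Oˣ) : O) : F) = 1 := by
    rw [← Subring.coe_mul, Units.mul_inv, Subring.coe_one]
  exact eq_inv_of_mul_eq_one_right h1

/-- **Branch unit.**  `V` one of the two vertical valuations through the point, `y = ε γ ^ m` the
local factorisation, `y ≡ t ^ m` and `H ≡ Φ t / t ^ Q` at `V`.  Then `H / (Φ γ / γ ^ Q)` is
congruent at `V` to a unit `β` of `O` with `β ≡ 1` modulo the maximal ideal of `O`
(`β = Φ α / α ^ Q`, `α ∈ O^×` the branch unit `≡ t / γ`). -/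
theorem stb_branch (V : ValuationSubring F) (hOV : ∀ x ∈ O, x ∈ V)
    (hres : ∀ (a : F) (e : O) (n : ℕ), IsUnit e → 0 < n → a ^ n - (e : F) ∈ V.nonunits →
      ∃ α : O, a - (α : F) ∈ V.nonunits)
    (Φ : F →+* F) (Q : ℕ) (hΦ : ∀ x ∈ V.nonunits, Φ x ∈ V.nonunits)
    (hfrob : ∀ x : O, ∃ z ∈ IsLocalRing.maximalIdeal O, (z : F) = Φ (x : F) - (x : F) ^ Q)
    {m : ℕ} (hm : 0 < m) {y γ t H : F} (ε : O) (hε : IsUnit ε) (hy : y = (ε : F) * γ ^ m)
    (ht : y / t ^ m - 1 ∈ V.nonunits) (hH : H / (Φ t / t ^ Q) - 1 ∈ V.nonunits) :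
    ∃ β : O, β - 1 ∈ IsLocalRing.maximalIdeal O ∧
      H / (Φ γ / γ ^ Q) / (β : F) - 1 ∈ V.nonunits := by
  have hr0 := stb_ne_zero_of_congr V ht
  have hy0 : y ≠ 0 := fun h => hr0 (by rw [h, zero_div])
  have htm0 : t ^ m ≠ 0 := fun h => hr0 (by rw [h, div_zero])
  have ht0 : t ≠ 0 := fun h => htm0 (by rw [h, zero_pow hm.ne'])
  have hγ0 : γ ≠ 0 := fun h => hy0 (by rw [hy, h, zero_pow hm.ne', mul_zero])
  have hvε : V.valuation (ε : F) = 1 := stb_val_unit O V hOV hε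
  have hε0 : (ε : F) ≠ 0 := fun h => by
    rw [h, map_zero] at hvε
    exact zero_ne_one hvε
  have hH0' := stb_ne_zero_of_congr V hH
  have hH0 : H ≠ 0 := fun h => hH0' (by rw [h, zero_div])
  have hΦt0 : Φ t ≠ 0 := (_root_.map_ne_zero Φ).2 ht0
  have hΦγ0 : Φ γ ≠ 0 := (_root_.map_ne_zero Φ).2 hγ0
  -- the branch unit
  have h_am : (t / γ) ^ m - (ε : F) ∈ V.nonunits := by
    have e : (t / γ) ^ m - (ε : F) = (ε : F) * ((y / t ^ m)⁻¹ - 1) := by
      rw [hy, div_pow]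
      field_simp
    rw [e]
    exact pwi_mul_mem_nonunits V (hOV _ ε.2) (stb_congr_inv V ht)
  obtain ⟨α, hα⟩ := hres (t / γ) ε m hε hm h_am
  have hva : V.valuation (t / γ) = 1 := stb_val_of_pow V hm (stb_val_of_sub V hvε h_am)
  have haV : t / γ ∈ V := (V.valuation_le_one_iff _).1 hva.le
  have hα' : (α : F) - t / γ ∈ V.nonunits := by
    have := V.nonunits.neg_mem hα
    rwa [neg_sub] at this
  have hvα : V.valuation (α : F) = 1 := stb_val_of_sub V hva hα'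
  have hα0 : (α : F) ≠ 0 := fun h => by
    rw [h, map_zero] at hvα
    exact zero_ne_one hvα
  have hαu : IsUnit α := by
    by_contra hu
    have h1 : α ∈ IsLocalRing.maximalIdeal O := (IsLocalRing.mem_maximalIdeal _).2 hu
    have h2 : α ^ m ∈ IsLocalRing.maximalIdeal O := Ideal.pow_mem_of_mem _ h1 m hm
    have h3 : α ^ m - ε ∈ IsLocalRing.maximalIdeal O := by
      apply stb_mem_maximalIdeal_of_nonunits O V hOV
      have e : ((α ^ m - ε : O) : F)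
          = ((α : F) ^ m - (t / γ) ^ m) + ((t / γ) ^ m - (ε : F)) := by
        push_cast
        ring
      rw [e]
      exact V.nonunits.add_mem (stb_pow_sub_pow V (hOV _ α.2) haV hα' m) h_am
    have h4 : ε ∈ IsLocalRing.maximalIdeal O := by
      have := Ideal.sub_mem _ h2 h3
      rwa [sub_sub_cancel] at this
    exact (IsLocalRing.mem_maximalIdeal _).1 h4 hε
  obtain ⟨z, hz, hzeq⟩ := hfrob α
  obtain ⟨u, hu⟩ := hαu
  refine ⟨1 + z * ((u⁻¹ : Oˣ) : O) ^ Q, ?_, ?_⟩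
  · rw [add_sub_cancel_left]
    exact Ideal.mul_mem_right _ _ hz
  have hβ : (((1 + z * ((u⁻¹ : Oˣ) : O) ^ Q : O)) : F) = Φ (α : F) / (α : F) ^ Q := by
    push_cast
    rw [stb_coe_inv O u, hu, hzeq, inv_pow]
    field_simp
    ring
  have hβu : IsUnit (1 + z * ((u⁻¹ : Oˣ) : O) ^ Q) := by
    apply stb_isUnit_of_sub_one O
    rw [add_sub_cancel_left]
    exact Ideal.mul_mem_right _ _ hz
  have hvβ := stb_val_unit O V hOV hβu
  rw [hβ] at hvβ ⊢
  have hvαQ : V.valuation ((α : F) ^ Q) = 1 := by rw [map_pow, hvα, one_pow]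
  have hvΦα : V.valuation (Φ (α : F)) = 1 := by
    rw [map_div₀, hvαQ, div_one] at hvβ
    exact hvβ
  have hΦα0 : Φ (α : F) ≠ 0 := (_root_.map_ne_zero Φ).2 hα0
  have h1 : Φ (t / γ) / Φ (α : F) - 1 ∈ V.nonunits := by
    apply stb_div_congr V hvΦα
    have := hΦ _ hα
    rwa [map_sub] at this
  have h2 : (t / γ) ^ Q / (α : F) ^ Q - 1 ∈ V.nonunits := by
    rw [← div_pow]
    exact pwi_congr_pow V (stb_div_congr V hvα hα) Q
  have h3 := pwi_congr_mul V hH (stb_congr_div V h1 h2)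
  have e : H / (Φ γ / γ ^ Q) / (Φ (α : F) / (α : F) ^ Q)
      = H / (Φ t / t ^ Q) * (Φ (t / γ) / Φ (α : F) / ((t / γ) ^ Q / (α : F) ^ Q)) := by
    rw [map_div₀, div_pow]
    field_simp
  rw [e]
  exact h3

/-- **STB-G, main lemma (crossing point).**  See the header. -/
theorem stb_glue_frob (J : Ideal O) (Vinf V0 : ValuationSubring F)
    (hOinf : ∀ x ∈ O, x ∈ Vinf) (hO0 : ∀ x ∈ O, x ∈ V0)
    (hinter : ∀ x : O, (x : F) ∈ Vinf.nonunits → (x : F) ∈ V0.nonunits → x ∈ J)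
    (hsum : ∀ x ∈ IsLocalRing.maximalIdeal O, ∃ a b : O,
      (a : F) ∈ Vinf.nonunits ∧ (b : F) ∈ V0.nonunits ∧ x = a + b)
    (hresinf : ∀ (a : F) (e : O) (n : ℕ), IsUnit e → 0 < n →
      a ^ n - (e : F) ∈ Vinf.nonunits → ∃ α : O, a - (α : F) ∈ Vinf.nonunits)
    (hres0 : ∀ (a : F) (e : O) (n : ℕ), IsUnit e → 0 < n →
      a ^ n - (e : F) ∈ V0.nonunits → ∃ α : O, a - (α : F) ∈ V0.nonunits)
    (Φ : F →+* F) (Q : ℕ)
    (hΦinf : ∀ x ∈ Vinf.nonunits, Φ x ∈ Vinf.nonunits)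
    (hΦ0 : ∀ x ∈ V0.nonunits, Φ x ∈ V0.nonunits)
    (hfrob : ∀ x : O, ∃ z ∈ IsLocalRing.maximalIdeal O, (z : F) = Φ (x : F) - (x : F) ^ Q)
    {m : ℕ} (hm : 0 < m) {y γ tinf t0 H : F} (ε : O) (hε : IsUnit ε)
    (hy : y = (ε : F) * γ ^ m)
    (htinf : y / tinf ^ m - 1 ∈ Vinf.nonunits) (ht0 : y / t0 ^ m - 1 ∈ V0.nonunits)
    (hHinf : H / (Φ tinf / tinf ^ Q) - 1 ∈ Vinf.nonunits)
    (hH0 : H / (Φ t0 / t0 ^ Q) - 1 ∈ V0.nonunits) :
    ∃ ε' γ' : F, ∃ hε' : ε' ∈ O, (⟨ε', hε'⟩ - 1 : O) ∈ J ∧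
      γ' - 1 ∈ Vinf.nonunits ∧ γ' - 1 ∈ V0.nonunits ∧
      Φ y / y ^ Q / H ^ m = ε' * γ' ^ m := by
  obtain ⟨βi, hβi, hGi⟩ := stb_branch O Vinf hOinf hresinf Φ Q hΦinf hfrob hm ε hε hy htinf hHinf
  obtain ⟨βz, hβz, hGz⟩ := stb_branch O V0 hO0 hres0 Φ Q hΦ0 hfrob hm ε hε hy ht0 hH0
  -- lift the pair `(βi, βz)` to a unit `δ`
  have hd : βi - βz ∈ IsLocalRing.maximalIdeal O := by
    have := Ideal.sub_mem _ hβi hβz
    rwa [sub_sub_sub_cancel_right] at this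
  obtain ⟨a, b, ha, hb, hab⟩ := hsum _ hd
  have haM := stb_mem_maximalIdeal_of_nonunits O Vinf hOinf a ha
  set δ : O := βi - a with hδ
  have hδ1 : δ - 1 ∈ IsLocalRing.maximalIdeal O := by
    have e : δ - 1 = (βi - 1) - a := by rw [hδ]; ring
    rw [e]
    exact Ideal.sub_mem _ hβi haM
  have hδu : IsUnit δ := stb_isUnit_of_sub_one O hδ1
  have hδi : (δ : F) - (βi : F) ∈ Vinf.nonunits := by
    have e : (δ : F) - (βi : F) = -(a : F) := by rw [hδ]; push_cast; ring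
    rw [e]
    exact Vinf.nonunits.neg_mem ha
  have hδz : (δ : F) - (βz : F) ∈ V0.nonunits := by
    have e0 : δ = βz + b := by
      rw [hδ]
      have : βi = βz + (a + b) := by rw [← hab]; ring
      rw [this]; ring
    have e : (δ : F) - (βz : F) = (b : F) := by rw [e0]; push_cast; ring
    rw [e]
    exact hb
  have hβiu := stb_isUnit_of_sub_one O hβi
  have hβzu := stb_isUnit_of_sub_one O hβz
  have hvβi := stb_val_unit O Vinf hOinf hβiu
  have hvβz := stb_val_unit O V0 hO0 hβzu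
  have hvδ := stb_val_unit O Vinf hOinf hδu
  have hδ0 : (δ : F) ≠ 0 := fun h => by
    rw [h, map_zero] at hvδ
    exact zero_ne_one hvδ
  have hβi0 : (βi : F) ≠ 0 := fun h => by
    rw [h, map_zero] at hvβi
    exact zero_ne_one hvβi
  have hβz0 : (βz : F) ≠ 0 := fun h => by
    rw [h, map_zero] at hvβz
    exact zero_ne_one hvβz
  have hvε := stb_val_unit O Vinf hOinf hε
  have hε0 : (ε : F) ≠ 0 := fun h => by
    rw [h, map_zero] at hvε
    exact zero_ne_one hvε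
  have hr0 := stb_ne_zero_of_congr Vinf htinf
  have hy0 : y ≠ 0 := fun h => hr0 (by rw [h, zero_div])
  have hγ0 : γ ≠ 0 := fun h => hy0 (by rw [hy, h, zero_pow hm.ne', mul_zero])
  have hΦγ0 : Φ γ ≠ 0 := (_root_.map_ne_zero Φ).2 hγ0
  have hΦε0 : Φ (ε : F) ≠ 0 := (_root_.map_ne_zero Φ).2 hε0
  have hH0' : H ≠ 0 := fun h => stb_ne_zero_of_congr Vinf hHinf (by rw [h, zero_div])
  -- `γ'`
  have hγi : (δ : F) / (H / (Φ γ / γ ^ Q)) - 1 ∈ Vinf.nonunits := by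
    have e : (δ : F) / (H / (Φ γ / γ ^ Q))
        = (δ : F) / (βi : F) / (H / (Φ γ / γ ^ Q) / (βi : F)) := by
      field_simp
    rw [e]
    exact stb_congr_div Vinf (stb_div_congr Vinf hvβi hδi) hGi
  have hγz : (δ : F) / (H / (Φ γ / γ ^ Q)) - 1 ∈ V0.nonunits := by
    have e : (δ : F) / (H / (Φ γ / γ ^ Q))
        = (δ : F) / (βz : F) / (H / (Φ γ / γ ^ Q) / (βz : F)) := by
      field_simp
    rw [e]
    exact stb_congr_div V0 (stb_div_congr V0 hvβz hδz) hGz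
  have hγ'0 : (δ : F) / (H / (Φ γ / γ ^ Q)) ≠ 0 := stb_ne_zero_of_congr Vinf hγi
  -- `ε'`
  obtain ⟨z, -, hzeq⟩ := hfrob ε
  obtain ⟨uε, huε⟩ := hε
  obtain ⟨uδ, huδ⟩ := hδu
  set ε' : O := (z + ε ^ Q) * ((uε⁻¹ : Oˣ) : O) ^ Q * ((uδ⁻¹ : Oˣ) : O) ^ m with hε'
  have hε'F : (ε' : F) = Φ (ε : F) / (ε : F) ^ Q / (δ : F) ^ m := by
    rw [hε']
    push_cast
    rw [stb_coe_inv O uε, stb_coe_inv O uδ, huε, huδ, hzeq, inv_pow, inv_pow]
    field_simp
    ring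
  have hfac : Φ y / y ^ Q / H ^ m = (ε' : F) * ((δ : F) / (H / (Φ γ / γ ^ Q))) ^ m := by
    rw [hε'F, hy, map_mul, map_pow]
    simp only [div_pow, mul_pow]
    field_simp
    ring
  have hε'eq : (ε' : F) = Φ y / y ^ Q / H ^ m / ((δ : F) / (H / (Φ γ / γ ^ Q))) ^ m := by
    rw [hfac]
    field_simp
  refine ⟨(ε' : F), (δ : F) / (H / (Φ γ / γ ^ Q)), ε'.2, ?_, hγi, hγz, hfac⟩
  apply hinter
  · show (((⟨(ε' : F), ε'.2⟩ : O) - 1 : O) : F) ∈ Vinf.nonunits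
    push_cast
    rw [hε'eq]
    exact stb_congr_div Vinf (stb_vertical Vinf Φ hΦinf Q m htinf hHinf)
      (pwi_congr_pow Vinf hγi m)
  · show (((⟨(ε' : F), ε'.2⟩ : O) - 1 : O) : F) ∈ V0.nonunits
    push_cast
    rw [hε'eq]
    exact stb_congr_div V0 (stb_vertical V0 Φ hΦ0 Q m ht0 hH0)
      (pwi_congr_pow V0 hγz m)

end Branch

end Fermat.Agent.STB
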