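import Mathlib

/-!
# STB-W (S35, plan `NOTES/S35-plan.md`, step (B5)): weak approximation for two valuation subrings

`F` a field, `V₁ V₂ : ValuationSubring F`.

* `stb_exists_sep_of_not_le` : if `V₁ ⊄ V₂` there is `a` which is a unit of `V₁` and lies in `𝔪(V₂)`.
* `stb_idem` : from `a` (unit at `V₁`, in `𝔪(V₂)`) and `b` (in `𝔪(V₁)`, unit at `V₂`) the element
  `e = a / (a + b)` satisfies `e ≡ 1` at `V₁` and `e ≡ 0` at `V₂`.
* `StbArch V` : the archimedean property of `V` (`∀ x, ∀ y ∈ 𝔪, ∃ N, x y ^ N ∈ 𝔪`);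
  `stbArch_of_piDisc` : it holds when all values are integral powers of the value of one `ϖ ∈ 𝔪`.
* `stb_weakApprox` : for `T₁ T₂ ≠ 0` there is `H ≠ 0` with `H / T₁ ≡ 1` at `V₁` and `H / T₂ ≡ 1`
  at `V₂` (`H = T₁ e ^ N + T₂ (1 - e) ^ N`).
-/

set_option autoImplicit false

namespace Fermat.Agent.STB

variable {F : Type*} [Field F]

section Basic

variable (V : ValuationSubring F)

theorem stb_mem_nonunits_iff {x : F} : x ∈ V.nonunits ↔ V.valuation x < 1 :=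
  ValuationSubring.mem_nonunits_iff V

theorem stb_zero_mem_nonunits : (0 : F) ∈ V.nonunits := by
  rw [stb_mem_nonunits_iff]; simp

/-- `x` is a unit of `V` -/
def StbUnit (x : F) : Prop := V.valuation x = 1

variable {V}

theorem StbUnit.ne_zero {x : F} (h : StbUnit V x) : x ≠ 0 := by
  rintro rfl
  simp [StbUnit] at h

theorem StbUnit.inv {x : F} (h : StbUnit V x) : StbUnit V x⁻¹ := by
  unfold StbUnit at h ⊢
  rw [map_inv₀, h, inv_one]

theorem StbUnit.mul {x y : F} (hx : StbUnit V x) (hy : StbUnit V y) : StbUnit V (x * y) := by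
  unfold StbUnit at hx hy ⊢
  rw [map_mul, hx, hy, one_mul]

theorem StbUnit.pow {x : F} (hx : StbUnit V x) (n : ℕ) : StbUnit V (x ^ n) := by
  unfold StbUnit at hx ⊢
  rw [map_pow, hx, one_pow]

theorem stbUnit_iff_mem {x : F} (hx : x ≠ 0) : StbUnit V x ↔ x ∈ V ∧ x⁻¹ ∈ V := by
  unfold StbUnit
  constructor
  · intro h
    refine ⟨(V.valuation_le_one_iff x).1 h.le, (V.valuation_le_one_iff _).1 ?_⟩
    rw [map_inv₀, h, inv_one]
  · rintro ⟨h1, h2⟩
    have a1 := (V.valuation_le_one_iff x).2 h1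
    have a2 := (V.valuation_le_one_iff _).2 h2
    rw [map_inv₀] at a2
    have hpos : 0 < V.valuation x := zero_lt_iff.2 ((Valuation.ne_zero_iff _).2 hx)
    exact le_antisymm a1 ((inv_le_one₀ hpos).1 a2)

/-- an element of `V` which is not in the maximal ideal is a unit -/
theorem stbUnit_of_mem_of_not_mem {x : F} (h1 : x ∈ V) (h2 : x ∉ V.nonunits) : StbUnit V x := by
  unfold StbUnit
  rw [stb_mem_nonunits_iff, not_lt] at h2
  exact le_antisymm ((V.valuation_le_one_iff x).2 h1) h2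

/-- `unit + nonunit` is a unit -/
theorem StbUnit.add_nonunit {x y : F} (hx : StbUnit V x) (hy : y ∈ V.nonunits) :
    StbUnit V (x + y) := by
  unfold StbUnit at hx ⊢
  rw [stb_mem_nonunits_iff] at hy
  rw [add_comm]
  have := V.valuation.map_add_eq_of_lt_right (x := y) (y := x) (by rw [hx]; exact hy)
  rw [this, hx]

/-- a unit times a nonunit is a nonunit -/
theorem StbUnit.mul_nonunit {x y : F} (hx : StbUnit V x) (hy : y ∈ V.nonunits) :
    x * y ∈ V.nonunits := by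
  unfold StbUnit at hx
  rw [stb_mem_nonunits_iff] at hy ⊢
  rw [map_mul, hx, one_mul]
  exact hy

theorem stb_add_mem_nonunits {x y : F} (hx : x ∈ V.nonunits) (hy : y ∈ V.nonunits) :
    x + y ∈ V.nonunits := by
  rw [stb_mem_nonunits_iff] at hx hy ⊢
  exact lt_of_le_of_lt (V.valuation.map_add x y) (max_lt hx hy)

theorem stb_sub_mem_nonunits {x y : F} (hx : x ∈ V.nonunits) (hy : y ∈ V.nonunits) :
    x - y ∈ V.nonunits := by
  rw [stb_mem_nonunits_iff] at hx hy ⊢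
  exact lt_of_le_of_lt (V.valuation.map_sub x y) (max_lt hx hy)

theorem stb_neg_mem_nonunits {x : F} (hx : x ∈ V.nonunits) : -x ∈ V.nonunits := by
  rw [stb_mem_nonunits_iff] at hx ⊢
  rwa [Valuation.map_neg]

/-- an element `≡ 1` is a unit -/
theorem stbUnit_of_sub_one {x : F} (h : x - 1 ∈ V.nonunits) : StbUnit V x := by
  have h1 : StbUnit V (1 : F) := by simp [StbUnit]
  have := h1.add_nonunit h
  rwa [add_sub_cancel] at this

theorem stb_congr_mul {x y : F} (hx : x - 1 ∈ V.nonunits) (hy : y - 1 ∈ V.nonunits) :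
    x * y - 1 ∈ V.nonunits := by
  have e : x * y - 1 = y * (x - 1) + (y - 1) := by ring
  rw [e]
  exact stb_add_mem_nonunits ((stbUnit_of_sub_one hy).mul_nonunit hx) hy

theorem stb_congr_pow {x : F} (hx : x - 1 ∈ V.nonunits) (n : ℕ) : x ^ n - 1 ∈ V.nonunits := by
  induction n with
  | zero => rw [pow_zero, sub_self]; exact stb_zero_mem_nonunits V
  | succ n ih => rw [pow_succ]; exact stb_congr_mul ih hx

/-- an element of `V` times a nonunit is a nonunit -/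
theorem stb_mul_mem_nonunits {x y : F} (hx : x ∈ V) (hy : y ∈ V.nonunits) :
    x * y ∈ V.nonunits := by
  rw [stb_mem_nonunits_iff] at hy ⊢
  rw [map_mul]
  exact Right.mul_lt_one_of_le_of_lt ((V.valuation_le_one_iff x).2 hx) hy

theorem stb_nonunits_subset {x : F} (hx : x ∈ V.nonunits) : x ∈ V :=
  (V.valuation_le_one_iff x).1 ((stb_mem_nonunits_iff V).1 hx).le

end Basic

section Arch

/-- The archimedean property of a valuation subring (rank one). -/
def StbArch (V : ValuationSubring F) : Prop :=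
  ∀ x : F, ∀ y ∈ V.nonunits, ∃ N : ℕ, x * y ^ N ∈ V.nonunits

theorem StbArch.exists_forall_ge {V : ValuationSubring F} (h : StbArch V) (x : F) {y : F}
    (hy : y ∈ V.nonunits) : ∃ N : ℕ, ∀ n, N ≤ n → x * y ^ n ∈ V.nonunits := by
  obtain ⟨N, hN⟩ := h x y hy
  refine ⟨N, fun n hn => ?_⟩
  obtain ⟨k, rfl⟩ := Nat.exists_eq_add_of_le hn
  have e : x * y ^ (N + k) = y ^ k * (x * y ^ N) := by rw [pow_add]; ring
  rw [e]
  exact stb_mul_mem_nonunits (V.pow_mem (stb_nonunits_subset hy) k) hN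

/-- A valuation subring all of whose values are integral powers of the value of one element of the
maximal ideal is archimedean. -/
theorem stbArch_of_piDisc (V : ValuationSubring F) (ϖ : F) (hϖ : ϖ ∈ V.nonunits) (hϖ0 : ϖ ≠ 0)
    (hdisc : ∀ x : F, x ≠ 0 → ∃ n : ℤ, V.valuation x = V.valuation ϖ ^ n) : StbArch V := by
  intro x y hy
  rcases eq_or_ne x 0 with rfl | hx
  · exact ⟨0, by rw [zero_mul]; exact stb_zero_mem_nonunits V⟩
  rcases eq_or_ne y 0 with rfl | hy0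
  · exact ⟨1, by rw [pow_one, mul_zero]; exact stb_zero_mem_nonunits V⟩
  set γ := V.valuation ϖ with hγ
  have hγlt : γ < 1 := (stb_mem_nonunits_iff V).1 hϖ
  have hγpos : 0 < γ := zero_lt_iff.2 ((Valuation.ne_zero_iff _).2 hϖ0)
  obtain ⟨j, hj⟩ := hdisc x hx
  obtain ⟨k, hk⟩ := hdisc y hy0
  rw [stb_mem_nonunits_iff] at hy
  have hkpos : 0 < k := by
    rw [hk] at hy
    exact (zpow_lt_one_iff_right_of_lt_one₀ hγpos hγlt).1 hy
  refine ⟨(1 - j).toNat, ?_⟩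
  rw [stb_mem_nonunits_iff, map_mul, map_pow, hj, hk, ← zpow_natCast, ← zpow_mul,
    ← zpow_add₀ hγpos.ne']
  rw [zpow_lt_one_iff_right_of_lt_one₀ hγpos hγlt]
  have h1 : (1 - j) ≤ ((1 - j).toNat : ℤ) := Int.self_le_toNat _
  have h2 : (0 : ℤ) ≤ ((1 - j).toNat : ℤ) := Int.natCast_nonneg _
  nlinarith

end Arch

section Sep

variable {V₁ V₂ : ValuationSubring F}

/-- Separation: if `V₁ ⊄ V₂` there is a unit of `V₁` lying in the maximal ideal of `V₂`. -/
theorem stb_exists_sep_of_not_le (h : ¬ V₁ ≤ V₂) : ∃ a : F, StbUnit V₁ a ∧ a ∈ V₂.nonunits := by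
  obtain ⟨x, hx1, hx2⟩ := SetLike.not_le_iff_exists.1 h
  have hv2 : 1 < V₂.valuation x := by
    by_contra hcon
    exact hx2 ((V₂.valuation_le_one_iff x).1 (not_lt.1 hcon))
  by_cases hu : x ∈ V₁.nonunits
  · refine ⟨(1 + x)⁻¹, ?_, ?_⟩
    · have h1 : StbUnit V₁ (1 : F) := by simp [StbUnit]
      exact (h1.add_nonunit hu).inv
    · rw [stb_mem_nonunits_iff, map_inv₀]
      have e : V₂.valuation (1 + x) = V₂.valuation x :=
        V₂.valuation.map_add_eq_of_lt_right (by rw [map_one]; exact hv2)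
      rw [e]
      exact inv_lt_one_of_one_lt₀ hv2
  · refine ⟨x⁻¹, (stbUnit_of_mem_of_not_mem hx1 hu).inv, ?_⟩
    rw [stb_mem_nonunits_iff, map_inv₀]
    exact inv_lt_one_of_one_lt₀ hv2

/-- From `a` (unit at `V₁`, in `𝔪(V₂)`) and `b` (in `𝔪(V₁)`, unit at `V₂`): `e = a / (a + b)` is
`≡ 1` at `V₁` and `≡ 0` at `V₂`. -/
theorem stb_idem {a b : F} (ha1 : StbUnit V₁ a) (ha2 : a ∈ V₂.nonunits)
    (hb1 : b ∈ V₁.nonunits) (hb2 : StbUnit V₂ b) :
    a / (a + b) - 1 ∈ V₁.nonunits ∧ a / (a + b) ∈ V₂.nonunits := by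
  constructor
  · have hu : StbUnit V₁ (a + b) := ha1.add_nonunit hb1
    have e : a / (a + b) - 1 = -((a + b)⁻¹ * b) := by
      have := hu.ne_zero
      field_simp
      ring
    rw [e]
    exact stb_neg_mem_nonunits (hu.inv.mul_nonunit hb1)
  · have hu : StbUnit V₂ (a + b) := by
      rw [add_comm]
      exact hb2.add_nonunit ha2
    rw [div_eq_mul_inv, mul_comm]
    exact hu.inv.mul_nonunit ha2

/-- **Weak approximation** (two valuations), from an element `e ≡ 1` at `V₁`, `e ≡ 0` at `V₂`. -/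
theorem stb_weakApprox_of_idem {e : F} (he1 : e - 1 ∈ V₁.nonunits) (he2 : e ∈ V₂.nonunits)
    (h1 : StbArch V₁) (h2 : StbArch V₂) {T₁ T₂ : F} (hT₁ : T₁ ≠ 0) (hT₂ : T₂ ≠ 0) :
    ∃ H : F, H ≠ 0 ∧ H / T₁ - 1 ∈ V₁.nonunits ∧ H / T₂ - 1 ∈ V₂.nonunits := by
  have he1' : 1 - e ∈ V₁.nonunits := by
    have := stb_neg_mem_nonunits he1
    rwa [neg_sub] at this
  have he2' : (1 - e) - 1 ∈ V₂.nonunits := by
    have := stb_neg_mem_nonunits he2
    have e' : (1 - e) - 1 = -e := by ring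
    rwa [e']
  obtain ⟨N₁, hN₁⟩ := h1.exists_forall_ge (T₂ / T₁) he1'
  obtain ⟨N₂, hN₂⟩ := h2.exists_forall_ge (T₁ / T₂) he2
  set N := max N₁ N₂ with hN
  have hH1 : (T₁ * e ^ N + T₂ * (1 - e) ^ N) / T₁ - 1 ∈ V₁.nonunits := by
    have e' : (T₁ * e ^ N + T₂ * (1 - e) ^ N) / T₁ - 1 =
        (e ^ N - 1) + T₂ / T₁ * (1 - e) ^ N := by
      field_simp
      ring
    rw [e']
    exact stb_add_mem_nonunits (stb_congr_pow he1 N) (hN₁ N (le_max_left _ _))
  have hH2 : (T₁ * e ^ N + T₂ * (1 - e) ^ N) / T₂ - 1 ∈ V₂.nonunits := by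
    have e' : (T₁ * e ^ N + T₂ * (1 - e) ^ N) / T₂ - 1 =
        T₁ / T₂ * e ^ N + ((1 - e) ^ N - 1) := by
      field_simp
      ring
    rw [e']
    exact stb_add_mem_nonunits (hN₂ N (le_max_right _ _)) (stb_congr_pow he2' N)
  refine ⟨T₁ * e ^ N + T₂ * (1 - e) ^ N, ?_, hH1, hH2⟩
  intro h0
  rw [h0, zero_div, zero_sub] at hH1
  have := stb_neg_mem_nonunits hH1
  rw [neg_neg, stb_mem_nonunits_iff, map_one] at this
  exact lt_irrefl _ this

/-- **Weak approximation** (two valuations), from separating elements `a`, `b`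
(`a ∈ 𝔭₂ ∖ 𝔭₁`, `b ∈ 𝔭₁ ∖ 𝔭₂` in a common subring). -/
theorem stb_weakApprox {a b : F} (ha1 : StbUnit V₁ a) (ha2 : a ∈ V₂.nonunits)
    (hb1 : b ∈ V₁.nonunits) (hb2 : StbUnit V₂ b)
    (h1 : StbArch V₁) (h2 : StbArch V₂) {T₁ T₂ : F} (hT₁ : T₁ ≠ 0) (hT₂ : T₂ ≠ 0) :
    ∃ H : F, H ≠ 0 ∧ H / T₁ - 1 ∈ V₁.nonunits ∧ H / T₂ - 1 ∈ V₂.nonunits :=
  stb_weakApprox_of_idem (stb_idem ha1 ha2 hb1 hb2).1 (stb_idem ha1 ha2 hb1 hb2).2 h1 h2 hT₁ hT₂

/-- **Weak approximation** for two incomparable archimedean valuation subrings. -/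
theorem stb_weakApprox_of_not_le (h12 : ¬ V₁ ≤ V₂) (h21 : ¬ V₂ ≤ V₁)
    (h1 : StbArch V₁) (h2 : StbArch V₂) {T₁ T₂ : F} (hT₁ : T₁ ≠ 0) (hT₂ : T₂ ≠ 0) :
    ∃ H : F, H ≠ 0 ∧ H / T₁ - 1 ∈ V₁.nonunits ∧ H / T₂ - 1 ∈ V₂.nonunits := by
  obtain ⟨a, ha1, ha2⟩ := stb_exists_sep_of_not_le h12
  obtain ⟨b, hb2, hb1⟩ := stb_exists_sep_of_not_le h21
  exact stb_weakApprox ha1 ha2 hb1 hb2 h1 h2 hT₁ hT₂

end Sep

end Fermat.Agent.STB
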