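/-
S35 phase 2, plan STB, piece STB-T "ASSEMBLY" (helper84): the abstract theorem (T″).

Chart setting of `UNIP/AbstractT.lean` (theorem (T′)): `A₀` a DVR (uniformizer `π`), `E = Frac A₀`,
`F / E(t)` finite, charts `B_t`, `B_{t⁻¹}`, vertical valuation rings `V c`, `κ = {c₁, c₂}`.
`Φ : F →+* F` (the square of a Frobenius lift), `Q : ℕ` (`= q²`), `m = p ^ r`.
`y ∈ F^×` TORIC: `y / (tt c) ^ m ≡ 1` at `V c` for global functions `tt c`.

* `stb_branch_unit` : the branch unit `α ∈ O^×`, `α ≡ t / γ` at `V` (from a local factorisation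
  `y = ε γ ^ m` at `O` and normality of the branch).
* `stb_point_one`   : the point datum of `PwiShape … m w′`, `w′ = Φ y / y ^ Q / H ^ m`, at a point `O`
  with ONE component `V` through it, NOT necessarily fixed by `Φ`: uses the local factorisations of
  `y` at `O` and at `O₁` (`= Φ⁻¹ O`, `Φ O₁ ⊆ O`).
* `stb_not_le_of_ne` : two distinct archimedean valuation rings with a common nonunit `≠ 0` are
  incomparable.
* `stb_loc_le`, `stb_loc_inter` : `(B_u)_𝔫 ⊆ V c` for `c` through `𝔫`; local form of (SS1).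
* `stb_main` : **(T″)**, per-point hypotheses in abstract form (`hpoint`).
* `stb_main_points` : **(T″)** with the per-point hypotheses `StbCross` (crossing points, fixed by
  `Φ`, Frobenius on the residue field; `stb_glue_frob` of helper76) / `StbSmooth` (points with one
  component).
-/
import Fermat.Agent.UNIP.AbstractT
import Fermat.Agent.STB.GluingInv
import Fermat.Agent.STB.WeakApprox

set_option autoImplicit false
set_option linter.unusedSectionVars false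
set_option linter.unusedVariables false
set_option linter.style.haveILetI false

namespace Fermat.Agent.STB

open Polynomial IntermediateField Fermat.Agent.INJ Fermat.Agent.UNIP

section Point

variable {F : Type*} [Field F]

/-- normality of the branch `V` of the local ring `O` (hypothesis `hres` of `stb_glue_frob`):
an element of `F` whose `n`-th power is congruent at `V` to a unit of `O` is congruent at `V` to an
element of `O`. -/
def StbRes (O : Subring F) (V : ValuationSubring F) : Prop :=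
  ∀ (a : F) (e : O) (n : ℕ), IsUnit e → 0 < n → a ^ n - (e : F) ∈ V.nonunits →
    ∃ α : O, a - (α : F) ∈ V.nonunits

/-- a local factorisation `y = ε γ ^ m` with `ε ∈ O^×` -/
def StbFacAt (O : Subring F) (m : ℕ) (y : F) : Prop :=
  ∃ (γ : F) (ε : O), IsUnit ε ∧ y = (ε : F) * γ ^ m

/-- **Branch unit.**  `y = ε γ ^ m` at `O`, `y ≡ t ^ m` at `V`, the branch is normal: there is a
unit `α` of `O` with `t / γ ≡ α` at `V`. -/
theorem stb_branch_unit (O : Subring F) [IsLocalRing O] (V : ValuationSubring F)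
    (hOV : ∀ x ∈ O, x ∈ V) (hres : StbRes O V)
    {m : ℕ} (hm : 0 < m) {y γ t : F} (ε : O) (hε : IsUnit ε) (hy : y = (ε : F) * γ ^ m)
    (ht : y / t ^ m - 1 ∈ V.nonunits) :
    ∃ α : O, IsUnit α ∧ t / γ - (α : F) ∈ V.nonunits ∧ V.valuation (α : F) = 1 := by
  have hr0 := stb_ne_zero_of_congr V ht
  have hy0 : y ≠ 0 := fun h => hr0 (by rw [h, zero_div])
  have htm0 : t ^ m ≠ 0 := fun h => hr0 (by rw [h, div_zero])
  have ht0 : t ≠ 0 := fun h => htm0 (by rw [h, zero_pow hm.ne'])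
  have hγ0 : γ ≠ 0 := fun h => hy0 (by rw [hy, h, zero_pow hm.ne', mul_zero])
  have hvε : V.valuation (ε : F) = 1 := stb_val_unit O V hOV hε
  have hε0 : (ε : F) ≠ 0 := fun h => by
    rw [h, map_zero] at hvε
    exact zero_ne_one hvε
  have h_am : (t / γ) ^ m - (ε : F) ∈ V.nonunits := by
    have e : (t / γ) ^ m - (ε : F) = (ε : F) * ((y / t ^ m)⁻¹ - 1) := by
      rw [hy, div_pow]
      field_simp
    rw [e]
    exact pwi_mul_mem_nonunits V (hOV _ ε.2) (stb_congr_inv V ht)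
  obtain ⟨α, hα⟩ := hres (t / γ) ε m hε hm h_am
  have hva : V.valuation (t / γ) = 1 := stb_val_of_pow V hm (stb_val_of_sub V hvε h_am)
  have haV : t / γ ∈ V := (V.valuation_le_one_iff _).1 hva.le
  have hα' : (α : F) - t / γ ∈ V.nonunits := by
    have := V.nonunits.neg_mem hα
    rwa [neg_sub] at this
  have hvα : V.valuation (α : F) = 1 := stb_val_of_sub V hva hα'
  refine ⟨α, ?_, hα, hvα⟩
  by_contra hu
  have h1 : α ∈ IsLocalRing.maximalIdeal O := (IsLocalRing.mem_maximalIdeal _).2 hu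
  have h2 : α ^ m ∈ IsLocalRing.maximalIdeal O := Ideal.pow_mem_of_mem _ h1 m hm
  have h3 : α ^ m - ε ∈ IsLocalRing.maximalIdeal O := by
    apply stb_mem_maximalIdeal_of_nonunits O V hOV
    have e : ((α ^ m - ε : O) : F)
        = ((α : F) ^ m - (t / γ) ^ m) + ((t / γ) ^ m - (ε : F)) := by
      push_cast
      ring
    rw [e]
    exact V.nonunits.add_mem (stb_pow_sub_pow V (hOV _ α.2) haV hα' m) h_am
  have h4 : ε ∈ IsLocalRing.maximalIdeal O := by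
    have := Ideal.sub_mem _ h2 h3
    rwa [sub_sub_cancel] at this
  exact (IsLocalRing.mem_maximalIdeal _).1 h4 hε

/-- **STB-T, point lemma for ONE component.**  `O` the local ring of a closed point with exactly
one vertical valuation `V` through it (`hinter`), `O₁` the local ring of its preimage under `Φ`
(`Φ O₁ ⊆ O`; the point need not be fixed).  `y` has local factorisations at `O` and at `O₁`, and is
toric at `V` (`y ≡ t ^ m`); `H ≡ Φ t / t ^ Q` at `V`.  Then `w′ = Φ y / y ^ Q / H ^ m` has the point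
datum of `PwiShape`: `w′ = ε′ γ′ ^ m`, `ε′ ∈ O`, `ε′ ≡ 1` mod `J`, `γ′ ≡ 1` at `V`. -/
theorem stb_point_one (O O₁ : Subring F) [IsLocalRing O] [IsLocalRing O₁] (J : Ideal O)
    (V : ValuationSubring F) (hOV : ∀ x ∈ O, x ∈ V) (hO₁V : ∀ x ∈ O₁, x ∈ V)
    (hinter : ∀ x : O, (x : F) ∈ V.nonunits → x ∈ J)
    (hres : StbRes O V) (hres₁ : StbRes O₁ V)
    (Φ : F →+* F) (Q : ℕ) (hΦ : ∀ x ∈ V.nonunits, Φ x ∈ V.nonunits)
    (hΦO : ∀ x ∈ O₁, Φ x ∈ O)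
    {m : ℕ} (hm : 0 < m) {y t H : F} (hfac : StbFacAt O m y) (hfac₁ : StbFacAt O₁ m y)
    (ht : y / t ^ m - 1 ∈ V.nonunits) (hH : H / (Φ t / t ^ Q) - 1 ∈ V.nonunits) :
    ∃ ε' γ' : F, ∃ hε' : ε' ∈ O, (⟨ε', hε'⟩ - 1 : O) ∈ J ∧ γ' - 1 ∈ V.nonunits ∧
      Φ y / y ^ Q / H ^ m = ε' * γ' ^ m := by
  obtain ⟨γ, ε, hε, hy⟩ := hfac
  obtain ⟨γ₁, ε₁, hε₁, hy₁⟩ := hfac₁
  obtain ⟨α, hαu, hα, hvα⟩ := stb_branch_unit O V hOV hres hm ε hε hy ht
  obtain ⟨α₁, hα₁u, hα₁, hvα₁⟩ := stb_branch_unit O₁ V hO₁V hres₁ hm ε₁ hε₁ hy₁ ht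
  have hr0 := stb_ne_zero_of_congr V ht
  have hy0 : y ≠ 0 := fun h => hr0 (by rw [h, zero_div])
  have htm0 : t ^ m ≠ 0 := fun h => hr0 (by rw [h, div_zero])
  have ht0 : t ≠ 0 := fun h => htm0 (by rw [h, zero_pow hm.ne'])
  have hγ0 : γ ≠ 0 := fun h => hy0 (by rw [hy, h, zero_pow hm.ne', mul_zero])
  have hγ₁0 : γ₁ ≠ 0 := fun h => hy0 (by rw [hy₁, h, zero_pow hm.ne', mul_zero])
  have hH0' := stb_ne_zero_of_congr V hH
  have hH0 : H ≠ 0 := fun h => hH0' (by rw [h, zero_div])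
  have hΦt0 : Φ t ≠ 0 := (_root_.map_ne_zero Φ).2 ht0
  have hΦγ₁0 : Φ γ₁ ≠ 0 := (_root_.map_ne_zero Φ).2 hγ₁0
  have hα0 : (α : F) ≠ 0 := fun h => by
    rw [h, map_zero] at hvα
    exact zero_ne_one hvα
  have hα₁0 : (α₁ : F) ≠ 0 := fun h => by
    rw [h, map_zero] at hvα₁
    exact zero_ne_one hvα₁
  have hΦα₁0 : Φ (α₁ : F) ≠ 0 := (_root_.map_ne_zero Φ).2 hα₁0
  have hε0 : (ε : F) ≠ 0 := fun h => hy0 (by rw [hy, h, zero_mul])
  have hε₁0 : (ε₁ : F) ≠ 0 := fun h => hy0 (by rw [hy₁, h, zero_mul])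
  -- units
  obtain ⟨uα₁, huα₁⟩ := hα₁u
  obtain ⟨uε, huε⟩ := hε
  have hinvα₁ : (((uα₁⁻¹ : O₁ˣ) : O₁) : F) = (α₁ : F)⁻¹ := by
    rw [stb_coe_inv O₁ uα₁, huα₁]
  have hinvε : (((uε⁻¹ : Oˣ) : O) : F) = (ε : F)⁻¹ := by
    rw [stb_coe_inv O uε, huε]
  -- `Φ α₁` is a unit of `V`
  have hvΦα₁ : V.valuation (Φ (α₁ : F)) = 1 := by
    have h1 : V.valuation (Φ (α₁ : F)) ≤ 1 :=
      (V.valuation_le_one_iff _).2 (hOV _ (hΦO _ α₁.2))
    have h2 : V.valuation (Φ (α₁ : F))⁻¹ ≤ 1 := by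
      have h3 : (Φ (α₁ : F))⁻¹ = Φ (((uα₁⁻¹ : O₁ˣ) : O₁) : F) := by
        rw [hinvα₁, map_inv₀]
      rw [h3]
      exact (V.valuation_le_one_iff _).2 (hOV _ (hΦO _ ((uα₁⁻¹ : O₁ˣ) : O₁).2))
    rw [map_inv₀] at h2
    refine le_antisymm h1 ?_
    by_contra hlt
    rw [not_le] at hlt
    have hne : V.valuation (Φ (α₁ : F)) ≠ 0 := (Valuation.ne_zero_iff _).2 hΦα₁0
    have h4 : (1 : _) < (V.valuation (Φ (α₁ : F)))⁻¹ := by
      rw [one_lt_inv₀ (zero_lt_iff.2 hne)]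
      exact hlt
    exact absurd h2 (not_le.2 h4)
  -- the elements of `O`
  set β : O := α ^ Q * ⟨Φ (((uα₁⁻¹ : O₁ˣ) : O₁) : F), hΦO _ ((uα₁⁻¹ : O₁ˣ) : O₁).2⟩ with hβ
  have hβF : (β : F) = (α : F) ^ Q / Φ (α₁ : F) := by
    rw [hβ]
    push_cast
    rw [hinvα₁, map_inv₀, div_eq_mul_inv]
  have hβ0 : (β : F) ≠ 0 := by
    rw [hβF]
    exact div_ne_zero (pow_ne_zero _ hα0) hΦα₁0
  set ε' : O := ⟨Φ (ε₁ : F), hΦO _ ε₁.2⟩ * ((uε⁻¹ : Oˣ) : O) ^ Q * β ^ m with hε'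
  have hε'F : (ε' : F) = Φ (ε₁ : F) / (ε : F) ^ Q * (β : F) ^ m := by
    rw [hε']
    push_cast
    rw [hinvε, inv_pow, div_eq_mul_inv]
  -- `γ'`
  have hγ' : Φ γ₁ / (γ ^ Q * H) / (β : F) - 1 ∈ V.nonunits := by
    have e : Φ γ₁ / (γ ^ Q * H) / (β : F)
        = (H / (Φ t / t ^ Q))⁻¹ * ((t / γ / (α : F)) ^ Q * (Φ (t / γ₁) / Φ (α₁ : F))⁻¹) := by
      rw [hβF, map_div₀, div_pow, div_pow]
      field_simp
    rw [e]
    refine pwi_congr_mul V (stb_congr_inv V hH) (pwi_congr_mul V ?_ (stb_congr_inv V ?_))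
    · exact pwi_congr_pow V (stb_div_congr V hvα hα) Q
    · apply stb_div_congr V hvΦα₁
      have := hΦ _ hα₁
      rwa [map_sub] at this
  have hw : Φ y / y ^ Q / H ^ m = (ε' : F) * (Φ γ₁ / (γ ^ Q * H) / (β : F)) ^ m := by
    have e1 : Φ y = Φ (ε₁ : F) * Φ γ₁ ^ m := by rw [hy₁, map_mul, map_pow]
    have e2 : y ^ Q = (ε : F) ^ Q * (γ ^ Q) ^ m := by
      rw [hy, mul_pow, ← pow_mul, ← pow_mul, mul_comm m Q]
    rw [hε'F, e1, e2, div_pow, div_pow, mul_pow]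
    field_simp
  refine ⟨ε', Φ γ₁ / (γ ^ Q * H) / (β : F), ε'.2, hinter _ ?_, hγ', hw⟩
  -- `ε' ≡ 1` at `V`
  have hvert := stb_vertical V Φ hΦ Q m ht hH
  have hγm := pwi_congr_pow V hγ' m
  have hγm0 := stb_ne_zero_of_congr V hγm
  have e : (((⟨(ε' : F), ε'.2⟩ - 1 : O) : O) : F)
      = Φ y / y ^ Q / H ^ m / (Φ γ₁ / (γ ^ Q * H) / (β : F)) ^ m - 1 := by
    rw [hw]
    push_cast
    field_simp
  rw [e]
  exact stb_congr_div V hvert hγm

/-- `V₁ ≤ V₂`, `V₁` archimedean, `V₂ ≠ F` (it has a nonzero nonunit) ⇒ `V₂ ≤ V₁`. -/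
theorem stb_le_of_le_of_arch {V₁ V₂ : ValuationSubring F} (h1 : StbArch V₁) {ϖ : F}
    (hϖ0 : ϖ ≠ 0) (hϖ₂ : ϖ ∈ V₂.nonunits) (hle : V₁ ≤ V₂) : V₂ ≤ V₁ := by
  intro x hx
  by_contra hx1
  have hx0 : x ≠ 0 := fun h => hx1 (by rw [h]; exact V₁.zero_mem)
  -- `x⁻¹ ∈ 𝔪(V₁)`
  have hxinv : x⁻¹ ∈ V₁.nonunits := by
    rw [ValuationSubring.mem_nonunits_iff, map_inv₀]
    have h2 : ¬ V₁.valuation x ≤ 1 := fun h => hx1 ((V₁.valuation_le_one_iff x).1 h)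
    rw [not_le] at h2
    have hne : V₁.valuation x ≠ 0 := (Valuation.ne_zero_iff _).2 hx0
    exact (inv_lt_one₀ (zero_lt_iff.2 hne)).2 h2
  obtain ⟨N, hN⟩ := h1 ϖ⁻¹ x⁻¹ hxinv
  have h3 : ϖ⁻¹ * x⁻¹ ^ N ∈ V₂ := hle (stb_nonunits_subset hN)
  have h4 : ϖ⁻¹ ∈ V₂ := by
    have e : ϖ⁻¹ = ϖ⁻¹ * x⁻¹ ^ N * x ^ N := by
      rw [inv_pow]
      field_simp
    rw [e]
    exact V₂.mul_mem _ _ h3 (V₂.pow_mem hx N)
  rw [ValuationSubring.mem_nonunits_iff] at hϖ₂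
  have h5 : V₂.valuation ϖ⁻¹ ≤ 1 := (V₂.valuation_le_one_iff _).2 h4
  rw [map_inv₀] at h5
  have hne : V₂.valuation ϖ ≠ 0 := (Valuation.ne_zero_iff _).2 hϖ0
  have h6 : (1 : _) < (V₂.valuation ϖ)⁻¹ := by
    rw [one_lt_inv₀ (zero_lt_iff.2 hne)]
    exact hϖ₂
  exact absurd h5 (not_le.2 h6)

/-- Two distinct archimedean valuation rings of `F` having a common nonzero nonunit are
incomparable. -/
theorem stb_not_le_of_ne {V₁ V₂ : ValuationSubring F} (h1 : StbArch V₁) {ϖ : F} (hϖ0 : ϖ ≠ 0)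
    (hϖ₂ : ϖ ∈ V₂.nonunits) (hne : V₁ ≠ V₂) : ¬ V₁ ≤ V₂ := fun hle =>
  hne (le_antisymm hle (stb_le_of_le_of_arch h1 hϖ0 hϖ₂ hle))

end Point

section Chart

variable {A₀ E F : Type*} [CommRing A₀] [IsDomain A₀] [IsDiscreteValuationRing A₀]
  [Field E] [Algebra A₀ E] [IsFractionRing A₀ E] [CharZero E]
  [Field F] [Algebra E F] [Algebra A₀ F] [IsScalarTower A₀ E F]
  {π : A₀} {κ : Type*}

/-- `(B_u)_𝔫 ⊆ W` if the component `W` passes through `𝔫`. -/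
theorem stb_loc_le {u : F} (𝔫 : AtPt (F := F) π u) (W : ValuationSubring F)
    (hBW : ∀ b : F, IsIntegral ↥(Algebra.adjoin A₀ {u}) b → b ∈ W)
    (hthr : atThrough 𝔫 W) : ∀ x ∈ atLoc 𝔫, x ∈ W := by
  rintro x ⟨b, s, hs, hsx⟩
  have hsW : (s : F) ∈ W := hBW _ (mem_zchClosure.mp s.2)
  have hbW : (b : F) ∈ W := hBW _ (mem_zchClosure.mp b.2)
  have hs1 : W.valuation (s : F) = 1 :=
    ats_valuation_eq_one W hsW fun h => hs (hthr s h)
  have h := congrArg W.valuation hsx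
  rw [map_mul] at h
  have hs1' : W.valuation (algebraMap ↥(zchClosure (A₀ := A₀) ({u} : Set F)) F s) = 1 := hs1
  rw [hs1', one_mul] at h
  rw [← W.valuation_le_one_iff, h]
  exact (W.valuation_le_one_iff _).2 hbW

/-- **Local form of (SS1).**  An element of `(B_u)_𝔫` lying in `𝔪(V c)` for all components `c`
through `𝔫` lies in `π (B_u)_𝔫`. -/
theorem stb_loc_inter (hπ0 : algebraMap A₀ F π ≠ 0) [Finite κ] {u : F}
    (V : κ → ValuationSubring F)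
    (hBV : ∀ c (b : F), IsIntegral ↥(Algebra.adjoin A₀ {u}) b → b ∈ V c)
    (hSS1 : ∀ b : F, IsIntegral ↥(Algebra.adjoin A₀ {u}) b → (∀ c, b ∈ (V c).nonunits) →
      ∃ b' : F, IsIntegral ↥(Algebra.adjoin A₀ {u}) b' ∧ b = algebraMap A₀ F π * b')
    (𝔫 : AtPt (F := F) π u) (x : atLoc 𝔫)
    (hx : ∀ c, atThrough 𝔫 (V c) → (x : F) ∈ (V c).nonunits) : x ∈ atLocIdeal 𝔫 := by
  classical
  haveI : Fintype κ := Fintype.ofFinite κ
  haveI := 𝔫.2.1.isPrime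
  obtain ⟨b, s, hs, hsx⟩ := x.2
  have hcov : ∀ c, ¬ atThrough 𝔫 (V c) →
      ∃ d : ↥(zchClosure (A₀ := A₀) ({u} : Set F)), d ∉ 𝔫.1 ∧ (d : F) ∈ (V c).nonunits :=
    fun c hc => ats_cov (V c) 𝔫.1 hc
  choose! f hf using hcov
  set S : Finset κ := Finset.univ.filter (fun c => ¬ atThrough 𝔫 (V c)) with hS
  set d : ↥(zchClosure (A₀ := A₀) ({u} : Set F)) := ∏ c ∈ S, f c with hd
  have hd𝔫 : d ∉ 𝔫.1 := by
    intro h
    obtain ⟨c, hc, hfc⟩ := (Ideal.IsPrime.prod_mem_iff).mp h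
    exact (hf c (Finset.mem_filter.mp hc).2).1 hfc
  have hmemV : ∀ c (z : ↥(zchClosure (A₀ := A₀) ({u} : Set F))), (z : F) ∈ V c := fun c z =>
    hBV c _ (mem_zchClosure.mp z.2)
  have hsxF : (s : F) * (x : F) = (b : F) := hsx
  have hall : ∀ c, ((d * b : ↥(zchClosure (A₀ := A₀) ({u} : Set F))) : F) ∈ (V c).nonunits := by
    intro c
    by_cases hc : atThrough 𝔫 (V c)
    · have h1 : (b : F) ∈ (V c).nonunits := by
        rw [← hsxF]
        exact pwi_mul_mem_nonunits (V c) (hmemV c s) (hx c hc)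
      show (d : F) * (b : F) ∈ (V c).nonunits
      exact pwi_mul_mem_nonunits (V c) (hmemV c d) h1
    · have hcS : c ∈ S := Finset.mem_filter.mpr ⟨Finset.mem_univ c, hc⟩
      have e : d * b = (∏ c' ∈ S.erase c, f c') * b * f c := by
        rw [hd, ← Finset.mul_prod_erase S f hcS]
        ring
      rw [e]
      show ((((∏ c' ∈ S.erase c, f c') * b : ↥(zchClosure (A₀ := A₀) ({u} : Set F))) : F)) *
        (f c : F) ∈ (V c).nonunits
      exact pwi_mul_mem_nonunits (V c) (hmemV c _) (hf c hc).2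
  obtain ⟨b', hb', hbb'⟩ := hSS1 _ (mem_zchClosure.mp (d * b).2) hall
  refine (ls_mem_localIdeal 𝔫.1 _).mpr ⟨(x : F) / algebraMap A₀ F π, ?_, ?_⟩
  · refine ⟨⟨b', mem_zchClosure.mpr hb'⟩, d * s, fun h => ?_, ?_⟩
    · rcases (inferInstance : 𝔫.1.IsPrime).mem_or_mem h with h' | h'
      · exact hd𝔫 h'
      · exact hs h'
    · show algebraMap ↥(zchClosure (A₀ := A₀) ({u} : Set F)) F (d * s) *
          ((x : F) / algebraMap A₀ F π) = b'
      have e : algebraMap ↥(zchClosure (A₀ := A₀) ({u} : Set F)) F (d * s) = (d : F) * (s : F) :=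
        rfl
      have e2 : ((d * b : ↥(zchClosure (A₀ := A₀) ({u} : Set F))) : F) = (d : F) * (b : F) := rfl
      rw [e2] at hbb'
      rw [e, mul_div_assoc', mul_assoc, hsxF, hbb']
      field_simp
  · show (x : F) = algebraMap A₀ F π * ((x : F) / algebraMap A₀ F π)
    field_simp

/-- the local rings `atO π t i` are local -/
theorem stb_atO_isLocalRing (t : F) (i : AtPt (F := F) π t ⊕ AtPt (F := F) π t⁻¹) :
    IsLocalRing (atO π t i) := by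
  rcases i with 𝔫 | 𝔫
  · haveI := 𝔫.2.1.isPrime
    exact ls_localSubring_isLocalRing Subtype.val_injective 𝔫.1
  · haveI := 𝔫.2.1.isPrime
    exact ls_localSubring_isLocalRing Subtype.val_injective 𝔫.1

/-- `atO π t i ⊆ V c` for the components through `i` -/
theorem stb_atO_le {t : F} (V : κ → ValuationSubring F)
    (hBV₁ : ∀ c (b : F), IsIntegral ↥(Algebra.adjoin A₀ {t}) b → b ∈ V c)
    (hBV₂ : ∀ c (b : F), IsIntegral ↥(Algebra.adjoin A₀ {t⁻¹}) b → b ∈ V c)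
    (i : AtPt (F := F) π t ⊕ AtPt (F := F) π t⁻¹) (c : κ) (hc : atInc π t V i c) :
    ∀ x ∈ atO π t i, x ∈ V c := by
  rcases i with 𝔫 | 𝔫
  · exact stb_loc_le 𝔫 (V c) (hBV₁ c) hc
  · exact stb_loc_le 𝔫 (V c) (hBV₂ c) hc

/-- local form of (SS1) at the points `i` -/
theorem stb_atO_inter (hπ : Irreducible π) {t : F} (ht : Transcendental E t)
    [FiniteDimensional E⟮t⟯ F] [Finite κ] (V : κ → ValuationSubring F)
    (hBV₁ : ∀ c (b : F), IsIntegral ↥(Algebra.adjoin A₀ {t}) b → b ∈ V c)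
    (hBV₂ : ∀ c (b : F), IsIntegral ↥(Algebra.adjoin A₀ {t⁻¹}) b → b ∈ V c)
    (hSS1 : ∀ b : F, IsIntegral ↥(Algebra.adjoin A₀ {t}) b → (∀ c, b ∈ (V c).nonunits) →
      ∃ b' : F, IsIntegral ↥(Algebra.adjoin A₀ {t}) b' ∧ b = algebraMap A₀ F π * b')
    (i : AtPt (F := F) π t ⊕ AtPt (F := F) π t⁻¹) (x : atO π t i)
    (hx : ∀ c, atInc π t V i c → (x : F) ∈ (V c).nonunits) : x ∈ atJ π t i := by
  have hπ0 : algebraMap A₀ F π ≠ 0 :=
    (map_ne_zero_iff _ (zch_algebraMap_injective (A₀ := A₀) (E := E) (L := F))).mpr hπ.ne_zero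
  rcases i with 𝔫 | 𝔫
  · exact stb_loc_inter hπ0 V hBV₁ hSS1 𝔫 x hx
  · exact stb_loc_inter hπ0 V hBV₂ (ats_SS1_inv ht hπ V hBV₁ hSS1) 𝔫 x hx

end Chart

section Main

variable {A₀ E F : Type*} [CommRing A₀] [IsDomain A₀] [IsDiscreteValuationRing A₀]
  [Field E] [Algebra A₀ E] [IsFractionRing A₀ E] [CharZero E]
  [Field F] [Algebra E F] [Algebra A₀ F] [IsScalarTower A₀ E F]
  {π : A₀} {κ : Type*}

/-- **(T″), abstract per-point form.**  Chart setting of (T′) with two components `V c₁ ≠ V c₂`;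
`Φ : F →+* F` preserving `𝔪(V c)`; `y` toric (`y ≡ (tt c) ^ (p ^ r)` at `V c`).  If for every `H`
with `H ≡ Φ (tt c) / (tt c) ^ Q` at `V c` the function `w′ = Φ y / y ^ Q / H ^ (p ^ r)` has the point
datum of `PwiShape` at every closed point (`hpoint`; see `stb_point_one`, `stb_glue_frob`), then
`Φ y / y ^ Q` is a `p ^ r`-th power in `F`. -/
theorem stb_main (hπ : Irreducible π) {t : F} (ht : Transcendental E t)
    [FiniteDimensional E⟮t⟯ F]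
    (hcl : ∀ x : F, IsAlgebraic E x → x ∈ (algebraMap E F).range)
    {p : ℕ} (hp : p.Prime) (hpu : IsUnit (p : A₀)) {ζ : A₀} (hζ : IsPrimitiveRoot ζ p)
    (hunit : ∀ a : A₀, IsUnit a → ∃ d : A₀, d ^ p = a)
    [Finite κ] (V : κ → ValuationSubring F) (c₁ c₂ : κ) (hκ : ∀ c, c = c₁ ∨ c = c₂)
    (hne : V c₁ ≠ V c₂)
    (hBV₁ : ∀ c (b : F), IsIntegral ↥(Algebra.adjoin A₀ {t}) b → b ∈ V c)
    (hBV₂ : ∀ c (b : F), IsIntegral ↥(Algebra.adjoin A₀ {t⁻¹}) b → b ∈ V c)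
    (hπV : ∀ c, algebraMap A₀ F π ∈ (V c).nonunits)
    (hSS1 : ∀ b : F, IsIntegral ↥(Algebra.adjoin A₀ {t}) b → (∀ c, b ∈ (V c).nonunits) →
      ∃ b' : F, IsIntegral ↥(Algebra.adjoin A₀ {t}) b' ∧ b = algebraMap A₀ F π * b')
    (harch : ∀ c (a x : F), a ∈ (V c).nonunits → ∃ N : ℕ, a ^ N * x ∈ (V c).nonunits)
    (Φ : F →+* F) (hΦV : ∀ c, ∀ x ∈ (V c).nonunits, Φ x ∈ (V c).nonunits) (Q r : ℕ)
    {y : F} (tt : κ → F) (htoric : ∀ c, y / tt c ^ (p ^ r) - 1 ∈ (V c).nonunits)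
    (hpoint : ∀ H : F, (∀ c, H / (Φ (tt c) / tt c ^ Q) - 1 ∈ (V c).nonunits) →
      ∀ i, ∃ ε' γ' : F, ∃ hε' : ε' ∈ atO π t i, (⟨ε', hε'⟩ - 1 : atO π t i) ∈ atJ π t i ∧
        (∀ c, atInc π t V i c → γ' - 1 ∈ (V c).nonunits) ∧
        Φ y / y ^ Q / H ^ (p ^ r) = ε' * γ' ^ (p ^ r)) :
    ∃ h : F, h ^ (p ^ r) = Φ y / y ^ Q := by
  have hm : 0 < p ^ r := pow_pos hp.pos r
  have hπ0 : algebraMap A₀ F π ≠ 0 :=
    (map_ne_zero_iff _ (zch_algebraMap_injective (A₀ := A₀) (E := E) (L := F))).mpr hπ.ne_zero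
  have htt0 : ∀ c, tt c ≠ 0 := by
    intro c h
    have h1 := stb_ne_zero_of_congr (V c) (htoric c)
    rw [h, zero_pow hm.ne', div_zero] at h1
    exact h1 rfl
  have hT0 : ∀ c, Φ (tt c) / tt c ^ Q ≠ 0 := fun c =>
    div_ne_zero ((_root_.map_ne_zero Φ).2 (htt0 c)) (pow_ne_zero _ (htt0 c))
  have hA : ∀ c, StbArch (V c) := by
    intro c x z hz
    obtain ⟨N, hN⟩ := harch c z x hz
    exact ⟨N, by rwa [mul_comm] at hN⟩
  have h12 : ¬ V c₁ ≤ V c₂ := stb_not_le_of_ne (hA c₁) hπ0 (hπV c₂) hne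
  have h21 : ¬ V c₂ ≤ V c₁ := stb_not_le_of_ne (hA c₂) hπ0 (hπV c₁) hne.symm
  obtain ⟨H, hH0, hH1, hH2⟩ :=
    stb_weakApprox_of_not_le h12 h21 (hA c₁) (hA c₂) (hT0 c₁) (hT0 c₂)
  have hH : ∀ c, H / (Φ (tt c) / tt c ^ Q) - 1 ∈ (V c).nonunits := by
    intro c
    rcases hκ c with rfl | rfl
    · exact hH1
    · exact hH2
  have hshape : PwiShape V (atO π t) (atJ π t) (atInc π t V) (p ^ r)
      (Φ y / y ^ Q / H ^ (p ^ r)) :=
    ⟨fun c => stb_vertical (V c) Φ (hΦV c) Q (p ^ r) (htoric c) (hH c), hpoint H hH⟩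
  obtain ⟨h, hh⟩ := at_pow_of_shape hπ ht hcl hp hpu hζ hunit V hBV₁ hBV₂ hπV hSS1 harch
    (at_hconn_two hπ ht hcl V hBV₁ hBV₂ hπV hSS1 c₁ c₂ hκ) r _ hshape
  refine ⟨h * H, ?_⟩
  rw [mul_pow, hh]
  field_simp

/-- the hypotheses at a CROSSING point `O` (both components through it, `Φ O ⊆ O`, `Φ` induces
the `Q`-power map on the residue field): those of `stb_glue_frob`. -/
def StbCross (O : Subring F) (V₁ V₂ : ValuationSubring F) (Φ : F →+* F) (Q m : ℕ) (y : F) :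
    Prop :=
  (∀ x : O, ¬ IsUnit x → ∃ a b : O, (a : F) ∈ V₁.nonunits ∧ (b : F) ∈ V₂.nonunits ∧ x = a + b) ∧
  StbRes O V₁ ∧ StbRes O V₂ ∧
  (∀ x : O, ∃ z : O, ¬ IsUnit z ∧ (z : F) = Φ (x : F) - (x : F) ^ Q) ∧
  StbFacAt O m y

/-- the hypotheses at a point `O` with ONE component `V` through it; `O₁` is the local ring of the
preimage of the point under `Φ`. -/
def StbSmooth (O O₁ : Subring F) (V : ValuationSubring F) (Φ : F →+* F) (m : ℕ) (y : F) : Prop :=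
  (∀ x ∈ O₁, Φ x ∈ O) ∧ StbRes O V ∧ StbRes O₁ V ∧ StbFacAt O m y ∧ StbFacAt O₁ m y

/-- **(T″).**  As `stb_main`, with the per-point hypotheses: every closed point `i` of the special
fibre is either a crossing point (`StbCross`) or has exactly one component `c` through it and a
preimage `i₁` under `Φ` on the same component (`StbSmooth`). -/
theorem stb_main_points (hπ : Irreducible π) {t : F} (ht : Transcendental E t)
    [FiniteDimensional E⟮t⟯ F]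
    (hcl : ∀ x : F, IsAlgebraic E x → x ∈ (algebraMap E F).range)
    {p : ℕ} (hp : p.Prime) (hpu : IsUnit (p : A₀)) {ζ : A₀} (hζ : IsPrimitiveRoot ζ p)
    (hunit : ∀ a : A₀, IsUnit a → ∃ d : A₀, d ^ p = a)
    [Finite κ] (V : κ → ValuationSubring F) (c₁ c₂ : κ) (hκ : ∀ c, c = c₁ ∨ c = c₂)
    (hne : V c₁ ≠ V c₂)
    (hBV₁ : ∀ c (b : F), IsIntegral ↥(Algebra.adjoin A₀ {t}) b → b ∈ V c)
    (hBV₂ : ∀ c (b : F), IsIntegral ↥(Algebra.adjoin A₀ {t⁻¹}) b → b ∈ V c)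
    (hπV : ∀ c, algebraMap A₀ F π ∈ (V c).nonunits)
    (hSS1 : ∀ b : F, IsIntegral ↥(Algebra.adjoin A₀ {t}) b → (∀ c, b ∈ (V c).nonunits) →
      ∃ b' : F, IsIntegral ↥(Algebra.adjoin A₀ {t}) b' ∧ b = algebraMap A₀ F π * b')
    (harch : ∀ c (a x : F), a ∈ (V c).nonunits → ∃ N : ℕ, a ^ N * x ∈ (V c).nonunits)
    (Φ : F →+* F) (hΦV : ∀ c, ∀ x ∈ (V c).nonunits, Φ x ∈ (V c).nonunits) (Q r : ℕ)
    {y : F} (tt : κ → F) (htoric : ∀ c, y / tt c ^ (p ^ r) - 1 ∈ (V c).nonunits)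
    (hpts : ∀ i : AtPt (F := F) π t ⊕ AtPt (F := F) π t⁻¹,
      (atInc π t V i c₁ ∧ atInc π t V i c₂ ∧
        StbCross (atO π t i) (V c₁) (V c₂) Φ Q (p ^ r) y) ∨
      (∃ c, atInc π t V i c ∧ (∀ c', atInc π t V i c' → c' = c) ∧
        ∃ i₁ : AtPt (F := F) π t ⊕ AtPt (F := F) π t⁻¹, atInc π t V i₁ c ∧
          StbSmooth (atO π t i) (atO π t i₁) (V c) Φ (p ^ r) y)) :
    ∃ h : F, h ^ (p ^ r) = Φ y / y ^ Q := by
  have hm : 0 < p ^ r := pow_pos hp.pos r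
  refine stb_main hπ ht hcl hp hpu hζ hunit V c₁ c₂ hκ hne hBV₁ hBV₂ hπV hSS1 harch Φ hΦV Q r
    tt htoric ?_
  intro H hH i
  haveI := stb_atO_isLocalRing (π := π) t i
  rcases hpts i with ⟨hi1, hi2, hsum, hres1, hres2, hfrob, γ, ε, hε, hy⟩ |
    ⟨c, hc, honly, i₁, hi₁, hΦO, hres, hres₁, hfac, hfac₁⟩
  · obtain ⟨ε', γ', hε', hJ, hγ1, hγ2, hw⟩ := stb_glue_frob (atO π t i) (atJ π t i) (V c₁) (V c₂)
      (stb_atO_le V hBV₁ hBV₂ i c₁ hi1) (stb_atO_le V hBV₁ hBV₂ i c₂ hi2)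
      (fun x h1 h2 => stb_atO_inter hπ ht V hBV₁ hBV₂ hSS1 i x (fun c _ => by
        rcases hκ c with rfl | rfl
        · exact h1
        · exact h2))
      (fun x hx => hsum x ((IsLocalRing.mem_maximalIdeal _).1 hx))
      hres1 hres2 Φ Q (hΦV c₁) (hΦV c₂)
      (fun x => by
        obtain ⟨z, hz, hzx⟩ := hfrob x
        exact ⟨z, (IsLocalRing.mem_maximalIdeal _).2 hz, hzx⟩)
      hm ε hε hy (htoric c₁) (htoric c₂) (hH c₁) (hH c₂)
    refine ⟨ε', γ', hε', hJ, fun c _ => ?_, hw⟩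
    rcases hκ c with rfl | rfl
    · exact hγ1
    · exact hγ2
  · haveI := stb_atO_isLocalRing (π := π) t i₁
    obtain ⟨ε', γ', hε', hJ, hγ, hw⟩ := stb_point_one (atO π t i) (atO π t i₁) (atJ π t i) (V c)
      (stb_atO_le V hBV₁ hBV₂ i c hc) (stb_atO_le V hBV₁ hBV₂ i₁ c hi₁)
      (fun x hx => stb_atO_inter hπ ht V hBV₁ hBV₂ hSS1 i x (fun c' hc' => by
        rw [honly c' hc']
        exact hx))
      hres hres₁ Φ Q (hΦV c) hΦO hm hfac hfac₁ (htoric c) (hH c)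
    refine ⟨ε', γ', hε', hJ, fun c' hc' => ?_, hw⟩
    rw [honly c' hc']
    exact hγ

end Main

end Fermat.Agent.STB
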