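import Fermat.Agent.STB.ToricPack
import Fermat.Agent.UNIP.MGVertInertia

/-!
# STB-MG-t in the concrete setting: `htor₁`, `htor₂` of `StbdInputs`, and `htoric`

The toric transfer for the two vertical valuations `mgvV hπ ιC hq hqM c` of `F_{Mq}(K₀)`
(`K₀ ⊆ ℚ̄` with `A ∩ K₀` a discrete valuation ring), and for `K₀ = mgcE A K₁`:

* `stb_mgt_htor₁`, `stb_mgt_htor₂` (and `…_mgc`: VERBATIM the fields `htor₁`, `htor₂` of
  `StbdInputs`);
* `stb_mgt_htoric_mgv` : `htoric` of `stb_main_points` for `V = mgvV hπ ιC hq hqM`;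
* `stb_mgt_pack_mgv` : `htoric` from the hypotheses of piece (A) (`stb_a_exists_toric_kummer`).
-/

set_option autoImplicit false
set_option linter.unusedSectionVars false
set_option linter.style.haveILetI false

noncomputable section

namespace Fermat.Agent.STB

open ModularCurve AlgebraicCurve Fermat.Agent.INJ Fermat.Agent.ES Fermat.Agent.ES.G2
  Fermat.Agent.UNIP

section Mgv

variable {A : ValuationSubring Qb} {K₀ : IntermediateField ℚ Qb}
  [IsDiscreteValuationRing ↥(beta0Ring A K₀)] {π : ↥(beta0Ring A K₀)} (hπ : Irreducible π)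
  (ιC : ↥K₀ →+* ℂ) {q M : ℕ} [NeZero q] [NeZero M] [NeZero (M * q)]
  (hq : q.Prime) (hqM : ¬ q ∣ M)

/-- **toric transfer at `∞`** -/
theorem stb_mgt_htor₁ (x₀ : ↥(modularFunctionFieldFullC ↥K₀ (M * q)))
    (hx : ReducesToOne A (M * q) (nfEmb K₀ (M * q) x₀)) :
    x₀ - 1 ∈ (mgvV hπ ιC hq hqM true).nonunits :=
  stb_mgt_inf_beta0 (vtBase_residue hπ) (M * q) hx

/-- **toric transfer at `0`** -/
theorem stb_mgt_htor₂ (x₀ : ↥(modularFunctionFieldFullC ↥K₀ (M * q)))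
    (hx : ReducesToOne A (M * q) (atkinLehnerBar hq hqM (nfEmb K₀ (M * q) x₀))) :
    x₀ - 1 ∈ (mgvV hπ ιC hq hqM false).nonunits :=
  stb_mgt_zero_beta0 (vtBase_residue hπ) ιC hq hqM hx

/-- **`htoric`** of `stb_main_points` for `V = mgvV hπ ιC hq hqM`. -/
theorem stb_mgt_htoric_mgv {y₀ : ↥(modularFunctionFieldFullC ↥K₀ (M * q))}
    (tt : Bool → ↥(modularFunctionFieldFullC ↥K₀ (M * q))) (m : ℕ)
    (k1 : ReducesToOne A (M * q)
      (nfEmb K₀ (M * q) y₀ / nfEmb K₀ (M * q) (tt true) ^ m))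
    (k2 : ReducesToOne A (M * q)
      (atkinLehnerBar hq hqM (nfEmb K₀ (M * q) y₀ / nfEmb K₀ (M * q) (tt false) ^ m))) :
    ∀ c : Bool, y₀ / tt c ^ m - 1 ∈ (mgvV hπ ιC hq hqM c).nonunits :=
  stb_mgt_htoric_beta0 (vtBase_residue hπ) ιC hq hqM tt m k1 k2

end Mgv

section Mgc

variable {A : ValuationSubring Qb} {K₁ : IntermediateField ℚ Qb} {M₁ q : ℕ} [NeZero M₁] [NeZero q]
  [NeZero (M₁ * q)]
  [IsDiscreteValuationRing ↥(mgcA A K₁)] {π : ↥(mgcA A K₁)} (hπ : Irreducible π)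
  (ιC : ↥(mgcE A K₁) →+* ℂ) (hq : q.Prime) (hqM : ¬ q ∣ M₁)

/-- the field `htor₁` of `StbdInputs` -/
theorem stb_mgt_htor₁_mgc : ∀ x₀ : ↥(mgcF A K₁ (M₁ * q)),
    ReducesToOne A (M₁ * q) (nfEmb (mgcE A K₁) (M₁ * q) x₀) →
    x₀ - 1 ∈ (mgvV hπ ιC hq hqM true).nonunits :=
  stb_mgt_htor₁ hπ ιC hq hqM

/-- the field `htor₂` of `StbdInputs` -/
theorem stb_mgt_htor₂_mgc : ∀ x₀ : ↥(mgcF A K₁ (M₁ * q)),
    ReducesToOne A (M₁ * q)
      (Fermat.Agent.UNIP.atkinLehnerBar hq hqM (nfEmb (mgcE A K₁) (M₁ * q) x₀)) →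
    x₀ - 1 ∈ (mgvV hπ ιC hq hqM false).nonunits :=
  stb_mgt_htor₂ hπ ιC hq hqM

end Mgc

section Pack

variable {q M : ℕ} [NeZero q] [NeZero M] [NeZero (M * q)] (hq : q.Prime) (hqM : ¬ q ∣ M)

/-- **STB-MG-t, pack**, for the vertical valuations `mgvV`: with the hypotheses of piece (A)
there is a number field `K₀` such that over every `E′ ⊇ K₀` with `A ∩ E′` discrete there are
toric factors `tt c ∈ F_{Mq}(E′)^×` with `y₀ / tt c ^ m ≡ 1` at `mgvV … c` for every descent `y₀`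
of `y = τ² u / u`. -/
theorem stb_mgt_pack_mgv (A : ValuationSubring Qb) (τ : Qb ≃ₐ[ℚ] Qb)
    (hτ : A.IsFrobeniusAt τ q) (hK : StmtKronQAt hq hqM A τ)
    {u : modularFunctionFieldBar (M * q)} (hu : u ≠ 0) (m : ℕ) (hm : m ≠ 0)
    (h1 : ∃ (c : Qb) (f : modularFunctionFieldBar M),
      stbNormAlpha M q u = algebraMap Qb (modularFunctionFieldBar M) c * f ^ m)
    (h2 : ∃ (c : Qb) (f : modularFunctionFieldBar M),
      stbNormBeta M q u = algebraMap Qb (modularFunctionFieldBar M) c * f ^ m) :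
    ∃ K₀ : IntermediateField ℚ Qb, FiniteDimensional ℚ K₀ ∧
      ∀ E' : IntermediateField ℚ Qb, K₀ ≤ E' →
        ∃ tt : Bool → modularFunctionFieldFullC ↥E' (M * q), (∀ c, tt c ≠ 0) ∧
          ∀ [IsDiscreteValuationRing ↥(beta0Ring A E')] {π' : ↥(beta0Ring A E')}
            (hπ : Irreducible π') (ιC : ↥E' →+* ℂ)
            (y₀ : modularFunctionFieldFullC ↥E' (M * q)),
              nfEmb E' (M * q) y₀ =
                (arithmeticGalois (modularFunctionFieldFull (M * q)) τ •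
                  arithmeticGalois (modularFunctionFieldFull (M * q)) τ • u) / u →
              ∀ c : Bool, y₀ / tt c ^ m - 1 ∈ (mgvV hπ ιC hq hqM c).nonunits := by
  obtain ⟨K₀, hK₀, h⟩ := stb_mgt_pack_beta0 hq hqM A τ hτ hK hu m hm h1 h2
  refine ⟨K₀, hK₀, fun E' hE => ?_⟩
  obtain ⟨tt, htt, h'⟩ := h E' hE
  exact ⟨tt, htt, fun hπ ιC y₀ hy => h' (vtBase_residue hπ) ιC y₀ hy⟩

end Pack

end Fermat.Agent.STB
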