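import Fermat.Agent.STB.ToricTransferCore
import Fermat.Agent.UNIP.MGVert
import Fermat.Agent.UNIP.Cheap
import Fermat.Agent.UNIP.Beta0Pkg
import Fermat.Agent.INJ.NFEmb
import Fermat.Agent.ES.G2.Plan

/-!
# STB-MG-t: the toric transfer

`A` a valuation subring of `ℚ̄`, `E′` an intermediate field of `ℚ̄ / ℚ`, `hB : VtBase ι r π` a
discrete base with fraction field `E′`, compatible with `A`:

* `(c1)` `ι a ∈ A`;   `(c2)` `ι a ∈ 𝔪_A → r a = 0`

(for `A₀ = beta0Ring A E′ = A ∩ E′`, `ι = algebraMap`, `r = residue`: `stb_mgt_c1`, `stb_mgt_c2`).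

* `stb_mgt_inf`  (t∞) : `ReducesToOne A N (nfEmb E′ N x₀) → x₀ - 1 ∈ 𝔪(vtInf hB N)`;
* `stb_mgt_zero` (t0) : `ReducesToOne A (M q) (w_q (nfEmb E′ (M q) x₀)) → x₀ - 1 ∈ 𝔪(vtFam … false)`;
* `stb_mgt_fam`       : both, as a statement on `vtFam hB ιC hq hqM c`, `c : Bool`;
* `stb_mgt_htoric`    : the hypothesis `htoric` of `stb_main_points`.
-/

set_option autoImplicit false
set_option linter.unusedSectionVars false
set_option linter.style.haveILetI false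

noncomputable section

namespace Fermat.Agent.STB

open ModularCurve Fermat.Agent.INJ Fermat.Agent.ES Fermat.Agent.ES.G2 Fermat.Agent.UNIP

section Transfer

variable {A₀ k : Type*} [CommRing A₀] [Field k] {E' : IntermediateField ℚ Qb}
  {ι : A₀ →+* ↥E'} {r : A₀ →+* k} {π : A₀} (hB : VtBase ι r π) (A : ValuationSubring Qb)

/-- **(t∞)**  `x₀ ∈ F_N(E′)` reduces to one at `A` ⇒ `x₀ ≡ 1` at the vertical valuation `V_∞`. -/
theorem stb_mgt_inf (h1 : ∀ a, algebraMap ↥E' Qb (ι a) ∈ A)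
    (h2 : ∀ a, algebraMap ↥E' Qb (ι a) ∈ A.nonunits → r a = 0)
    (N : ℕ) [NeZero N] {x₀ : modularFunctionFieldFullC ↥E' N}
    (hx : ReducesToOne A N (nfEmb E' N x₀)) :
    x₀ - 1 ∈ (vtInf hB N).nonunits := by
  obtain ⟨y₁, y₂, -, -, hy₁, hy₂, hc, hxy⟩ := hx
  rw [vtInf, vtSub_mem_nonunits_iff]
  exact stb_mgt_core (ψ := algebraMap ↥E' Qb) hB h1 h2 (vt_frac_fullC hB N x₀.2) hy₁ hy₂ hc hxy

variable (ιC : ↥E' →+* ℂ) {q M : ℕ} [NeZero q] [NeZero M] [NeZero (M * q)]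
  (hq : q.Prime) (hqM : ¬ q ∣ M)

/-- `w_q` over `ℚ̄` of the image of `x₀ ∈ F_{Mq}(E′)` is the image of `w_q x₀`. -/
theorem stb_mgt_atkinLehnerBar_nfEmb (x₀ : modularFunctionFieldFullC ↥E' (M * q)) :
    ((atkinLehnerBar hq hqM (nfEmb E' (M * q) x₀) : modularFunctionFieldBar (M * q)) :
        LaurentSeries Qb) =
      coeffMap (algebraMap ↥E' Qb)
        ((Fermat.Agent.AL.atkinLehner ↥E' ιC hq hqM x₀ : modularFunctionFieldFullC ↥E' (M * q)) :
          LaurentSeries ↥E') := by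
  rw [atkinLehnerBar_coe]
  have e : (⟨((nfEmb E' (M * q) x₀ : modularFunctionFieldBar (M * q)) : LaurentSeries Qb),
      cheap_mem_fullC (nfEmb E' (M * q) x₀).2⟩ : modularFunctionFieldFullC Qb (M * q)) =
      mgaCoeffHom (algebraMap ↥E' Qb) (M * q) x₀ := Subtype.ext rfl
  rw [e, vt_atkinLehner_coeffHom (algebraMap ↥E' Qb) ιC cheapIota hq hqM x₀, mgaCoeffHom_coe]

/-- `w_q` commutes with `nfEmb`. -/
theorem stb_mgt_atkinLehnerBar_nfEmb' (x₀ : modularFunctionFieldFullC ↥E' (M * q)) :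
    atkinLehnerBar hq hqM (nfEmb E' (M * q) x₀) =
      nfEmb E' (M * q) (Fermat.Agent.AL.atkinLehner ↥E' ιC hq hqM x₀) :=
  Subtype.ext (stb_mgt_atkinLehnerBar_nfEmb ιC hq hqM x₀)

/-- **(t0)**  `w_q x₀` reduces to one at `A` ⇒ `x₀ ≡ 1` at the vertical valuation `V_0`. -/
theorem stb_mgt_zero (h1 : ∀ a, algebraMap ↥E' Qb (ι a) ∈ A)
    (h2 : ∀ a, algebraMap ↥E' Qb (ι a) ∈ A.nonunits → r a = 0)
    {x₀ : modularFunctionFieldFullC ↥E' (M * q)}
    (hx : ReducesToOne A (M * q) (atkinLehnerBar hq hqM (nfEmb E' (M * q) x₀))) :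
    x₀ - 1 ∈ (vtFam hB ιC hq hqM false).nonunits := by
  obtain ⟨y₁, y₂, -, -, hy₁, hy₂, hc, hxy⟩ := hx
  rw [stb_mgt_atkinLehnerBar_nfEmb ιC hq hqM x₀] at hxy
  rw [vtFam_mem_nonunits_iff]
  have hfr : VtFrac ι ((Fermat.Agent.AL.atkinLehner ↥E' ιC hq hqM x₀ :
      modularFunctionFieldFullC ↥E' (M * q)) : LaurentSeries ↥E') :=
    vt_frac_fullC hB (M * q) (Fermat.Agent.AL.atkinLehner ↥E' ιC hq hqM x₀).2
  have key := stb_mgt_core (ψ := algebraMap ↥E' Qb) hB h1 h2 hfr hy₁ hy₂ hc hxy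
  have e : vtEmbFam ιC hq hqM false (x₀ - 1) =
      ((Fermat.Agent.AL.atkinLehner ↥E' ιC hq hqM x₀ : modularFunctionFieldFullC ↥E' (M * q)) :
        LaurentSeries ↥E') - 1 := by
    rw [map_sub, map_one]
    rfl
  obtain ⟨h, h0⟩ := key
  refine ⟨by rw [e]; exact h, ?_⟩
  have e' : (⟨vtEmbFam ιC hq hqM false (x₀ - 1), by rw [e]; exact h⟩ : gaussRing ι r) =
      ⟨_, h⟩ := Subtype.ext e
  rw [e']
  exact h0

/-- **(t∞)** in the family. -/
theorem stb_mgt_true (h1 : ∀ a, algebraMap ↥E' Qb (ι a) ∈ A)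
    (h2 : ∀ a, algebraMap ↥E' Qb (ι a) ∈ A.nonunits → r a = 0)
    {x₀ : modularFunctionFieldFullC ↥E' (M * q)}
    (hx : ReducesToOne A (M * q) (nfEmb E' (M * q) x₀)) :
    x₀ - 1 ∈ (vtFam hB ιC hq hqM true).nonunits :=
  stb_mgt_inf hB A h1 h2 (M * q) hx

/-- **(t∞) and (t0) together**: the transfer at the cusp `c`, `w c = id` (`c = true`) or
`w c = w_q` (`c = false`). -/
theorem stb_mgt_fam (h1 : ∀ a, algebraMap ↥E' Qb (ι a) ∈ A)
    (h2 : ∀ a, algebraMap ↥E' Qb (ι a) ∈ A.nonunits → r a = 0)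
    {x₀ : modularFunctionFieldFullC ↥E' (M * q)} (c : Bool)
    (hx : ReducesToOne A (M * q)
      (bif c then nfEmb E' (M * q) x₀ else atkinLehnerBar hq hqM (nfEmb E' (M * q) x₀))) :
    x₀ - 1 ∈ (vtFam hB ιC hq hqM c).nonunits := by
  cases c
  · exact stb_mgt_zero hB A ιC hq hqM h1 h2 hx
  · exact stb_mgt_true hB A ιC hq hqM h1 h2 hx

/-- **The hypothesis `htoric` of `stb_main_points`** from the toric factors over `ℚ̄`
(`stb_a_exists_toric_kummer`), for descents `y₀, tt true, tt false ∈ F_{Mq}(E′)` of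
`y, t, t′ ∈ F_{Mq}(ℚ̄)`. -/
theorem stb_mgt_htoric (h1 : ∀ a, algebraMap ↥E' Qb (ι a) ∈ A)
    (h2 : ∀ a, algebraMap ↥E' Qb (ι a) ∈ A.nonunits → r a = 0)
    {y₀ : modularFunctionFieldFullC ↥E' (M * q)}
    (tt : Bool → modularFunctionFieldFullC ↥E' (M * q)) (m : ℕ)
    (k1 : ReducesToOne A (M * q)
      (nfEmb E' (M * q) y₀ / nfEmb E' (M * q) (tt true) ^ m))
    (k2 : ReducesToOne A (M * q)
      (atkinLehnerBar hq hqM (nfEmb E' (M * q) y₀ / nfEmb E' (M * q) (tt false) ^ m))) :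
    ∀ c : Bool, y₀ / tt c ^ m - 1 ∈ (vtFam hB ιC hq hqM c).nonunits := by
  intro c
  cases c
  · refine stb_mgt_zero hB A ιC hq hqM h1 h2 ?_
    rw [map_div₀, map_pow]
    exact k2
  · refine stb_mgt_true hB A ιC hq hqM h1 h2 ?_
    rw [map_div₀, map_pow]
    exact k1

/-- `stb_mgt_htoric` with the elements over `ℚ̄` named. -/
theorem stb_mgt_htoric_of_eq (h1 : ∀ a, algebraMap ↥E' Qb (ι a) ∈ A)
    (h2 : ∀ a, algebraMap ↥E' Qb (ι a) ∈ A.nonunits → r a = 0)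
    {y t t' : modularFunctionFieldBar (M * q)}
    {y₀ t₀ t₀' : modularFunctionFieldFullC ↥E' (M * q)}
    (hy : nfEmb E' (M * q) y₀ = y) (ht : nfEmb E' (M * q) t₀ = t)
    (ht' : nfEmb E' (M * q) t₀' = t') (m : ℕ)
    (k1 : ReducesToOne A (M * q) (y / t ^ m))
    (k2 : ReducesToOne A (M * q) (atkinLehnerBar hq hqM (y / t' ^ m))) :
    ∀ c : Bool, y₀ / (bif c then t₀ else t₀') ^ m - 1 ∈ (vtFam hB ιC hq hqM c).nonunits :=
  stb_mgt_htoric hB A ιC hq hqM h1 h2 (fun c => bif c then t₀ else t₀') m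
    (by rw [hy]; show ReducesToOne A (M * q) (y / nfEmb E' (M * q) t₀ ^ m); rw [ht]; exact k1)
    (by rw [hy]; show ReducesToOne A (M * q)
          (atkinLehnerBar hq hqM (y / nfEmb E' (M * q) t₀' ^ m)); rw [ht']; exact k2)

end Transfer

/-! ### The base `A ∩ E′` -/

section Beta0

variable (A : ValuationSubring Qb) (E' : IntermediateField ℚ Qb)

/-- `(c1)` for the base `A ∩ E′`. -/
theorem stb_mgt_c1 (a : ↥(beta0Ring A E')) :
    algebraMap ↥E' Qb (algebraMap ↥(beta0Ring A E') ↥E' a) ∈ A := a.2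

/-- `(c2)` for the base `A ∩ E′`. -/
theorem stb_mgt_c2 (a : ↥(beta0Ring A E'))
    (h : algebraMap ↥E' Qb (algebraMap ↥(beta0Ring A E') ↥E' a) ∈ A.nonunits) :
    IsLocalRing.residue ↥(beta0Ring A E') a = 0 :=
  (IsLocalRing.residue_eq_zero_iff a).2 ((beta0Ring_mem_maximalIdeal_iff a).2 h)

variable {A E'} {π' : ↥(beta0Ring A E')}
  (hB : VtBase (algebraMap ↥(beta0Ring A E') ↥E') (IsLocalRing.residue ↥(beta0Ring A E')) π')

/-- **(t∞)** for the base `A ∩ E′`. -/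
theorem stb_mgt_inf_beta0 (N : ℕ) [NeZero N] {x₀ : modularFunctionFieldFullC ↥E' N}
    (hx : ReducesToOne A N (nfEmb E' N x₀)) :
    x₀ - 1 ∈ (vtInf hB N).nonunits :=
  stb_mgt_inf hB A (stb_mgt_c1 A E') (stb_mgt_c2 A E') N hx

variable (ιC : ↥E' →+* ℂ) {q M : ℕ} [NeZero q] [NeZero M] [NeZero (M * q)]
  (hq : q.Prime) (hqM : ¬ q ∣ M)

/-- **(t0)** for the base `A ∩ E′`. -/
theorem stb_mgt_zero_beta0 {x₀ : modularFunctionFieldFullC ↥E' (M * q)}
    (hx : ReducesToOne A (M * q) (atkinLehnerBar hq hqM (nfEmb E' (M * q) x₀))) :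
    x₀ - 1 ∈ (vtFam hB ιC hq hqM false).nonunits :=
  stb_mgt_zero hB A ιC hq hqM (stb_mgt_c1 A E') (stb_mgt_c2 A E') hx

/-- **`htoric`** for the base `A ∩ E′`. -/
theorem stb_mgt_htoric_beta0 {y₀ : modularFunctionFieldFullC ↥E' (M * q)}
    (tt : Bool → modularFunctionFieldFullC ↥E' (M * q)) (m : ℕ)
    (k1 : ReducesToOne A (M * q)
      (nfEmb E' (M * q) y₀ / nfEmb E' (M * q) (tt true) ^ m))
    (k2 : ReducesToOne A (M * q)
      (atkinLehnerBar hq hqM (nfEmb E' (M * q) y₀ / nfEmb E' (M * q) (tt false) ^ m))) :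
    ∀ c : Bool, y₀ / tt c ^ m - 1 ∈ (vtFam hB ιC hq hqM c).nonunits :=
  stb_mgt_htoric hB A ιC hq hqM (stb_mgt_c1 A E') (stb_mgt_c2 A E') tt m k1 k2

end Beta0

/-! ### Descent of the toric factors -/

section Descent

/-- Two elements of `F_N(ℚ̄)` descend to `F_N(E′)` for every `E′` containing a suitable number
field. -/
theorem stb_mgt_exists_descent (N : ℕ) (t t' : modularFunctionFieldBar N) :
    ∃ K₀ : IntermediateField ℚ Qb, FiniteDimensional ℚ K₀ ∧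
      ∀ E' : IntermediateField ℚ Qb, K₀ ≤ E' →
        ∃ t₀ t₀' : modularFunctionFieldFullC ↥E' N,
          nfEmb E' N t₀ = t ∧ nfEmb E' N t₀' = t' := by
  classical
  obtain ⟨K₀, hK₀, -, hK⟩ := nf_exists_descent_finset (N := N) ∅
    ({(t : LaurentSeries Qb), (t' : LaurentSeries Qb)} : Finset (LaurentSeries Qb))
    (by
      intro y hy
      rw [Finset.mem_insert, Finset.mem_singleton] at hy
      rcases hy with rfl | rfl
      · exact t.2
      · exact t'.2)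
  refine ⟨K₀, hK₀, fun E' hE => ?_⟩
  obtain ⟨t₀, ht₀, e⟩ := hK E' hE (t : LaurentSeries Qb)
    (by rw [Finset.mem_insert]; exact Or.inl rfl)
  obtain ⟨t₀', ht₀', e'⟩ := hK E' hE (t' : LaurentSeries Qb)
    (by rw [Finset.mem_insert, Finset.mem_singleton]; exact Or.inr rfl)
  exact ⟨⟨t₀, ht₀⟩, ⟨t₀', ht₀'⟩, Subtype.ext e, Subtype.ext e'⟩

end Descent

end Fermat.Agent.STB
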