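/-
STB (S35, phase 2 of item 34), piece STB-G part 2 (helper76): the hypotheses (N) = `hres`,
(S) = `hsum`, (SS1-loc) = `hinter`, (Fr) = `hfrob` of `stb_glue_frob` for the local ring
`O = ls_localSubring 𝔫` of a chart `B`, from chart data.

* `stb_gc_dvd` (pure algebra, Mathlib only): `B` noetherian, primes `𝔭 ≤ 𝔫`, `𝔫` generated
  by `𝔭` and ONE element `Y` locally at `𝔫`.  Then `(B/𝔭)_𝔫` is a valuation ring, hence:
  `b ^ n e₂ ≡ e₁ s ^ n mod 𝔭` with `s ∉ 𝔭`, `e₁, e₂ ∉ 𝔫`, `0 < n` ⇒ `∃ u ∉ 𝔫, ∃ c, u b ≡ c s mod 𝔭`.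
* `stb_gc_res` **(N)** : `V` a valuation ring through `𝔫` with `V = B_𝔭` (`hVloc`):
  `a ^ n ≡ e` at `V`, `e ∈ O^×`, `0 < n` ⇒ `∃ α ∈ O, a ≡ α` at `V`.
  `stb_gc_res_unit` : the same with `α⁻¹ ∈ O`.
  `stb_gc_gen_node`, `stb_gc_gen_node'`, `stb_gc_gen_disc` : the hypothesis `hgen` from
  `NodesLocGen 𝔫 {ϖ, X, Y}` (`X ∈ 𝔭` resp. `Y ∈ 𝔭`) resp. `NodesLocGen 𝔫 {ϖ, s}`.
* `stb_gc_sum` **(S)** , `stb_gc_inter` **(SS1-loc)**, `stb_gc_frob` **(Fr)**.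
* `stb_glue_frob_chart` : `stb_glue_frob` at a crossing point of a chart.
-/
import Mathlib
import Fermat.Agent.STB.GluingInv
import Fermat.Agent.UNIP.LocalShape
import Fermat.Agent.UNIP.NodesMain

set_option autoImplicit false
set_option linter.unusedSectionVars false

namespace Fermat.Agent.STB

open Fermat.Agent.UNIP

section Algebra

variable {B : Type*} [CommRing B]

/-- **Branch is a valuation ring.**  `B` noetherian, `𝔭 ≤ 𝔫` primes, `𝔫 = 𝔭 + (Y)` locally at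
`𝔫`.  If `b ^ n e₂ ≡ e₁ s ^ n mod 𝔭` with `s ∉ 𝔭`, `e₁, e₂ ∉ 𝔫`, `0 < n`, then `s` divides `b`
in `(B/𝔭)_𝔫`: `u b ≡ c s mod 𝔭` for some `u ∉ 𝔫`. -/
theorem stb_gc_dvd [IsNoetherianRing B] (𝔭 𝔫 : Ideal B) [h𝔭 : 𝔭.IsPrime] [h𝔫 : 𝔫.IsPrime]
    (h𝔭𝔫 : 𝔭 ≤ 𝔫) (Y : B) (hY : Y ∈ 𝔫)
    (hgen : ∀ b ∈ 𝔫, ∃ u : B, u ∉ 𝔫 ∧ ∃ c : B, u * b - c * Y ∈ 𝔭)
    {b s e₁ e₂ : B} {n : ℕ} (hn : 0 < n) (hs : s ∉ 𝔭) (he₁ : e₁ ∉ 𝔫) (he₂ : e₂ ∉ 𝔫)
    (h : b ^ n * e₂ - e₁ * s ^ n ∈ 𝔭) :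
    ∃ u c : B, u ∉ 𝔫 ∧ u * b - c * s ∈ 𝔭 := by
  classical
  -- the branch `R = B / 𝔭` and its prime `𝔫̄`
  let R := B ⧸ 𝔭
  let mk : B →+* R := Ideal.Quotient.mk 𝔭
  have hmk : Function.Surjective mk := Ideal.Quotient.mk_surjective
  let 𝔫' : Ideal R := 𝔫.map mk
  have hmem : ∀ x : B, mk x ∈ 𝔫' ↔ x ∈ 𝔫 := fun x => Ideal.mem_quotient_iff_mem h𝔭𝔫
  have h𝔫' : 𝔫'.IsPrime :=
    Ideal.map_isPrime_of_surjective hmk (by rw [Ideal.mk_ker]; exact h𝔭𝔫)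
  let S := Localization.AtPrime 𝔫'
  have hinjS : Function.Injective (algebraMap R S) :=
    IsLocalization.injective S (Ideal.primeCompl_le_nonZeroDivisors 𝔫')
  have : IsDomain S := IsLocalization.isDomain_localization (Ideal.primeCompl_le_nonZeroDivisors 𝔫')
  have : IsNoetherianRing S := IsLocalization.isNoetherianRing 𝔫'.primeCompl S inferInstance
  have hunit : ∀ x : B, x ∉ 𝔫 → IsUnit (algebraMap R S (mk x)) := fun x hx =>
    (IsLocalization.AtPrime.isUnit_to_map_iff S 𝔫' (mk x)).2 (fun h => hx ((hmem x).1 h))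
  -- the maximal ideal of `S` is generated by the image of `Y`
  have hprinc : (IsLocalRing.maximalIdeal S).IsPrincipal := by
    refine ⟨⟨algebraMap R S (mk Y), ?_⟩⟩
    apply le_antisymm
    · intro x hx
      obtain ⟨r, t, rfl⟩ := IsLocalization.exists_mk'_eq 𝔫'.primeCompl x
      have hr : r ∈ 𝔫' := by
        have h1 : algebraMap R S r ∈ IsLocalRing.maximalIdeal S := by
          have h2 : algebraMap R S r = IsLocalization.mk' S r t * algebraMap R S t := by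
            rw [IsLocalization.mk'_spec]
          rw [h2]
          exact Ideal.mul_mem_right _ _ hx
        exact (IsLocalization.AtPrime.to_map_mem_maximal_iff S 𝔫' r).1 h1
      obtain ⟨b₀, rfl⟩ := hmk r
      have hb₀ : b₀ ∈ 𝔫 := (hmem b₀).1 hr
      obtain ⟨u, hu, c, huc⟩ := hgen b₀ hb₀
      have e1 : mk u * mk b₀ = mk c * mk Y := by
        rw [← map_mul, ← map_mul, ← sub_eq_zero, ← map_sub]
        exact Ideal.Quotient.eq_zero_iff_mem.2 huc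
      obtain ⟨v, hv⟩ := hunit u hu
      have e2 : algebraMap R S (mk b₀) = ((v⁻¹ : Sˣ) : S) * algebraMap R S (mk c)
          * algebraMap R S (mk Y) := by
        have e3 : (v : S) * algebraMap R S (mk b₀) = algebraMap R S (mk c) * algebraMap R S (mk Y) := by
          rw [hv, ← map_mul, e1, map_mul]
        rw [mul_assoc, ← e3, ← mul_assoc, Units.inv_mul, one_mul]
      rw [Submodule.mem_span_singleton]
      obtain ⟨w, hw⟩ := IsLocalization.map_units S t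
      refine ⟨((w⁻¹ : Sˣ) : S) * (((v⁻¹ : Sˣ) : S) * algebraMap R S (mk c)), ?_⟩
      have e4 : IsLocalization.mk' S (mk b₀) t = ((w⁻¹ : Sˣ) : S) * algebraMap R S (mk b₀) := by
        rw [IsLocalization.mk'_eq_iff_eq_mul, mul_comm _ (algebraMap R S (t : R)), ← hw,
          ← mul_assoc, Units.mul_inv, one_mul]
      rw [e4, e2, smul_eq_mul]
      ring
    · rw [Submodule.span_le, Set.singleton_subset_iff]
      exact (IsLocalization.AtPrime.to_map_mem_maximal_iff S 𝔫' (mk Y)).2 ((hmem Y).2 hY)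
  have hval : ValuationRing S :=
    ((tfae_of_isNoetherianRing_of_isLocalRing_of_isDomain S).out 4 1).1 hprinc
  -- the images of `b`, `s`
  set b' : S := algebraMap R S (mk b) with hb'
  set s' : S := algebraMap R S (mk s) with hs'
  have hs'0 : s' ≠ 0 := by
    intro h0
    have h1 : mk s = 0 := hinjS (by rw [← hs', h0, map_zero])
    exact hs (Ideal.Quotient.eq_zero_iff_mem.1 h1)
  obtain ⟨v₁, hv₁⟩ := hunit e₁ he₁
  obtain ⟨v₂, hv₂⟩ := hunit e₂ he₂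
  have hrel : b' ^ n * (v₂ : S) = (v₁ : S) * s' ^ n := by
    rw [hv₁, hv₂, hb', hs', ← map_pow, ← map_pow, ← map_mul, ← map_mul, ← map_pow, ← map_pow,
      ← map_mul, ← map_mul]
    congr 1
    rw [← sub_eq_zero, ← map_sub]
    exact Ideal.Quotient.eq_zero_iff_mem.2 h
  have hdvd : s' ∣ b' := by
    rcases ValuationRing.dvd_total s' b' with h1 | ⟨x, hx⟩
    · exact h1
    · -- `s' = b' x`: then `x` is a unit
      have hb'0 : b' ≠ 0 := fun h0 => hs'0 (by rw [hx, h0, zero_mul])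
      have e1 : b' ^ n * (v₂ : S) = b' ^ n * ((v₁ : S) * x ^ n) := by
        rw [hrel, hx, mul_pow]; ring
      have e2 : (v₂ : S) = (v₁ : S) * x ^ n := mul_left_cancel₀ (pow_ne_zero n hb'0) e1
      have hxn : IsUnit (x ^ n) := by
        have e3 : x ^ n = ((v₁⁻¹ : Sˣ) : S) * (v₂ : S) := by
          rw [e2, ← mul_assoc, Units.inv_mul, one_mul]
        rw [e3]
        exact ((v₁⁻¹ * v₂ : Sˣ)).isUnit
      have hxu : IsUnit x := (isUnit_pow_iff hn.ne').1 hxn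
      obtain ⟨xu, rfl⟩ := hxu
      refine ⟨((xu⁻¹ : Sˣ) : S), ?_⟩
      rw [hx, mul_assoc, Units.mul_inv, mul_one]
  obtain ⟨x, hx⟩ := hdvd
  obtain ⟨r, t, rfl⟩ := IsLocalization.exists_mk'_eq 𝔫'.primeCompl x
  obtain ⟨c, rfl⟩ := hmk r
  obtain ⟨u, hu⟩ := hmk (t : R)
  have hu𝔫 : u ∉ 𝔫 := fun h0 => t.2 (by rw [← hu]; exact (hmem u).2 h0)
  refine ⟨u, c, hu𝔫, ?_⟩
  apply Ideal.Quotient.eq_zero_iff_mem.1
  apply hinjS
  rw [map_zero, map_sub, map_sub, map_mul, map_mul, map_mul, map_mul, sub_eq_zero, hu]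
  show algebraMap R S (t : R) * b' = algebraMap R S (mk c) * s'
  rw [hx]
  have e5 : algebraMap R S (t : R) * IsLocalization.mk' S (mk c) t = algebraMap R S (mk c) := by
    rw [mul_comm, IsLocalization.mk'_spec]
  rw [mul_comm s', ← mul_assoc, e5]

end Algebra

section Chart

variable {F : Type*} [Field F] {B : Type*} [CommRing B] [Algebra B F]

/-- a nonzero-valued element of `V` outside `𝔪(V)` has valuation `1` -/
theorem stb_gc_val_eq_one (V : ValuationSubring F) {x : F} (hx : x ∈ V)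
    (hx' : x ∉ V.nonunits) : V.valuation x = 1 :=
  le_antisymm ((V.valuation_le_one_iff x).2 hx)
    (not_lt.1 fun h => hx' ((ValuationSubring.mem_nonunits_iff V).2 h))

/-- the vertical prime `𝔪(V) ∩ B` of a chart `B ⊆ V` -/
def stbGcVert (V : ValuationSubring F) (hBV : ∀ b : B, algebraMap B F b ∈ V) : Ideal B where
  carrier := {b | algebraMap B F b ∈ V.nonunits}
  add_mem' := fun {a b} ha hb => by
    show algebraMap B F (a + b) ∈ V.nonunits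
    rw [map_add]
    exact V.nonunits.add_mem ha hb
  zero_mem' := by
    show algebraMap B F 0 ∈ V.nonunits
    rw [map_zero]
    exact V.nonunits.zero_mem
  smul_mem' := fun c x hx => by
    show algebraMap B F (c * x) ∈ V.nonunits
    rw [map_mul]
    exact pwi_mul_mem_nonunits V (hBV c) hx

theorem stb_gc_mem_vert (V : ValuationSubring F) (hBV : ∀ b : B, algebraMap B F b ∈ V) {b : B} :
    b ∈ stbGcVert V hBV ↔ algebraMap B F b ∈ V.nonunits := Iff.rfl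

theorem stb_gc_vert_isPrime (V : ValuationSubring F) (hBV : ∀ b : B, algebraMap B F b ∈ V) :
    (stbGcVert V hBV).IsPrime := by
  refine ⟨fun h => ?_, fun {x y} hxy => ?_⟩
  · have h1 : (1 : B) ∈ stbGcVert V hBV := by rw [h]; exact Submodule.mem_top
    rw [stb_gc_mem_vert, map_one, ValuationSubring.mem_nonunits_iff, map_one] at h1
    exact lt_irrefl _ h1
  · by_contra hcon
    rw [not_or] at hcon
    have hx := stb_gc_val_eq_one V (hBV x) hcon.1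
    have hy := stb_gc_val_eq_one V (hBV y) hcon.2
    rw [stb_gc_mem_vert, map_mul, ValuationSubring.mem_nonunits_iff, map_mul, hx, hy,
      one_mul] at hxy
    exact lt_irrefl _ hxy

variable (hinj : Function.Injective (algebraMap B F)) (𝔫 : Ideal B) [h𝔫 : 𝔫.IsPrime]

include hinj in
theorem stb_gc_algebraMap_ne_zero {s : B} (hs : s ∉ 𝔫) : algebraMap B F s ≠ 0 := fun h0 =>
  hs (by rw [hinj (h0.trans (map_zero _).symm)]; exact 𝔫.zero_mem)

/-- `B_𝔫 ⊆ V` if `B ⊆ V` and `V` goes through `𝔫`. -/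
theorem stb_gc_le (V : ValuationSubring F) (hBV : ∀ b : B, algebraMap B F b ∈ V)
    (hthrough : ∀ b : B, algebraMap B F b ∈ V.nonunits → b ∈ 𝔫) :
    ∀ x ∈ ls_localSubring (F := F) 𝔫, x ∈ V := by
  rintro x ⟨b, s, hs, hx⟩
  have hvs : V.valuation (algebraMap B F s) = 1 :=
    stb_gc_val_eq_one V (hBV s) (fun h => hs (hthrough s h))
  have hs0 : algebraMap B F s ≠ 0 := fun h0 => by
    rw [h0, map_zero] at hvs
    exact zero_ne_one hvs
  have e : x = algebraMap B F b * (algebraMap B F s)⁻¹ := by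
    rw [← hx]; field_simp
  rw [e, ← V.valuation_le_one_iff, map_mul, map_inv₀, hvs, inv_one, mul_one]
  exact (V.valuation_le_one_iff _).2 (hBV b)

include hinj in
/-- the numerator of a unit of `B_𝔫` is not in `𝔫` -/
theorem stb_gc_num_not_mem {e : ls_localSubring (F := F) 𝔫} (he : IsUnit e) {e₁ e₂ : B}
    (he₂ : e₂ ∉ 𝔫) (h : algebraMap B F e₂ * (e : F) = algebraMap B F e₁) : e₁ ∉ 𝔫 := by
  intro he₁
  obtain ⟨u, rfl⟩ := he
  obtain ⟨f₁, f₂, hf₂, hf⟩ := ((u⁻¹ : (ls_localSubring (F := F) 𝔫)ˣ) :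
    ls_localSubring (F := F) 𝔫).2
  rw [stb_coe_inv] at hf
  have hu0 : ((u : ls_localSubring (F := F) 𝔫) : F) ≠ 0 := by
    intro h0
    have h1 : ((u : ls_localSubring (F := F) 𝔫) : F) *
        (((u⁻¹ : (ls_localSubring (F := F) 𝔫)ˣ) : ls_localSubring (F := F) 𝔫) : F) = 1 := by
      rw [← Subring.coe_mul, Units.mul_inv, Subring.coe_one]
    rw [h0, zero_mul] at h1
    exact zero_ne_one h1
  have e1 : algebraMap B F (e₁ * f₁) = algebraMap B F (e₂ * f₂) := by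
    rw [map_mul, map_mul, ← h, ← hf]
    field_simp
  have e2 : e₂ * f₂ ∈ 𝔫 := by
    rw [← hinj e1]
    exact 𝔫.mul_mem_right _ he₁
  rcases h𝔫.mem_or_mem e2 with h' | h'
  · exact he₂ h'
  · exact hf₂ h'

include hinj in
/-- **(N), chart form.**  `V` a valuation ring through the prime `𝔫` of the noetherian chart `B`,
`V = B_𝔭` (`hVloc`), `𝔫 = 𝔭 + (Y)` locally at `𝔫` (`hgen`).  An element `a` of `F` with
`a ^ n ≡ e` at `V`, `e` a unit of `B_𝔫`, `0 < n`, is congruent at `V` to an element of `B_𝔫`. -/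
theorem stb_gc_res [IsNoetherianRing B] (V : ValuationSubring F)
    (hBV : ∀ b : B, algebraMap B F b ∈ V)
    (hthrough : ∀ b : B, algebraMap B F b ∈ V.nonunits → b ∈ 𝔫)
    (hVloc : ∀ x : F, x ∈ V → ∃ b s : B, algebraMap B F s ∉ V.nonunits ∧
      algebraMap B F s * x = algebraMap B F b)
    (Y : B) (hY : Y ∈ 𝔫)
    (hgen : ∀ b ∈ 𝔫, ∃ u : B, u ∉ 𝔫 ∧ ∃ c : B, algebraMap B F (u * b - c * Y) ∈ V.nonunits)
    (a : F) (e : ls_localSubring (F := F) 𝔫) (n : ℕ) (he : IsUnit e) (hn : 0 < n)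
    (h : a ^ n - (e : F) ∈ V.nonunits) :
    ∃ α : ls_localSubring (F := F) 𝔫, a - (α : F) ∈ V.nonunits := by
  have := stb_gc_vert_isPrime V hBV
  have hOV := stb_gc_le 𝔫 V hBV hthrough
  obtain ⟨e₁, e₂, he₂, hee⟩ := e.2
  have he₁ : e₁ ∉ 𝔫 := stb_gc_num_not_mem hinj 𝔫 he he₂ hee
  -- `e` is a unit of `V`
  have hve : V.valuation (e : F) = 1 := by
    obtain ⟨u, rfl⟩ := he
    have h1 : ((u : ls_localSubring (F := F) 𝔫) : F) *
        (((u⁻¹ : (ls_localSubring (F := F) 𝔫)ˣ) : ls_localSubring (F := F) 𝔫) : F) = 1 := by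
      rw [← Subring.coe_mul, Units.mul_inv, Subring.coe_one]
    have h2 := (V.valuation_le_one_iff _).2 (hOV _ (u : ls_localSubring (F := F) 𝔫).2)
    have h3 := (V.valuation_le_one_iff _).2
      (hOV _ ((u⁻¹ : (ls_localSubring (F := F) 𝔫)ˣ) : ls_localSubring (F := F) 𝔫).2)
    have h4 := congrArg V.valuation h1
    rw [map_mul, map_one] at h4
    refine le_antisymm h2 (not_lt.1 fun hlt => ?_)
    have : V.valuation ((u : ls_localSubring (F := F) 𝔫) : F) *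
        V.valuation (((u⁻¹ : (ls_localSubring (F := F) 𝔫)ˣ) :
          ls_localSubring (F := F) 𝔫) : F) < 1 := mul_lt_one_of_lt_of_le hlt h3
    rw [h4] at this
    exact lt_irrefl _ this
  have hva : V.valuation a = 1 := stb_val_of_pow V hn (stb_val_of_sub V hve h)
  have haV : a ∈ V := (V.valuation_le_one_iff _).1 hva.le
  obtain ⟨b, s, hs, hsa⟩ := hVloc a haV
  have hvs : V.valuation (algebraMap B F s) = 1 := stb_gc_val_eq_one V (hBV s) hs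
  have hs0 : algebraMap B F s ≠ 0 := fun h0 => by
    rw [h0, map_zero] at hvs
    exact zero_ne_one hvs
  have he₂0 : algebraMap B F e₂ ≠ 0 := stb_gc_algebraMap_ne_zero hinj 𝔫 he₂
  have hrel : b ^ n * e₂ - e₁ * s ^ n ∈ stbGcVert V hBV := by
    rw [stb_gc_mem_vert]
    have e : algebraMap B F (b ^ n * e₂ - e₁ * s ^ n)
        = algebraMap B F (s ^ n * e₂) * (a ^ n - (e : F)) := by
      rw [map_sub, map_mul, map_mul, map_pow, map_pow, map_mul, map_pow, ← hsa, ← hee]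
      ring
    rw [e]
    exact pwi_mul_mem_nonunits V (hBV _) h
  obtain ⟨u, c, hu, huc⟩ := stb_gc_dvd (stbGcVert V hBV) 𝔫 (fun x hx => hthrough x hx) Y hY
    (fun b hb => by
      obtain ⟨u, hu, c, hc⟩ := hgen b hb
      exact ⟨u, hu, c, hc⟩) hn hs he₁ he₂ hrel
  have hu0 : algebraMap B F u ≠ 0 := stb_gc_algebraMap_ne_zero hinj 𝔫 hu
  have hvu : V.valuation (algebraMap B F u) = 1 :=
    stb_gc_val_eq_one V (hBV u) (fun h => hu (hthrough u h))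
  refine ⟨⟨algebraMap B F c / algebraMap B F u, ⟨c, u, hu, by field_simp⟩⟩, ?_⟩
  show a - algebraMap B F c / algebraMap B F u ∈ V.nonunits
  have e : a - algebraMap B F c / algebraMap B F u
      = (algebraMap B F s * algebraMap B F u)⁻¹ * algebraMap B F (u * b - c * s) := by
    rw [map_sub, map_mul, map_mul, ← hsa]
    field_simp
  rw [e]
  refine pwi_mul_mem_nonunits V ?_ huc
  rw [← V.valuation_le_one_iff, map_inv₀, map_mul, hvs, hvu, one_mul, inv_one]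

include hinj in
/-- **(N), chart form, with a unit.** -/
theorem stb_gc_res_unit [IsNoetherianRing B] (V : ValuationSubring F)
    (hBV : ∀ b : B, algebraMap B F b ∈ V)
    (hthrough : ∀ b : B, algebraMap B F b ∈ V.nonunits → b ∈ 𝔫)
    (hVloc : ∀ x : F, x ∈ V → ∃ b s : B, algebraMap B F s ∉ V.nonunits ∧
      algebraMap B F s * x = algebraMap B F b)
    (Y : B) (hY : Y ∈ 𝔫)
    (hgen : ∀ b ∈ 𝔫, ∃ u : B, u ∉ 𝔫 ∧ ∃ c : B, algebraMap B F (u * b - c * Y) ∈ V.nonunits)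
    (a : F) (e : ls_localSubring (F := F) 𝔫) (n : ℕ) (he : IsUnit e) (hn : 0 < n)
    (h : a ^ n - (e : F) ∈ V.nonunits) :
    ∃ α : F, α ∈ ls_localSubring (F := F) 𝔫 ∧ α⁻¹ ∈ ls_localSubring (F := F) 𝔫 ∧
      a - α ∈ V.nonunits := by
  obtain ⟨α, hα⟩ := stb_gc_res hinj 𝔫 V hBV hthrough hVloc Y hY hgen a e n he hn h
  have hOV := stb_gc_le 𝔫 V hBV hthrough
  refine ⟨α, α.2, ?_, hα⟩
  obtain ⟨c, u, hu, hcu⟩ := α.2
  obtain ⟨e₁, e₂, he₂, hee⟩ := e.2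
  have he₁ : e₁ ∉ 𝔫 := stb_gc_num_not_mem hinj 𝔫 he he₂ hee
  have hu0 : algebraMap B F u ≠ 0 := stb_gc_algebraMap_ne_zero hinj 𝔫 hu
  have he₂0 : algebraMap B F e₂ ≠ 0 := stb_gc_algebraMap_ne_zero hinj 𝔫 he₂
  -- `α ^ n ≡ e` at `V`
  have hve : V.valuation (e : F) = 1 := by
    have h1 := stb_val_of_sub V (b := a ^ n) (a := (e : F))
    by_contra hne
    have hle := (V.valuation_le_one_iff _).2 (hOV _ e.2)
    have hlt : V.valuation (e : F) < 1 := lt_of_le_of_ne hle hne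
    -- then `a ^ n ∈ 𝔪(V)`, so `a ∈ 𝔪(V)`, so `α ∈ 𝔪(V)`: all nonunits; but `e` is a unit of `B_𝔫`
    have hmem : algebraMap B F e₁ ∈ V.nonunits := by
      rw [← hee]
      exact pwi_mul_mem_nonunits V (hBV _) ((ValuationSubring.mem_nonunits_iff V).2 hlt)
    exact he₁ (hthrough _ hmem)
  have hva : V.valuation a = 1 := stb_val_of_pow V hn (stb_val_of_sub V hve h)
  have haV : a ∈ V := (V.valuation_le_one_iff _).1 hva.le
  have hα' : (α : F) - a ∈ V.nonunits := by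
    have := V.nonunits.neg_mem hα
    rwa [neg_sub] at this
  have hαn : (α : F) ^ n - (e : F) ∈ V.nonunits := by
    have e : (α : F) ^ n - (e : F) = ((α : F) ^ n - a ^ n) + (a ^ n - (e : F)) := by ring
    rw [e]
    exact V.nonunits.add_mem (stb_pow_sub_pow V (hOV _ α.2) haV hα' n) h
  have hc : c ∉ 𝔫 := by
    intro hc
    have h1 : algebraMap B F (c ^ n * e₂ - e₁ * u ^ n) ∈ V.nonunits := by
      have e : algebraMap B F (c ^ n * e₂ - e₁ * u ^ n)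
          = algebraMap B F (u ^ n * e₂) * ((α : F) ^ n - (e : F)) := by
        rw [map_sub, map_mul, map_mul, map_pow, map_pow, map_mul, map_pow, ← hcu, ← hee]
        ring
      rw [e]
      exact pwi_mul_mem_nonunits V (hBV _) hαn
    have h2 : c ^ n * e₂ - e₁ * u ^ n ∈ 𝔫 := hthrough _ h1
    have h3 : c ^ n * e₂ ∈ 𝔫 := 𝔫.mul_mem_right _ (Ideal.pow_mem_of_mem _ hc n hn)
    have h4 : e₁ * u ^ n ∈ 𝔫 := by
      have := 𝔫.sub_mem h3 h2
      rwa [sub_sub_cancel] at this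
    rcases h𝔫.mem_or_mem h4 with h' | h'
    · exact he₁ h'
    · exact hu (h𝔫.mem_of_pow_mem n h')
  have hc0 : algebraMap B F c ≠ 0 := stb_gc_algebraMap_ne_zero hinj 𝔫 hc
  refine ⟨u, c, hc, ?_⟩
  have e : (α : F) = algebraMap B F c / algebraMap B F u := by
    rw [← hcu]; field_simp
  rw [e]
  field_simp

/-- `hgen` at a crossing point, branch with parameter `Y` (`ϖ, X ∈ 𝔪(V)`). -/
theorem stb_gc_gen_node (V : ValuationSubring F) (hBV : ∀ b : B, algebraMap B F b ∈ V)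
    {ϖ X Y : B} (hgenN : NodesLocGen 𝔫 {ϖ, X, Y})
    (hϖ : algebraMap B F ϖ ∈ V.nonunits) (hX : algebraMap B F X ∈ V.nonunits) :
    ∀ b ∈ 𝔫, ∃ u : B, u ∉ 𝔫 ∧ ∃ c : B, algebraMap B F (u * b - c * Y) ∈ V.nonunits := by
  intro b hb
  obtain ⟨u, hu, hub⟩ := hgenN b hb
  rw [Ideal.mem_span_insert] at hub
  obtain ⟨c₁, z, hz, hub⟩ := hub
  rw [Ideal.mem_span_pair] at hz
  obtain ⟨c₂, c₃, rfl⟩ := hz
  refine ⟨u, hu, c₃, ?_⟩
  have e : u * b - c₃ * Y = c₁ * ϖ + c₂ * X := by rw [hub]; ring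
  rw [e, map_add, map_mul, map_mul]
  exact V.nonunits.add_mem (pwi_mul_mem_nonunits V (hBV _) hϖ)
    (pwi_mul_mem_nonunits V (hBV _) hX)

/-- `hgen` at a crossing point, branch with parameter `X` (`ϖ, Y ∈ 𝔪(V)`). -/
theorem stb_gc_gen_node' (V : ValuationSubring F) (hBV : ∀ b : B, algebraMap B F b ∈ V)
    {ϖ X Y : B} (hgenN : NodesLocGen 𝔫 {ϖ, X, Y})
    (hϖ : algebraMap B F ϖ ∈ V.nonunits) (hY : algebraMap B F Y ∈ V.nonunits) :
    ∀ b ∈ 𝔫, ∃ u : B, u ∉ 𝔫 ∧ ∃ c : B, algebraMap B F (u * b - c * X) ∈ V.nonunits := by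
  intro b hb
  obtain ⟨u, hu, hub⟩ := hgenN b hb
  rw [Ideal.mem_span_insert] at hub
  obtain ⟨c₁, z, hz, hub⟩ := hub
  rw [Ideal.mem_span_pair] at hz
  obtain ⟨c₂, c₃, rfl⟩ := hz
  refine ⟨u, hu, c₂, ?_⟩
  have e : u * b - c₂ * X = c₁ * ϖ + c₃ * Y := by rw [hub]; ring
  rw [e, map_add, map_mul, map_mul]
  exact V.nonunits.add_mem (pwi_mul_mem_nonunits V (hBV _) hϖ)
    (pwi_mul_mem_nonunits V (hBV _) hY)

/-- `hgen` at a smooth point `𝔫 = (ϖ, s)`. -/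
theorem stb_gc_gen_disc (V : ValuationSubring F) (hBV : ∀ b : B, algebraMap B F b ∈ V)
    {ϖ s : B} (hgenN : NodesLocGen 𝔫 {ϖ, s}) (hϖ : algebraMap B F ϖ ∈ V.nonunits) :
    ∀ b ∈ 𝔫, ∃ u : B, u ∉ 𝔫 ∧ ∃ c : B, algebraMap B F (u * b - c * s) ∈ V.nonunits := by
  intro b hb
  obtain ⟨u, hu, hub⟩ := hgenN b hb
  rw [Ideal.mem_span_pair] at hub
  obtain ⟨c₁, c₂, hub⟩ := hub
  refine ⟨u, hu, c₂, ?_⟩
  have e : u * b - c₂ * s = c₁ * ϖ := by rw [← hub]; ring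
  rw [e, map_mul]
  exact pwi_mul_mem_nonunits V (hBV _) hϖ

include hinj in
/-- an element `b / s` of `B_𝔫` with `b ∈ 𝔫` is a nonunit -/
theorem stb_gc_mem_maximalIdeal [IsLocalRing (ls_localSubring (F := F) 𝔫)]
    (x : ls_localSubring (F := F) 𝔫) {b s : B} (hb : b ∈ 𝔫) (hs : s ∉ 𝔫)
    (h : algebraMap B F s * (x : F) = algebraMap B F b) :
    x ∈ IsLocalRing.maximalIdeal (ls_localSubring (F := F) 𝔫) := by
  rw [IsLocalRing.mem_maximalIdeal, mem_nonunits_iff]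
  intro hu
  exact stb_gc_num_not_mem hinj 𝔫 hu hs h hb

include hinj in
/-- a nonunit of `B_𝔫` is `b / s` with `b ∈ 𝔫` -/
theorem stb_gc_exists_of_mem_maximalIdeal [IsLocalRing (ls_localSubring (F := F) 𝔫)]
    (x : ls_localSubring (F := F) 𝔫)
    (hx : x ∈ IsLocalRing.maximalIdeal (ls_localSubring (F := F) 𝔫)) :
    ∃ b s : B, b ∈ 𝔫 ∧ s ∉ 𝔫 ∧ algebraMap B F s * (x : F) = algebraMap B F b := by
  obtain ⟨b, s, hs, h⟩ := x.2
  refine ⟨b, s, ?_, hs, h⟩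
  by_contra hb
  have hb0 : algebraMap B F b ≠ 0 := stb_gc_algebraMap_ne_zero hinj 𝔫 hb
  have hs0 : algebraMap B F s ≠ 0 := stb_gc_algebraMap_ne_zero hinj 𝔫 hs
  have hx0 : (x : F) ≠ 0 := fun h0 => hb0 (by rw [← h, h0, mul_zero])
  have hinv : (x : F)⁻¹ ∈ ls_localSubring (F := F) 𝔫 := ⟨s, b, hb, by rw [← h]; field_simp⟩
  have hu : IsUnit x :=
    IsUnit.of_mul_eq_one ⟨(x : F)⁻¹, hinv⟩ (Subtype.ext (mul_inv_cancel₀ hx0))
  exact (IsLocalRing.mem_maximalIdeal _).1 hx hu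

include hinj in
/-- **(S), chart form**: `𝔫 = 𝔭_∞ + 𝔭_0` in `B_𝔫` at a crossing point `𝔫 = (ϖ, X, Y)`. -/
theorem stb_gc_sum [IsLocalRing (ls_localSubring (F := F) 𝔫)] (Vinf V0 : ValuationSubring F)
    (hBinf : ∀ b : B, algebraMap B F b ∈ Vinf) (hB0 : ∀ b : B, algebraMap B F b ∈ V0)
    (hthroughinf : ∀ b : B, algebraMap B F b ∈ Vinf.nonunits → b ∈ 𝔫)
    (hthrough0 : ∀ b : B, algebraMap B F b ∈ V0.nonunits → b ∈ 𝔫)
    {ϖ X Y : B} (hgenN : NodesLocGen 𝔫 {ϖ, X, Y})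
    (hϖ : algebraMap B F ϖ ∈ Vinf.nonunits) (hX : algebraMap B F X ∈ Vinf.nonunits)
    (hY : algebraMap B F Y ∈ V0.nonunits) :
    ∀ x ∈ IsLocalRing.maximalIdeal (ls_localSubring (F := F) 𝔫),
      ∃ a b : ls_localSubring (F := F) 𝔫,
        (a : F) ∈ Vinf.nonunits ∧ (b : F) ∈ V0.nonunits ∧ x = a + b := by
  intro x hx
  obtain ⟨b, s, hb, hs, h⟩ := stb_gc_exists_of_mem_maximalIdeal hinj 𝔫 x hx
  obtain ⟨u, hu, hub⟩ := hgenN b hb
  rw [Ideal.mem_span_insert] at hub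
  obtain ⟨c₁, z, hz, hub⟩ := hub
  rw [Ideal.mem_span_pair] at hz
  obtain ⟨c₂, c₃, rfl⟩ := hz
  have hus : u * s ∉ 𝔫 := fun h' => by
    rcases h𝔫.mem_or_mem h' with h'' | h''
    · exact hu h''
    · exact hs h''
  have hus0 : algebraMap B F (u * s) ≠ 0 := stb_gc_algebraMap_ne_zero hinj 𝔫 hus
  have hvinf : Vinf.valuation (algebraMap B F (u * s)) = 1 :=
    stb_gc_val_eq_one Vinf (hBinf _) (fun h' => hus (hthroughinf _ h'))
  have hv0 : V0.valuation (algebraMap B F (u * s)) = 1 :=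
    stb_gc_val_eq_one V0 (hB0 _) (fun h' => hus (hthrough0 _ h'))
  refine ⟨⟨algebraMap B F (c₁ * ϖ + c₂ * X) / algebraMap B F (u * s),
      ⟨c₁ * ϖ + c₂ * X, u * s, hus, by field_simp⟩⟩,
    ⟨algebraMap B F (c₃ * Y) / algebraMap B F (u * s), ⟨c₃ * Y, u * s, hus, by field_simp⟩⟩,
    ?_, ?_, ?_⟩
  · show algebraMap B F (c₁ * ϖ + c₂ * X) / algebraMap B F (u * s) ∈ Vinf.nonunits
    rw [div_eq_inv_mul]
    refine pwi_mul_mem_nonunits Vinf ?_ ?_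
    · rw [← Vinf.valuation_le_one_iff, map_inv₀, hvinf, inv_one]
    · rw [map_add, map_mul, map_mul]
      exact Vinf.nonunits.add_mem (pwi_mul_mem_nonunits Vinf (hBinf _) hϖ)
        (pwi_mul_mem_nonunits Vinf (hBinf _) hX)
  · show algebraMap B F (c₃ * Y) / algebraMap B F (u * s) ∈ V0.nonunits
    rw [div_eq_inv_mul]
    refine pwi_mul_mem_nonunits V0 ?_ ?_
    · rw [← V0.valuation_le_one_iff, map_inv₀, hv0, inv_one]
    · rw [map_mul]
      exact pwi_mul_mem_nonunits V0 (hB0 _) hY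
  · apply Subtype.ext
    show (x : F) = algebraMap B F (c₁ * ϖ + c₂ * X) / algebraMap B F (u * s)
      + algebraMap B F (c₃ * Y) / algebraMap B F (u * s)
    rw [← add_div, ← map_add]
    have e : c₁ * ϖ + c₂ * X + c₃ * Y = u * b := by rw [hub]; ring
    rw [e, eq_div_iff hus0, map_mul, map_mul, ← h]
    ring

include hinj in
/-- **(SS1-loc), chart form.** -/
theorem stb_gc_inter (Vinf V0 : ValuationSubring F)
    (hBinf : ∀ b : B, algebraMap B F b ∈ Vinf) (hB0 : ∀ b : B, algebraMap B F b ∈ V0)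
    (ϖ : B)
    (hSS1 : ∀ b : B, algebraMap B F b ∈ Vinf.nonunits → algebraMap B F b ∈ V0.nonunits →
      ∃ b' : B, b = ϖ * b') :
    ∀ x : ls_localSubring (F := F) 𝔫, (x : F) ∈ Vinf.nonunits → (x : F) ∈ V0.nonunits →
      x ∈ ls_localIdeal (F := F) 𝔫 ϖ := by
  intro x hxinf hx0
  obtain ⟨b, s, hs, h⟩ := x.2
  have h1 : algebraMap B F b ∈ Vinf.nonunits := by
    rw [← h]; exact pwi_mul_mem_nonunits Vinf (hBinf s) hxinf
  have h2 : algebraMap B F b ∈ V0.nonunits := by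
    rw [← h]; exact pwi_mul_mem_nonunits V0 (hB0 s) hx0
  obtain ⟨b', rfl⟩ := hSS1 b h1 h2
  rw [ls_mem_localIdeal]
  have hs0 : algebraMap B F s ≠ 0 := stb_gc_algebraMap_ne_zero hinj 𝔫 hs
  refine ⟨algebraMap B F b' / algebraMap B F s, ⟨b', s, hs, by field_simp⟩, ?_⟩
  rw [map_mul] at h
  rw [eq_comm, mul_div_assoc', div_eq_iff hs0, ← h]
  ring

include hinj in
/-- **(Fr), chart form**: Frobenius congruence on `B` modulo `𝔫` ⇒ on `B_𝔫` modulo its maximal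
ideal (and `Φ B_𝔫 ⊆ B_𝔫`). -/
theorem stb_gc_frob [IsLocalRing (ls_localSubring (F := F) 𝔫)] (Φ : F →+* F) (Q : ℕ)
    (hfrobB : ∀ b : B, ∃ c ∈ 𝔫, Φ (algebraMap B F b) = algebraMap B F b ^ Q + algebraMap B F c) :
    ∀ x : ls_localSubring (F := F) 𝔫,
      ∃ z ∈ IsLocalRing.maximalIdeal (ls_localSubring (F := F) 𝔫),
        (z : F) = Φ (x : F) - (x : F) ^ Q := by
  intro x
  obtain ⟨b, s, hs, h⟩ := x.2
  obtain ⟨cb, hcb, hΦb⟩ := hfrobB b
  obtain ⟨cs, hcs, hΦs⟩ := hfrobB s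
  have hs0 : algebraMap B F s ≠ 0 := stb_gc_algebraMap_ne_zero hinj 𝔫 hs
  have hsQ : s ^ Q ∉ 𝔫 := fun h' => hs (h𝔫.mem_of_pow_mem Q h')
  have hs₂ : s ^ Q + cs ∉ 𝔫 := fun h' => hsQ (by
    have := 𝔫.sub_mem h' hcs
    rwa [add_sub_cancel_right] at this)
  have hden : (s ^ Q + cs) * s ^ Q ∉ 𝔫 := fun h' => by
    rcases h𝔫.mem_or_mem h' with h'' | h''
    · exact hs₂ h''
    · exact hsQ h''
  have hden0 : algebraMap B F ((s ^ Q + cs) * s ^ Q) ≠ 0 := stb_gc_algebraMap_ne_zero hinj 𝔫 hden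
  have hs₂0 : algebraMap B F (s ^ Q + cs) ≠ 0 := stb_gc_algebraMap_ne_zero hinj 𝔫 hs₂
  have hnum : cb * s ^ Q - b ^ Q * cs ∈ 𝔫 :=
    𝔫.sub_mem (𝔫.mul_mem_right _ hcb) (𝔫.mul_mem_left _ hcs)
  have hx : (x : F) = algebraMap B F b / algebraMap B F s := by
    rw [← h]; field_simp
  have hΦs' : Φ (algebraMap B F s) = algebraMap B F (s ^ Q + cs) := by
    rw [hΦs, map_add, map_pow]
  have key : algebraMap B F ((s ^ Q + cs) * s ^ Q) * (Φ (x : F) - (x : F) ^ Q)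
      = algebraMap B F (cb * s ^ Q - b ^ Q * cs) := by
    rw [hx, map_div₀, hΦb, hΦs', div_pow]
    have hsQ0 : algebraMap B F s ^ Q ≠ 0 := pow_ne_zero _ hs0
    simp only [map_mul, map_sub, map_add, map_pow] at hs₂0 ⊢
    field_simp
    ring
  have hmem : Φ (x : F) - (x : F) ^ Q ∈ ls_localSubring (F := F) 𝔫 := ⟨_, _, hden, key⟩
  exact ⟨⟨_, hmem⟩, stb_gc_mem_maximalIdeal hinj 𝔫 ⟨_, hmem⟩ hnum hden key, rfl⟩

include hinj in
/-- **STB-G, chart form (crossing point).**  `B` a noetherian chart, `𝔫` a prime of `B`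
through which both vertical valuations `Vinf`, `V0` pass, `(SS1)` on `B`,
`𝔫 = (ϖ, X, Y)` locally with `X ∈ 𝔭_∞`, `Y ∈ 𝔭_0` (SS3), `V_c = B_{𝔭_c}`; `Φ` a ring
endomorphism of `F` preserving `𝔪(V_c)` and inducing the `Q`-th power map on `B / 𝔫`.
If `y = ε γ ^ m` with `ε` a unit of `B_𝔫`, `y ≡ t_c ^ m` and `H ≡ Φ t_c / t_c ^ Q` at `V_c`,
then `w′ := (Φ y / y ^ Q) / H ^ m` has the shape of `PwiShape` at the point `𝔫`. -/
theorem stb_glue_frob_chart [IsNoetherianRing B] [IsLocalRing (ls_localSubring (F := F) 𝔫)]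
    (Vinf V0 : ValuationSubring F)
    (hBinf : ∀ b : B, algebraMap B F b ∈ Vinf) (hB0 : ∀ b : B, algebraMap B F b ∈ V0)
    (hthroughinf : ∀ b : B, algebraMap B F b ∈ Vinf.nonunits → b ∈ 𝔫)
    (hthrough0 : ∀ b : B, algebraMap B F b ∈ V0.nonunits → b ∈ 𝔫)
    (hVlocinf : ∀ x : F, x ∈ Vinf → ∃ b s : B, algebraMap B F s ∉ Vinf.nonunits ∧
      algebraMap B F s * x = algebraMap B F b)
    (hVloc0 : ∀ x : F, x ∈ V0 → ∃ b s : B, algebraMap B F s ∉ V0.nonunits ∧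
      algebraMap B F s * x = algebraMap B F b)
    {ϖ X Y : B}
    (hSS1 : ∀ b : B, algebraMap B F b ∈ Vinf.nonunits → algebraMap B F b ∈ V0.nonunits →
      ∃ b' : B, b = ϖ * b')
    (hgenN : NodesLocGen 𝔫 {ϖ, X, Y})
    (hϖinf : algebraMap B F ϖ ∈ Vinf.nonunits) (hϖ0 : algebraMap B F ϖ ∈ V0.nonunits)
    (hX : algebraMap B F X ∈ Vinf.nonunits) (hY : algebraMap B F Y ∈ V0.nonunits)
    (Φ : F →+* F) (Q : ℕ)
    (hΦinf : ∀ x ∈ Vinf.nonunits, Φ x ∈ Vinf.nonunits)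
    (hΦ0 : ∀ x ∈ V0.nonunits, Φ x ∈ V0.nonunits)
    (hfrobB : ∀ b : B, ∃ c ∈ 𝔫, Φ (algebraMap B F b) = algebraMap B F b ^ Q + algebraMap B F c)
    {m : ℕ} (hm : 0 < m) {y γ ε tinf t0 H : F}
    (hε : ε ∈ ls_localSubring (F := F) 𝔫) (hε' : ε⁻¹ ∈ ls_localSubring (F := F) 𝔫)
    (hy : y = ε * γ ^ m)
    (htinf : y / tinf ^ m - 1 ∈ Vinf.nonunits) (ht0 : y / t0 ^ m - 1 ∈ V0.nonunits)
    (hHinf : H / (Φ tinf / tinf ^ Q) - 1 ∈ Vinf.nonunits)
    (hH0 : H / (Φ t0 / t0 ^ Q) - 1 ∈ V0.nonunits) :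
    ∃ ε' γ' : F, ∃ hε' : ε' ∈ ls_localSubring (F := F) 𝔫,
      (⟨ε', hε'⟩ - 1 : ls_localSubring (F := F) 𝔫) ∈ ls_localIdeal (F := F) 𝔫 ϖ ∧
      γ' - 1 ∈ Vinf.nonunits ∧ γ' - 1 ∈ V0.nonunits ∧
      Φ y / y ^ Q / H ^ m = ε' * γ' ^ m := by
  have hXn : X ∈ 𝔫 := hthroughinf X hX
  have hYn : Y ∈ 𝔫 := hthrough0 Y hY
  have hr0 := stb_ne_zero_of_congr Vinf htinf
  have hy0 : y ≠ 0 := fun h => hr0 (by rw [h, zero_div])
  have hε0 : ε ≠ 0 := fun h => hy0 (by rw [hy, h, zero_mul])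
  have hεu : IsUnit (⟨ε, hε⟩ : ls_localSubring (F := F) 𝔫) :=
    IsUnit.of_mul_eq_one ⟨ε⁻¹, hε'⟩ (Subtype.ext (mul_inv_cancel₀ hε0))
  exact stb_glue_frob (ls_localSubring (F := F) 𝔫) (ls_localIdeal (F := F) 𝔫 ϖ) Vinf V0
    (stb_gc_le 𝔫 Vinf hBinf hthroughinf) (stb_gc_le 𝔫 V0 hB0 hthrough0)
    (stb_gc_inter hinj 𝔫 Vinf V0 hBinf hB0 ϖ hSS1)
    (stb_gc_sum hinj 𝔫 Vinf V0 hBinf hB0 hthroughinf hthrough0 hgenN hϖinf hX hY)
    (fun a e n he hn h => stb_gc_res hinj 𝔫 Vinf hBinf hthroughinf hVlocinf Y hYn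
      (stb_gc_gen_node 𝔫 Vinf hBinf hgenN hϖinf hX) a e n he hn h)
    (fun a e n he hn h => stb_gc_res hinj 𝔫 V0 hB0 hthrough0 hVloc0 X hXn
      (stb_gc_gen_node' 𝔫 V0 hB0 hgenN hϖ0 hY) a e n he hn h)
    Φ Q hΦinf hΦ0 (stb_gc_frob hinj 𝔫 Φ Q hfrobB) hm ⟨ε, hε⟩ hεu hy htinf ht0 hHinf hH0

end Chart

end Fermat.Agent.STB
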