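import Fermat.Agent.STB.SmoothTransport

/-!
# STB-S4 — exactly one component passes through a smooth point

`B` noetherian, `𝔫` a maximal ideal with `𝔫 = (ϖ, s)` locally (`NodesLocGen 𝔫 {ϖ, s}`).
Then the primes `𝔭 ∋ ϖ`, `𝔭 ≤ 𝔫` are totally ordered by inclusion (`stb_sx_comparable`):
`B_𝔫 / ϖ` is a local ring with principal maximal ideal.  Since distinct vertical valuation rings
are incomparable, exactly one component passes through a smooth point of the special fibre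
(`stb_sx_only`, `stb_sx_exists_unique`).

Consequently the first alternative of the dichotomy of U5 (`hgen` alone) gives the whole second
disjunct of `hpts` in `stb_main_points`: `stb_sx_hpts_inl`, `stb_sx_hpts_inr`.
-/

set_option autoImplicit false
set_option linter.style.haveILetI false
set_option linter.unusedSectionVars false
set_option linter.unusedVariables false

namespace Fermat.Agent.STB

open Polynomial IntermediateField Fermat.Agent.INJ AlgebraicCurve Fermat.Agent.UNIP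

section Algebra

variable {B : Type*} [CommRing B]

/-- an element outside a maximal ideal is invertible modulo every power of it -/
theorem stb_sx_exists_inv_pow (𝔫 : Ideal B) [h𝔫 : 𝔫.IsMaximal] {v : B} (hv : v ∉ 𝔫) (k : ℕ) :
    ∃ w : B, 1 - w * v ∈ 𝔫 ^ k := by
  obtain ⟨w₀, i, hi, hw₀⟩ := h𝔫.exists_inv hv
  set n : B := 1 - w₀ * v with hn
  have hn𝔫 : n ∈ 𝔫 := by
    have : n = i := by rw [hn, ← hw₀]; ring
    rw [this]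
    exact hi
  refine ⟨w₀ * ∑ i ∈ Finset.range k, n ^ i, ?_⟩
  have e : 1 - w₀ * (∑ i ∈ Finset.range k, n ^ i) * v = n ^ k := by
    have h1 : w₀ * v = 1 - n := by rw [hn]; ring
    have h2 : w₀ * (∑ i ∈ Finset.range k, n ^ i) * v =
        (∑ i ∈ Finset.range k, n ^ i) * (w₀ * v) := by ring
    rw [h2, h1]
    have h3 := geom_sum_mul n k
    -- `(∑ n ^ i) * (n - 1) = n ^ k - 1`
    have h4 : (∑ i ∈ Finset.range k, n ^ i) * (1 - n) =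
        -((∑ i ∈ Finset.range k, n ^ i) * (n - 1)) := by ring
    rw [h4, h3]
    ring
  rw [e]
  exact Ideal.pow_mem_pow hn𝔫 k

/-- **Descent.**  `𝔫 = (ϖ, s)` locally, `𝔭 ≤ 𝔫` a prime with `s ∉ 𝔭`: every element of `𝔭` lies in
`(ϖ, s ^ k)` locally at `𝔫`, for every `k`. -/
theorem stb_sx_descent (𝔫 : Ideal B) [h𝔫 : 𝔫.IsPrime] (𝔭 : Ideal B) [h𝔭 : 𝔭.IsPrime]
    (hle : 𝔭 ≤ 𝔫) {ϖ s : B} (hϖ : ϖ ∈ 𝔭) (hgen : NodesLocGen 𝔫 {ϖ, s}) (hs : s ∉ 𝔭) (k : ℕ) :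
    ∀ x ∈ 𝔭, ∃ v : B, v ∉ 𝔫 ∧ ∃ a b : B, v * x = a * ϖ + b * s ^ k := by
  induction k with
  | zero =>
    intro x _
    exact ⟨1, fun h => h𝔫.ne_top ((Ideal.eq_top_iff_one 𝔫).mpr h), 0, x, by ring⟩
  | succ k ih =>
    intro x hx
    obtain ⟨v, hv, a, b, hvx⟩ := ih x hx
    have hb : b ∈ 𝔭 := by
      have h1 : b * s ^ k ∈ 𝔭 := by
        have : b * s ^ k = v * x - a * ϖ := by rw [hvx]; ring
        rw [this]
        exact 𝔭.sub_mem (𝔭.mul_mem_left _ hx) (𝔭.mul_mem_left _ hϖ)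
      rcases h𝔭.mem_or_mem h1 with h | h
      · exact h
      · exact absurd (h𝔭.mem_of_pow_mem _ h) hs
    obtain ⟨u, hu, hub⟩ := hgen b (hle hb)
    rw [Ideal.mem_span_pair] at hub
    obtain ⟨a', b', hab⟩ := hub
    refine ⟨u * v, fun h => ?_, u * a + a' * s ^ k, b', ?_⟩
    · rcases h𝔫.mem_or_mem h with h' | h'
      · exact hu h'
      · exact hv h'
    · have e : u * v * x = u * (v * x) := by ring
      rw [e, hvx, mul_add, ← mul_assoc u b, ← hab, pow_succ]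
      ring

/-- **Exclusion.**  `B` noetherian, `𝔫` maximal, `𝔫 = (ϖ, s)` locally; `𝔭₁, 𝔭₂ ≤ 𝔫` primes
containing `ϖ`, `s ∉ 𝔭₁`.  Then `𝔭₁ ≤ 𝔭₂`. -/
theorem stb_sx_le [IsNoetherianRing B] (𝔫 : Ideal B) [h𝔫 : 𝔫.IsMaximal] (𝔭₁ 𝔭₂ : Ideal B)
    [h𝔭₁ : 𝔭₁.IsPrime] [h𝔭₂ : 𝔭₂.IsPrime] (h1 : 𝔭₁ ≤ 𝔫) (h2 : 𝔭₂ ≤ 𝔫) {ϖ s : B}
    (hϖ1 : ϖ ∈ 𝔭₁) (hϖ2 : ϖ ∈ 𝔭₂) (hgen : NodesLocGen 𝔫 {ϖ, s}) (hs : s ∈ 𝔫)
    (hs1 : s ∉ 𝔭₁) : 𝔭₁ ≤ 𝔭₂ := by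
  haveI : 𝔫.IsPrime := h𝔫.isPrime
  intro x hx
  have hmem : ∀ N : ℕ, x ∈ 𝔫 ^ N ⊔ 𝔭₂ := by
    intro N
    obtain ⟨v, hv, a, b, hvx⟩ := stb_sx_descent 𝔫 𝔭₁ h1 hϖ1 hgen hs1 N x hx
    obtain ⟨w, hw⟩ := stb_sx_exists_inv_pow 𝔫 hv N
    have e : x = ((1 - w * v) * x + w * b * s ^ N) + w * a * ϖ := by
      have : w * b * s ^ N + w * a * ϖ = w * (v * x) := by rw [hvx]; ring
      calc x = (1 - w * v) * x + w * (v * x) := by ring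
        _ = (1 - w * v) * x + (w * b * s ^ N + w * a * ϖ) := by rw [this]
        _ = _ := by ring
    rw [e]
    refine Submodule.add_mem_sup (Ideal.add_mem _ (Ideal.mul_mem_right _ _ hw)
      (Ideal.mul_mem_left _ _ (Ideal.pow_mem_pow hs N))) (𝔭₂.mul_mem_left _ hϖ2)
  obtain ⟨r, hr, hrx⟩ := unip_krull_mem 𝔫 𝔭₂ x hmem
  rcases h𝔭₂.mem_or_mem hrx with h | h
  · exfalso
    have h3 : (1 : B) ∈ 𝔫 := by
      have : (1 : B) = (1 - r) + r := by ring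
      rw [this]
      exact 𝔫.add_mem (h2 h) hr
    exact h𝔫.ne_top ((Ideal.eq_top_iff_one 𝔫).mpr h3)
  · exact h

/-- **The primes over `ϖ` through a smooth point are comparable.** -/
theorem stb_sx_comparable [IsNoetherianRing B] (𝔫 : Ideal B) [h𝔫 : 𝔫.IsMaximal]
    (𝔭₁ 𝔭₂ : Ideal B) [h𝔭₁ : 𝔭₁.IsPrime] [h𝔭₂ : 𝔭₂.IsPrime] (h1 : 𝔭₁ ≤ 𝔫) (h2 : 𝔭₂ ≤ 𝔫)
    {ϖ s : B} (hϖ1 : ϖ ∈ 𝔭₁) (hϖ2 : ϖ ∈ 𝔭₂) (hgen : NodesLocGen 𝔫 {ϖ, s}) (hs : s ∈ 𝔫) :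
    𝔭₁ ≤ 𝔭₂ ∨ 𝔭₂ ≤ 𝔭₁ := by
  by_cases hs1 : s ∈ 𝔭₁
  · right
    have h𝔭 : 𝔭₁ = 𝔫 := by
      refine stb_eq_of_locGen h1 _ ?_ hgen
      intro y hy
      rcases hy with rfl | hy
      · exact hϖ1
      · rw [Set.mem_singleton_iff] at hy
        rw [hy]
        exact hs1
    rw [h𝔭]
    exact h2
  · exact Or.inl (stb_sx_le 𝔫 𝔭₁ 𝔭₂ h1 h2 hϖ1 hϖ2 hgen hs hs1)

end Algebra

section Chart

variable {A₀ E F : Type*} [CommRing A₀] [IsDomain A₀] [IsDiscreteValuationRing A₀]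
  [Field E] [Algebra A₀ E] [IsFractionRing A₀ E] [CharZero E]
  [Field F] [Algebra E F] [Algebra A₀ F] [IsScalarTower A₀ E F]
  {π : A₀} {κ : Type*}

/-- `𝔭_c ≤ 𝔭_{c'}` implies `V c' ≤ V c` (`V c' = (B_u)_{𝔭_{c'}}`) -/
theorem stb_sx_le_of_vert_le {u : F} (V : κ → ValuationSubring F)
    (hBV : ∀ c (b : F), IsIntegral ↥(Algebra.adjoin A₀ {u}) b → b ∈ V c)
    (hVloc : ∀ c (x : F), x ∈ V c → ∃ b s : F, IsIntegral ↥(Algebra.adjoin A₀ {u}) b ∧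
      IsIntegral ↥(Algebra.adjoin A₀ {u}) s ∧ s ∉ (V c).nonunits ∧ s * x = b)
    (c c' : κ)
    (hle : ∀ b : F, IsIntegral ↥(Algebra.adjoin A₀ {u}) b → b ∈ (V c).nonunits →
      b ∈ (V c').nonunits) : V c' ≤ V c := by
  intro x hx
  obtain ⟨b, s, hb, hs, hsV, hsx⟩ := hVloc c' x hx
  have hs' : s ∉ (V c).nonunits := fun h => hsV (hle s hs h)
  have hs1 : (V c).valuation s = 1 := stb_gc_val_eq_one (V c) (hBV c s hs) hs'
  have hs0 : s ≠ 0 := fun h => by rw [h, map_zero] at hs1; exact zero_ne_one hs1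
  have hx' : x = s⁻¹ * b := by rw [← hsx]; field_simp
  rw [hx']
  refine (V c).mul_mem _ _ ?_ (hBV c b hb)
  rw [← (V c).valuation_le_one_iff, map_inv₀, hs1, inv_one]

/-- **At most one component passes through a smooth point.** -/
theorem stb_sx_only {u : F} [IsNoetherianRing ↥(zchClosure (A₀ := A₀) ({u} : Set F))]
    (V : κ → ValuationSubring F)
    (hBV : ∀ c (b : F), IsIntegral ↥(Algebra.adjoin A₀ {u}) b → b ∈ V c)
    (hπV : ∀ c, algebraMap A₀ F π ∈ (V c).nonunits)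
    (hVloc : ∀ c (x : F), x ∈ V c → ∃ b s : F, IsIntegral ↥(Algebra.adjoin A₀ {u}) b ∧
      IsIntegral ↥(Algebra.adjoin A₀ {u}) s ∧ s ∉ (V c).nonunits ∧ s * x = b)
    (hnle : ∀ c c', c ≠ c' → ¬ V c ≤ V c')
    (𝔫 : AtPt (F := F) π u)
    (s : ↥(zchClosure (A₀ := A₀) ({u} : Set F))) (hs : s ∈ 𝔫.1)
    (hgen : NodesLocGen 𝔫.1 {algebraMap A₀ ↥(zchClosure (A₀ := A₀) ({u} : Set F)) π, s})
    (c c' : κ) (hc : atThrough 𝔫 (V c)) (hc' : atThrough 𝔫 (V c')) : c = c' := by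
  by_contra hne
  haveI := 𝔫.2.1
  haveI h1p := at_crossingIdeal_isPrime (A₀ := A₀) (S := {u}) (V c) (hBV c)
  haveI h2p := at_crossingIdeal_isPrime (A₀ := A₀) (S := {u}) (V c') (hBV c')
  rcases stb_sx_comparable 𝔫.1 (crossingIdeal (A₀ := A₀) {u} (V c) (hBV c))
    (crossingIdeal (A₀ := A₀) {u} (V c') (hBV c')) (fun b hb => hc b hb) (fun b hb => hc' b hb)
    (hπV c) (hπV c') hgen hs with h | h
  · exact hnle c' c (Ne.symm hne) (stb_sx_le_of_vert_le V hBV hVloc c c'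
      fun b hb hbc => h (x := ⟨b, mem_zchClosure.mpr hb⟩) hbc)
  · exact hnle c c' hne (stb_sx_le_of_vert_le V hBV hVloc c' c
      fun b hb hbc => h (x := ⟨b, mem_zchClosure.mpr hb⟩) hbc)

/-- **Exactly one component passes through a smooth point.** -/
theorem stb_sx_exists_unique {u : F} [Finite κ]
    [IsNoetherianRing ↥(zchClosure (A₀ := A₀) ({u} : Set F))]
    (V : κ → ValuationSubring F)
    (hBV : ∀ c (b : F), IsIntegral ↥(Algebra.adjoin A₀ {u}) b → b ∈ V c)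
    (hπV : ∀ c, algebraMap A₀ F π ∈ (V c).nonunits)
    (hSS1 : ∀ b : F, IsIntegral ↥(Algebra.adjoin A₀ {u}) b → (∀ c, b ∈ (V c).nonunits) →
      ∃ b' : F, IsIntegral ↥(Algebra.adjoin A₀ {u}) b' ∧ b = algebraMap A₀ F π * b')
    (hVloc : ∀ c (x : F), x ∈ V c → ∃ b s : F, IsIntegral ↥(Algebra.adjoin A₀ {u}) b ∧
      IsIntegral ↥(Algebra.adjoin A₀ {u}) s ∧ s ∉ (V c).nonunits ∧ s * x = b)
    (hnle : ∀ c c', c ≠ c' → ¬ V c ≤ V c')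
    (𝔫 : AtPt (F := F) π u)
    (s : ↥(zchClosure (A₀ := A₀) ({u} : Set F))) (hs : s ∈ 𝔫.1)
    (hgen : NodesLocGen 𝔫.1 {algebraMap A₀ ↥(zchClosure (A₀ := A₀) ({u} : Set F)) π, s}) :
    ∃ c, atThrough 𝔫 (V c) ∧ ∀ c', atThrough 𝔫 (V c') → c' = c := by
  haveI := 𝔫.2.1.isPrime
  obtain ⟨c, hc⟩ := ats_hpt_chart V hBV hSS1 𝔫.1 𝔫.2.2
  exact ⟨c, hc, fun c' hc' => stb_sx_only V hBV hπV hVloc hnle 𝔫 s hs hgen c' c hc' hc⟩

/-- **The second disjunct of `hpts` of `stb_main_points` at a smooth point of the chart `t`**,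
from the first alternative of the dichotomy of U5 (`hgen`) alone. -/
theorem stb_sx_hpts_inl (hπ : Irreducible π) {t : F} (hu : Transcendental E t)
    [FiniteDimensional E⟮t⟯ F] [Finite κ]
    [IsNoetherianRing ↥(zchClosure (A₀ := A₀) ({t} : Set F))]
    (V : κ → ValuationSubring F)
    (hBV : ∀ c (b : F), IsIntegral ↥(Algebra.adjoin A₀ {t}) b → b ∈ V c)
    (hπV : ∀ c, algebraMap A₀ F π ∈ (V c).nonunits)
    (hSS1 : ∀ b : F, IsIntegral ↥(Algebra.adjoin A₀ {t}) b → (∀ c, b ∈ (V c).nonunits) →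
      ∃ b' : F, IsIntegral ↥(Algebra.adjoin A₀ {t}) b' ∧ b = algebraMap A₀ F π * b')
    (hVloc : ∀ c (x : F), x ∈ V c → ∃ b s : F, IsIntegral ↥(Algebra.adjoin A₀ {t}) b ∧
      IsIntegral ↥(Algebra.adjoin A₀ {t}) s ∧ s ∉ (V c).nonunits ∧ s * x = b)
    (hne : ∀ c c', c ≠ c' → V c ≠ V c')
    (harch : ∀ c (a x : F), a ∈ (V c).nonunits → ∃ N : ℕ, a ^ N * x ∈ (V c).nonunits)
    (Φ : F ≃+* F)
    (hΦB : ∀ b : F, IsIntegral ↥(Algebra.adjoin A₀ {t}) b →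
      IsIntegral ↥(Algebra.adjoin A₀ {t}) (Φ b))
    (hΦB' : ∀ b : F, IsIntegral ↥(Algebra.adjoin A₀ {t}) b →
      IsIntegral ↥(Algebra.adjoin A₀ {t}) (Φ.symm b))
    (hΦπ : ∃ a : A₀, Φ (algebraMap A₀ F π) = algebraMap A₀ F (π * a))
    (hΦπ' : ∃ a : A₀, Φ.symm (algebraMap A₀ F π) = algebraMap A₀ F (π * a))
    (hΦV : ∀ c', ∀ x ∈ (V c').nonunits, Φ x ∈ (V c').nonunits)
    (hΦV' : ∀ c', ∀ x ∈ (V c').nonunits, Φ.symm x ∈ (V c').nonunits)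
    (𝔫 : AtPt (F := F) π t)
    (s : ↥(zchClosure (A₀ := A₀) ({t} : Set F))) (hs : s ∈ 𝔫.1)
    (hgen : NodesLocGen 𝔫.1 {algebraMap A₀ ↥(zchClosure (A₀ := A₀) ({t} : Set F)) π, s})
    {y : F} (m : ℕ) (tt : κ → F) (htoric : ∀ c, y / tt c ^ m - 1 ∈ (V c).nonunits)
    (hfin : ∀ 𝔫' : AtPt (F := F) π t, {P : Place E F |
      LsTube ↥(zchClosure (A₀ := A₀) ({t} : Set F)) t 𝔫'.1 P ∧ P.ord y ≠ 0}.Finite)
    (hm : ∀ 𝔫' : AtPt (F := F) π t, ∀ P : Place E F,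
      LsTube ↥(zchClosure (A₀ := A₀) ({t} : Set F)) t 𝔫'.1 P → (m : ℤ) ∣ P.ord y)
    (hrat : ∀ 𝔫' : AtPt (F := F) π t, ∀ P : Place E F,
      LsTube ↥(zchClosure (A₀ := A₀) ({t} : Set F)) t 𝔫'.1 P → P.ord y ≠ 0 →
        ∀ f ∈ P.toValuationSubring,
          ∃ c : E, f - algebraMap E F c ∈ P.toValuationSubring.nonunits) :
    ∃ c, atInc π t V (Sum.inl 𝔫) c ∧ (∀ c', atInc π t V (Sum.inl 𝔫) c' → c' = c) ∧
      ∃ i₁ : AtPt (F := F) π t ⊕ AtPt (F := F) π t⁻¹, atInc π t V i₁ c ∧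
        StbSmooth (atO π t (Sum.inl 𝔫)) (atO π t i₁) (V c) Φ.toRingHom m y := by
  have hπ0 : algebraMap A₀ F π ≠ 0 := unip_algebraMap_irreducible_ne_zero E hπ
  have harch' : ∀ c, StbArch (V c) := fun c x a ha => by
    obtain ⟨N, hN⟩ := harch c a x ha
    exact ⟨N, by rw [mul_comm]; exact hN⟩
  have hnle : ∀ c c', c ≠ c' → ¬ V c ≤ V c' := fun c c' hcc' =>
    stb_not_le_of_ne (harch' c) hπ0 (hπV c') (hne c c' hcc')
  obtain ⟨c, hc, honly⟩ := stb_sx_exists_unique V hBV hπV hSS1 hVloc hnle 𝔫 s hs hgen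
  exact stb_st_hpts_inl hπ hu V hBV hπV hSS1 hVloc c
    (stb_sp_hunif hπ0 V hBV hπV hSS1 hVloc hne harch c) Φ hΦB hΦB' hΦπ hΦπ' hΦV hΦV' 𝔫 s hs
    hgen hc honly m (tt c) (htoric c) hfin hm hrat

/-- **The second disjunct of `hpts` of `stb_main_points` at a smooth point of the chart `t⁻¹`**,
from the first alternative of the dichotomy of U5 (`hgen`) alone. -/
theorem stb_sx_hpts_inr (hπ : Irreducible π) {t : F} (hu : Transcendental E t⁻¹)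
    [FiniteDimensional E⟮t⁻¹⟯ F] [Finite κ]
    [IsNoetherianRing ↥(zchClosure (A₀ := A₀) ({t⁻¹} : Set F))]
    (V : κ → ValuationSubring F)
    (hBV : ∀ c (b : F), IsIntegral ↥(Algebra.adjoin A₀ {t⁻¹}) b → b ∈ V c)
    (hπV : ∀ c, algebraMap A₀ F π ∈ (V c).nonunits)
    (hSS1 : ∀ b : F, IsIntegral ↥(Algebra.adjoin A₀ {t⁻¹}) b → (∀ c, b ∈ (V c).nonunits) →
      ∃ b' : F, IsIntegral ↥(Algebra.adjoin A₀ {t⁻¹}) b' ∧ b = algebraMap A₀ F π * b')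
    (hVloc : ∀ c (x : F), x ∈ V c → ∃ b s : F, IsIntegral ↥(Algebra.adjoin A₀ {t⁻¹}) b ∧
      IsIntegral ↥(Algebra.adjoin A₀ {t⁻¹}) s ∧ s ∉ (V c).nonunits ∧ s * x = b)
    (hne : ∀ c c', c ≠ c' → V c ≠ V c')
    (harch : ∀ c (a x : F), a ∈ (V c).nonunits → ∃ N : ℕ, a ^ N * x ∈ (V c).nonunits)
    (Φ : F ≃+* F)
    (hΦB : ∀ b : F, IsIntegral ↥(Algebra.adjoin A₀ {t⁻¹}) b →
      IsIntegral ↥(Algebra.adjoin A₀ {t⁻¹}) (Φ b))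
    (hΦB' : ∀ b : F, IsIntegral ↥(Algebra.adjoin A₀ {t⁻¹}) b →
      IsIntegral ↥(Algebra.adjoin A₀ {t⁻¹}) (Φ.symm b))
    (hΦπ : ∃ a : A₀, Φ (algebraMap A₀ F π) = algebraMap A₀ F (π * a))
    (hΦπ' : ∃ a : A₀, Φ.symm (algebraMap A₀ F π) = algebraMap A₀ F (π * a))
    (hΦV : ∀ c', ∀ x ∈ (V c').nonunits, Φ x ∈ (V c').nonunits)
    (hΦV' : ∀ c', ∀ x ∈ (V c').nonunits, Φ.symm x ∈ (V c').nonunits)
    (𝔫 : AtPt (F := F) π t⁻¹)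
    (s : ↥(zchClosure (A₀ := A₀) ({t⁻¹} : Set F))) (hs : s ∈ 𝔫.1)
    (hgen : NodesLocGen 𝔫.1 {algebraMap A₀ ↥(zchClosure (A₀ := A₀) ({t⁻¹} : Set F)) π, s})
    {y : F} (m : ℕ) (tt : κ → F) (htoric : ∀ c, y / tt c ^ m - 1 ∈ (V c).nonunits)
    (hfin : ∀ 𝔫' : AtPt (F := F) π t⁻¹, {P : Place E F |
      LsTube ↥(zchClosure (A₀ := A₀) ({t⁻¹} : Set F)) t⁻¹ 𝔫'.1 P ∧ P.ord y ≠ 0}.Finite)
    (hm : ∀ 𝔫' : AtPt (F := F) π t⁻¹, ∀ P : Place E F,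
      LsTube ↥(zchClosure (A₀ := A₀) ({t⁻¹} : Set F)) t⁻¹ 𝔫'.1 P → (m : ℤ) ∣ P.ord y)
    (hrat : ∀ 𝔫' : AtPt (F := F) π t⁻¹, ∀ P : Place E F,
      LsTube ↥(zchClosure (A₀ := A₀) ({t⁻¹} : Set F)) t⁻¹ 𝔫'.1 P → P.ord y ≠ 0 →
        ∀ f ∈ P.toValuationSubring,
          ∃ c : E, f - algebraMap E F c ∈ P.toValuationSubring.nonunits) :
    ∃ c, atInc π t V (Sum.inr 𝔫) c ∧ (∀ c', atInc π t V (Sum.inr 𝔫) c' → c' = c) ∧
      ∃ i₁ : AtPt (F := F) π t ⊕ AtPt (F := F) π t⁻¹, atInc π t V i₁ c ∧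
        StbSmooth (atO π t (Sum.inr 𝔫)) (atO π t i₁) (V c) Φ.toRingHom m y := by
  have hπ0 : algebraMap A₀ F π ≠ 0 := unip_algebraMap_irreducible_ne_zero E hπ
  have harch' : ∀ c, StbArch (V c) := fun c x a ha => by
    obtain ⟨N, hN⟩ := harch c a x ha
    exact ⟨N, by rw [mul_comm]; exact hN⟩
  have hnle : ∀ c c', c ≠ c' → ¬ V c ≤ V c' := fun c c' hcc' =>
    stb_not_le_of_ne (harch' c) hπ0 (hπV c') (hne c c' hcc')
  obtain ⟨c, hc, honly⟩ := stb_sx_exists_unique V hBV hπV hSS1 hVloc hnle 𝔫 s hs hgen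
  exact stb_st_hpts_inr hπ hu V hBV hπV hSS1 hVloc c
    (stb_sp_hunif hπ0 V hBV hπV hSS1 hVloc hne harch c) Φ hΦB hΦB' hΦπ hΦπ' hΦV hΦV' 𝔫 s hs
    hgen hc honly m (tt c) (htoric c) hfin hm hrat

end Chart

end Fermat.Agent.STB
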