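import Fermat.Agent.STB.CrossPoint
import Fermat.Agent.STB.SmoothOnly

/-!
# STB-C4 — (T″) for two components from the dichotomy of U5: the twin of `at_main_two`

`stb_main_two` : `stb_main_points` with the per-point hypothesis `hpts` discharged from

* the dichotomy of U5 at every closed point of the two charts `t`, `t⁻¹` (`StbNodeAt`, on the
  unramified charts `R₁`, `R₂`, `MgcRamified`),
* the Frobenius hypotheses at the crossing points (`StbCrossFrob`: `g 𝔫 = 𝔫`, `g ≡ (·)^Q mod 𝔫`;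
  STB-X `stb_cross_hgB`, `stb_cross_hgB'`, `stb_cross_hfrobB`),
* global hypotheses on `x` (`p ^ r ∣ ord_P x`, rational support) and on `g`
  (`g t = t`, `g A₀ = A₀`, `g` preserves the vertical valuations).

Conclusion: `g • y / y ^ Q` is a `p ^ r`-th power, `y = g • x / x` toric.
-/

set_option autoImplicit false
set_option linter.style.haveILetI false
set_option linter.unusedSectionVars false
set_option linter.unusedVariables false

namespace Fermat.Agent.STB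

open Polynomial IntermediateField Fermat.Agent.INJ AlgebraicCurve Fermat.Agent.UNIP

section Aux

variable {A₀ E F : Type*} [CommRing A₀] [IsDomain A₀] [IsDiscreteValuationRing A₀]
  [Field E] [Algebra A₀ E] [IsFractionRing A₀ E] [CharZero E]
  [Field F] [Algebra E F] [Algebra A₀ F] [IsScalarTower A₀ E F]
  {π : A₀} {κ : Type*}

/-- `g` preserves `A₀[u]` if it preserves `A₀` and fixes `u` -/
theorem stb_mt_adjoin_smul (g : SemilinearAut E F) {u : F} (hgu : g • u = u)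
    (hgA : ∀ α : A₀, ∃ α' : A₀, g • algebraMap A₀ F α = algebraMap A₀ F α')
    {a : F} (ha : a ∈ Algebra.adjoin A₀ ({u} : Set F)) :
    g • a ∈ Algebra.adjoin A₀ ({u} : Set F) := by
  induction ha using Algebra.adjoin_induction with
  | mem x hx =>
    rw [Set.mem_singleton_iff] at hx
    rw [hx, hgu]
    exact Algebra.subset_adjoin (Set.mem_singleton u)
  | algebraMap r =>
    obtain ⟨r', hr'⟩ := hgA r
    rw [hr']
    exact Subalgebra.algebraMap_mem _ r'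
  | add x y _ _ hx hy =>
    rw [smul_add]
    exact Subalgebra.add_mem _ hx hy
  | mul x y _ _ hx hy =>
    rw [smul_mul']
    exact Subalgebra.mul_mem _ hx hy

/-- `g` preserves the chart `B_u` if it preserves `A₀` and fixes `u` -/
theorem stb_mt_isIntegral_smul (g : SemilinearAut E F) {u : F} (hgu : g • u = u)
    (hgA : ∀ α : A₀, ∃ α' : A₀, g • algebraMap A₀ F α = algebraMap A₀ F α')
    {b : F} (hb : IsIntegral ↥(Algebra.adjoin A₀ ({u} : Set F)) b) :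
    IsIntegral ↥(Algebra.adjoin A₀ ({u} : Set F)) (g • b) := by
  obtain ⟨P, hP, hPb⟩ := hb
  let φ : ↥(Algebra.adjoin A₀ ({u} : Set F)) →+* ↥(Algebra.adjoin A₀ ({u} : Set F)) :=
    { toFun := fun a => ⟨g • (a : F), stb_mt_adjoin_smul g hgu hgA a.2⟩
      map_one' := Subtype.ext (smul_one g)
      map_mul' := fun a b => Subtype.ext (smul_mul' g (a : F) (b : F))
      map_zero' := Subtype.ext (smul_zero g)
      map_add' := fun a b => Subtype.ext (smul_add g (a : F) (b : F)) }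
  refine ⟨P.map φ, hP.map φ, ?_⟩
  rw [Polynomial.eval₂_map]
  have e : (algebraMap ↥(Algebra.adjoin A₀ ({u} : Set F)) F).comp φ =
      ((SemilinearAut.toRingAut g : F ≃+* F).toRingHom).comp
        (algebraMap ↥(Algebra.adjoin A₀ ({u} : Set F)) F) := by
    ext a
    rfl
  rw [e]
  have h := Polynomial.hom_eval₂ P (algebraMap ↥(Algebra.adjoin A₀ ({u} : Set F)) F)
    ((SemilinearAut.toRingAut g : F ≃+* F).toRingHom) b
  have e2 : (SemilinearAut.toRingAut g : F ≃+* F).toRingHom b = g • b := rfl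
  rw [e2] at h
  rw [← h, hPb, map_zero]

/-- `ord_P (g x) = ord_{g⁻¹ P} x` -/
theorem stb_mt_ord_smul (g : SemilinearAut E F) (P : Place E F) (x : F) :
    P.ord (g • x) = (g⁻¹ • P).ord x := by
  have h := SemilinearAut.ord_smul g (g⁻¹ • P) x
  rwa [smul_inv_smul] at h

/-- `ord_P (g x / x) = ord_{g⁻¹ P} x - ord_P x` -/
theorem stb_mt_ord_div (g : SemilinearAut E F) (P : Place E F) {x : F} (hx : x ≠ 0) :
    P.ord (g • x / x) = (g⁻¹ • P).ord x - P.ord x := by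
  have hgx : g • x ≠ 0 := fun h0 => hx (by
    have := congrArg (fun y => g⁻¹ • y) h0
    simpa using this)
  rw [div_eq_mul_inv, Place.ord_mul P hgx (inv_ne_zero hx), Place.ord_inv, stb_mt_ord_smul]
  ring

/-- the translate of a rational place is rational -/
theorem stb_mt_rat_smul (g : SemilinearAut E F) (P : Place E F)
    (hP : ∀ f ∈ P.toValuationSubring,
      ∃ c : E, f - algebraMap E F c ∈ P.toValuationSubring.nonunits) :
    ∀ f ∈ (g • P).toValuationSubring,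
      ∃ c : E, f - algebraMap E F c ∈ (g • P).toValuationSubring.nonunits := by
  intro f hf
  have hf' : g⁻¹ • f ∈ P.toValuationSubring := by
    rw [SemilinearAut.smul_toValuationSubring] at hf
    exact (ValuationSubring.mem_pointwise_smul_iff_inv_smul_mem (g := g)
      (S := P.toValuationSubring) (x := f)).mp hf
  obtain ⟨c, hc⟩ := hP _ hf'
  refine ⟨SemilinearAut.baseAut g c, ?_⟩
  have h := unip_smul_mem_nonunits g P hc
  rwa [smul_sub, smul_inv_smul, SemilinearAut.smul_algebraMap] at h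

/-- a valuation-preserving automorphism preserves the maximal ideal -/
theorem stb_mt_map_nonunits (g : SemilinearAut E F) (W : ValuationSubring F)
    (hgW : ∀ f : F, f ≠ 0 → W.valuation (g • f / f) = 1) {x : F} (hx : x ∈ W.nonunits) :
    g • x ∈ W.nonunits := by
  rcases eq_or_ne x 0 with rfl | hx0
  · rw [smul_zero]
    exact W.nonunits.zero_mem
  · rw [ValuationSubring.mem_nonunits_iff] at hx ⊢
    have e : g • x = (g • x / x) * x := by field_simp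
    rw [e, map_mul, hgW x hx0, one_mul]
    exact hx

/-- the inverse of a valuation-preserving automorphism is valuation-preserving -/
theorem stb_mt_inv_valuation (g : SemilinearAut E F) (W : ValuationSubring F)
    (hgW : ∀ f : F, f ≠ 0 → W.valuation (g • f / f) = 1) (f : F) (hf : f ≠ 0) :
    W.valuation (g⁻¹ • f / f) = 1 := by
  have hgf : g⁻¹ • f ≠ 0 := fun h0 => hf (by
    have := congrArg (fun y => g • y) h0
    simpa using this)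
  have h := hgW (g⁻¹ • f) hgf
  rw [smul_inv_smul] at h
  have e : g⁻¹ • f / f = (f / g⁻¹ • f)⁻¹ := by rw [inv_div]
  rw [e, map_inv₀, h, inv_one]

end Aux

section Wiring

variable {A₀ E F : Type*} [CommRing A₀] [IsDomain A₀] [IsDiscreteValuationRing A₀]
  [Field E] [Algebra A₀ E] [IsFractionRing A₀ E] [CharZero E]
  [Field F] [Algebra E F] [Algebra A₀ F] [IsScalarTower A₀ E F]
  {π : A₀} {κ : Type*}

/-- **The dichotomy of U5 at the closed point `𝔫` of the chart `u`**, on the unramified chart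
`R` (`j : R →+* B_u`): smooth point `𝔫 ∩ R = (p, s)`, or crossing point `𝔫 ∩ R = (p, X, Y)` with
`X ∈ 𝔪(V₁)`, `Y ∈ 𝔪(V₂)` and both components through `𝔫 ∩ R`. -/
def StbNodeAt (V₁ V₂ : ValuationSubring F) {u : F} (𝔫 : AtPt (F := F) π u)
    {R : Type*} [CommRing R] (j : R →+* ↥(zchClosure (A₀ := A₀) ({u} : Set F))) (p : R) : Prop :=
  (∃ s : R, j s ∈ 𝔫.1 ∧ NodesLocGen (𝔫.1.comap j) {p, s}) ∨
  ((∀ x : R, ((j x : ↥(zchClosure (A₀ := A₀) ({u} : Set F))) : F) ∈ V₁.nonunits → j x ∈ 𝔫.1) ∧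
   (∀ x : R, ((j x : ↥(zchClosure (A₀ := A₀) ({u} : Set F))) : F) ∈ V₂.nonunits → j x ∈ 𝔫.1) ∧
   ∃ X Y : R, ((j X : ↥(zchClosure (A₀ := A₀) ({u} : Set F))) : F) ∈ V₁.nonunits ∧
     ((j Y : ↥(zchClosure (A₀ := A₀) ({u} : Set F))) : F) ∈ V₂.nonunits ∧
     NodesLocGen (𝔫.1.comap j) {p, X, Y})

/-- **The Frobenius hypotheses at a crossing point `𝔫`** (STB-X): `g 𝔫 ⊆ 𝔫`, `g⁻¹ 𝔫 ⊆ 𝔫`, and
`g b ≡ b ^ Q mod 𝔫` on the chart. -/
def StbCrossFrob (g : SemilinearAut E F) (Q : ℕ) {u : F} (𝔫 : AtPt (F := F) π u) : Prop :=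
  (∀ b : ↥(zchClosure (A₀ := A₀) ({u} : Set F)), b ∈ 𝔫.1 →
    ∃ b' : ↥(zchClosure (A₀ := A₀) ({u} : Set F)), b' ∈ 𝔫.1 ∧ g • (b : F) = b') ∧
  (∀ b : ↥(zchClosure (A₀ := A₀) ({u} : Set F)), b ∈ 𝔫.1 →
    ∃ b' : ↥(zchClosure (A₀ := A₀) ({u} : Set F)), b' ∈ 𝔫.1 ∧ g⁻¹ • (b : F) = b') ∧
  (∀ b : ↥(zchClosure (A₀ := A₀) ({u} : Set F)), ∃ c : ↥(zchClosure (A₀ := A₀) ({u} : Set F)), c ∈ 𝔫.1 ∧
    g • (b : F) = (b : F) ^ Q + (c : F))

/-- **STB-C4, chart `t`**: the hypothesis `hpts (Sum.inl 𝔫)` of `stb_main_points` from the dichotomy of U5 at `𝔫`, the Frobenius hypotheses at crossing points and global hypotheses on `x`, `g`. -/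
theorem stb_mt_hpts_inl (hπ : Irreducible π) {t : F} (ht : Transcendental E t)
    [FiniteDimensional E⟮t⟯ F] [Finite κ]
    [IsNoetherianRing ↥(zchClosure (A₀ := A₀) ({t} : Set F))]
    (V : κ → ValuationSubring F) (c₁ c₂ : κ) (hκ : ∀ c, c = c₁ ∨ c = c₂) (hne : V c₁ ≠ V c₂)
    (hBV : ∀ c (b : F), IsIntegral ↥(Algebra.adjoin A₀ {t}) b → b ∈ V c)
    (hπV : ∀ c, algebraMap A₀ F π ∈ (V c).nonunits)
    (hSS1 : ∀ b : F, IsIntegral ↥(Algebra.adjoin A₀ {t}) b → (∀ c, b ∈ (V c).nonunits) →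
      ∃ b' : F, IsIntegral ↥(Algebra.adjoin A₀ {t}) b' ∧ b = algebraMap A₀ F π * b')
    (harch : ∀ c (a x : F), a ∈ (V c).nonunits → ∃ N : ℕ, a ^ N * x ∈ (V c).nonunits)
    (hVloc : ∀ c (x : F), x ∈ V c → ∃ b s : F, IsIntegral ↥(Algebra.adjoin A₀ {t}) b ∧
      IsIntegral ↥(Algebra.adjoin A₀ {t}) s ∧ s ∉ (V c).nonunits ∧ s * x = b)
    (g : SemilinearAut E F) (hgu : g • t = t)
    (hgV : ∀ c (f : F), f ≠ 0 → (V c).valuation (g • f / f) = 1)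
    (hgA : ∀ α : A₀, ∃ α' : A₀, g • algebraMap A₀ F α = algebraMap A₀ F α')
    (hgA' : ∀ α : A₀, ∃ α' : A₀, g⁻¹ • algebraMap A₀ F α = algebraMap A₀ F α')
    (q : A₀) (hq0 : q ≠ 0) (hqπ : π ∣ q) (hgq : g • algebraMap A₀ F q = algebraMap A₀ F q)
    {R : Type*} [CommRing R] (j : R →+* ↥(zchClosure (A₀ := A₀) ({t} : Set F))) (p : R)
    (hram : MgcRamified j (algebraMap A₀ ↥(zchClosure (A₀ := A₀) ({t} : Set F)) π) p)
    (hjp : j p = algebraMap A₀ ↥(zchClosure (A₀ := A₀) ({t} : Set F)) q)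
    (𝔫 : AtPt (F := F) π t)
    (hnode : StbNodeAt (V c₁) (V c₂) 𝔫 j p)
    (Q : ℕ)
    (hfrob : atThrough 𝔫 (V c₁) → atThrough 𝔫 (V c₂) → StbCrossFrob g Q 𝔫)
    (Φ : F →+* F) (hΦ : ∀ x : F, Φ x = g • x)
    {x : F} (hx : x ≠ 0) (m : ℕ)
    (hfin : {P : Place E F | P.ord x ≠ 0}.Finite)
    (hm : ∀ P : Place E F, (m : ℤ) ∣ P.ord x)
    (hrat : ∀ P : Place E F, P.ord x ≠ 0 → ∀ f ∈ P.toValuationSubring,
      ∃ c : E, f - algebraMap E F c ∈ P.toValuationSubring.nonunits)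
    (tt : κ → F) (htoric : ∀ c, (Φ x / x) / tt c ^ m - 1 ∈ (V c).nonunits) :
    (atInc π t V (Sum.inl 𝔫) c₁ ∧ atInc π t V (Sum.inl 𝔫) c₂ ∧
      StbCross (atO π t (Sum.inl 𝔫)) (V c₁) (V c₂) Φ Q m (Φ x / x)) ∨
    (∃ c, atInc π t V (Sum.inl 𝔫) c ∧ (∀ c', atInc π t V (Sum.inl 𝔫) c' → c' = c) ∧
      ∃ i₁ : AtPt (F := F) π t ⊕ AtPt (F := F) π t⁻¹, atInc π t V i₁ c ∧
        StbSmooth (atO π t (Sum.inl 𝔫)) (atO π t i₁) (V c) Φ m (Φ x / x)) := by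
  have hΦeq : Φ = (SemilinearAut.toRingAut g : F ≃+* F).toRingHom := RingHom.ext hΦ
  subst hΦeq
  have hgB₀ : ∀ b : F, IsIntegral ↥(Algebra.adjoin A₀ {t}) b →
      IsIntegral ↥(Algebra.adjoin A₀ {t}) (g • b) :=
    fun b hb => stb_mt_isIntegral_smul g hgu hgA hb
  have hgu' : g⁻¹ • t = t := by
    conv_lhs => rw [← hgu]
    rw [inv_smul_smul]
  have hgB₀' : ∀ b : F, IsIntegral ↥(Algebra.adjoin A₀ {t}) b →
      IsIntegral ↥(Algebra.adjoin A₀ {t}) (g⁻¹ • b) :=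
    fun b hb => stb_mt_isIntegral_smul g⁻¹ hgu' hgA' hb
  rcases hnode with ⟨s, hs, hgen⟩ | ⟨hthr₁, hthr₂, X, Y, hX, hY, hgen⟩
  · -- smooth point
    right
    have hne' : ∀ c c', c ≠ c' → V c ≠ V c' := by
      intro c c' hcc' h
      rcases hκ c with rfl | rfl <;> rcases hκ c' with rfl | rfl
      · exact hcc' rfl
      · exact hne h
      · exact hne h.symm
      · exact hcc' rfl
    have hyfin : ∀ 𝔫' : AtPt (F := F) π t, {P : Place E F |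
        LsTube ↥(zchClosure (A₀ := A₀) ({t} : Set F)) t 𝔫'.1 P ∧ P.ord (g • x / x) ≠ 0}.Finite := by
      intro 𝔫'
      have h2 : {P : Place E F | (g⁻¹ • P).ord x ≠ 0}.Finite := by
        have := hfin.image (fun P : Place E F => g • P)
        refine this.subset ?_
        intro P hP
        exact ⟨g⁻¹ • P, hP, smul_inv_smul g P⟩
      refine (hfin.union h2).subset ?_
      rintro P ⟨-, hP⟩
      rw [stb_mt_ord_div g P hx] at hP
      by_contra hcon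
      rw [Set.mem_union, not_or] at hcon
      have h3 : P.ord x = 0 := not_not.mp hcon.1
      have h4 : (g⁻¹ • P).ord x = 0 := not_not.mp hcon.2
      exact hP (by rw [h3, h4, sub_zero])
    have hym : ∀ 𝔫' : AtPt (F := F) π t, ∀ P : Place E F,
        LsTube ↥(zchClosure (A₀ := A₀) ({t} : Set F)) t 𝔫'.1 P → (m : ℤ) ∣ P.ord (g • x / x) := by
      intro 𝔫' P _
      rw [stb_mt_ord_div g P hx]
      exact dvd_sub (hm _) (hm _)
    have hyrat : ∀ 𝔫' : AtPt (F := F) π t, ∀ P : Place E F,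
        LsTube ↥(zchClosure (A₀ := A₀) ({t} : Set F)) t 𝔫'.1 P → P.ord (g • x / x) ≠ 0 →
        ∀ f ∈ P.toValuationSubring,
          ∃ c : E, f - algebraMap E F c ∈ P.toValuationSubring.nonunits := by
      intro 𝔫' P _ hP
      by_cases h3 : P.ord x = 0
      · have h4 : (g⁻¹ • P).ord x ≠ 0 := by
          intro h4
          rw [stb_mt_ord_div g P hx, h3, h4, sub_zero] at hP
          exact hP rfl
        have := stb_mt_rat_smul g (g⁻¹ • P) (hrat _ h4)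
        rwa [smul_inv_smul] at this
      · exact hrat P h3
    exact stb_sx_hpts_inl hπ ht V hBV hπV hSS1 hVloc hne' harch (SemilinearAut.toRingAut g)
      hgB₀ hgB₀'
      (stb_st_map_pi E hπ (SemilinearAut.toRingAut g) hgA hgA')
      (stb_st_map_pi E hπ (SemilinearAut.toRingAut g).symm hgA' hgA)
      (fun c x hx' => stb_mt_map_nonunits g (V c) (hgV c) hx')
      (fun c x hx' => stb_mt_map_nonunits g⁻¹ (V c) (stb_mt_inv_valuation g (V c) (hgV c)) hx')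
      𝔫 (j s) hs (hram.mgg_locGen_pair 𝔫.2.2 s hgen) m tt htoric hyfin hym hyrat
  · -- crossing point
    left
    have hT₁ : atThrough 𝔫 (V c₁) := stb_cp_through (V c₁) (hBV c₁) (hπV c₁) 𝔫 j p hram hthr₁
    have hT₂ : atThrough 𝔫 (V c₂) := stb_cp_through (V c₂) (hBV c₂) (hπV c₂) 𝔫 j p hram hthr₂
    obtain ⟨hgB, hgB', hfrobB⟩ := hfrob hT₁ hT₂
    exact stb_cp_cross_inl hπ ht V hBV hπV hSS1 hVloc g hgu 𝔫 hgB hgB' hgB₀ hgB₀' hgV hgA
      q hq0 hqπ hgq j p hram hjp c₁ c₂ hκ hthr₁ hthr₂ X Y hX hY hgen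
      (SemilinearAut.toRingAut g : F ≃+* F).toRingHom (fun _ => rfl) Q hfrobB hx m
      (hfin.subset fun P hP => hP.2.2) (fun P _ _ => hm P) (fun P _ _ hP => hrat P hP)

/-- **STB-C4, chart `t⁻¹`**: the hypothesis `hpts (Sum.inr 𝔫)` of `stb_main_points`. -/
theorem stb_mt_hpts_inr (hπ : Irreducible π) {t : F} (ht' : Transcendental E t⁻¹)
    [FiniteDimensional E⟮t⁻¹⟯ F] [Finite κ]
    [IsNoetherianRing ↥(zchClosure (A₀ := A₀) ({t⁻¹} : Set F))]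
    (V : κ → ValuationSubring F) (c₁ c₂ : κ) (hκ : ∀ c, c = c₁ ∨ c = c₂) (hne : V c₁ ≠ V c₂)
    (hBV : ∀ c (b : F), IsIntegral ↥(Algebra.adjoin A₀ {t⁻¹}) b → b ∈ V c)
    (hπV : ∀ c, algebraMap A₀ F π ∈ (V c).nonunits)
    (hSS1 : ∀ b : F, IsIntegral ↥(Algebra.adjoin A₀ {t⁻¹}) b → (∀ c, b ∈ (V c).nonunits) →
      ∃ b' : F, IsIntegral ↥(Algebra.adjoin A₀ {t⁻¹}) b' ∧ b = algebraMap A₀ F π * b')
    (harch : ∀ c (a x : F), a ∈ (V c).nonunits → ∃ N : ℕ, a ^ N * x ∈ (V c).nonunits)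
    (hVloc : ∀ c (x : F), x ∈ V c → ∃ b s : F, IsIntegral ↥(Algebra.adjoin A₀ {t⁻¹}) b ∧
      IsIntegral ↥(Algebra.adjoin A₀ {t⁻¹}) s ∧ s ∉ (V c).nonunits ∧ s * x = b)
    (g : SemilinearAut E F) (hgu : g • t⁻¹ = t⁻¹)
    (hgV : ∀ c (f : F), f ≠ 0 → (V c).valuation (g • f / f) = 1)
    (hgA : ∀ α : A₀, ∃ α' : A₀, g • algebraMap A₀ F α = algebraMap A₀ F α')
    (hgA' : ∀ α : A₀, ∃ α' : A₀, g⁻¹ • algebraMap A₀ F α = algebraMap A₀ F α')
    (q : A₀) (hq0 : q ≠ 0) (hqπ : π ∣ q) (hgq : g • algebraMap A₀ F q = algebraMap A₀ F q)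
    {R : Type*} [CommRing R] (j : R →+* ↥(zchClosure (A₀ := A₀) ({t⁻¹} : Set F))) (p : R)
    (hram : MgcRamified j (algebraMap A₀ ↥(zchClosure (A₀ := A₀) ({t⁻¹} : Set F)) π) p)
    (hjp : j p = algebraMap A₀ ↥(zchClosure (A₀ := A₀) ({t⁻¹} : Set F)) q)
    (𝔫 : AtPt (F := F) π t⁻¹)
    (hnode : StbNodeAt (V c₁) (V c₂) 𝔫 j p)
    (Q : ℕ)
    (hfrob : atThrough 𝔫 (V c₁) → atThrough 𝔫 (V c₂) → StbCrossFrob g Q 𝔫)
    (Φ : F →+* F) (hΦ : ∀ x : F, Φ x = g • x)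
    {x : F} (hx : x ≠ 0) (m : ℕ)
    (hfin : {P : Place E F | P.ord x ≠ 0}.Finite)
    (hm : ∀ P : Place E F, (m : ℤ) ∣ P.ord x)
    (hrat : ∀ P : Place E F, P.ord x ≠ 0 → ∀ f ∈ P.toValuationSubring,
      ∃ c : E, f - algebraMap E F c ∈ P.toValuationSubring.nonunits)
    (tt : κ → F) (htoric : ∀ c, (Φ x / x) / tt c ^ m - 1 ∈ (V c).nonunits) :
    (atInc π t V (Sum.inr 𝔫) c₁ ∧ atInc π t V (Sum.inr 𝔫) c₂ ∧
      StbCross (atO π t (Sum.inr 𝔫)) (V c₁) (V c₂) Φ Q m (Φ x / x)) ∨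
    (∃ c, atInc π t V (Sum.inr 𝔫) c ∧ (∀ c', atInc π t V (Sum.inr 𝔫) c' → c' = c) ∧
      ∃ i₁ : AtPt (F := F) π t ⊕ AtPt (F := F) π t⁻¹, atInc π t V i₁ c ∧
        StbSmooth (atO π t (Sum.inr 𝔫)) (atO π t i₁) (V c) Φ m (Φ x / x)) := by
  have hΦeq : Φ = (SemilinearAut.toRingAut g : F ≃+* F).toRingHom := RingHom.ext hΦ
  subst hΦeq
  have hgB₀ : ∀ b : F, IsIntegral ↥(Algebra.adjoin A₀ {t⁻¹}) b →
      IsIntegral ↥(Algebra.adjoin A₀ {t⁻¹}) (g • b) :=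
    fun b hb => stb_mt_isIntegral_smul g hgu hgA hb
  have hgu' : g⁻¹ • t⁻¹ = t⁻¹ := by
    conv_lhs => rw [← hgu]
    rw [inv_smul_smul]
  have hgB₀' : ∀ b : F, IsIntegral ↥(Algebra.adjoin A₀ {t⁻¹}) b →
      IsIntegral ↥(Algebra.adjoin A₀ {t⁻¹}) (g⁻¹ • b) :=
    fun b hb => stb_mt_isIntegral_smul g⁻¹ hgu' hgA' hb
  rcases hnode with ⟨s, hs, hgen⟩ | ⟨hthr₁, hthr₂, X, Y, hX, hY, hgen⟩
  · -- smooth point
    right
    have hne' : ∀ c c', c ≠ c' → V c ≠ V c' := by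
      intro c c' hcc' h
      rcases hκ c with rfl | rfl <;> rcases hκ c' with rfl | rfl
      · exact hcc' rfl
      · exact hne h
      · exact hne h.symm
      · exact hcc' rfl
    have hyfin : ∀ 𝔫' : AtPt (F := F) π t⁻¹, {P : Place E F |
        LsTube ↥(zchClosure (A₀ := A₀) ({t⁻¹} : Set F)) t⁻¹ 𝔫'.1 P ∧ P.ord (g • x / x) ≠ 0}.Finite := by
      intro 𝔫'
      have h2 : {P : Place E F | (g⁻¹ • P).ord x ≠ 0}.Finite := by
        have := hfin.image (fun P : Place E F => g • P)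
        refine this.subset ?_
        intro P hP
        exact ⟨g⁻¹ • P, hP, smul_inv_smul g P⟩
      refine (hfin.union h2).subset ?_
      rintro P ⟨-, hP⟩
      rw [stb_mt_ord_div g P hx] at hP
      by_contra hcon
      rw [Set.mem_union, not_or] at hcon
      have h3 : P.ord x = 0 := not_not.mp hcon.1
      have h4 : (g⁻¹ • P).ord x = 0 := not_not.mp hcon.2
      exact hP (by rw [h3, h4, sub_zero])
    have hym : ∀ 𝔫' : AtPt (F := F) π t⁻¹, ∀ P : Place E F,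
        LsTube ↥(zchClosure (A₀ := A₀) ({t⁻¹} : Set F)) t⁻¹ 𝔫'.1 P → (m : ℤ) ∣ P.ord (g • x / x) := by
      intro 𝔫' P _
      rw [stb_mt_ord_div g P hx]
      exact dvd_sub (hm _) (hm _)
    have hyrat : ∀ 𝔫' : AtPt (F := F) π t⁻¹, ∀ P : Place E F,
        LsTube ↥(zchClosure (A₀ := A₀) ({t⁻¹} : Set F)) t⁻¹ 𝔫'.1 P → P.ord (g • x / x) ≠ 0 →
        ∀ f ∈ P.toValuationSubring,
          ∃ c : E, f - algebraMap E F c ∈ P.toValuationSubring.nonunits := by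
      intro 𝔫' P _ hP
      by_cases h3 : P.ord x = 0
      · have h4 : (g⁻¹ • P).ord x ≠ 0 := by
          intro h4
          rw [stb_mt_ord_div g P hx, h3, h4, sub_zero] at hP
          exact hP rfl
        have := stb_mt_rat_smul g (g⁻¹ • P) (hrat _ h4)
        rwa [smul_inv_smul] at this
      · exact hrat P h3
    exact stb_sx_hpts_inr hπ ht' V hBV hπV hSS1 hVloc hne' harch (SemilinearAut.toRingAut g)
      hgB₀ hgB₀'
      (stb_st_map_pi E hπ (SemilinearAut.toRingAut g) hgA hgA')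
      (stb_st_map_pi E hπ (SemilinearAut.toRingAut g).symm hgA' hgA)
      (fun c x hx' => stb_mt_map_nonunits g (V c) (hgV c) hx')
      (fun c x hx' => stb_mt_map_nonunits g⁻¹ (V c) (stb_mt_inv_valuation g (V c) (hgV c)) hx')
      𝔫 (j s) hs (hram.mgg_locGen_pair 𝔫.2.2 s hgen) m tt htoric hyfin hym hyrat
  · -- crossing point
    left
    have hT₁ : atThrough 𝔫 (V c₁) := stb_cp_through (V c₁) (hBV c₁) (hπV c₁) 𝔫 j p hram hthr₁
    have hT₂ : atThrough 𝔫 (V c₂) := stb_cp_through (V c₂) (hBV c₂) (hπV c₂) 𝔫 j p hram hthr₂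
    obtain ⟨hgB, hgB', hfrobB⟩ := hfrob hT₁ hT₂
    exact stb_cp_cross_inr hπ ht' V hBV hπV hSS1 hVloc g hgu 𝔫 hgB hgB' hgB₀ hgB₀' hgV hgA
      q hq0 hqπ hgq j p hram hjp c₁ c₂ hκ hthr₁ hthr₂ X Y hX hY hgen
      (SemilinearAut.toRingAut g : F ≃+* F).toRingHom (fun _ => rfl) Q hfrobB hx m
      (hfin.subset fun P hP => hP.2.2) (fun P _ _ => hm P) (fun P _ _ hP => hrat P hP)

/-- **STB-C4**: the hypothesis `hpts` of `stb_main_points` (all closed points of both charts),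
for `y = Φ x / x`, `Φ = g`, any `m`. -/
theorem stb_mt_hpts (hπ : Irreducible π) {t : F} (ht : Transcendental E t)
    [FiniteDimensional E⟮t⟯ F] [Finite κ]
    [IsNoetherianRing ↥(zchClosure (A₀ := A₀) ({t} : Set F))]
    [IsNoetherianRing ↥(zchClosure (A₀ := A₀) ({t⁻¹} : Set F))]
    (V : κ → ValuationSubring F) (c₁ c₂ : κ) (hκ : ∀ c, c = c₁ ∨ c = c₂) (hne : V c₁ ≠ V c₂)
    (hBV₁ : ∀ c (b : F), IsIntegral ↥(Algebra.adjoin A₀ {t}) b → b ∈ V c)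
    (hBV₂ : ∀ c (b : F), IsIntegral ↥(Algebra.adjoin A₀ {t⁻¹}) b → b ∈ V c)
    (hπV : ∀ c, algebraMap A₀ F π ∈ (V c).nonunits)
    (hSS1 : ∀ b : F, IsIntegral ↥(Algebra.adjoin A₀ {t}) b → (∀ c, b ∈ (V c).nonunits) →
      ∃ b' : F, IsIntegral ↥(Algebra.adjoin A₀ {t}) b' ∧ b = algebraMap A₀ F π * b')
    (harch : ∀ c (a x : F), a ∈ (V c).nonunits → ∃ N : ℕ, a ^ N * x ∈ (V c).nonunits)
    (hVloc₁ : ∀ c (x : F), x ∈ V c → ∃ b s : F, IsIntegral ↥(Algebra.adjoin A₀ {t}) b ∧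
      IsIntegral ↥(Algebra.adjoin A₀ {t}) s ∧ s ∉ (V c).nonunits ∧ s * x = b)
    (hVloc₂ : ∀ c (x : F), x ∈ V c → ∃ b s : F, IsIntegral ↥(Algebra.adjoin A₀ {t⁻¹}) b ∧
      IsIntegral ↥(Algebra.adjoin A₀ {t⁻¹}) s ∧ s ∉ (V c).nonunits ∧ s * x = b)
    (g : SemilinearAut E F) (hgt : g • t = t)
    (hgV : ∀ c (f : F), f ≠ 0 → (V c).valuation (g • f / f) = 1)
    (hgA : ∀ α : A₀, ∃ α' : A₀, g • algebraMap A₀ F α = algebraMap A₀ F α')
    (hgA' : ∀ α : A₀, ∃ α' : A₀, g⁻¹ • algebraMap A₀ F α = algebraMap A₀ F α')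
    (q : A₀) (hq0 : q ≠ 0) (hqπ : π ∣ q) (hgq : g • algebraMap A₀ F q = algebraMap A₀ F q)
    {R₁ : Type*} [CommRing R₁] (j₁ : R₁ →+* ↥(zchClosure (A₀ := A₀) ({t} : Set F))) (p₁ : R₁)
    (hram₁ : MgcRamified j₁ (algebraMap A₀ ↥(zchClosure (A₀ := A₀) ({t} : Set F)) π) p₁)
    (hjp₁ : j₁ p₁ = algebraMap A₀ ↥(zchClosure (A₀ := A₀) ({t} : Set F)) q)
    {R₂ : Type*} [CommRing R₂] (j₂ : R₂ →+* ↥(zchClosure (A₀ := A₀) ({t⁻¹} : Set F))) (p₂ : R₂)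
    (hram₂ : MgcRamified j₂ (algebraMap A₀ ↥(zchClosure (A₀ := A₀) ({t⁻¹} : Set F)) π) p₂)
    (hjp₂ : j₂ p₂ = algebraMap A₀ ↥(zchClosure (A₀ := A₀) ({t⁻¹} : Set F)) q)
    (hnode₁ : ∀ 𝔫 : AtPt (F := F) π t, StbNodeAt (V c₁) (V c₂) 𝔫 j₁ p₁)
    (hnode₂ : ∀ 𝔫 : AtPt (F := F) π t⁻¹, StbNodeAt (V c₁) (V c₂) 𝔫 j₂ p₂)
    (Q : ℕ)
    (hfrob₁ : ∀ 𝔫 : AtPt (F := F) π t, atThrough 𝔫 (V c₁) → atThrough 𝔫 (V c₂) →
      StbCrossFrob g Q 𝔫)
    (hfrob₂ : ∀ 𝔫 : AtPt (F := F) π t⁻¹, atThrough 𝔫 (V c₁) → atThrough 𝔫 (V c₂) →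
      StbCrossFrob g Q 𝔫)
    (Φ : F →+* F) (hΦ : ∀ x : F, Φ x = g • x)
    {x : F} (hx : x ≠ 0) (m : ℕ)
    (hfin : {P : Place E F | P.ord x ≠ 0}.Finite)
    (hm : ∀ P : Place E F, (m : ℤ) ∣ P.ord x)
    (hrat : ∀ P : Place E F, P.ord x ≠ 0 → ∀ f ∈ P.toValuationSubring,
      ∃ c : E, f - algebraMap E F c ∈ P.toValuationSubring.nonunits)
    (tt : κ → F) (htoric : ∀ c, (Φ x / x) / tt c ^ m - 1 ∈ (V c).nonunits) :
    ∀ i : AtPt (F := F) π t ⊕ AtPt (F := F) π t⁻¹,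
      (atInc π t V i c₁ ∧ atInc π t V i c₂ ∧
        StbCross (atO π t i) (V c₁) (V c₂) Φ Q m (Φ x / x)) ∨
      (∃ c, atInc π t V i c ∧ (∀ c', atInc π t V i c' → c' = c) ∧
        ∃ i₁ : AtPt (F := F) π t ⊕ AtPt (F := F) π t⁻¹, atInc π t V i₁ c ∧
          StbSmooth (atO π t i) (atO π t i₁) (V c) Φ m (Φ x / x)) := by
  haveI : FiniteDimensional E⟮t⁻¹⟯ F := at_finiteDimensional_inv t
  have ht' : Transcendental E t⁻¹ := zch_transcendental_inv ht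
  rintro (𝔫 | 𝔫)
  · exact stb_mt_hpts_inl hπ ht V c₁ c₂ hκ hne hBV₁ hπV hSS1 harch hVloc₁ g hgt hgV hgA hgA'
      q hq0 hqπ hgq j₁ p₁ hram₁ hjp₁ 𝔫 (hnode₁ 𝔫) Q (hfrob₁ 𝔫) Φ hΦ hx m hfin hm hrat tt htoric
  · exact stb_mt_hpts_inr hπ ht' V c₁ c₂ hκ hne hBV₂ hπV (ats_SS1_inv ht hπ V hBV₁ hSS1) harch
      hVloc₂ g (at_smul_inv hgt) hgV hgA hgA' q hq0 hqπ hgq j₂ p₂ hram₂ hjp₂ 𝔫 (hnode₂ 𝔫) Q
      (hfrob₂ 𝔫) Φ hΦ hx m hfin hm hrat tt htoric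

/-- **(T″) for two components, from the dichotomy of U5** — the twin of `at_main_two`.
`Φ = g` a semilinear automorphism fixing `t`, preserving `A₀` and the vertical valuations,
fixing the crossing points and inducing the `Q`-th power map on their residue fields;
`p ^ r ∣ div x`, rational support, `y = Φ x / x` toric.  Then `Φ y / y ^ Q` is a `p ^ r`-th
power. -/
theorem stb_main_two (hπ : Irreducible π) {t : F} (ht : Transcendental E t)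
    (hcl : ∀ x : F, IsAlgebraic E x → x ∈ (algebraMap E F).range)
    {p : ℕ} (hp : p.Prime) (hpu : IsUnit (p : A₀)) {ζ : A₀} (hζ : IsPrimitiveRoot ζ p)
    (hunit : ∀ a : A₀, IsUnit a → ∃ d : A₀, d ^ p = a)
    [FiniteDimensional E⟮t⟯ F] [Finite κ]
    [IsNoetherianRing ↥(zchClosure (A₀ := A₀) ({t} : Set F))]
    [IsNoetherianRing ↥(zchClosure (A₀ := A₀) ({t⁻¹} : Set F))]
    (V : κ → ValuationSubring F) (c₁ c₂ : κ) (hκ : ∀ c, c = c₁ ∨ c = c₂) (hne : V c₁ ≠ V c₂)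
    (hBV₁ : ∀ c (b : F), IsIntegral ↥(Algebra.adjoin A₀ {t}) b → b ∈ V c)
    (hBV₂ : ∀ c (b : F), IsIntegral ↥(Algebra.adjoin A₀ {t⁻¹}) b → b ∈ V c)
    (hπV : ∀ c, algebraMap A₀ F π ∈ (V c).nonunits)
    (hSS1 : ∀ b : F, IsIntegral ↥(Algebra.adjoin A₀ {t}) b → (∀ c, b ∈ (V c).nonunits) →
      ∃ b' : F, IsIntegral ↥(Algebra.adjoin A₀ {t}) b' ∧ b = algebraMap A₀ F π * b')
    (harch : ∀ c (a x : F), a ∈ (V c).nonunits → ∃ N : ℕ, a ^ N * x ∈ (V c).nonunits)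
    (hVloc₁ : ∀ c (x : F), x ∈ V c → ∃ b s : F, IsIntegral ↥(Algebra.adjoin A₀ {t}) b ∧
      IsIntegral ↥(Algebra.adjoin A₀ {t}) s ∧ s ∉ (V c).nonunits ∧ s * x = b)
    (hVloc₂ : ∀ c (x : F), x ∈ V c → ∃ b s : F, IsIntegral ↥(Algebra.adjoin A₀ {t⁻¹}) b ∧
      IsIntegral ↥(Algebra.adjoin A₀ {t⁻¹}) s ∧ s ∉ (V c).nonunits ∧ s * x = b)
    (g : SemilinearAut E F) (hgt : g • t = t)
    (hgV : ∀ c (f : F), f ≠ 0 → (V c).valuation (g • f / f) = 1)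
    (hgA : ∀ α : A₀, ∃ α' : A₀, g • algebraMap A₀ F α = algebraMap A₀ F α')
    (hgA' : ∀ α : A₀, ∃ α' : A₀, g⁻¹ • algebraMap A₀ F α = algebraMap A₀ F α')
    (q : A₀) (hq0 : q ≠ 0) (hqπ : π ∣ q) (hgq : g • algebraMap A₀ F q = algebraMap A₀ F q)
    {R₁ : Type*} [CommRing R₁] (j₁ : R₁ →+* ↥(zchClosure (A₀ := A₀) ({t} : Set F))) (p₁ : R₁)
    (hram₁ : MgcRamified j₁ (algebraMap A₀ ↥(zchClosure (A₀ := A₀) ({t} : Set F)) π) p₁)
    (hjp₁ : j₁ p₁ = algebraMap A₀ ↥(zchClosure (A₀ := A₀) ({t} : Set F)) q)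
    {R₂ : Type*} [CommRing R₂] (j₂ : R₂ →+* ↥(zchClosure (A₀ := A₀) ({t⁻¹} : Set F))) (p₂ : R₂)
    (hram₂ : MgcRamified j₂ (algebraMap A₀ ↥(zchClosure (A₀ := A₀) ({t⁻¹} : Set F)) π) p₂)
    (hjp₂ : j₂ p₂ = algebraMap A₀ ↥(zchClosure (A₀ := A₀) ({t⁻¹} : Set F)) q)
    (hnode₁ : ∀ 𝔫 : AtPt (F := F) π t, StbNodeAt (V c₁) (V c₂) 𝔫 j₁ p₁)
    (hnode₂ : ∀ 𝔫 : AtPt (F := F) π t⁻¹, StbNodeAt (V c₁) (V c₂) 𝔫 j₂ p₂)
    (Q : ℕ)
    (hfrob₁ : ∀ 𝔫 : AtPt (F := F) π t, atThrough 𝔫 (V c₁) → atThrough 𝔫 (V c₂) →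
      StbCrossFrob g Q 𝔫)
    (hfrob₂ : ∀ 𝔫 : AtPt (F := F) π t⁻¹, atThrough 𝔫 (V c₁) → atThrough 𝔫 (V c₂) →
      StbCrossFrob g Q 𝔫)
    (Φ : F →+* F) (hΦ : ∀ x : F, Φ x = g • x)
    {x : F} (hx : x ≠ 0) (r : ℕ)
    (hfin : {P : Place E F | P.ord x ≠ 0}.Finite)
    (hm : ∀ P : Place E F, ((p ^ r : ℕ) : ℤ) ∣ P.ord x)
    (hrat : ∀ P : Place E F, P.ord x ≠ 0 → ∀ f ∈ P.toValuationSubring,
      ∃ c : E, f - algebraMap E F c ∈ P.toValuationSubring.nonunits)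
    (tt : κ → F) (htoric : ∀ c, (Φ x / x) / tt c ^ (p ^ r) - 1 ∈ (V c).nonunits) :
    ∃ h : F, h ^ (p ^ r) = Φ (Φ x / x) / (Φ x / x) ^ Q :=
  stb_main_points hπ ht hcl hp hpu hζ hunit V c₁ c₂ hκ hne hBV₁ hBV₂ hπV hSS1 harch Φ
    (fun c y hy => by
      rw [hΦ]
      exact stb_mt_map_nonunits g (V c) (hgV c) hy) Q r tt htoric
    (stb_mt_hpts hπ ht V c₁ c₂ hκ hne hBV₁ hBV₂ hπV hSS1 harch hVloc₁ hVloc₂ g hgt hgV hgA hgA'
      q hq0 hqπ hgq j₁ p₁ hram₁ hjp₁ j₂ p₂ hram₂ hjp₂ hnode₁ hnode₂ Q hfrob₁ hfrob₂ Φ hΦ hx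
      (p ^ r) hfin hm hrat tt htoric)

end Wiring

end Fermat.Agent.STB
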