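import Fermat.Agent.STB.FrobLift

/-!
# STB-X (`FrobFix`), part 2h: `RegChart` over the concrete (possibly ramified) base, and the
unconditional concrete `StbFrobVal`

`A` a valuation subring of `ℚ̄` over `q`, `K₀ ⊇ beta0Field A` with `A′ = A ∩ K₀` a discrete
valuation ring (e.g. `K₀ = mgcE A K₁`), `M` prime to `q`, and `3 ∣ M` if `q = 2`, `2 ∣ M` if
`q = 3`.

* `stb_regChart_conc_J`, `stb_regChart_conc_Jinv` : `RegChart π (bgJ K₀ M)`,
  `RegChart π (bgJ K₀ M)⁻¹` (the level-`M` charts are regular along their special fibre) from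
  `regChart_J`, `regChart_h2_J`, `regChart_h3_J`, … of `UNIP/RegTransferMod.lean`;
* **`stb_frobVal_all_J`**, **`stb_frobVal_all_Jinv`** : the concrete `StbFrobVal` of
  `FrobLift.lean` without the hypothesis `RegChart`.
-/

set_option autoImplicit false
set_option linter.style.haveILetI false
set_option linter.unusedSectionVars false
set_option linter.unusedVariables false
set_option linter.style.longLine false
set_option synthInstance.maxHeartbeats 400000
set_option maxHeartbeats 1000000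

noncomputable section

namespace Fermat.Agent.STB

open ModularCurve Polynomial IntermediateField Fermat.Agent.INJ Fermat.Agent.AL Fermat.Agent.UNIP
open Fermat.Agent.ES Fermat.Agent.ES.G2

section Reg

variable {A : ValuationSubring Qb} {K₀ : IntermediateField ℚ Qb}
  [IsDiscreteValuationRing ↥(beta0Ring A K₀)] {π : ↥(beta0Ring A K₀)}
  {q : ℕ} (M : ℕ) [NeZero M]

/-- `ker (residue) = (π)` -/
theorem stb_residue_ker (hπ : Irreducible π) (a : ↥(beta0Ring A K₀))
    (ha : IsLocalRing.residue ↥(beta0Ring A K₀) a = 0) : π ∣ a := by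
  rw [IsLocalRing.residue_eq_zero_iff, hπ.maximalIdeal_eq, Ideal.mem_span_singleton] at ha
  exact ha

theorem stb_residue_pi (hπ : Irreducible π) :
    IsLocalRing.residue ↥(beta0Ring A K₀) π = 0 := by
  rw [IsLocalRing.residue_eq_zero_iff, hπ.maximalIdeal_eq, Ideal.mem_span_singleton]

/-- a natural number prime to `q` is a unit at a valuation subring over `q` -/
theorem stb_natCast_not_mem_nonunits {L : Type*} [Field L] (B : ValuationSubring L)
    (hq : q.Prime) (hB : B.LiesOverPrime q) {e : ℕ} (hqe : ¬ q ∣ e) :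
    ((e : ℕ) : L) ∉ B.nonunits := by
  intro h
  have hcop : Nat.Coprime e q := ((Nat.Prime.coprime_iff_not_dvd hq).mpr hqe).symm
  obtain ⟨u, v, huv⟩ := Nat.Coprime.isCoprime hcop
  have h1 : ((u : L) * ((e : ℕ) : L) + (v : L) * (q : L)) = 1 := by
    have := congrArg (fun z : ℤ => (z : L)) huv
    simpa using this
  have hu : (u : L) ∈ B := intCast_mem B u
  have hv : (v : L) ∈ B := intCast_mem B v
  have h2 : B.valuation ((u : L) * ((e : ℕ) : L) + (v : L) * (q : L)) < 1 := by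
    apply Valuation.map_add_lt
    · rw [map_mul]
      calc B.valuation (u : L) * B.valuation ((e : ℕ) : L)
          ≤ 1 * B.valuation ((e : ℕ) : L) :=
            mul_le_mul_left ((B.valuation_le_one_iff _).mpr hu) _
        _ = B.valuation ((e : ℕ) : L) := one_mul _
        _ < 1 := B.mem_nonunits_iff.mp h
    · rw [map_mul]
      calc B.valuation (v : L) * B.valuation (q : L)
          ≤ 1 * B.valuation (q : L) :=
            mul_le_mul_left ((B.valuation_le_one_iff _).mpr hv) _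
        _ = B.valuation (q : L) := one_mul _
        _ < 1 := B.mem_nonunits_iff.mp hB
  rw [h1, map_one] at h2
  exact lt_irrefl _ h2

/-- units and roots of unity of order prime to `q` in `A′` -/
theorem stb_unit_data (hq : q.Prime) (hA : A.LiesOverPrime q) (hE : beta0Field A ≤ K₀)
    {e : ℕ} (he0 : e ≠ 0) (hqe : ¬ q ∣ e) :
    IsUnit ((e : ℕ) : ↥(beta0Ring A K₀)) ∧ ∃ ζ : ↥(beta0Ring A K₀), IsPrimitiveRoot ζ e := by
  have hM : ((e : ℕ) : Qb) ∉ A.nonunits := stb_natCast_not_mem_nonunits A hq hA hqe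
  exact ⟨beta0Ring_hpu hM, beta0Ring_exists_primitiveRoot hE he0 hM⟩

theorem stb_perfect_residue (hq : q.Prime) (hA : A.LiesOverPrime q) (hE : beta0Field A ≤ K₀) :
    PerfectRing (IsLocalRing.ResidueField ↥(beta0Ring A K₀)) q := by
  haveI : CharP (IsLocalRing.ResidueField ↥(beta0Ring A K₀)) q := frobLift_charP A K₀ hq hA
  haveI : ExpChar (IsLocalRing.ResidueField ↥(beta0Ring A K₀)) q := ExpChar.prime hq
  haveI : IsAlgClosed (IsLocalRing.ResidueField ↥(beta0Ring A K₀)) :=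
    stb_isAlgClosed_residue hq hA hE
  infer_instance

theorem stb_not_dvd_six_mul (hq : q.Prime) (hqM : ¬ q ∣ M) (h2 : q ≠ 2) (h3 : q ≠ 3) :
    ¬ q ∣ 6 * M := by
  intro h
  rcases (Nat.Prime.dvd_mul hq).mp h with h6 | hM
  · have h6' : q ∣ 2 * 3 := by simpa using h6
    rcases (Nat.Prime.dvd_mul hq).mp h6' with h | h
    · exact h2 ((Nat.prime_dvd_prime_iff_eq hq Nat.prime_two).mp h)
    · exact h3 ((Nat.prime_dvd_prime_iff_eq hq Nat.prime_three).mp h)
  · exact hqM hM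

/-- **`RegChart` for the chart `j` of level `M`** over `A′`. -/
theorem stb_regChart_conc_J (hq : q.Prime) (hA : A.LiesOverPrime q) (hE : beta0Field A ≤ K₀)
    (hπ : Irreducible π) (hqM : ¬ q ∣ M) (h2 : q = 2 → 3 ∣ M) (h3 : q = 3 → 2 ∣ M) :
    RegChart (E := ↥K₀) π (bgJ ↥K₀ M) := by
  haveI : Fact q.Prime := ⟨hq⟩
  haveI : CharP (IsLocalRing.ResidueField ↥(beta0Ring A K₀)) q := frobLift_charP A K₀ hq hA
  haveI := stb_perfect_residue (K₀ := K₀) hq hA hE
  have hM0 : M ≠ 0 := NeZero.ne M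
  by_cases hq2 : q = 2
  · obtain ⟨he, hζ⟩ := stb_unit_data (K₀ := K₀) hq hA hE hM0 hqM
    exact regChart_h3_J K₀ M (IsLocalRing.residue ↥(beta0Ring A K₀)) (h2 hq2) hπ
      (stb_residue_ker hπ) (stb_residue_pi hπ) q M dvd_rfl he hζ
  by_cases hq3 : q = 3
  · obtain ⟨he, hζ⟩ := stb_unit_data (K₀ := K₀) hq hA hE hM0 hqM
    exact regChart_h2_J K₀ M (IsLocalRing.residue ↥(beta0Ring A K₀)) (h3 hq3) hπ
      (stb_residue_ker hπ) (stb_residue_pi hπ) q M dvd_rfl he hζ
  · obtain ⟨he, hζ⟩ := stb_unit_data (K₀ := K₀) hq hA hE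
      (mul_ne_zero (by norm_num) hM0) (stb_not_dvd_six_mul M hq hqM hq2 hq3)
    exact regChart_J K₀ M (IsLocalRing.residue ↥(beta0Ring A K₀)) hπ
      (stb_residue_ker hπ) (stb_residue_pi hπ) q (6 * M) (dvd_mul_right 6 M)
      (dvd_mul_left M 6) he hζ

/-- **`RegChart` for the chart `1/j` of level `M`** over `A′`. -/
theorem stb_regChart_conc_Jinv (hq : q.Prime) (hA : A.LiesOverPrime q)
    (hE : beta0Field A ≤ K₀)
    (hπ : Irreducible π) (hqM : ¬ q ∣ M) (h2 : q = 2 → 3 ∣ M) (h3 : q = 3 → 2 ∣ M) :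
    RegChart (E := ↥K₀) π (bgJ ↥K₀ M)⁻¹ := by
  haveI : Fact q.Prime := ⟨hq⟩
  haveI : CharP (IsLocalRing.ResidueField ↥(beta0Ring A K₀)) q := frobLift_charP A K₀ hq hA
  haveI := stb_perfect_residue (K₀ := K₀) hq hA hE
  have hM0 : M ≠ 0 := NeZero.ne M
  by_cases hq2 : q = 2
  · obtain ⟨he, hζ⟩ := stb_unit_data (K₀ := K₀) hq hA hE hM0 hqM
    exact regChart_h3_Jinv K₀ M (IsLocalRing.residue ↥(beta0Ring A K₀)) (h2 hq2) hπ
      (stb_residue_ker hπ) (stb_residue_pi hπ) q M dvd_rfl he hζ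
  by_cases hq3 : q = 3
  · obtain ⟨he, hζ⟩ := stb_unit_data (K₀ := K₀) hq hA hE hM0 hqM
    exact regChart_h2_Jinv K₀ M (IsLocalRing.residue ↥(beta0Ring A K₀)) (h3 hq3) hπ
      (stb_residue_ker hπ) (stb_residue_pi hπ) q M dvd_rfl he hζ
  · obtain ⟨he, hζ⟩ := stb_unit_data (K₀ := K₀) hq hA hE
      (mul_ne_zero (by norm_num) hM0) (stb_not_dvd_six_mul M hq hqM hq2 hq3)
    exact regChart_Jinv K₀ M (IsLocalRing.residue ↥(beta0Ring A K₀)) hπ
      (stb_residue_ker hπ) (stb_residue_pi hπ) q (6 * M) (dvd_mul_right 6 M)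
      (dvd_mul_left M 6) he hζ

end Reg

section All

variable {A : ValuationSubring Qb} {K₀ : IntermediateField ℚ Qb}
  [IsDiscreteValuationRing ↥(beta0Ring A K₀)] {π : ↥(beta0Ring A K₀)} (hπ : Irreducible π)
  (ιC : ↥K₀ →+* ℂ) {q M : ℕ} [NeZero q] [NeZero M] [NeZero (M * q)]
  (hq : q.Prime) (hqM : ¬ q ∣ M)

/-- **The concrete `StbFrobVal`, chart `j`**, all inputs discharged. -/
theorem stb_frobVal_all_J (hA : A.LiesOverPrime q) (hE : beta0Field A ≤ K₀)
    (h2 : q = 2 → 3 ∣ M) (h3 : q = 3 → 2 ∣ M) {φ : Qb ≃ₐ[ℚ] Qb}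
    (hφF : A.IsFrobeniusAt φ q) (hφ : ∀ x ∈ K₀, φ x ∈ K₀) :
    StbFrobVal
      (zchClosure (A₀ := ↥(beta0Ring A K₀))
        ({bgJ ↥K₀ (M * q)} : Set ↥(modularFunctionFieldFullC ↥K₀ (M * q)))).toSubring
      (mgvV hπ ιC hq hqM true) (mgvV hπ ιC hq hqM false) (stbAtk ιC hq hqM)
      (mgRingAut (M * q) (mgaRestrictEquiv K₀ φ hφ)) q :=
  stb_frobVal_conc_J hπ ιC hq hqM hA hφF hφ (stb_regChart_conc_J M hq hA hE hπ hqM h2 h3)

/-- **The concrete `StbFrobVal`, chart `1/j`**, all inputs discharged. -/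
theorem stb_frobVal_all_Jinv (hA : A.LiesOverPrime q) (hE : beta0Field A ≤ K₀)
    (h2 : q = 2 → 3 ∣ M) (h3 : q = 3 → 2 ∣ M) {φ : Qb ≃ₐ[ℚ] Qb}
    (hφF : A.IsFrobeniusAt φ q) (hφ : ∀ x ∈ K₀, φ x ∈ K₀) :
    StbFrobVal
      (zchClosure (A₀ := ↥(beta0Ring A K₀))
        ({(bgJ ↥K₀ (M * q))⁻¹} : Set ↥(modularFunctionFieldFullC ↥K₀ (M * q)))).toSubring
      (mgvV hπ ιC hq hqM true) (mgvV hπ ιC hq hqM false) (stbAtk ιC hq hqM)
      (mgRingAut (M * q) (mgaRestrictEquiv K₀ φ hφ)) q :=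
  stb_frobVal_conc_Jinv hπ ιC hq hqM hA hφF hφ
    (stb_regChart_conc_Jinv M hq hA hE hπ hqM h2 h3)

end All

end Fermat.Agent.STB
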