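import Fermat.Agent.UNIP.MGGalAct
import Fermat.Agent.UNIP.FrobLift
import Fermat.Agent.UNIP.Beta0Inst
import Fermat.Agent.RED.ResField

/-!
# STB-X (`FrobFix`), part 2b: the Galois side

`A` a valuation subring of `ℚ̄` over `q`, `τ ∈ D_A` (e.g. a Frobenius element at `A`),
`E₀ = beta0Field A = ℚ̄^I`, `K₀ ⊇ E₀` a `τ`-stable intermediate field (e.g. `E′ = E₀ ⊔ K`, `K / ℚ`
normal), `A′ = beta0Ring A K₀ = A ∩ K₀`.

* `stb_conj_mem_inertia`   : `τ⁻¹ σ τ ∈ I_A` for `σ ∈ I_A`, `τ ∈ D_A`;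
* `stb_stable_beta0`, `stb_stable_beta0_sup` : `E₀` and `E₀ ⊔ K` (`K / ℚ` normal) are `τ`-stable;
* `stb_mem_iff`            : `τ x ∈ A ↔ x ∈ A`;
* `stb_frob_congr`         : `τ a - a ^ q ∈ 𝔪_A` for a Frobenius element `τ` and `a ∈ A`;
* `stb_frob_congr_ring`    : `τ a = a ^ q + π′ c` in `A′` (`π′` a uniformizer of `A′`)
  — the hypothesis `hΨR` of `stb_cross_hfrobB`;
* `stb_frob_unif`          : `τ π′ = π′ ε`, `ε ∈ A′^×`  — the hypothesis `hϖ` of
  `stb_valuation_map_div_eq_one`;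
* `stbResEquiv`, `stb_isAlgClosed_residue` : the residue field of `A′` is that of `A`, hence
  algebraically closed.
-/

set_option autoImplicit false
set_option linter.style.haveILetI false
set_option linter.unusedSectionVars false
set_option linter.unusedVariables false

noncomputable section

namespace Fermat.Agent.STB

open Fermat.Agent.UNIP Fermat.Agent.ES

variable {A : ValuationSubring (AlgebraicClosure ℚ)}
  {τ σ : AlgebraicClosure ℚ ≃ₐ[ℚ] AlgebraicClosure ℚ}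

/-- the inertia group is normalised by the decomposition group -/
theorem stb_conj_mem_inertia (hτ : τ ∈ A.decompositionSubgroup ℚ)
    (hσ : σ ∈ A.inertiaSubgroupIn ℚ) : τ⁻¹ * σ * τ ∈ A.inertiaSubgroupIn ℚ := by
  rw [ValuationSubring.inertiaSubgroupIn, Subgroup.mem_map] at hσ ⊢
  obtain ⟨σ', hσ', rfl⟩ := hσ
  have hn : (A.inertiaSubgroup ℚ).Normal := MonoidHom.normal_ker _
  let τ' : A.decompositionSubgroup ℚ := ⟨τ, hτ⟩
  refine ⟨τ'⁻¹ * σ' * τ'⁻¹⁻¹, hn.conj_mem σ' hσ' τ'⁻¹, ?_⟩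
  simp only [map_mul, map_inv, Subgroup.subtype_apply, inv_inv]
  rfl

/-- **`E₀ = ℚ̄^I` is stable under the decomposition group.** -/
theorem stb_stable_beta0 (hτ : τ ∈ A.decompositionSubgroup ℚ) :
    ∀ x ∈ beta0Field A, τ x ∈ beta0Field A := by
  intro x hx
  rw [mem_beta0Field] at hx ⊢
  intro σ hσ
  have h1 := hx _ (stb_conj_mem_inertia hτ hσ)
  have h2 : (τ⁻¹ * σ * τ) x = τ⁻¹ (σ (τ x)) := rfl
  rw [h2] at h1
  have h3 := congrArg τ h1
  have h4 : τ (τ⁻¹ (σ (τ x))) = σ (τ x) := by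
    show (τ * τ⁻¹) (σ (τ x)) = σ (τ x)
    rw [mul_inv_cancel]
    rfl
  rw [h4] at h3
  exact h3

/-- **`E′ = E₀ ⊔ K`, `K / ℚ` normal, is stable under the decomposition group.** -/
theorem stb_stable_beta0_sup (hτ : τ ∈ A.decompositionSubgroup ℚ)
    (K : IntermediateField ℚ (AlgebraicClosure ℚ)) [Normal ℚ K] :
    ∀ x ∈ beta0Field A ⊔ K, τ x ∈ beta0Field A ⊔ K :=
  mga_stable_sup τ (stb_stable_beta0 hτ) (mga_stable_of_normal τ K)

/-- `τ ∈ D_A` preserves `A` -/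
theorem stb_mem_of_mem (hτ : τ ∈ A.decompositionSubgroup ℚ) {x : AlgebraicClosure ℚ}
    (hx : x ∈ A) : τ x ∈ A :=
  (kronDecompHom τ hτ ⟨x, hx⟩).2

theorem stb_mem_iff (hτ : τ ∈ A.decompositionSubgroup ℚ) {x : AlgebraicClosure ℚ} :
    τ x ∈ A ↔ x ∈ A := by
  refine ⟨fun h => ?_, stb_mem_of_mem hτ⟩
  have := stb_mem_of_mem (kron_symm_mem_decomposition hτ) h
  rwa [AlgEquiv.symm_apply_apply] at this

/-- **Frobenius congruence**: `τ a - a ^ q ∈ 𝔪_A` for a Frobenius element `τ` at `A`. -/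
theorem stb_frob_congr {q : ℕ} (hτ : A.IsFrobeniusAt τ q) {a : AlgebraicClosure ℚ} (ha : a ∈ A) :
    τ a - a ^ q ∈ A.nonunits := by
  have h1 := kron_residue_frobenius τ hτ (⟨a, ha⟩ : A)
  have h2 : IsLocalRing.residue A
      (kronDecompHom τ hτ.mem_decompositionSubgroup ⟨a, ha⟩ - (⟨a, ha⟩ : A) ^ q) = 0 := by
    rw [map_sub, map_pow, h1, sub_self]
  rw [IsLocalRing.residue_eq_zero_iff, ← ValuationSubring.coe_mem_nonunits_iff] at h2
  exact h2

section Ring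

variable (K₀ : IntermediateField ℚ (AlgebraicClosure ℚ))

/-- the restriction of `τ ∈ D_A` to `A′ = A ∩ K₀` is bijective -/
theorem stb_frobLiftRing_bijective (hτ : τ ∈ A.decompositionSubgroup ℚ)
    (hK : ∀ x ∈ K₀, τ x ∈ K₀) :
    Function.Bijective (frobLiftRing A K₀ τ hτ hK) := by
  constructor
  · intro a b hab
    apply Subtype.ext
    apply Subtype.ext
    have h1 := congrArg (fun z : beta0Ring A K₀ => ((z : K₀) : AlgebraicClosure ℚ)) hab
    exact τ.injective h1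
  · intro b
    have hb : τ.symm ((b : K₀) : AlgebraicClosure ℚ) ∈ K₀ := mga_stable_symm K₀ τ hK _ (b : K₀).2
    have hbA : τ.symm ((b : K₀) : AlgebraicClosure ℚ) ∈ A :=
      stb_mem_of_mem (kron_symm_mem_decomposition hτ) b.2
    refine ⟨⟨⟨_, hb⟩, hbA⟩, ?_⟩
    apply Subtype.ext
    apply Subtype.ext
    show τ (τ.symm ((b : K₀) : AlgebraicClosure ℚ)) = _
    rw [AlgEquiv.apply_symm_apply]

/-- the restriction of `τ ∈ D_A` to `A′ = A ∩ K₀`, as a ring automorphism -/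
def stbRingEquiv (hτ : τ ∈ A.decompositionSubgroup ℚ) (hK : ∀ x ∈ K₀, τ x ∈ K₀) :
    beta0Ring A K₀ ≃+* beta0Ring A K₀ :=
  RingEquiv.ofBijective (frobLiftRing A K₀ τ hτ hK) (stb_frobLiftRing_bijective K₀ hτ hK)

@[simp] theorem stbRingEquiv_coe (hτ : τ ∈ A.decompositionSubgroup ℚ) (hK : ∀ x ∈ K₀, τ x ∈ K₀)
    (a : beta0Ring A K₀) :
    (((stbRingEquiv K₀ hτ hK a : beta0Ring A K₀) : K₀) : AlgebraicClosure ℚ) =
      τ ((a : K₀) : AlgebraicClosure ℚ) := rfl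

/-- compatibility with the restriction `mgaRestrictEquiv` of `τ` to `K₀` -/
theorem stbRingEquiv_compat (hτ : τ ∈ A.decompositionSubgroup ℚ) (hK : ∀ x ∈ K₀, τ x ∈ K₀)
    (a : beta0Ring A K₀) :
    mgaRestrictEquiv K₀ τ hK (a : K₀) = ((stbRingEquiv K₀ hτ hK a : beta0Ring A K₀) : K₀) :=
  rfl

/-- **`τ π′ = π′ ε`, `ε ∈ A′^×`**, for a uniformizer `π′` of the DVR `A′`. -/
theorem stb_frob_unif [IsDiscreteValuationRing (beta0Ring A K₀)]
    (hτ : τ ∈ A.decompositionSubgroup ℚ) (hK : ∀ x ∈ K₀, τ x ∈ K₀)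
    {π' : beta0Ring A K₀} (hπ' : Irreducible π') :
    ∃ ε : (beta0Ring A K₀)ˣ, stbRingEquiv K₀ hτ hK π' = π' * ε := by
  have h1 : Irreducible (stbRingEquiv K₀ hτ hK π') :=
    (MulEquiv.irreducible_iff (stbRingEquiv K₀ hτ hK).toMulEquiv).mpr hπ'
  obtain ⟨ε, hε⟩ := IsDiscreteValuationRing.associated_of_irreducible _ hπ' h1
  exact ⟨ε, hε.symm⟩

/-- **Frobenius congruence on `A′`**: `τ a = a ^ q + π′ c` (the hypothesis `hΨR` of
`stb_cross_hfrobB`). -/
theorem stb_frob_congr_ring [IsDiscreteValuationRing (beta0Ring A K₀)] {q : ℕ}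
    (hτ : A.IsFrobeniusAt τ q) (hK : ∀ x ∈ K₀, τ x ∈ K₀)
    {π' : beta0Ring A K₀} (hπ' : Irreducible π') (a : beta0Ring A K₀) :
    ∃ c : beta0Ring A K₀,
      stbRingEquiv K₀ hτ.mem_decompositionSubgroup hK a = a ^ q + π' * c := by
  have h1 : stbRingEquiv K₀ hτ.mem_decompositionSubgroup hK a - a ^ q ∈
      IsLocalRing.maximalIdeal (beta0Ring A K₀) := by
    rw [beta0Ring_mem_maximalIdeal_iff]
    exact stb_frob_congr hτ a.2
  rw [hπ'.maximalIdeal_eq, Ideal.mem_span_singleton] at h1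
  obtain ⟨c, hc⟩ := h1
  exact ⟨c, by rw [← hc]; ring⟩

end Ring

section Residue

variable {K₀ : IntermediateField ℚ (AlgebraicClosure ℚ)} {q : ℕ}

/-- the residue field of `A′ = A ∩ K₀` (`E₀ ≤ K₀`) is the residue field of `A` -/
theorem stb_resMap_bijective (hq : q.Prime) (hA : A.LiesOverPrime q) (hE : beta0Field A ≤ K₀) :
    Function.Bijective (frobLiftResMap A K₀) := by
  refine ⟨frobLiftResMap_injective A K₀, fun x => ?_⟩
  obtain ⟨a, rfl⟩ := IsLocalRing.residue_surjective x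
  obtain ⟨b, hbE, hbA, hb⟩ := beta0_exists_residue hq hA a.2
  refine ⟨IsLocalRing.residue _ (⟨⟨b, hE hbE⟩, hbA⟩ : beta0Ring A K₀), ?_⟩
  rw [frobLiftResMap_residue]
  symm
  rw [← sub_eq_zero, ← map_sub, IsLocalRing.residue_eq_zero_iff,
    ← ValuationSubring.coe_mem_nonunits_iff]
  exact hb

/-- **The residue field of `A′ = A ∩ K₀` (`E₀ ≤ K₀`) is algebraically closed.** -/
theorem stb_isAlgClosed_residue (hq : q.Prime) (hA : A.LiesOverPrime q)
    (hE : beta0Field A ≤ K₀) :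
    IsAlgClosed (IsLocalRing.ResidueField (beta0Ring A K₀)) := by
  haveI : IsAlgClosed (IsLocalRing.ResidueField A) := Fermat.Agent.RED.isAlgClosed_residueField A
  exact IsAlgClosed.of_ringEquiv _ _
    (RingEquiv.ofBijective (frobLiftResMap A K₀) (stb_resMap_bijective hq hA hE)).symm

end Residue

end Fermat.Agent.STB
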