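import Fermat.Agent.STB.FrobChartReg
import Fermat.Agent.STB.FrobGal
import Fermat.Agent.UNIP.MGVertInertia

/-!
# STB-X (`FrobFix`), part 2g: the concrete Frobenius lift and the concrete `StbFrobVal`

Setting of `UNIP/MGVertInertia.lean`: `A` a valuation subring of `ℚ̄` over `q`, `K₀ ⊆ ℚ̄` an
intermediate field with `A′ = beta0Ring A K₀ = A ∩ K₀` a discrete valuation ring, uniformizer
`π`; `φ` a Frobenius element at `A` with `φ K₀ ⊆ K₀`; `V = mgvV hπ ιC hq hqM`.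

* `stbLiftA hφF hφ : A′ ≃+* A′` (restriction of `φ`), `stbLiftTheta hφF hφ : k′ →+* k′` (the map
  induced by `φ⁻¹` on the residue field `k′` of `A′`), with `stbLift_hψ`, `stbLift_hψ'`,
  `stbLift_hθ`, `stbLift_hθq` (the Frobenius-lift hypotheses of `stb_frobVal_chart`,
  `nodesReg_chart_J`, … for `s = mgaRestrictEquiv K₀ φ hφ`, `r = residue`);
* **`stb_frobVal_conc_J`**, **`stb_frobVal_conc_Jinv`** : `StbFrobVal` for the charts
  `zchClosure {j}`, `zchClosure {j⁻¹}` of `F_{Mq}(K₀)` over `A′`, `V_∞ = mgvV … true`,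
  `V_0 = mgvV … false`, `w = w_q`, `Ψ = mgRingAut (M * q) (mgaRestrictEquiv K₀ φ hφ)`
  (`= mgAct K₀ (M * q) φ hφ` by `rfl`), the only input being `RegChart π (bgJ K₀ M)` resp.
  `RegChart π (bgJ K₀ M)⁻¹`.
-/

set_option autoImplicit false
set_option linter.style.haveILetI false
set_option linter.unusedSectionVars false
set_option linter.unusedVariables false
set_option linter.style.longLine false
set_option synthInstance.maxHeartbeats 400000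
set_option maxHeartbeats 1000000

noncomputable section

namespace Fermat.Agent.STB

open ModularCurve Polynomial IntermediateField Fermat.Agent.INJ Fermat.Agent.AL Fermat.Agent.UNIP
open Fermat.Agent.ES Fermat.Agent.ES.G2

section Lift

variable {A : ValuationSubring Qb} {K₀ : IntermediateField ℚ Qb} {q : ℕ}
  {φ : Qb ≃ₐ[ℚ] Qb}

/-- the restriction of the Frobenius element `φ` to `A′ = A ∩ K₀` -/
def stbLiftA (hφF : A.IsFrobeniusAt φ q) (hφ : ∀ x ∈ K₀, φ x ∈ K₀) :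
    ↥(beta0Ring A K₀) ≃+* ↥(beta0Ring A K₀) :=
  stbRingEquiv K₀ hφF.mem_decompositionSubgroup hφ

theorem stbLift_hψ (hφF : A.IsFrobeniusAt φ q) (hφ : ∀ x ∈ K₀, φ x ∈ K₀)
    (a : ↥(beta0Ring A K₀)) :
    mgaRestrictEquiv K₀ φ hφ (algebraMap ↥(beta0Ring A K₀) ↥K₀ a) =
      algebraMap ↥(beta0Ring A K₀) ↥K₀ ((stbLiftA hφF hφ : ↥(beta0Ring A K₀) →+* _) a) := rfl

theorem stbLift_hψ' (hφF : A.IsFrobeniusAt φ q) (hφ : ∀ x ∈ K₀, φ x ∈ K₀)
    (a : ↥(beta0Ring A K₀)) :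
    (mgaRestrictEquiv K₀ φ hφ).symm (algebraMap ↥(beta0Ring A K₀) ↥K₀ a) =
      algebraMap ↥(beta0Ring A K₀) ↥K₀
        (((stbLiftA hφF hφ).symm : ↥(beta0Ring A K₀) →+* _) a) := by
  rw [RingEquiv.symm_apply_eq]
  have h := stbLift_hψ hφF hφ ((stbLiftA hφF hφ).symm a)
  exact (h.trans (congrArg (algebraMap ↥(beta0Ring A K₀) ↥K₀)
    ((stbLiftA hφF hφ).apply_symm_apply a))).symm

/-- `residue (φ b) = (residue b) ^ q` -/
theorem stbLift_residue [IsDiscreteValuationRing ↥(beta0Ring A K₀)]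
    (hφF : A.IsFrobeniusAt φ q) (hφ : ∀ x ∈ K₀, φ x ∈ K₀) (b : ↥(beta0Ring A K₀)) :
    IsLocalRing.residue ↥(beta0Ring A K₀) (stbLiftA hφF hφ b) =
      IsLocalRing.residue ↥(beta0Ring A K₀) b ^ q := by
  rw [← map_pow, ← sub_eq_zero, ← map_sub, IsLocalRing.residue_eq_zero_iff,
    beta0Ring_mem_maximalIdeal_iff]
  exact stb_frob_congr hφF b.2

instance stbLift_isLocalHom (hφF : A.IsFrobeniusAt φ q) (hφ : ∀ x ∈ K₀, φ x ∈ K₀) :
    IsLocalHom (((stbLiftA hφF hφ).symm : ↥(beta0Ring A K₀) ≃+* ↥(beta0Ring A K₀)) :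
      ↥(beta0Ring A K₀) →+* ↥(beta0Ring A K₀)) :=
  ⟨fun a ha => by
    have h := ha.map (stbLiftA hφF hφ : ↥(beta0Ring A K₀) →+* ↥(beta0Ring A K₀))
    have e : (stbLiftA hφF hφ : ↥(beta0Ring A K₀) →+* ↥(beta0Ring A K₀))
        ((((stbLiftA hφF hφ).symm : ↥(beta0Ring A K₀) ≃+* ↥(beta0Ring A K₀)) :
          ↥(beta0Ring A K₀) →+* ↥(beta0Ring A K₀)) a) = a :=
      (stbLiftA hφF hφ).apply_symm_apply a
    rwa [e] at h⟩

/-- the map induced by `φ⁻¹` on the residue field of `A′` (the inverse of the Frobenius) -/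
def stbLiftTheta (hφF : A.IsFrobeniusAt φ q) (hφ : ∀ x ∈ K₀, φ x ∈ K₀) :
    IsLocalRing.ResidueField ↥(beta0Ring A K₀) →+* IsLocalRing.ResidueField ↥(beta0Ring A K₀) :=
  IsLocalRing.ResidueField.map
    (((stbLiftA hφF hφ).symm : ↥(beta0Ring A K₀) ≃+* ↥(beta0Ring A K₀)) :
      ↥(beta0Ring A K₀) →+* ↥(beta0Ring A K₀))

theorem stbLift_hθ (hφF : A.IsFrobeniusAt φ q) (hφ : ∀ x ∈ K₀, φ x ∈ K₀)
    (a : ↥(beta0Ring A K₀)) :
    IsLocalRing.residue ↥(beta0Ring A K₀)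
        (((stbLiftA hφF hφ).symm : ↥(beta0Ring A K₀) →+* _) a) =
      stbLiftTheta hφF hφ (IsLocalRing.residue ↥(beta0Ring A K₀) a) := rfl

theorem stbLift_hθq [IsDiscreteValuationRing ↥(beta0Ring A K₀)]
    (hφF : A.IsFrobeniusAt φ q) (hφ : ∀ x ∈ K₀, φ x ∈ K₀)
    (x : IsLocalRing.ResidueField ↥(beta0Ring A K₀)) :
    stbLiftTheta hφF hφ x ^ q = x := by
  obtain ⟨a, rfl⟩ := IsLocalRing.residue_surjective x
  rw [← stbLift_hθ, ← stbLift_residue hφF hφ]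
  congr 1
  exact (stbLiftA hφF hφ).apply_symm_apply a

end Lift

section Concrete

variable {A : ValuationSubring Qb} {K₀ : IntermediateField ℚ Qb}
  [IsDiscreteValuationRing ↥(beta0Ring A K₀)] {π : ↥(beta0Ring A K₀)} (hπ : Irreducible π)
  (ιC : ↥K₀ →+* ℂ) {q M : ℕ} [NeZero q] [NeZero M] [NeZero (M * q)]
  (hq : q.Prime) (hqM : ¬ q ∣ M)

/-- **The concrete `StbFrobVal`, chart `j`** of `F_{Mq}(K₀)` over `A′ = A ∩ K₀`. -/
theorem stb_frobVal_conc_J (hA : A.LiesOverPrime q) {φ : Qb ≃ₐ[ℚ] Qb}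
    (hφF : A.IsFrobeniusAt φ q) (hφ : ∀ x ∈ K₀, φ x ∈ K₀)
    (h : RegChart (E := ↥K₀) π (bgJ ↥K₀ M)) :
    StbFrobVal
      (zchClosure (A₀ := ↥(beta0Ring A K₀))
        ({bgJ ↥K₀ (M * q)} : Set ↥(modularFunctionFieldFullC ↥K₀ (M * q)))).toSubring
      (mgvV hπ ιC hq hqM true) (mgvV hπ ιC hq hqM false) (stbAtk ιC hq hqM)
      (mgRingAut (M * q) (mgaRestrictEquiv K₀ φ hφ)) q := by
  haveI : Fact q.Prime := ⟨hq⟩
  haveI : CharP (IsLocalRing.ResidueField ↥(beta0Ring A K₀)) q := frobLift_charP A K₀ hq hA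
  exact stb_frobVal_reg_J K₀ ιC hq hqM (vtBase_residue hπ) hπ h (mgaRestrictEquiv K₀ φ hφ)
    (stbLiftA hφF hφ : ↥(beta0Ring A K₀) →+* ↥(beta0Ring A K₀))
    ((stbLiftA hφF hφ).symm : ↥(beta0Ring A K₀) →+* ↥(beta0Ring A K₀))
    (stbLiftTheta hφF hφ) (stbLift_hψ hφF hφ) (stbLift_hψ' hφF hφ) (stbLift_hθ hφF hφ)
    (stbLift_hθq hφF hφ)

/-- **The concrete `StbFrobVal`, chart `1/j`** of `F_{Mq}(K₀)` over `A′ = A ∩ K₀`. -/
theorem stb_frobVal_conc_Jinv (hA : A.LiesOverPrime q) {φ : Qb ≃ₐ[ℚ] Qb}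
    (hφF : A.IsFrobeniusAt φ q) (hφ : ∀ x ∈ K₀, φ x ∈ K₀)
    (h : RegChart (E := ↥K₀) π (bgJ ↥K₀ M)⁻¹) :
    StbFrobVal
      (zchClosure (A₀ := ↥(beta0Ring A K₀))
        ({(bgJ ↥K₀ (M * q))⁻¹} : Set ↥(modularFunctionFieldFullC ↥K₀ (M * q)))).toSubring
      (mgvV hπ ιC hq hqM true) (mgvV hπ ιC hq hqM false) (stbAtk ιC hq hqM)
      (mgRingAut (M * q) (mgaRestrictEquiv K₀ φ hφ)) q := by
  haveI : Fact q.Prime := ⟨hq⟩
  haveI : CharP (IsLocalRing.ResidueField ↥(beta0Ring A K₀)) q := frobLift_charP A K₀ hq hA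
  exact stb_frobVal_reg_Jinv K₀ ιC hq hqM (vtBase_residue hπ) hπ h (mgaRestrictEquiv K₀ φ hφ)
    (stbLiftA hφF hφ : ↥(beta0Ring A K₀) →+* ↥(beta0Ring A K₀))
    ((stbLiftA hφF hφ).symm : ↥(beta0Ring A K₀) →+* ↥(beta0Ring A K₀))
    (stbLiftTheta hφF hφ) (stbLift_hψ hφF hφ) (stbLift_hψ' hφF hφ) (stbLift_hθ hφF hφ)
    (stbLift_hθq hφF hφ)

end Concrete

end Fermat.Agent.STB
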