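import Fermat.Agent.STB.MGNode
import Fermat.Agent.UNIP.NodesFinalReg

/-!
# STB-MG hnode, generic plugging of U5 (`RegChart` form)

`stbmn_reg_J`, `stbmn_reg_Jinv` : the conclusion of `stbmn_vt` for the charts `j`, `1/j` of
`F_{Mq}(K₀)` (`K₀ ⊆ ℚ̄`), the U5 inputs (SS1), (SS2) ∨ (SS3) being supplied by
`nodesReg_ker_J`, `nodesReg_chart_J` (helper20) from `RegChart π (bgJ K₀ M)^{±1}` and a lift of the
inverse Frobenius.  Generic base `A₀` (so that the long statements are never instantiated at the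
concrete rings).
-/

set_option autoImplicit false
set_option linter.style.haveILetI false
set_option linter.unusedSectionVars false
set_option linter.unusedVariables false
set_option linter.style.longLine false

noncomputable section

namespace Fermat.Agent.STB

open ModularCurve AlgebraicCurve Fermat.Agent.INJ Fermat.Agent.UNIP Fermat.Agent.AL
open IntermediateField Polynomial

section RegGeneric

variable (K₀ : IntermediateField ℚ NfQb) {A₀ : Type} [CommRing A₀] [IsDomain A₀]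
  [IsDiscreteValuationRing A₀] [Algebra A₀ K₀] [IsFractionRing A₀ K₀]
  {A' E' : Type} [CommRing A'] [IsDomain A'] [IsDiscreteValuationRing A']
  [Field E'] [CharZero E'] [Algebra A' E'] [IsFractionRing A' E']
  [Algebra K₀ E'] [Algebra A₀ A']
  {q M : ℕ} [NeZero q] [NeZero M] [NeZero (M * q)] (hq : q.Prime) (hqM : ¬ q ∣ M)
  [Algebra A₀ (modularFunctionFieldFullC K₀ M)]
  [IsScalarTower A₀ K₀ (modularFunctionFieldFullC K₀ M)]
  [Algebra A₀ (modularFunctionFieldFullC K₀ (M * q))]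
  [IsScalarTower A₀ K₀ (modularFunctionFieldFullC K₀ (M * q))]
  [Algebra A' (modularFunctionFieldFullC E' (M * q))]
  [IsScalarTower A' E' (modularFunctionFieldFullC E' (M * q))]
  {k : Type*} [Field k] {r : A₀ →+* k} {k' : Type*} [Field k'] {r' : A' →+* k'}

theorem stbmn_incl_J_gen : nodesInstIncl K₀ M q (bgJ K₀ M) = bgJ K₀ (M * q) :=
  Subtype.ext (nodesInstIncl_coe M q (bgJ K₀ M))

theorem stbmn_incl_Jinv_gen : nodesInstIncl K₀ M q (bgJ K₀ M)⁻¹ = (bgJ K₀ (M * q))⁻¹ := by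
  rw [map_inv₀, stbmn_incl_J_gen]

theorem stbmn_fd_J :
    FiniteDimensional (↥K₀)⟮nodesInstIncl K₀ M q (bgJ K₀ M)⟯
      (modularFunctionFieldFullC K₀ (M * q)) := by
  rw [stbmn_incl_J_gen]
  exact mgcc_finiteDimensional_j K₀ (M * q)

theorem stbmn_fd_Jinv :
    FiniteDimensional (↥K₀)⟮nodesInstIncl K₀ M q (bgJ K₀ M)⁻¹⟯
      (modularFunctionFieldFullC K₀ (M * q)) := by
  rw [stbmn_incl_Jinv_gen]
  exact mgcc_finiteDimensional_jinv K₀ (M * q)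

/-- **hnode, chart `j`, generic base**: from `RegChart π (bgJ K₀ M)` and a lift `ψ` of the inverse
Frobenius. -/
theorem stbmn_reg_J [Fact q.Prime] [CharP k q]
    (hcomp : ∀ a : A₀, algebraMap A' E' (algebraMap A₀ A' a) =
      algebraMap K₀ E' (algebraMap A₀ K₀ a))
    [Algebra.IsIntegral A₀ A']
    {π : A₀} (hπ : Irreducible π) (hB : VtBase (algebraMap A₀ K₀) r π) (ιC₀ : K₀ →+* ℂ)
    (h : RegChart (E := K₀) π (bgJ K₀ M))
    (ψA : A₀ →+* A₀) (ψE : K₀ →+* K₀) (θ : k →+* k)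
    (hψ : ∀ a, ψE (algebraMap A₀ K₀ a) = algebraMap A₀ K₀ (ψA a))
    (hθ : ∀ a, r (ψA a) = θ (r a)) (hθq : ∀ x, θ x ^ q = x)
    {π' : A'} (hπ' : Irreducible π') {e : ℕ}
    (hram : π' ^ e ∣ algebraMap A₀ A' π)
    (g₀ : A₀[X]) (hgm : g₀.Monic) (hroot : aeval π' g₀ = 0) (hdeg : g₀.natDegree ≤ e)
    (hadj : Algebra.adjoin K₀ ({algebraMap A' E' π'} : Set E') = ⊤)
    (halg : IsAlgebraic K₀ (algebraMap A' E' π'))
    {t : modularFunctionFieldFullC E' (M * q)}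
    (ht : mgcEmb K₀ E' (M * q) (nodesInstIncl K₀ M q (bgJ K₀ M)) = t)
    {ϖ : A'} (hϖ : Irreducible ϖ) (hB' : VtBase (algebraMap A' E') r' ϖ) (ιC' : E' →+* ℂ)
    {κ : k →+* k'}
    (hc : VtCompat (algebraMap A₀ K₀) r (algebraMap A' E') r' (algebraMap K₀ E') κ) :
    ∃ j : (integralClosure (Algebra.adjoin A₀ {nodesInstIncl K₀ M q (bgJ K₀ M)}) (modularFunctionFieldFullC K₀ (M * q))) →+* ↥(zchClosure (A₀ := A') ({t} : Set (modularFunctionFieldFullC E' (M * q)))),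
      MgcRamified j (algebraMap A' ↥(zchClosure (A₀ := A') ({t} : Set (modularFunctionFieldFullC E' (M * q)))) ϖ) (algebraMap A₀ (integralClosure (Algebra.adjoin A₀ {nodesInstIncl K₀ M q (bgJ K₀ M)}) (modularFunctionFieldFullC K₀ (M * q))) π) ∧
      j (algebraMap A₀ (integralClosure (Algebra.adjoin A₀ {nodesInstIncl K₀ M q (bgJ K₀ M)}) (modularFunctionFieldFullC K₀ (M * q))) π) = algebraMap A' ↥(zchClosure (A₀ := A') ({t} : Set (modularFunctionFieldFullC E' (M * q)))) (algebraMap A₀ A' π) ∧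
      ∀ 𝔫 : AtPt (F := modularFunctionFieldFullC E' (M * q)) ϖ t,
        StbNodeAt (vtFam hB' ιC' hq hqM true) (vtFam hB' ιC' hq hqM false) 𝔫 j (algebraMap A₀ (integralClosure (Algebra.adjoin A₀ {nodesInstIncl K₀ M q (bgJ K₀ M)}) (modularFunctionFieldFullC K₀ (M * q))) π) := by
  haveI := stbmn_fd_J K₀ (M := M) (q := q)
  exact stbmn_vt (A₀ := A₀) (E₀ := K₀) (A' := A') (E' := E') hq hqM hcomp hπ hB ιC₀
    (nodesInstIncl K₀ M q (bgJ K₀ M))
    (nodesInst_ht' r M q (bgJ K₀ M) (nodesFinal_J_mem K₀ r))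
    (nodesFinal_wJ_mem K₀ r ιC₀ hq hqM)
    hπ' hram g₀ hgm hroot hdeg hadj halg ht hϖ hB' ιC' hc
    (fun x hx hx₀ => nodesReg_ker_J K₀ r ιC₀ hq hqM hπ hB.ker hB.rπ h x hx hx₀)
    (fun 𝔫 h𝔫 hπ𝔫 => nodesReg_chart_J K₀ r ιC₀ hq hqM ψA ψE θ hπ hB.ker hB.rπ h hψ hθ hθq
      𝔫 h𝔫 hπ𝔫)

/-- **hnode, chart `1/j`, generic base**: from `RegChart π (bgJ K₀ M)⁻¹` and a lift `ψ` of the inverse
Frobenius. -/
theorem stbmn_reg_Jinv [Fact q.Prime] [CharP k q]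
    (hcomp : ∀ a : A₀, algebraMap A' E' (algebraMap A₀ A' a) =
      algebraMap K₀ E' (algebraMap A₀ K₀ a))
    [Algebra.IsIntegral A₀ A']
    {π : A₀} (hπ : Irreducible π) (hB : VtBase (algebraMap A₀ K₀) r π) (ιC₀ : K₀ →+* ℂ)
    (h : RegChart (E := K₀) π (bgJ K₀ M)⁻¹)
    (ψA : A₀ →+* A₀) (ψE : K₀ →+* K₀) (θ : k →+* k)
    (hψ : ∀ a, ψE (algebraMap A₀ K₀ a) = algebraMap A₀ K₀ (ψA a))
    (hθ : ∀ a, r (ψA a) = θ (r a)) (hθq : ∀ x, θ x ^ q = x)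
    {π' : A'} (hπ' : Irreducible π') {e : ℕ}
    (hram : π' ^ e ∣ algebraMap A₀ A' π)
    (g₀ : A₀[X]) (hgm : g₀.Monic) (hroot : aeval π' g₀ = 0) (hdeg : g₀.natDegree ≤ e)
    (hadj : Algebra.adjoin K₀ ({algebraMap A' E' π'} : Set E') = ⊤)
    (halg : IsAlgebraic K₀ (algebraMap A' E' π'))
    {t : modularFunctionFieldFullC E' (M * q)}
    (ht : mgcEmb K₀ E' (M * q) (nodesInstIncl K₀ M q (bgJ K₀ M)⁻¹) = t)
    {ϖ : A'} (hϖ : Irreducible ϖ) (hB' : VtBase (algebraMap A' E') r' ϖ) (ιC' : E' →+* ℂ)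
    {κ : k →+* k'}
    (hc : VtCompat (algebraMap A₀ K₀) r (algebraMap A' E') r' (algebraMap K₀ E') κ) :
    ∃ j : (integralClosure (Algebra.adjoin A₀ {nodesInstIncl K₀ M q (bgJ K₀ M)⁻¹}) (modularFunctionFieldFullC K₀ (M * q))) →+* ↥(zchClosure (A₀ := A') ({t} : Set (modularFunctionFieldFullC E' (M * q)))),
      MgcRamified j (algebraMap A' ↥(zchClosure (A₀ := A') ({t} : Set (modularFunctionFieldFullC E' (M * q)))) ϖ) (algebraMap A₀ (integralClosure (Algebra.adjoin A₀ {nodesInstIncl K₀ M q (bgJ K₀ M)⁻¹}) (modularFunctionFieldFullC K₀ (M * q))) π) ∧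
      j (algebraMap A₀ (integralClosure (Algebra.adjoin A₀ {nodesInstIncl K₀ M q (bgJ K₀ M)⁻¹}) (modularFunctionFieldFullC K₀ (M * q))) π) = algebraMap A' ↥(zchClosure (A₀ := A') ({t} : Set (modularFunctionFieldFullC E' (M * q)))) (algebraMap A₀ A' π) ∧
      ∀ 𝔫 : AtPt (F := modularFunctionFieldFullC E' (M * q)) ϖ t,
        StbNodeAt (vtFam hB' ιC' hq hqM true) (vtFam hB' ιC' hq hqM false) 𝔫 j (algebraMap A₀ (integralClosure (Algebra.adjoin A₀ {nodesInstIncl K₀ M q (bgJ K₀ M)⁻¹}) (modularFunctionFieldFullC K₀ (M * q))) π) := by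
  haveI := stbmn_fd_Jinv K₀ (M := M) (q := q)
  exact stbmn_vt (A₀ := A₀) (E₀ := K₀) (A' := A') (E' := E') hq hqM hcomp hπ hB ιC₀
    (nodesInstIncl K₀ M q (bgJ K₀ M)⁻¹)
    (nodesInst_ht' r M q (bgJ K₀ M)⁻¹ (nodesFinal_Jinv_mem K₀ r))
    (nodesFinal_wJinv_mem K₀ r ιC₀ hq hqM)
    hπ' hram g₀ hgm hroot hdeg hadj halg ht hϖ hB' ιC' hc
    (fun x hx hx₀ => nodesReg_ker_Jinv K₀ r ιC₀ hq hqM hπ hB.ker hB.rπ h x hx hx₀)
    (fun 𝔫 h𝔫 hπ𝔫 => nodesReg_chart_Jinv K₀ r ιC₀ hq hqM ψA ψE θ hπ hB.ker hB.rπ h hψ hθ hθq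
      𝔫 h𝔫 hπ𝔫)

end RegGeneric

end Fermat.Agent.STB
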