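import Fermat.Agent.UNIP.Coord
import Fermat.Agent.UNIP.LocalShapeChart
import Fermat.Agent.STB.WeakApprox

/-!
# STB-S (S35, plan `NOTES/S35-plan.md`, step (B4)/(F)): the local factorisation at a smooth point

Chart setting of `UNIP/UnitCrit.lean`, `UNIP/TubeOrd.lean`: `A₀` DVR, `π`, `E = Frac A₀`,
`Lf / E(t)` finite, `B` a noetherian chart, `𝔫` a prime of `B` containing `π`, `vert` the vertical
primes with (SS1).  **Smooth point**: `𝔫 = (π, s)` locally (`NodesLocGen 𝔫 {π, s}`).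

* `StbPUnit 𝔭 x`       : `x` is a unit of `B_𝔭` (`a x = c`, `a, c ∉ 𝔭`), with its calculus.
* `stb_tube_factor`    : abstract divisor bookkeeping, `y / (∏ f_P ^ (ord_P y / m)) ^ m` has order
  `0` everywhere.
* `stb_coord_smooth`   : the coordinate function `s - s(P)` of a rational point `P` of the tube
  (simple zero at `P`, no other zero in the tube) is a unit at every vertical prime through `𝔫`.
* `stb_smooth_factor`  : **(F) at a smooth point.**  If `y` is a unit at the vertical primes through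
  `𝔫`, `m ∣ ord_P y` on the tube of `𝔫` and the points of the tube in the support of `y` are
  `E`-rational, then `y = ε · γ ^ m` with `ε ∈ (B_𝔫)^×`.
* `stb_smooth_factor_pow` : the same if `y / π ^ (m k)` is a unit at the vertical primes through
  `𝔫`.
-/

set_option autoImplicit false
set_option linter.style.haveILetI false
set_option linter.unusedSectionVars false
set_option linter.unusedVariables false

namespace Fermat.Agent.STB

open AlgebraicCurve IntermediateField Fermat.Agent.UNIP Fermat.Agent.S24 Fermat.Agent.INJ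

section Calculus

variable {F : Type*} [Field F] {V : ValuationSubring F}

theorem stb_congr_one : (1 : F) - 1 ∈ V.nonunits := by
  rw [sub_self]; exact stb_zero_mem_nonunits V

theorem stbss_congr_inv {x : F} (hx : x - 1 ∈ V.nonunits) : x⁻¹ - 1 ∈ V.nonunits := by
  have hu := stbUnit_of_sub_one hx
  have e : x⁻¹ - 1 = -(x⁻¹ * (x - 1)) := by
    have := hu.ne_zero
    field_simp
    ring
  rw [e]
  exact stb_neg_mem_nonunits (hu.inv.mul_nonunit hx)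

theorem stb_congr_zpow {x : F} (hx : x - 1 ∈ V.nonunits) (n : ℤ) : x ^ n - 1 ∈ V.nonunits := by
  obtain ⟨k, rfl | rfl⟩ := n.eq_nat_or_neg
  · rw [zpow_natCast]; exact stb_congr_pow hx k
  · rw [zpow_neg, zpow_natCast]; exact stbss_congr_inv (stb_congr_pow hx k)

theorem stb_congr_prod {κ : Type*} (S : Finset κ) (f : κ → F)
    (hf : ∀ k ∈ S, f k - 1 ∈ V.nonunits) : ∏ k ∈ S, f k - 1 ∈ V.nonunits := by
  classical
  induction S using Finset.induction_on with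
  | empty => rw [Finset.prod_empty]; exact stb_congr_one
  | insert a S ha ih =>
    rw [Finset.prod_insert ha]
    exact stb_congr_mul (hf a (Finset.mem_insert_self a S))
      (ih fun k hk => hf k (Finset.mem_insert_of_mem hk))

theorem stbss_congr_div {x y : F} (hx : x - 1 ∈ V.nonunits) (hy : y - 1 ∈ V.nonunits) :
    x / y - 1 ∈ V.nonunits := by
  rw [div_eq_mul_inv]
  exact stb_congr_mul hx (stbss_congr_inv hy)

end Calculus

section TubeFactor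

variable {F : Type*} [Field F] {ι : Type*}

/-- **Tube factor, all places.**  If all multiplicities of `y` are divisible by `m` and every
point `i` of the support of `y` has a coordinate function `f i` (divisor `1 · i` on the tube), then
`y / g ^ m` has order `0` everywhere, `g = ∏ f i ^ (ord i y / m)`. -/
theorem stb_tube_factor (ord : ι → F → ℤ)
    (hmul : ∀ i x y, x ≠ 0 → y ≠ 0 → ord i (x * y) = ord i x + ord i y)
    {y : F} (hy : y ≠ 0) (m : ℕ) (S : Finset ι) (hS : ∀ i, i ∈ S ↔ ord i y ≠ 0)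
    (hm : ∀ i, (m : ℤ) ∣ ord i y)
    (f : ι → F) (hf0 : ∀ i, f i ≠ 0)
    (hf1 : ∀ i, i ∈ S → ord i (f i) = 1)
    (hf2 : ∀ i, i ∈ S → ∀ j, j ≠ i → ord j (f i) = 0) :
    (∏ i ∈ S, f i ^ (ord i y / (m : ℤ))) ≠ 0 ∧
      ∀ j, ord j (y / (∏ i ∈ S, f i ^ (ord i y / (m : ℤ))) ^ m) = 0 := by
  classical
  set n : ι → ℤ := fun i => ord i y / (m : ℤ) with hn
  have hmn : ∀ i, (m : ℤ) * n i = ord i y := fun i => Int.mul_ediv_cancel' (hm i)
  set g : F := ∏ i ∈ S, f i ^ n i with hg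
  have hg0 : g ≠ 0 := Finset.prod_ne_zero_iff.mpr fun i _ => zpow_ne_zero _ (hf0 i)
  refine ⟨hg0, fun j => ?_⟩
  have hordg : (m : ℤ) * ord j g = ord j y := by
    rw [hg, ls_ord_prod ord hmul j S _ (fun i _ => zpow_ne_zero _ (hf0 i))]
    have h1 : ∀ i ∈ S, ord j (f i ^ n i) = if j = i then n i else 0 := by
      intro i hi
      rw [ls_ord_zpow ord hmul j (hf0 i)]
      by_cases hji : j = i
      · rw [if_pos hji, hji, hf1 i hi, mul_one]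
      · rw [if_neg hji, hf2 i hi j hji, mul_zero]
    rw [Finset.sum_congr rfl h1, Finset.sum_ite_eq S j]
    by_cases hjS : j ∈ S
    · rw [if_pos hjS, hmn j]
    · rw [if_neg hjS, mul_zero]
      by_contra hne
      exact hjS ((hS j).mpr fun h0 => hne h0.symm)
  rw [ls_ord_div ord hmul j hy (pow_ne_zero _ hg0), ls_ord_pow ord hmul j hg0, hordg, sub_self]

end TubeFactor

section PUnit

variable {F : Type*} [Field F] {B : Type*} [CommRing B] [Algebra B F]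

/-- `x` is a unit of the local ring `B_𝔭`: `a x = c` with `a, c ∉ 𝔭`. -/
def StbPUnit (𝔭 : Ideal B) (x : F) : Prop :=
  ∃ a c : B, a ∉ 𝔭 ∧ c ∉ 𝔭 ∧ algebraMap B F a * x = algebraMap B F c

theorem stb_map_ne_zero_of_notMem (hinj : Function.Injective (algebraMap B F)) {𝔭 : Ideal B}
    {a : B} (ha : a ∉ 𝔭) : algebraMap B F a ≠ 0 := fun h0 =>
  ha (by rw [hinj (h0.trans (map_zero _).symm)]; exact 𝔭.zero_mem)

theorem StbPUnit.ne_zero (hinj : Function.Injective (algebraMap B F)) {𝔭 : Ideal B} {x : F}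
    (hx : StbPUnit 𝔭 x) : x ≠ 0 := by
  obtain ⟨a, c, -, hc, h⟩ := hx
  rintro rfl
  rw [mul_zero] at h
  exact stb_map_ne_zero_of_notMem hinj hc h.symm

theorem stbPUnit_one (𝔭 : Ideal B) [h𝔭 : 𝔭.IsPrime] : StbPUnit (F := F) 𝔭 1 := by
  have h1 : (1 : B) ∉ 𝔭 := fun h => h𝔭.ne_top ((Ideal.eq_top_iff_one 𝔭).mpr h)
  exact ⟨1, 1, h1, h1, by simp⟩

theorem stbPUnit_algebraMap {𝔭 : Ideal B} [h𝔭 : 𝔭.IsPrime] {b : B} (hb : b ∉ 𝔭) :
    StbPUnit (F := F) 𝔭 (algebraMap B F b) := by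
  have h1 : (1 : B) ∉ 𝔭 := fun h => h𝔭.ne_top ((Ideal.eq_top_iff_one 𝔭).mpr h)
  exact ⟨1, b, h1, hb, by simp⟩

theorem StbPUnit.mul {𝔭 : Ideal B} [h𝔭 : 𝔭.IsPrime] {x y : F} (hx : StbPUnit 𝔭 x)
    (hy : StbPUnit 𝔭 y) : StbPUnit 𝔭 (x * y) := by
  obtain ⟨a, c, ha, hc, h⟩ := hx
  obtain ⟨a', c', ha', hc', h'⟩ := hy
  refine ⟨a * a', c * c', fun hm => ?_, fun hm => ?_, ?_⟩
  · rcases h𝔭.mem_or_mem hm with h1 | h1
    · exact ha h1
    · exact ha' h1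
  · rcases h𝔭.mem_or_mem hm with h1 | h1
    · exact hc h1
    · exact hc' h1
  · rw [map_mul, map_mul, ← h, ← h']
    ring

theorem StbPUnit.inv (hinj : Function.Injective (algebraMap B F)) {𝔭 : Ideal B} {x : F}
    (hx : StbPUnit 𝔭 x) : StbPUnit 𝔭 x⁻¹ := by
  have hx0 := hx.ne_zero hinj
  obtain ⟨a, c, ha, hc, h⟩ := hx
  refine ⟨c, a, hc, ha, ?_⟩
  rw [← h]
  field_simp

theorem StbPUnit.div (hinj : Function.Injective (algebraMap B F)) {𝔭 : Ideal B} [𝔭.IsPrime]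
    {x y : F} (hx : StbPUnit 𝔭 x) (hy : StbPUnit 𝔭 y) : StbPUnit 𝔭 (x / y) := by
  rw [div_eq_mul_inv]
  exact hx.mul (hy.inv hinj)

theorem StbPUnit.pow {𝔭 : Ideal B} [𝔭.IsPrime] {x : F} (hx : StbPUnit 𝔭 x) (n : ℕ) :
    StbPUnit 𝔭 (x ^ n) := by
  induction n with
  | zero => rw [pow_zero]; exact stbPUnit_one 𝔭
  | succ n ih => rw [pow_succ]; exact ih.mul hx

theorem StbPUnit.zpow (hinj : Function.Injective (algebraMap B F)) {𝔭 : Ideal B} [𝔭.IsPrime]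
    {x : F} (hx : StbPUnit 𝔭 x) (n : ℤ) : StbPUnit 𝔭 (x ^ n) := by
  obtain ⟨k, rfl | rfl⟩ := n.eq_nat_or_neg
  · rw [zpow_natCast]; exact hx.pow k
  · rw [zpow_neg, zpow_natCast]; exact (hx.pow k).inv hinj

theorem stbPUnit_prod {𝔭 : Ideal B} [𝔭.IsPrime] {κ : Type*} (S : Finset κ) (f : κ → F)
    (hf : ∀ k ∈ S, StbPUnit 𝔭 (f k)) : StbPUnit 𝔭 (∏ k ∈ S, f k) := by
  classical
  induction S using Finset.induction_on with
  | empty => rw [Finset.prod_empty]; exact stbPUnit_one 𝔭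
  | insert a S ha ih =>
    rw [Finset.prod_insert ha]
    exact (hf a (Finset.mem_insert_self a S)).mul
      (ih fun k hk => hf k (Finset.mem_insert_of_mem hk))

/-- units of `B_𝔫` in the sense of `ls_localSubring` -/
theorem StbPUnit.mem_localSubring (hinj : Function.Injective (algebraMap B F)) {𝔫 : Ideal B}
    [𝔫.IsPrime] {x : F} (hx : StbPUnit 𝔫 x) :
    x ∈ ls_localSubring (F := F) 𝔫 ∧ x⁻¹ ∈ ls_localSubring (F := F) 𝔫 := by
  obtain ⟨a, c, ha, hc, h⟩ := hx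
  exact ls_unit_mem_localSubring hinj 𝔫 ha hc h

theorem stbPUnit_of_mem_localSubring (hinj : Function.Injective (algebraMap B F)) {𝔫 : Ideal B}
    [h𝔫 : 𝔫.IsPrime] {x : F} (hx0 : x ≠ 0) (hx : x ∈ ls_localSubring (F := F) 𝔫)
    (hx' : x⁻¹ ∈ ls_localSubring (F := F) 𝔫) : StbPUnit 𝔫 x := by
  obtain ⟨b, s, hs, hbs⟩ := hx
  obtain ⟨b₂, s₂, hs₂, hbs₂⟩ := hx'
  refine ⟨s, b, hs, fun hb => ?_, hbs⟩
  have hprod : b * b₂ = s * s₂ := by
    apply hinj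
    rw [map_mul, map_mul, ← hbs, ← hbs₂]
    field_simp
  have h3 : s * s₂ ∈ 𝔫 := by
    rw [← hprod]
    exact 𝔫.mul_mem_right _ hb
  rcases h𝔫.mem_or_mem h3 with h' | h'
  · exact hs h'
  · exact hs₂ h'

/-- a unit at `𝔫` is a unit at every prime `𝔭 ≤ 𝔫` -/
theorem StbPUnit.of_le {𝔭 𝔫 : Ideal B} (hle : 𝔭 ≤ 𝔫) {x : F} (hx : StbPUnit 𝔫 x) :
    StbPUnit 𝔭 x := by
  obtain ⟨a, c, ha, hc, h⟩ := hx
  exact ⟨a, c, fun h' => ha (hle h'), fun h' => hc (hle h'), h⟩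

/-- a prime `𝔭 ≤ 𝔫` containing local generators of `𝔫` is `𝔫` -/
theorem stb_eq_of_locGen {𝔫 𝔭 : Ideal B} [h𝔭 : 𝔭.IsPrime] (hle : 𝔭 ≤ 𝔫) (T : Set B)
    (hT : T ⊆ 𝔭) (hgen : NodesLocGen 𝔫 T) : 𝔭 = 𝔫 := by
  refine le_antisymm hle fun b hb => ?_
  obtain ⟨u, hu, hub⟩ := hgen b hb
  have h1 : u * b ∈ 𝔭 := (Ideal.span_le.mpr hT) hub
  rcases h𝔭.mem_or_mem h1 with h' | h'
  · exact absurd (hle h') hu
  · exact h'

end PUnit

section Smooth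

variable {A₀ E Lf B : Type*} [CommRing A₀] [IsDomain A₀] [IsDiscreteValuationRing A₀]
  [Field E] [CharZero E] [Algebra A₀ E] [IsFractionRing A₀ E]
  [Field Lf] [Algebra E Lf] [Algebra A₀ Lf] [IsScalarTower A₀ E Lf]
  [CommRing B] [Algebra B Lf] [Algebra A₀ B] [IsScalarTower A₀ B Lf]

/-- **Coordinate function at a smooth point**, with its vertical behaviour.  `𝔫 = (π, s)` locally,
`P` a rational point of the tube of `𝔫`: `f = s - s(P) ∈ B` has a simple zero at `P`, no other zero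
on the tube of `𝔫`, and lies in no prime `𝔭 ≠ 𝔫` with `π ∈ 𝔭 ≤ 𝔫`. -/
theorem stb_coord_smooth [IsNoetherianRing B] {π : A₀} (hπ : Irreducible π) (t : Lf)
    (ht : Transcendental E t) [FiniteDimensional E⟮t⟯ Lf]
    (hinj : Function.Injective (algebraMap B Lf))
    (hB : ∀ x : Lf, x ∈ (algebraMap B Lf).range ↔ IsIntegral (Algebra.adjoin A₀ {t}) x)
    (𝔫 : Ideal B) [𝔫.IsPrime] (hπ𝔫 : algebraMap A₀ B π ∈ 𝔫)
    (s : B) (hs : s ∈ 𝔫) (hgen : NodesLocGen 𝔫 {algebraMap A₀ B π, s})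
    (P : Place E Lf) (hP : UnipTubePoint t 𝔫 P) :
    ∃ b : B, b ∈ 𝔫 ∧ P.ord (algebraMap B Lf b) = 1 ∧
      (∀ Q : Place E Lf, LsTube B t 𝔫 Q → Q ≠ P → Q.ord (algebraMap B Lf b) = 0) ∧
      ∀ 𝔭 : Ideal B, 𝔭.IsPrime → algebraMap A₀ B π ∈ 𝔭 → 𝔭 ≤ 𝔫 → 𝔭 ≠ 𝔫 → b ∉ 𝔭 := by
  obtain ⟨ev, hev⟩ := unip_exists_tubeEv hπ t hinj hB 𝔫 hπ𝔫 P hP
  have hd := unip_dense_of_tubePoint hπ t hinj hB 𝔫 hπ𝔫 P hP {s}
    (fun x hx => by rw [Set.mem_singleton_iff] at hx; rw [hx]; exact hs) hgen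
  obtain ⟨h1, h2⟩ := unip_tubeOrd_disc hπ t ht hinj hB 𝔫 hπ𝔫 s (ev s) hd P hP (hev s)
  have e : algebraMap B Lf s - algebraMap A₀ Lf (ev s) =
      algebraMap B Lf (s - algebraMap A₀ B (ev s)) := by
    rw [map_sub, ← IsScalarTower.algebraMap_apply A₀ B Lf]
  rw [e] at h1 h2
  obtain ⟨c, hc⟩ := unip_tubeEv_dvd hπ hinj hP ev hev s hs
  have hev𝔭 : ∀ 𝔭 : Ideal B, algebraMap A₀ B π ∈ 𝔭 → algebraMap A₀ B (ev s) ∈ 𝔭 := by
    intro 𝔭 h
    rw [hc, map_mul]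
    exact 𝔭.mul_mem_right _ h
  refine ⟨s - algebraMap A₀ B (ev s), 𝔫.sub_mem hs (hev𝔭 𝔫 hπ𝔫), h1,
    fun Q hQ hQP => h2 Q hQ.1 hQ.2 hQP, fun 𝔭 h𝔭 hπ𝔭 hle hne hb => hne ?_⟩
  haveI := h𝔭
  refine stb_eq_of_locGen hle _ ?_ hgen
  intro x hx
  rcases hx with rfl | hx
  · exact hπ𝔭
  · rw [Set.mem_singleton_iff] at hx
    rw [hx]
    have : s = (s - algebraMap A₀ B (ev s)) + algebraMap A₀ B (ev s) := by ring
    rw [this]
    exact 𝔭.add_mem hb (hev𝔭 𝔭 hπ𝔭)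

/-- **(F) at a smooth point.**  `B` a chart, `𝔫 = (π, s)` locally.  Let `y ≠ 0` be a unit at every
vertical prime through `𝔫`, with `m ∣ ord_P y` for all places `P` of the tube of `𝔫`, the places
of the tube in the support of `y` being `E`-rational.  Then `y = ε · γ ^ m` with `ε` a unit of
`B_𝔫`. -/
theorem stb_smooth_factor [IsNoetherianRing B] {π : A₀} (hπ : Irreducible π) (t : Lf)
    (ht : Transcendental E t) [FiniteDimensional E⟮t⟯ Lf]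
    (hinj : Function.Injective (algebraMap B Lf))
    (hB : ∀ x : Lf, x ∈ (algebraMap B Lf).range ↔ IsIntegral (Algebra.adjoin A₀ {t}) x)
    (ϖ : B) (hϖ : algebraMap B Lf ϖ = algebraMap A₀ Lf π)
    (𝔫 : Ideal B) [𝔫.IsPrime] (hπ𝔫 : algebraMap A₀ B π ∈ 𝔫)
    (vert : Finset (Ideal B)) (hprime : ∀ 𝔭 ∈ vert, 𝔭.IsPrime) (hϖv : ∀ 𝔭 ∈ vert, ϖ ∈ 𝔭)
    (hSS1 : ∀ y : B, (∀ 𝔭 ∈ vert, y ∈ 𝔭) → ϖ ∣ y)
    (s : B) (hs : s ∈ 𝔫) (hgen : NodesLocGen 𝔫 {algebraMap A₀ B π, s})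
    {y : Lf} (hy : y ≠ 0) (m : ℕ)
    (hV : ∀ 𝔭 ∈ vert, 𝔭 ≤ 𝔫 → StbPUnit 𝔭 y)
    (hfin : {P : Place E Lf | LsTube B t 𝔫 P ∧ P.ord y ≠ 0}.Finite)
    (hm : ∀ P : Place E Lf, LsTube B t 𝔫 P → (m : ℤ) ∣ P.ord y)
    (hrat : ∀ P : Place E Lf, LsTube B t 𝔫 P → P.ord y ≠ 0 →
      ∀ f ∈ P.toValuationSubring,
        ∃ c : E, f - algebraMap E Lf c ∈ P.toValuationSubring.nonunits) :
    ∃ γ ε : Lf, γ ≠ 0 ∧ ε ∈ ls_localSubring (F := Lf) 𝔫 ∧ ε⁻¹ ∈ ls_localSubring (F := Lf) 𝔫 ∧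
      y = ε * γ ^ m := by
  classical
  by_cases h𝔫v : 𝔫 ∈ vert
  · obtain ⟨h1, h2⟩ := (hV 𝔫 h𝔫v le_rfl).mem_localSubring hinj
    exact ⟨1, y, one_ne_zero, h1, h2, by rw [one_pow, mul_one]⟩
  have hϖeq : ϖ = algebraMap A₀ B π := hinj (by
    rw [hϖ, ← IsScalarTower.algebraMap_apply A₀ B Lf])
  set T := {P : Place E Lf // LsTube B t 𝔫 P} with hT
  -- coordinate functions
  have hex : ∀ P : T, ∃ f : Lf, f ≠ 0 ∧ (∀ 𝔭 ∈ vert, 𝔭 ≤ 𝔫 → StbPUnit 𝔭 f) ∧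
      (P.1.ord y ≠ 0 → P.1.ord f = 1 ∧ ∀ Q : T, Q ≠ P → Q.1.ord f = 0) := by
    intro P
    by_cases hPy : P.1.ord y = 0
    · exact ⟨1, one_ne_zero, fun 𝔭 h𝔭 _ => by haveI := hprime 𝔭 h𝔭; exact stbPUnit_one 𝔭,
        fun h => absurd hPy h⟩
    · have hP : UnipTubePoint t 𝔫 P.1 := ⟨P.2.1, P.2.2, hrat P.1 P.2 hPy⟩
      obtain ⟨b, -, hb1, hb2, hb3⟩ :=
        stb_coord_smooth hπ t ht hinj hB 𝔫 hπ𝔫 s hs hgen P.1 hP
      refine ⟨algebraMap B Lf b, fun h0 => ?_, fun 𝔭 h𝔭 hle => ?_, fun _ => ⟨hb1, fun Q hQ =>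
        hb2 Q.1 Q.2 fun h => hQ (Subtype.ext h)⟩⟩
      · rw [h0, Place.ord_zero] at hb1
        exact zero_ne_one hb1
      · haveI := hprime 𝔭 h𝔭
        exact stbPUnit_algebraMap (hb3 𝔭 (hprime 𝔭 h𝔭) (hϖeq ▸ hϖv 𝔭 h𝔭) hle
          (fun h => h𝔫v (h ▸ h𝔭)))
  choose f hf0 hfV hf using hex
  have hfinT : {P : T | P.1.ord y ≠ 0}.Finite := by
    refine Set.Finite.of_finite_image (f := Subtype.val) (hfin.subset ?_)
      Subtype.val_injective.injOn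
    rintro _ ⟨P, hP, rfl⟩
    exact ⟨P.2, hP⟩
  obtain ⟨hg0, hord⟩ := stb_tube_factor (F := Lf) (ι := T) (fun P x => P.1.ord x)
    (fun P x y hx hy => Place.ord_mul P.1 hx hy) hy m hfinT.toFinset
    (fun P => by rw [Set.Finite.mem_toFinset]; rfl)
    (fun P => hm P.1 P.2) f hf0
    (fun P hP => (hf P (by rw [Set.Finite.mem_toFinset] at hP; exact hP)).1)
    (fun P hP Q hQ => (hf P (by rw [Set.Finite.mem_toFinset] at hP; exact hP)).2 Q hQ)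
  set g : Lf := ∏ P ∈ hfinT.toFinset, f P ^ (P.1.ord y / (m : ℤ)) with hg
  have hε0 : y / g ^ m ≠ 0 := div_ne_zero hy (pow_ne_zero _ hg0)
  obtain ⟨a, c, ha, hc, hac⟩ := unip_unitCrit_unit hπ t ht hinj hB ϖ hϖ 𝔫 vert hprime hϖv hSS1
    (y / g ^ m) hε0 (fun P hP hc => hord ⟨P, hP, hc⟩)
    (fun 𝔭 h𝔭 hle => by
      haveI := hprime 𝔭 h𝔭
      refine (hV 𝔭 h𝔭 hle).div hinj (StbPUnit.pow ?_ m)
      exact stbPUnit_prod _ _ fun P _ => (hfV P 𝔭 h𝔭 hle).zpow hinj _)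
  obtain ⟨h1, h2⟩ := ls_unit_mem_localSubring hinj 𝔫 ha hc hac
  refine ⟨g, y / g ^ m, hg0, h1, h2, ?_⟩
  field_simp

/-- **(F) at a smooth point, vertical multiplicity divisible by `m`.**  As `stb_smooth_factor`, if
`y / π ^ (m k)` is a unit at every vertical prime through `𝔫`. -/
theorem stb_smooth_factor_pow [IsNoetherianRing B] {π : A₀} (hπ : Irreducible π) (t : Lf)
    (ht : Transcendental E t) [FiniteDimensional E⟮t⟯ Lf]
    (hinj : Function.Injective (algebraMap B Lf))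
    (hB : ∀ x : Lf, x ∈ (algebraMap B Lf).range ↔ IsIntegral (Algebra.adjoin A₀ {t}) x)
    (ϖ : B) (hϖ : algebraMap B Lf ϖ = algebraMap A₀ Lf π)
    (𝔫 : Ideal B) [𝔫.IsPrime] (hπ𝔫 : algebraMap A₀ B π ∈ 𝔫)
    (vert : Finset (Ideal B)) (hprime : ∀ 𝔭 ∈ vert, 𝔭.IsPrime) (hϖv : ∀ 𝔭 ∈ vert, ϖ ∈ 𝔭)
    (hSS1 : ∀ y : B, (∀ 𝔭 ∈ vert, y ∈ 𝔭) → ϖ ∣ y)
    (s : B) (hs : s ∈ 𝔫) (hgen : NodesLocGen 𝔫 {algebraMap A₀ B π, s})
    {y : Lf} (hy : y ≠ 0) (m : ℕ) (k : ℤ)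
    (hV : ∀ 𝔭 ∈ vert, 𝔭 ≤ 𝔫 → StbPUnit 𝔭 (y / (algebraMap A₀ Lf π ^ k) ^ m))
    (hfin : {P : Place E Lf | LsTube B t 𝔫 P ∧ P.ord y ≠ 0}.Finite)
    (hm : ∀ P : Place E Lf, LsTube B t 𝔫 P → (m : ℤ) ∣ P.ord y)
    (hrat : ∀ P : Place E Lf, LsTube B t 𝔫 P → P.ord y ≠ 0 →
      ∀ f ∈ P.toValuationSubring,
        ∃ c : E, f - algebraMap E Lf c ∈ P.toValuationSubring.nonunits) :
    ∃ γ ε : Lf, γ ≠ 0 ∧ ε ∈ ls_localSubring (F := Lf) 𝔫 ∧ ε⁻¹ ∈ ls_localSubring (F := Lf) 𝔫 ∧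
      y = ε * γ ^ m := by
  have hπ0 : algebraMap A₀ Lf π ≠ 0 := unip_algebraMap_irreducible_ne_zero E hπ
  have hd0 : (algebraMap A₀ Lf π ^ k) ^ m ≠ 0 := pow_ne_zero _ (zpow_ne_zero _ hπ0)
  have hord : ∀ P : Place E Lf, P.ord (y / (algebraMap A₀ Lf π ^ k) ^ m) = P.ord y := by
    intro P
    have hmul : ∀ (i : Unit) (x z : Lf), x ≠ 0 → z ≠ 0 →
        (fun (_ : Unit) w => P.ord w) i (x * z) =
          (fun (_ : Unit) w => P.ord w) i x + (fun (_ : Unit) w => P.ord w) i z :=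
      fun _ x z hx hz => Place.ord_mul P hx hz
    have h1 := ls_ord_div (fun (_ : Unit) w => P.ord w) hmul () hy hd0
    have h2 := ls_ord_pow (fun (_ : Unit) w => P.ord w) hmul () (zpow_ne_zero k hπ0) m
    have h3 := ls_ord_zpow (fun (_ : Unit) w => P.ord w) hmul () hπ0 k
    have h1' : P.ord (y / (algebraMap A₀ Lf π ^ k) ^ m) =
        P.ord y - P.ord ((algebraMap A₀ Lf π ^ k) ^ m) := h1
    have h2' : P.ord ((algebraMap A₀ Lf π ^ k) ^ m) = m * P.ord (algebraMap A₀ Lf π ^ k) := h2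
    have h3' : P.ord (algebraMap A₀ Lf π ^ k) = k * P.ord (algebraMap A₀ Lf π) := h3
    rw [h1', h2', h3', unip_ord_const]
    ring
  obtain ⟨γ, ε, hγ, hε, hε', h⟩ := stb_smooth_factor hπ t ht hinj hB ϖ hϖ 𝔫 hπ𝔫 vert hprime hϖv
    hSS1 s hs hgen (div_ne_zero hy hd0) m hV
    (by simpa only [hord] using hfin) (fun P hP => by rw [hord]; exact hm P hP)
    (fun P hP hPy => hrat P hP (by rwa [hord] at hPy))
  refine ⟨γ * algebraMap A₀ Lf π ^ k, ε, mul_ne_zero hγ (zpow_ne_zero _ hπ0), hε, hε', ?_⟩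
  rw [mul_pow, ← mul_assoc, ← h]
  field_simp

end Smooth

end Fermat.Agent.STB
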