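import Fermat.Agent.UNIP.CoordChart
import Fermat.Agent.STB.SmoothShape

/-!
# STB-S — (F) at a smooth point, in the language of `UNIP/AbstractT.lean`

Charts `B_u = zchClosure {u}`, vertical valuation rings `V : κ → ValuationSubring F`, as in
`at_local_factor` / `stb_local_factor` (STB-L).  No automorphism: the factorisation is for `y`
itself, at ANY smooth closed point `𝔫 = (π, s)` (fixed by Frobenius or not).

* `stb_smooth_factor_at`     : `y` a unit at every `V c` through `𝔫`.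
* `stb_smooth_factor_at_pow` : `y / π ^ (m k)` a unit at every `V c` through `𝔫`.
-/

set_option autoImplicit false
set_option linter.style.haveILetI false
set_option linter.unusedSectionVars false
set_option linter.unusedVariables false

namespace Fermat.Agent.STB

open Polynomial IntermediateField Fermat.Agent.INJ AlgebraicCurve Fermat.Agent.UNIP

section SmoothAT

variable {A₀ E F : Type*} [CommRing A₀] [IsDomain A₀] [IsDiscreteValuationRing A₀]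
  [Field E] [Algebra A₀ E] [IsFractionRing A₀ E] [CharZero E]
  [Field F] [Algebra E F] [Algebra A₀ F] [IsScalarTower A₀ E F]
  {π : A₀} {κ : Type*}

/-- **STB-S, (F) at a smooth point** (`𝔫 = (π, s)` locally), vertical multiplicity `m k`. -/
theorem stb_smooth_factor_at_pow (hπ : Irreducible π) {u : F} (hu : Transcendental E u)
    [FiniteDimensional E⟮u⟯ F] [Finite κ]
    [IsNoetherianRing ↥(zchClosure (A₀ := A₀) ({u} : Set F))]
    (V : κ → ValuationSubring F)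
    (hBV : ∀ c (b : F), IsIntegral ↥(Algebra.adjoin A₀ {u}) b → b ∈ V c)
    (hπV : ∀ c, algebraMap A₀ F π ∈ (V c).nonunits)
    (hSS1 : ∀ b : F, IsIntegral ↥(Algebra.adjoin A₀ {u}) b → (∀ c, b ∈ (V c).nonunits) →
      ∃ b' : F, IsIntegral ↥(Algebra.adjoin A₀ {u}) b' ∧ b = algebraMap A₀ F π * b')
    (hVloc : ∀ c (x : F), x ∈ V c → ∃ b s : F, IsIntegral ↥(Algebra.adjoin A₀ {u}) b ∧
      IsIntegral ↥(Algebra.adjoin A₀ {u}) s ∧ s ∉ (V c).nonunits ∧ s * x = b)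
    (𝔫 : Ideal ↥(zchClosure (A₀ := A₀) ({u} : Set F))) [𝔫.IsPrime]
    (hπ𝔫 : algebraMap A₀ ↥(zchClosure (A₀ := A₀) ({u} : Set F)) π ∈ 𝔫)
    (s : ↥(zchClosure (A₀ := A₀) ({u} : Set F))) (hs : s ∈ 𝔫)
    (hgen : NodesLocGen 𝔫 {algebraMap A₀ ↥(zchClosure (A₀ := A₀) ({u} : Set F)) π, s})
    {y : F} (hy : y ≠ 0) (m : ℕ) (k : ℤ)
    (hyV : ∀ c, (∀ b : ↥(zchClosure (A₀ := A₀) ({u} : Set F)), (b : F) ∈ (V c).nonunits → b ∈ 𝔫) →
      (V c).valuation (y / (algebraMap A₀ F π ^ k) ^ m) = 1)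
    (hfin : {P : Place E F | LsTube ↥(zchClosure (A₀ := A₀) ({u} : Set F)) u 𝔫 P ∧
      P.ord y ≠ 0}.Finite)
    (hm : ∀ P : Place E F, LsTube ↥(zchClosure (A₀ := A₀) ({u} : Set F)) u 𝔫 P →
      (m : ℤ) ∣ P.ord y)
    (hrat : ∀ P : Place E F, LsTube ↥(zchClosure (A₀ := A₀) ({u} : Set F)) u 𝔫 P →
      P.ord y ≠ 0 → ∀ f ∈ P.toValuationSubring,
        ∃ c : E, f - algebraMap E F c ∈ P.toValuationSubring.nonunits) :
    ∃ γ ε : F, γ ≠ 0 ∧ ε ∈ ls_localSubring (F := F) 𝔫 ∧ ε⁻¹ ∈ ls_localSubring (F := F) 𝔫 ∧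
      y = ε * γ ^ m := by
  classical
  haveI : Fintype κ := Fintype.ofFinite κ
  have hinj : Function.Injective (algebraMap ↥(zchClosure (A₀ := A₀) ({u} : Set F)) F) := Subtype.val_injective
  set ϖ : ↥(zchClosure (A₀ := A₀) ({u} : Set F)) := algebraMap A₀ ↥(zchClosure (A₀ := A₀) ({u} : Set F)) π with hϖdef
  have hϖ : algebraMap ↥(zchClosure (A₀ := A₀) ({u} : Set F)) F ϖ = algebraMap A₀ F π := rfl
  set vert : Finset (Ideal ↥(zchClosure (A₀ := A₀) ({u} : Set F))) :=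
    Finset.univ.image (fun c : κ => crossingIdeal (A₀ := A₀) {u} (V c) (hBV c)) with hvert
  have hvert_mem : ∀ 𝔭 ∈ vert, ∃ c : κ, 𝔭 = crossingIdeal (A₀ := A₀) {u} (V c) (hBV c) := by
    intro 𝔭 h𝔭
    obtain ⟨c, -, hc⟩ := Finset.mem_image.mp h𝔭
    exact ⟨c, hc.symm⟩
  have hprime : ∀ 𝔭 ∈ vert, 𝔭.IsPrime := by
    intro 𝔭 h𝔭
    obtain ⟨c, rfl⟩ := hvert_mem 𝔭 h𝔭
    exact at_crossingIdeal_isPrime (V c) (hBV c)
  have hϖv : ∀ 𝔭 ∈ vert, ϖ ∈ 𝔭 := by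
    intro 𝔭 h𝔭
    obtain ⟨c, rfl⟩ := hvert_mem 𝔭 h𝔭
    exact hπV c
  have hSS1' : ∀ y : ↥(zchClosure (A₀ := A₀) ({u} : Set F)), (∀ 𝔭 ∈ vert, y ∈ 𝔭) → ϖ ∣ y := by
    intro y hy
    obtain ⟨b', hb', hyb'⟩ := hSS1 (y : F) (mem_zchClosure.mp y.2) (fun c =>
      hy _ (Finset.mem_image.mpr ⟨c, Finset.mem_univ c, rfl⟩))
    exact ⟨⟨b', mem_zchClosure.mpr hb'⟩, Subtype.ext hyb'⟩
  have hV : ∀ 𝔭 ∈ vert, 𝔭 ≤ 𝔫 → StbPUnit 𝔭 (y / (algebraMap A₀ F π ^ k) ^ m) := by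
    intro 𝔭 h𝔭 hle
    obtain ⟨c, rfl⟩ := hvert_mem 𝔭 h𝔭
    haveI := at_crossingIdeal_isPrime (A₀ := A₀) (S := {u}) (V c) (hBV c)
    refine ls_vertical_unit_of_valuation hinj _ (V c) ?_ (hyV c fun b hb => hle hb)
    intro x hx
    obtain ⟨b, d, hb, hd, hdV, hdx⟩ := hVloc c x hx
    exact ⟨⟨b, mem_zchClosure.mpr hb⟩, ⟨d, mem_zchClosure.mpr hd⟩, hdV, hdx⟩
  exact stb_smooth_factor_pow hπ u hu hinj (unip_chart_range u) ϖ hϖ 𝔫 hπ𝔫 vert hprime hϖv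
    hSS1' s hs hgen hy m k hV hfin hm hrat

/-- **STB-S, (F) at a smooth point** (`𝔫 = (π, s)` locally): if `y ≠ 0` is a unit at every
vertical valuation through `𝔫`, `m ∣ ord_P y` on the tube of `𝔫` and the points of the tube in
the support of `y` are rational, then `y = ε · γ ^ m` with `ε ∈ O_𝔫^×`. -/
theorem stb_smooth_factor_at (hπ : Irreducible π) {u : F} (hu : Transcendental E u)
    [FiniteDimensional E⟮u⟯ F] [Finite κ]
    [IsNoetherianRing ↥(zchClosure (A₀ := A₀) ({u} : Set F))]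
    (V : κ → ValuationSubring F)
    (hBV : ∀ c (b : F), IsIntegral ↥(Algebra.adjoin A₀ {u}) b → b ∈ V c)
    (hπV : ∀ c, algebraMap A₀ F π ∈ (V c).nonunits)
    (hSS1 : ∀ b : F, IsIntegral ↥(Algebra.adjoin A₀ {u}) b → (∀ c, b ∈ (V c).nonunits) →
      ∃ b' : F, IsIntegral ↥(Algebra.adjoin A₀ {u}) b' ∧ b = algebraMap A₀ F π * b')
    (hVloc : ∀ c (x : F), x ∈ V c → ∃ b s : F, IsIntegral ↥(Algebra.adjoin A₀ {u}) b ∧
      IsIntegral ↥(Algebra.adjoin A₀ {u}) s ∧ s ∉ (V c).nonunits ∧ s * x = b)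
    (𝔫 : Ideal ↥(zchClosure (A₀ := A₀) ({u} : Set F))) [𝔫.IsPrime]
    (hπ𝔫 : algebraMap A₀ ↥(zchClosure (A₀ := A₀) ({u} : Set F)) π ∈ 𝔫)
    (s : ↥(zchClosure (A₀ := A₀) ({u} : Set F))) (hs : s ∈ 𝔫)
    (hgen : NodesLocGen 𝔫 {algebraMap A₀ ↥(zchClosure (A₀ := A₀) ({u} : Set F)) π, s})
    {y : F} (hy : y ≠ 0) (m : ℕ)
    (hyV : ∀ c, (∀ b : ↥(zchClosure (A₀ := A₀) ({u} : Set F)), (b : F) ∈ (V c).nonunits → b ∈ 𝔫) →
      (V c).valuation y = 1)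
    (hfin : {P : Place E F | LsTube ↥(zchClosure (A₀ := A₀) ({u} : Set F)) u 𝔫 P ∧
      P.ord y ≠ 0}.Finite)
    (hm : ∀ P : Place E F, LsTube ↥(zchClosure (A₀ := A₀) ({u} : Set F)) u 𝔫 P →
      (m : ℤ) ∣ P.ord y)
    (hrat : ∀ P : Place E F, LsTube ↥(zchClosure (A₀ := A₀) ({u} : Set F)) u 𝔫 P →
      P.ord y ≠ 0 → ∀ f ∈ P.toValuationSubring,
        ∃ c : E, f - algebraMap E F c ∈ P.toValuationSubring.nonunits) :
    ∃ γ ε : F, γ ≠ 0 ∧ ε ∈ ls_localSubring (F := F) 𝔫 ∧ ε⁻¹ ∈ ls_localSubring (F := F) 𝔫 ∧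
      y = ε * γ ^ m :=
  stb_smooth_factor_at_pow hπ hu V hBV hπV hSS1 hVloc 𝔫 hπ𝔫 s hs hgen hy m 0
    (fun c hc => by rw [zpow_zero, one_pow, div_one]; exact hyV c hc) hfin hm hrat

end SmoothAT

end Fermat.Agent.STB
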