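import Fermat.Agent.STB.AbstractT2
import Fermat.Agent.STB.SmoothShapeAT

/-!
# STB-S — (F) at a smooth point, in the form `StbFacAt` of `STB/AbstractT2.lean` (STB-T)

* `stb_facAt_of_mem`      : `ε, ε⁻¹ ∈ O`, `y = ε γ ^ m ≠ 0` gives `StbFacAt O m y`.
* `stb_smooth_facAt`      : `StbFacAt (atLoc 𝔫) m y` at a smooth closed point `𝔫 = (π, s)` of the
  chart `u` (`= atO π t (Sum.inl 𝔫)` for `u = t`, `= atO π t (Sum.inr 𝔫)` for `u = t⁻¹`,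
  definitionally).
* `stb_smooth_facAt_inl`, `stb_smooth_facAt_inr` : the same, stated for `atO π t i`.
-/

set_option autoImplicit false
set_option linter.style.haveILetI false
set_option linter.unusedSectionVars false
set_option linter.unusedVariables false

namespace Fermat.Agent.STB

open Polynomial IntermediateField Fermat.Agent.INJ AlgebraicCurve Fermat.Agent.UNIP

section Fac

variable {F : Type*} [Field F]

/-- from `ε, ε⁻¹ ∈ O` and `y = ε γ ^ m` to the form `StbFacAt` -/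
theorem stb_facAt_of_mem (O : Subring F) {m : ℕ} {y γ ε : F} (hy : y ≠ 0) (hε : ε ∈ O)
    (hε' : ε⁻¹ ∈ O) (h : y = ε * γ ^ m) : StbFacAt O m y := by
  have hε0 : ε ≠ 0 := by
    rintro rfl
    rw [zero_mul] at h
    exact hy h
  refine ⟨γ, ⟨ε, hε⟩, ?_, h⟩
  exact IsUnit.of_mul_eq_one ⟨ε⁻¹, hε'⟩ (Subtype.ext (mul_inv_cancel₀ hε0))

end Fac

section SmoothFac

variable {A₀ E F : Type*} [CommRing A₀] [IsDomain A₀] [IsDiscreteValuationRing A₀]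
  [Field E] [Algebra A₀ E] [IsFractionRing A₀ E] [CharZero E]
  [Field F] [Algebra E F] [Algebra A₀ F] [IsScalarTower A₀ E F]
  {π : A₀} {κ : Type*}

/-- **STB-S, (F) at a smooth closed point of the chart `u`**, in the form `StbFacAt`:
`𝔫 = (π, s)` locally, `y / π ^ (m k)` a unit at every vertical valuation through `𝔫`, `m ∣ ord_P y`
on the tube of `𝔫`, the points of the tube in the support of `y` rational. -/
theorem stb_smooth_facAt (hπ : Irreducible π) {u : F} (hu : Transcendental E u)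
    [FiniteDimensional E⟮u⟯ F] [Finite κ]
    [IsNoetherianRing ↥(zchClosure (A₀ := A₀) ({u} : Set F))]
    (V : κ → ValuationSubring F)
    (hBV : ∀ c (b : F), IsIntegral ↥(Algebra.adjoin A₀ {u}) b → b ∈ V c)
    (hπV : ∀ c, algebraMap A₀ F π ∈ (V c).nonunits)
    (hSS1 : ∀ b : F, IsIntegral ↥(Algebra.adjoin A₀ {u}) b → (∀ c, b ∈ (V c).nonunits) →
      ∃ b' : F, IsIntegral ↥(Algebra.adjoin A₀ {u}) b' ∧ b = algebraMap A₀ F π * b')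
    (hVloc : ∀ c (x : F), x ∈ V c → ∃ b s : F, IsIntegral ↥(Algebra.adjoin A₀ {u}) b ∧
      IsIntegral ↥(Algebra.adjoin A₀ {u}) s ∧ s ∉ (V c).nonunits ∧ s * x = b)
    (𝔫 : AtPt (F := F) π u)
    (s : ↥(zchClosure (A₀ := A₀) ({u} : Set F))) (hs : s ∈ 𝔫.1)
    (hgen : NodesLocGen 𝔫.1 {algebraMap A₀ ↥(zchClosure (A₀ := A₀) ({u} : Set F)) π, s})
    {y : F} (hy : y ≠ 0) (m : ℕ) (k : ℤ)
    (hyV : ∀ c, atThrough 𝔫 (V c) → (V c).valuation (y / (algebraMap A₀ F π ^ k) ^ m) = 1)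
    (hfin : {P : Place E F | LsTube ↥(zchClosure (A₀ := A₀) ({u} : Set F)) u 𝔫.1 P ∧
      P.ord y ≠ 0}.Finite)
    (hm : ∀ P : Place E F, LsTube ↥(zchClosure (A₀ := A₀) ({u} : Set F)) u 𝔫.1 P →
      (m : ℤ) ∣ P.ord y)
    (hrat : ∀ P : Place E F, LsTube ↥(zchClosure (A₀ := A₀) ({u} : Set F)) u 𝔫.1 P →
      P.ord y ≠ 0 → ∀ f ∈ P.toValuationSubring,
        ∃ c : E, f - algebraMap E F c ∈ P.toValuationSubring.nonunits) :
    StbFacAt (atLoc 𝔫) m y := by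
  haveI := 𝔫.2.1.isPrime
  obtain ⟨γ, ε, -, hε, hε', h⟩ := stb_smooth_factor_at_pow hπ hu V hBV hπV hSS1 hVloc 𝔫.1 𝔫.2.2
    s hs hgen hy m k hyV hfin hm hrat
  exact stb_facAt_of_mem _ hy hε hε' h

/-- `stb_smooth_facAt` for a point of the chart `t`, as a point of `AtPt π t ⊕ AtPt π t⁻¹` -/
theorem stb_smooth_facAt_inl (hπ : Irreducible π) {t : F} (ht : Transcendental E t)
    [FiniteDimensional E⟮t⟯ F] [Finite κ]
    [IsNoetherianRing ↥(zchClosure (A₀ := A₀) ({t} : Set F))]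
    (V : κ → ValuationSubring F)
    (hBV : ∀ c (b : F), IsIntegral ↥(Algebra.adjoin A₀ {t}) b → b ∈ V c)
    (hπV : ∀ c, algebraMap A₀ F π ∈ (V c).nonunits)
    (hSS1 : ∀ b : F, IsIntegral ↥(Algebra.adjoin A₀ {t}) b → (∀ c, b ∈ (V c).nonunits) →
      ∃ b' : F, IsIntegral ↥(Algebra.adjoin A₀ {t}) b' ∧ b = algebraMap A₀ F π * b')
    (hVloc : ∀ c (x : F), x ∈ V c → ∃ b s : F, IsIntegral ↥(Algebra.adjoin A₀ {t}) b ∧
      IsIntegral ↥(Algebra.adjoin A₀ {t}) s ∧ s ∉ (V c).nonunits ∧ s * x = b)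
    (𝔫 : AtPt (F := F) π t)
    (s : ↥(zchClosure (A₀ := A₀) ({t} : Set F))) (hs : s ∈ 𝔫.1)
    (hgen : NodesLocGen 𝔫.1 {algebraMap A₀ ↥(zchClosure (A₀ := A₀) ({t} : Set F)) π, s})
    {y : F} (hy : y ≠ 0) (m : ℕ) (k : ℤ)
    (hyV : ∀ c, atInc π t V (Sum.inl 𝔫) c →
      (V c).valuation (y / (algebraMap A₀ F π ^ k) ^ m) = 1)
    (hfin : {P : Place E F | LsTube ↥(zchClosure (A₀ := A₀) ({t} : Set F)) t 𝔫.1 P ∧
      P.ord y ≠ 0}.Finite)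
    (hm : ∀ P : Place E F, LsTube ↥(zchClosure (A₀ := A₀) ({t} : Set F)) t 𝔫.1 P →
      (m : ℤ) ∣ P.ord y)
    (hrat : ∀ P : Place E F, LsTube ↥(zchClosure (A₀ := A₀) ({t} : Set F)) t 𝔫.1 P →
      P.ord y ≠ 0 → ∀ f ∈ P.toValuationSubring,
        ∃ c : E, f - algebraMap E F c ∈ P.toValuationSubring.nonunits) :
    StbFacAt (atO π t (Sum.inl 𝔫)) m y :=
  stb_smooth_facAt hπ ht V hBV hπV hSS1 hVloc 𝔫 s hs hgen hy m k hyV hfin hm hrat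

/-- `stb_smooth_facAt` for a point of the chart `t⁻¹`, as a point of `AtPt π t ⊕ AtPt π t⁻¹` -/
theorem stb_smooth_facAt_inr (hπ : Irreducible π) {t : F} (ht' : Transcendental E t⁻¹)
    [FiniteDimensional E⟮t⁻¹⟯ F] [Finite κ]
    [IsNoetherianRing ↥(zchClosure (A₀ := A₀) ({t⁻¹} : Set F))]
    (V : κ → ValuationSubring F)
    (hBV : ∀ c (b : F), IsIntegral ↥(Algebra.adjoin A₀ {t⁻¹}) b → b ∈ V c)
    (hπV : ∀ c, algebraMap A₀ F π ∈ (V c).nonunits)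
    (hSS1 : ∀ b : F, IsIntegral ↥(Algebra.adjoin A₀ {t⁻¹}) b → (∀ c, b ∈ (V c).nonunits) →
      ∃ b' : F, IsIntegral ↥(Algebra.adjoin A₀ {t⁻¹}) b' ∧ b = algebraMap A₀ F π * b')
    (hVloc : ∀ c (x : F), x ∈ V c → ∃ b s : F, IsIntegral ↥(Algebra.adjoin A₀ {t⁻¹}) b ∧
      IsIntegral ↥(Algebra.adjoin A₀ {t⁻¹}) s ∧ s ∉ (V c).nonunits ∧ s * x = b)
    (𝔫 : AtPt (F := F) π t⁻¹)
    (s : ↥(zchClosure (A₀ := A₀) ({t⁻¹} : Set F))) (hs : s ∈ 𝔫.1)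
    (hgen : NodesLocGen 𝔫.1 {algebraMap A₀ ↥(zchClosure (A₀ := A₀) ({t⁻¹} : Set F)) π, s})
    {y : F} (hy : y ≠ 0) (m : ℕ) (k : ℤ)
    (hyV : ∀ c, atInc π t V (Sum.inr 𝔫) c →
      (V c).valuation (y / (algebraMap A₀ F π ^ k) ^ m) = 1)
    (hfin : {P : Place E F | LsTube ↥(zchClosure (A₀ := A₀) ({t⁻¹} : Set F)) t⁻¹ 𝔫.1 P ∧
      P.ord y ≠ 0}.Finite)
    (hm : ∀ P : Place E F, LsTube ↥(zchClosure (A₀ := A₀) ({t⁻¹} : Set F)) t⁻¹ 𝔫.1 P →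
      (m : ℤ) ∣ P.ord y)
    (hrat : ∀ P : Place E F, LsTube ↥(zchClosure (A₀ := A₀) ({t⁻¹} : Set F)) t⁻¹ 𝔫.1 P →
      P.ord y ≠ 0 → ∀ f ∈ P.toValuationSubring,
        ∃ c : E, f - algebraMap E F c ∈ P.toValuationSubring.nonunits) :
    StbFacAt (atO π t (Sum.inr 𝔫)) m y :=
  stb_smooth_facAt hπ ht' V hBV hπV hSS1 hVloc 𝔫 s hs hgen hy m k hyV hfin hm hrat

end SmoothFac

end Fermat.Agent.STB
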