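/-
RIB / MP (Mazur's principle), piece MP-SW (helper45): the SWAP TWIN of `STB/AbstractT2.lean`.

Chart setting of `stb_main_points` (two vertical components `V c₁ ≠ V c₂`, reduced special fibre).
Instead of an endomorphism `Φ` preserving the components, `g : F →+* F` SWAPS them
(`g 𝔪(V (s c)) ⊆ 𝔪(V c)`, `s` the transposition of `c₁`, `c₂`; `g = σ ∘ w_q`), and at the crossing
points `g x ≡ x ^ Q` modulo the maximal ideal (Fr′).  For a TORIC `y` (`y ≡ (tt c) ^ m` at `V c`)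
with local factorisations:   `g y · y ^ Q` is an `m`-th power in `F`   (`m = p ^ r`).

The sign is `+`: at a crossing point the two branch units of `g y · y ^ Q` are
`β₁ = g α₂ · α₁ ^ Q`, `β₂ = g α₁ · α₂ ^ Q`, both `≡ (α₁ α₂) ^ Q` at the point — the gluing invariant
is trivial because the expression is SYMMETRIC in the two branches.

* `stbsw_vertical`  : `g y · y ^ Q / H ^ m ≡ 1` at `V` (`H ≡ g t' · t ^ Q`).
* `stbsw_branch`    : `H / (g γ' · γ ^ Q) ≡ g α' · α ^ Q` at `V`.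
* `stbsw_glue`      : the point datum of `PwiShape` at a crossing point.
* `stbsw_point_one` : the point datum at a point with one component (`O₁` = the local ring of the
  preimage of the point under `g`, on the OTHER component).
* `stbsw_main`, `stbsw_main_points` : the theorems.
-/
import Fermat.Agent.STB.AbstractT2

set_option autoImplicit false
set_option linter.unusedSectionVars false
set_option linter.unusedVariables false
set_option linter.style.haveILetI false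

namespace Fermat.Agent.STB

open Polynomial IntermediateField Fermat.Agent.INJ Fermat.Agent.UNIP

section Local

variable {F : Type*} [Field F]

/-- a ring endomorphism mapping `𝔪(V')` into `𝔪(V)` maps `1 + 𝔪(V')` into `1 + 𝔪(V)` -/
theorem stbsw_congr_map (V V' : ValuationSubring F) (g : F →+* F)
    (hg : ∀ x ∈ V'.nonunits, g x ∈ V.nonunits) {x : F} (hx : x - 1 ∈ V'.nonunits) :
    g x - 1 ∈ V.nonunits := by
  have := hg _ hx
  rwa [map_sub, map_one] at this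

/-- **Vertical part of the shape** (swap form).  `y ≡ t ^ m` at `V`, `y ≡ t' ^ m` at `V'`,
`g 𝔪(V') ⊆ 𝔪(V)`, `H ≡ g t' · t ^ Q` at `V` ⇒ `g y · y ^ Q / H ^ m ≡ 1` at `V`. -/
theorem stbsw_vertical (V V' : ValuationSubring F) (g : F →+* F)
    (hg : ∀ x ∈ V'.nonunits, g x ∈ V.nonunits) (Q m : ℕ) {y t t' H : F}
    (ht : y / t ^ m - 1 ∈ V.nonunits) (ht' : y / t' ^ m - 1 ∈ V'.nonunits)
    (hH : H / (g t' * t ^ Q) - 1 ∈ V.nonunits) :
    g y * y ^ Q / H ^ m - 1 ∈ V.nonunits := by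
  have hr0 := stb_ne_zero_of_congr V ht
  have hy0 : y ≠ 0 := fun h => hr0 (by rw [h, zero_div])
  have htm0 : t ^ m ≠ 0 := fun h => hr0 (by rw [h, div_zero])
  have hr0' := stb_ne_zero_of_congr V' ht'
  have ht'm0 : t' ^ m ≠ 0 := fun h => hr0' (by rw [h, div_zero])
  have hH0' := stb_ne_zero_of_congr V hH
  have hH0 : H ≠ 0 := fun h => hH0' (by rw [h, zero_div])
  have hT0 : g t' * t ^ Q ≠ 0 := fun h => hH0' (by rw [h, div_zero])
  have hgt'0 : g t' ≠ 0 := left_ne_zero_of_mul hT0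
  have htQ0 : t ^ Q ≠ 0 := right_ne_zero_of_mul hT0
  have hgt'm0 : g t' ^ m ≠ 0 := pow_ne_zero _ hgt'0
  have h1 : g (y / t' ^ m) * (y / t ^ m) ^ Q - 1 ∈ V.nonunits :=
    pwi_congr_mul V (stbsw_congr_map V V' g hg ht') (pwi_congr_pow V ht Q)
  have h2 : (H / (g t' * t ^ Q)) ^ m - 1 ∈ V.nonunits := pwi_congr_pow V hH m
  have h3 := stb_congr_div V h1 h2
  have e : g y * y ^ Q / H ^ m
      = g (y / t' ^ m) * (y / t ^ m) ^ Q / (H / (g t' * t ^ Q)) ^ m := by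
    rw [map_div₀, map_pow]
    simp only [div_pow, mul_pow]
    field_simp
    ring
  rw [e]
  exact h3

/-- **Branch unit** (swap form).  `α ≡ t / γ` at `V`, `α' ≡ t' / γ'` at `V'` (units),
`H ≡ g t' · t ^ Q` at `V` ⇒ `H / (g γ' · γ ^ Q) ≡ g α' · α ^ Q` at `V`. -/
theorem stbsw_branch (V V' : ValuationSubring F) (g : F →+* F)
    (hg : ∀ x ∈ V'.nonunits, g x ∈ V.nonunits) (Q : ℕ) {γ γ' t t' H α α' : F}
    (hγ0 : γ ≠ 0) (hγ'0 : γ' ≠ 0)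
    (hvα : V.valuation α = 1) (hvα' : V'.valuation α' = 1)
    (hα : t / γ - α ∈ V.nonunits) (hα' : t' / γ' - α' ∈ V'.nonunits)
    (hH : H / (g t' * t ^ Q) - 1 ∈ V.nonunits) :
    H / (g γ' * γ ^ Q) / (g α' * α ^ Q) - 1 ∈ V.nonunits := by
  have hα0 : α ≠ 0 := fun h => by rw [h, map_zero] at hvα; exact zero_ne_one hvα
  have hα'0 : α' ≠ 0 := fun h => by rw [h, map_zero] at hvα'; exact zero_ne_one hvα'
  have hH0' := stb_ne_zero_of_congr V hH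
  have hT0 : g t' * t ^ Q ≠ 0 := fun h => hH0' (by rw [h, div_zero])
  have hgt'0 : g t' ≠ 0 := left_ne_zero_of_mul hT0
  have htQ0 : t ^ Q ≠ 0 := right_ne_zero_of_mul hT0
  have hgγ'0 : g γ' ≠ 0 := (_root_.map_ne_zero g).2 hγ'0
  have hgα'0 : g α' ≠ 0 := (_root_.map_ne_zero g).2 hα'0
  have h1 : g (t' / γ' / α') - 1 ∈ V.nonunits :=
    stbsw_congr_map V V' g hg (stb_div_congr V' hvα' hα')
  have h2 : (t / γ / α) ^ Q - 1 ∈ V.nonunits := pwi_congr_pow V (stb_div_congr V hvα hα) Q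
  have h3 := pwi_congr_mul V hH (pwi_congr_mul V h1 h2)
  have e : H / (g γ' * γ ^ Q) / (g α' * α ^ Q)
      = H / (g t' * t ^ Q) * (g (t' / γ' / α') * (t / γ / α) ^ Q) := by
    rw [map_div₀, map_div₀]
    simp only [div_pow]
    field_simp
  rw [e]
  exact h3

end Local

section Point

variable {F : Type*} [Field F] (O : Subring F) [IsLocalRing O]

/-- a sum of a unit and a nonunit of a local ring is a unit -/
theorem stbsw_isUnit_add {a z : O} (ha : IsUnit a) (hz : z ∈ IsLocalRing.maximalIdeal O) :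
    IsUnit (a + z) := by
  by_contra hu
  have h1 : a + z ∈ IsLocalRing.maximalIdeal O := (IsLocalRing.mem_maximalIdeal _).2 hu
  have h2 : a ∈ IsLocalRing.maximalIdeal O := by
    have := Ideal.sub_mem _ h1 hz
    rwa [add_sub_cancel_right] at this
  exact (IsLocalRing.mem_maximalIdeal _).1 h2 ha

/-- **MP-SW, crossing point.**  `O` the local ring of a crossing point, `V₁`, `V₂` the two
vertical valuations through it; `g` swaps `𝔪(V₁)` and `𝔪(V₂)` and `g x ≡ x ^ Q` modulo the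
maximal ideal of `O` (Fr′); `y = ε γ ^ m`, `y ≡ t_i ^ m` at `V_i`; `H ≡ g t₂ · t₁ ^ Q` at `V₁`,
`H ≡ g t₁ · t₂ ^ Q` at `V₂`.  Then `g y · y ^ Q / H ^ m` has the point datum of `PwiShape`. -/
theorem stbsw_glue (J : Ideal O) (V₁ V₂ : ValuationSubring F)
    (hO₁ : ∀ x ∈ O, x ∈ V₁) (hO₂ : ∀ x ∈ O, x ∈ V₂)
    (hinter : ∀ x : O, (x : F) ∈ V₁.nonunits → (x : F) ∈ V₂.nonunits → x ∈ J)
    (hsum : ∀ x ∈ IsLocalRing.maximalIdeal O, ∃ a b : O,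
      (a : F) ∈ V₁.nonunits ∧ (b : F) ∈ V₂.nonunits ∧ x = a + b)
    (hres₁ : StbRes O V₁) (hres₂ : StbRes O V₂)
    (g : F →+* F) (Q : ℕ)
    (hg₁ : ∀ x ∈ V₂.nonunits, g x ∈ V₁.nonunits)
    (hg₂ : ∀ x ∈ V₁.nonunits, g x ∈ V₂.nonunits)
    (hfrob : ∀ x : O, ∃ z ∈ IsLocalRing.maximalIdeal O, (z : F) = g (x : F) - (x : F) ^ Q)
    {m : ℕ} (hm : 0 < m) {y γ t₁ t₂ H : F} (ε : O) (hε : IsUnit ε)
    (hy : y = (ε : F) * γ ^ m)
    (ht₁ : y / t₁ ^ m - 1 ∈ V₁.nonunits) (ht₂ : y / t₂ ^ m - 1 ∈ V₂.nonunits)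
    (hH₁ : H / (g t₂ * t₁ ^ Q) - 1 ∈ V₁.nonunits)
    (hH₂ : H / (g t₁ * t₂ ^ Q) - 1 ∈ V₂.nonunits) :
    ∃ ε' γ' : F, ∃ hε' : ε' ∈ O, (⟨ε', hε'⟩ - 1 : O) ∈ J ∧
      γ' - 1 ∈ V₁.nonunits ∧ γ' - 1 ∈ V₂.nonunits ∧
      g y * y ^ Q / H ^ m = ε' * γ' ^ m := by
  obtain ⟨α₁, hα₁u, hα₁, hvα₁⟩ := stb_branch_unit O V₁ hO₁ hres₁ hm ε hε hy ht₁
  obtain ⟨α₂, hα₂u, hα₂, hvα₂⟩ := stb_branch_unit O V₂ hO₂ hres₂ hm ε hε hy ht₂
  have hr0 := stb_ne_zero_of_congr V₁ ht₁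
  have hy0 : y ≠ 0 := fun h => hr0 (by rw [h, zero_div])
  have hγ0 : γ ≠ 0 := fun h => hy0 (by rw [hy, h, zero_pow hm.ne', mul_zero])
  have hgγ0 : g γ ≠ 0 := (_root_.map_ne_zero g).2 hγ0
  have hH0 : H ≠ 0 := fun h => stb_ne_zero_of_congr V₁ hH₁ (by rw [h, zero_div])
  -- `g α_i ∈ O`
  obtain ⟨z₁, hz₁, hz₁eq⟩ := hfrob α₁
  obtain ⟨z₂, hz₂, hz₂eq⟩ := hfrob α₂
  obtain ⟨zε, hzε, hzεeq⟩ := hfrob ε
  set gα₁ : O := α₁ ^ Q + z₁ with hgα₁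
  set gα₂ : O := α₂ ^ Q + z₂ with hgα₂
  set gε : O := ε ^ Q + zε with hgε
  have hgα₁F : (gα₁ : F) = g (α₁ : F) := by rw [hgα₁]; push_cast; rw [hz₁eq]; ring
  have hgα₂F : (gα₂ : F) = g (α₂ : F) := by rw [hgα₂]; push_cast; rw [hz₂eq]; ring
  have hgεF : (gε : F) = g (ε : F) := by rw [hgε]; push_cast; rw [hzεeq]; ring
  have hgα₁u : IsUnit gα₁ := stbsw_isUnit_add O (hα₁u.pow Q) hz₁
  have hgα₂u : IsUnit gα₂ := stbsw_isUnit_add O (hα₂u.pow Q) hz₂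
  have hgεu : IsUnit gε := stbsw_isUnit_add O (hε.pow Q) hzε
  -- the two branch units
  set β₁ : O := gα₂ * α₁ ^ Q with hβ₁
  set β₂ : O := gα₁ * α₂ ^ Q with hβ₂
  have hβ₁u : IsUnit β₁ := hgα₂u.mul (hα₁u.pow Q)
  have hβ₂u : IsUnit β₂ := hgα₁u.mul (hα₂u.pow Q)
  have hβ₁F : (β₁ : F) = g (α₂ : F) * (α₁ : F) ^ Q := by rw [hβ₁]; push_cast; rw [hgα₂F]
  have hβ₂F : (β₂ : F) = g (α₁ : F) * (α₂ : F) ^ Q := by rw [hβ₂]; push_cast; rw [hgα₁F]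
  have hG₁ : H / (g γ * γ ^ Q) / (β₁ : F) - 1 ∈ V₁.nonunits := by
    rw [hβ₁F]
    exact stbsw_branch V₁ V₂ g hg₁ Q hγ0 hγ0 hvα₁ hvα₂ hα₁ hα₂ hH₁
  have hG₂ : H / (g γ * γ ^ Q) / (β₂ : F) - 1 ∈ V₂.nonunits := by
    rw [hβ₂F]
    exact stbsw_branch V₂ V₁ g hg₂ Q hγ0 hγ0 hvα₂ hvα₁ hα₂ hα₁ hH₂
  -- the gluing invariant is trivial: `β₁ ≡ β₂` modulo the maximal ideal
  have hd : β₁ - β₂ ∈ IsLocalRing.maximalIdeal O := by
    have e : β₁ - β₂ = z₂ * α₁ ^ Q - z₁ * α₂ ^ Q := by rw [hβ₁, hβ₂, hgα₁, hgα₂]; ring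
    rw [e]
    exact Ideal.sub_mem _ (Ideal.mul_mem_right _ _ hz₂) (Ideal.mul_mem_right _ _ hz₁)
  obtain ⟨a, b, ha, hb, hab⟩ := hsum _ hd
  have haM := stb_mem_maximalIdeal_of_nonunits O V₁ hO₁ a ha
  set δ : O := β₁ - a with hδ
  have hδu : IsUnit δ := by
    have : δ = β₁ + (-a) := by rw [hδ]; ring
    rw [this]
    exact stbsw_isUnit_add O hβ₁u ((IsLocalRing.maximalIdeal O).neg_mem haM)
  have hδ₁ : (δ : F) - (β₁ : F) ∈ V₁.nonunits := by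
    have e : (δ : F) - (β₁ : F) = -(a : F) := by rw [hδ]; push_cast; ring
    rw [e]
    exact V₁.nonunits.neg_mem ha
  have hδ₂ : (δ : F) - (β₂ : F) ∈ V₂.nonunits := by
    have e0 : δ = β₂ + b := by
      rw [hδ]
      have : β₁ = β₂ + (a + b) := by rw [← hab]; ring
      rw [this]; ring
    have e : (δ : F) - (β₂ : F) = (b : F) := by rw [e0]; push_cast; ring
    rw [e]
    exact hb
  have hvβ₁ := stb_val_unit O V₁ hO₁ hβ₁u
  have hvβ₂ := stb_val_unit O V₂ hO₂ hβ₂u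
  have hvδ := stb_val_unit O V₁ hO₁ hδu
  have hδ0 : (δ : F) ≠ 0 := fun h => by
    rw [h, map_zero] at hvδ
    exact zero_ne_one hvδ
  have hβ₁0 : (β₁ : F) ≠ 0 := fun h => by
    rw [h, map_zero] at hvβ₁
    exact zero_ne_one hvβ₁
  have hβ₂0 : (β₂ : F) ≠ 0 := fun h => by
    rw [h, map_zero] at hvβ₂
    exact zero_ne_one hvβ₂
  have hvε := stb_val_unit O V₁ hO₁ hε
  have hε0 : (ε : F) ≠ 0 := fun h => by
    rw [h, map_zero] at hvε
    exact zero_ne_one hvε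
  have hgε0 : g (ε : F) ≠ 0 := (_root_.map_ne_zero g).2 hε0
  -- `γ'`
  have hγ₁ : (δ : F) / (H / (g γ * γ ^ Q)) - 1 ∈ V₁.nonunits := by
    have e : (δ : F) / (H / (g γ * γ ^ Q))
        = (δ : F) / (β₁ : F) / (H / (g γ * γ ^ Q) / (β₁ : F)) := by
      field_simp
    rw [e]
    exact stb_congr_div V₁ (stb_div_congr V₁ hvβ₁ hδ₁) hG₁
  have hγ₂ : (δ : F) / (H / (g γ * γ ^ Q)) - 1 ∈ V₂.nonunits := by
    have e : (δ : F) / (H / (g γ * γ ^ Q))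
        = (δ : F) / (β₂ : F) / (H / (g γ * γ ^ Q) / (β₂ : F)) := by
      field_simp
    rw [e]
    exact stb_congr_div V₂ (stb_div_congr V₂ hvβ₂ hδ₂) hG₂
  have hγ'0 : (δ : F) / (H / (g γ * γ ^ Q)) ≠ 0 := stb_ne_zero_of_congr V₁ hγ₁
  -- `ε'`
  obtain ⟨uδ, huδ⟩ := hδu
  set ε' : O := gε * ε ^ Q * ((uδ⁻¹ : Oˣ) : O) ^ m with hε'
  have hε'F : (ε' : F) = g (ε : F) * (ε : F) ^ Q / (δ : F) ^ m := by
    rw [hε']
    push_cast
    rw [stb_coe_inv O uδ, huδ, hgεF, inv_pow]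
    field_simp
  have hfac : g y * y ^ Q / H ^ m = (ε' : F) * ((δ : F) / (H / (g γ * γ ^ Q))) ^ m := by
    rw [hε'F, hy, map_mul, map_pow]
    simp only [div_pow, mul_pow]
    field_simp
    ring
  have hε'eq : (ε' : F) = g y * y ^ Q / H ^ m / ((δ : F) / (H / (g γ * γ ^ Q))) ^ m := by
    rw [hfac]
    field_simp
  refine ⟨(ε' : F), (δ : F) / (H / (g γ * γ ^ Q)), ε'.2, ?_, hγ₁, hγ₂, hfac⟩
  apply hinter
  · show (((⟨(ε' : F), ε'.2⟩ : O) - 1 : O) : F) ∈ V₁.nonunits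
    push_cast
    rw [hε'eq]
    exact stb_congr_div V₁ (stbsw_vertical V₁ V₂ g hg₁ Q m ht₁ ht₂ hH₁)
      (pwi_congr_pow V₁ hγ₁ m)
  · show (((⟨(ε' : F), ε'.2⟩ : O) - 1 : O) : F) ∈ V₂.nonunits
    push_cast
    rw [hε'eq]
    exact stb_congr_div V₂ (stbsw_vertical V₂ V₁ g hg₂ Q m ht₂ ht₁ hH₂)
      (pwi_congr_pow V₂ hγ₂ m)

/-- **MP-SW, point with ONE component.**  `O` the local ring of a closed point with exactly one
vertical valuation `V` through it (`hinter`), `O₁` the local ring of its preimage under `g`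
(`g O₁ ⊆ O`), which lies on the OTHER component `V'` (`g 𝔪(V') ⊆ 𝔪(V)`).  `y` has local
factorisations at `O` and at `O₁` and is toric at `V` and `V'`; `H ≡ g t' · t ^ Q` at `V`.  Then
`g y · y ^ Q / H ^ m` has the point datum of `PwiShape`. -/
theorem stbsw_point_one (O₁ : Subring F) [IsLocalRing O₁] (J : Ideal O)
    (V V' : ValuationSubring F) (hOV : ∀ x ∈ O, x ∈ V) (hO₁V : ∀ x ∈ O₁, x ∈ V')
    (hinter : ∀ x : O, (x : F) ∈ V.nonunits → x ∈ J)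
    (hres : StbRes O V) (hres₁ : StbRes O₁ V')
    (g : F →+* F) (Q : ℕ) (hg : ∀ x ∈ V'.nonunits, g x ∈ V.nonunits)
    (hgO : ∀ x ∈ O₁, g x ∈ O)
    {m : ℕ} (hm : 0 < m) {y t t' H : F} (hfac : StbFacAt O m y) (hfac₁ : StbFacAt O₁ m y)
    (ht : y / t ^ m - 1 ∈ V.nonunits) (ht' : y / t' ^ m - 1 ∈ V'.nonunits)
    (hH : H / (g t' * t ^ Q) - 1 ∈ V.nonunits) :
    ∃ ε' γ' : F, ∃ hε' : ε' ∈ O, (⟨ε', hε'⟩ - 1 : O) ∈ J ∧ γ' - 1 ∈ V.nonunits ∧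
      g y * y ^ Q / H ^ m = ε' * γ' ^ m := by
  obtain ⟨γ, ε, hε, hy⟩ := hfac
  obtain ⟨γ₁, ε₁, hε₁, hy₁⟩ := hfac₁
  obtain ⟨α, hαu, hα, hvα⟩ := stb_branch_unit O V hOV hres hm ε hε hy ht
  obtain ⟨α₁, hα₁u, hα₁, hvα₁⟩ := stb_branch_unit O₁ V' hO₁V hres₁ hm ε₁ hε₁ hy₁ ht'
  have hr0 := stb_ne_zero_of_congr V ht
  have hy0 : y ≠ 0 := fun h => hr0 (by rw [h, zero_div])
  have hγ0 : γ ≠ 0 := fun h => hy0 (by rw [hy, h, zero_pow hm.ne', mul_zero])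
  have hγ₁0 : γ₁ ≠ 0 := fun h => hy0 (by rw [hy₁, h, zero_pow hm.ne', mul_zero])
  have hH0 : H ≠ 0 := fun h => stb_ne_zero_of_congr V hH (by rw [h, zero_div])
  have hgγ₁0 : g γ₁ ≠ 0 := (_root_.map_ne_zero g).2 hγ₁0
  have hα0 : (α : F) ≠ 0 := fun h => by
    rw [h, map_zero] at hvα
    exact zero_ne_one hvα
  have hα₁0 : (α₁ : F) ≠ 0 := fun h => by
    rw [h, map_zero] at hvα₁
    exact zero_ne_one hvα₁
  have hgα₁0 : g (α₁ : F) ≠ 0 := (_root_.map_ne_zero g).2 hα₁0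
  have hε0 : (ε : F) ≠ 0 := fun h => hy0 (by rw [hy, h, zero_mul])
  have hε₁0 : (ε₁ : F) ≠ 0 := fun h => hy0 (by rw [hy₁, h, zero_mul])
  -- units
  obtain ⟨uα, huα⟩ := hαu
  obtain ⟨uα₁, huα₁⟩ := hα₁u
  have hinvα : (((uα⁻¹ : Oˣ) : O) : F) = (α : F)⁻¹ := by
    rw [stb_coe_inv O uα, huα]
  have hinvα₁ : (((uα₁⁻¹ : O₁ˣ) : O₁) : F) = (α₁ : F)⁻¹ := by
    rw [stb_coe_inv O₁ uα₁, huα₁]
  -- the elements of `O`
  set β' : O := ⟨g (((uα₁⁻¹ : O₁ˣ) : O₁) : F), hgO _ ((uα₁⁻¹ : O₁ˣ) : O₁).2⟩ *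
    ((uα⁻¹ : Oˣ) : O) ^ Q with hβ'
  have hβ'F : (β' : F) = (g (α₁ : F) * (α : F) ^ Q)⁻¹ := by
    rw [hβ']
    push_cast
    rw [hinvα₁, hinvα, map_inv₀, inv_pow, mul_inv]
  set ε' : O := ⟨g (ε₁ : F), hgO _ ε₁.2⟩ * ε ^ Q * β' ^ m with hε'
  have hε'F : (ε' : F) = g (ε₁ : F) * (ε : F) ^ Q * (β' : F) ^ m := by
    rw [hε']
    push_cast
    rfl
  -- `γ'`
  have hG := stbsw_branch V V' g hg Q hγ0 hγ₁0 hvα hvα₁ hα hα₁ hH
  have hγ' : g γ₁ * γ ^ Q / H / (β' : F) - 1 ∈ V.nonunits := by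
    have e : g γ₁ * γ ^ Q / H / (β' : F)
        = (H / (g γ₁ * γ ^ Q) / (g (α₁ : F) * (α : F) ^ Q))⁻¹ := by
      rw [hβ'F]
      field_simp
    rw [e]
    exact stb_congr_inv V hG
  have hw : g y * y ^ Q / H ^ m = (ε' : F) * (g γ₁ * γ ^ Q / H / (β' : F)) ^ m := by
    have e1 : g y = g (ε₁ : F) * g γ₁ ^ m := by rw [hy₁, map_mul, map_pow]
    have e2 : y ^ Q = (ε : F) ^ Q * (γ ^ Q) ^ m := by
      rw [hy, mul_pow, ← pow_mul, ← pow_mul, mul_comm m Q]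
    have hβ'0 : (β' : F) ≠ 0 := by
      rw [hβ'F]
      exact inv_ne_zero (mul_ne_zero hgα₁0 (pow_ne_zero _ hα0))
    rw [hε'F, e1, e2, div_pow, div_pow, mul_pow]
    field_simp
  refine ⟨ε', g γ₁ * γ ^ Q / H / (β' : F), ε'.2, hinter _ ?_, hγ', hw⟩
  have hvert := stbsw_vertical V V' g hg Q m ht ht' hH
  have hγm := pwi_congr_pow V hγ' m
  have hγm0 := stb_ne_zero_of_congr V hγm
  have e : (((⟨(ε' : F), ε'.2⟩ - 1 : O) : O) : F)
      = g y * y ^ Q / H ^ m / (g γ₁ * γ ^ Q / H / (β' : F)) ^ m - 1 := by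
    rw [hw, mul_div_cancel_right₀ _ hγm0]
    rfl
  rw [e]
  exact stb_congr_div V hvert hγm

end Point

section Main

variable {A₀ E F : Type*} [CommRing A₀] [IsDomain A₀] [IsDiscreteValuationRing A₀]
  [Field E] [Algebra A₀ E] [IsFractionRing A₀ E] [CharZero E]
  [Field F] [Algebra E F] [Algebra A₀ F] [IsScalarTower A₀ E F]
  {π : A₀} {κ : Type*}

/-- **MP-SW, abstract per-point form** (swap twin of `stb_main`).  Chart setting of (T′) with two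
components `V c₁ ≠ V c₂`; `g : F →+* F` with `g 𝔪(V (s c)) ⊆ 𝔪(V c)`; `y` toric.  If for every `H`
with `H ≡ g (tt (s c)) · (tt c) ^ Q` at `V c` the function `g y · y ^ Q / H ^ (p ^ r)` has the
point datum of `PwiShape` at every closed point, then `g y · y ^ Q` is a `p ^ r`-th power. -/
theorem stbsw_main (hπ : Irreducible π) {t : F} (ht : Transcendental E t)
    [FiniteDimensional E⟮t⟯ F]
    (hcl : ∀ x : F, IsAlgebraic E x → x ∈ (algebraMap E F).range)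
    {p : ℕ} (hp : p.Prime) (hpu : IsUnit (p : A₀)) {ζ : A₀} (hζ : IsPrimitiveRoot ζ p)
    (hunit : ∀ a : A₀, IsUnit a → ∃ d : A₀, d ^ p = a)
    [Finite κ] (V : κ → ValuationSubring F) (c₁ c₂ : κ) (hκ : ∀ c, c = c₁ ∨ c = c₂)
    (hne : V c₁ ≠ V c₂)
    (hBV₁ : ∀ c (b : F), IsIntegral ↥(Algebra.adjoin A₀ {t}) b → b ∈ V c)
    (hBV₂ : ∀ c (b : F), IsIntegral ↥(Algebra.adjoin A₀ {t⁻¹}) b → b ∈ V c)
    (hπV : ∀ c, algebraMap A₀ F π ∈ (V c).nonunits)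
    (hSS1 : ∀ b : F, IsIntegral ↥(Algebra.adjoin A₀ {t}) b → (∀ c, b ∈ (V c).nonunits) →
      ∃ b' : F, IsIntegral ↥(Algebra.adjoin A₀ {t}) b' ∧ b = algebraMap A₀ F π * b')
    (harch : ∀ c (a x : F), a ∈ (V c).nonunits → ∃ N : ℕ, a ^ N * x ∈ (V c).nonunits)
    (g : F →+* F) (s : κ → κ)
    (hgV : ∀ c, ∀ x ∈ (V (s c)).nonunits, g x ∈ (V c).nonunits) (Q r : ℕ)
    {y : F} (tt : κ → F) (htoric : ∀ c, y / tt c ^ (p ^ r) - 1 ∈ (V c).nonunits)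
    (hpoint : ∀ H : F, (∀ c, H / (g (tt (s c)) * tt c ^ Q) - 1 ∈ (V c).nonunits) →
      ∀ i, ∃ ε' γ' : F, ∃ hε' : ε' ∈ atO π t i, (⟨ε', hε'⟩ - 1 : atO π t i) ∈ atJ π t i ∧
        (∀ c, atInc π t V i c → γ' - 1 ∈ (V c).nonunits) ∧
        g y * y ^ Q / H ^ (p ^ r) = ε' * γ' ^ (p ^ r)) :
    ∃ h : F, h ^ (p ^ r) = g y * y ^ Q := by
  have hm : 0 < p ^ r := pow_pos hp.pos r
  have hπ0 : algebraMap A₀ F π ≠ 0 :=
    (map_ne_zero_iff _ (zch_algebraMap_injective (A₀ := A₀) (E := E) (L := F))).mpr hπ.ne_zero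
  have htt0 : ∀ c, tt c ≠ 0 := by
    intro c h
    have h1 := stb_ne_zero_of_congr (V c) (htoric c)
    rw [h, zero_pow hm.ne', div_zero] at h1
    exact h1 rfl
  have hT0 : ∀ c, g (tt (s c)) * tt c ^ Q ≠ 0 := fun c =>
    mul_ne_zero ((_root_.map_ne_zero g).2 (htt0 (s c))) (pow_ne_zero _ (htt0 c))
  have hA : ∀ c, StbArch (V c) := by
    intro c x z hz
    obtain ⟨N, hN⟩ := harch c z x hz
    exact ⟨N, by rwa [mul_comm] at hN⟩
  have h12 : ¬ V c₁ ≤ V c₂ := stb_not_le_of_ne (hA c₁) hπ0 (hπV c₂) hne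
  have h21 : ¬ V c₂ ≤ V c₁ := stb_not_le_of_ne (hA c₂) hπ0 (hπV c₁) hne.symm
  obtain ⟨H, hH0, hH1, hH2⟩ :=
    stb_weakApprox_of_not_le h12 h21 (hA c₁) (hA c₂) (hT0 c₁) (hT0 c₂)
  have hH : ∀ c, H / (g (tt (s c)) * tt c ^ Q) - 1 ∈ (V c).nonunits := by
    intro c
    rcases hκ c with rfl | rfl
    · exact hH1
    · exact hH2
  have hshape : PwiShape V (atO π t) (atJ π t) (atInc π t V) (p ^ r)
      (g y * y ^ Q / H ^ (p ^ r)) :=
    ⟨fun c => stbsw_vertical (V c) (V (s c)) g (hgV c) Q (p ^ r) (htoric c) (htoric (s c)) (hH c),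
      hpoint H hH⟩
  obtain ⟨h, hh⟩ := at_pow_of_shape hπ ht hcl hp hpu hζ hunit V hBV₁ hBV₂ hπV hSS1 harch
    (at_hconn_two hπ ht hcl V hBV₁ hBV₂ hπV hSS1 c₁ c₂ hκ) r _ hshape
  refine ⟨h * H, ?_⟩
  rw [mul_pow, hh]
  field_simp

/-- the hypotheses at a point `O` with ONE component `V` through it, in the swap setting: `O₁` is
the local ring of the preimage of the point under `g`, which lies on the other component `V'`. -/
def StbSwapSmooth (O O₁ : Subring F) (V V' : ValuationSubring F) (g : F →+* F) (m : ℕ)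
    (y : F) : Prop :=
  (∀ x ∈ O₁, g x ∈ O) ∧ StbRes O V ∧ StbRes O₁ V' ∧ StbFacAt O m y ∧ StbFacAt O₁ m y

/-- **MP-SW** (swap twin of `stb_main_points`).  `g` swaps the two components
(`g 𝔪(V (s c)) ⊆ 𝔪(V c)`, `s c₁ = c₂`, `s c₂ = c₁`); every closed point `i` of the special fibre
is either a crossing point with `StbCross … g Q …` ((S), (N), (Fr′): `g x ≡ x ^ Q` modulo the
maximal ideal, (F)) or has exactly one component `c` through it and a preimage `i₁` under `g` on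
the component `s c` (`StbSwapSmooth`).  Then `g y · y ^ Q` is a `p ^ r`-th power in `F`. -/
theorem stbsw_main_points (hπ : Irreducible π) {t : F} (ht : Transcendental E t)
    [FiniteDimensional E⟮t⟯ F]
    (hcl : ∀ x : F, IsAlgebraic E x → x ∈ (algebraMap E F).range)
    {p : ℕ} (hp : p.Prime) (hpu : IsUnit (p : A₀)) {ζ : A₀} (hζ : IsPrimitiveRoot ζ p)
    (hunit : ∀ a : A₀, IsUnit a → ∃ d : A₀, d ^ p = a)
    [Finite κ] (V : κ → ValuationSubring F) (c₁ c₂ : κ) (hκ : ∀ c, c = c₁ ∨ c = c₂)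
    (hne : V c₁ ≠ V c₂)
    (hBV₁ : ∀ c (b : F), IsIntegral ↥(Algebra.adjoin A₀ {t}) b → b ∈ V c)
    (hBV₂ : ∀ c (b : F), IsIntegral ↥(Algebra.adjoin A₀ {t⁻¹}) b → b ∈ V c)
    (hπV : ∀ c, algebraMap A₀ F π ∈ (V c).nonunits)
    (hSS1 : ∀ b : F, IsIntegral ↥(Algebra.adjoin A₀ {t}) b → (∀ c, b ∈ (V c).nonunits) →
      ∃ b' : F, IsIntegral ↥(Algebra.adjoin A₀ {t}) b' ∧ b = algebraMap A₀ F π * b')
    (harch : ∀ c (a x : F), a ∈ (V c).nonunits → ∃ N : ℕ, a ^ N * x ∈ (V c).nonunits)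
    (g : F →+* F) (s : κ → κ) (hs₁ : s c₁ = c₂) (hs₂ : s c₂ = c₁)
    (hgV : ∀ c, ∀ x ∈ (V (s c)).nonunits, g x ∈ (V c).nonunits) (Q r : ℕ)
    {y : F} (tt : κ → F) (htoric : ∀ c, y / tt c ^ (p ^ r) - 1 ∈ (V c).nonunits)
    (hpts : ∀ i : AtPt (F := F) π t ⊕ AtPt (F := F) π t⁻¹,
      (atInc π t V i c₁ ∧ atInc π t V i c₂ ∧
        StbCross (atO π t i) (V c₁) (V c₂) g Q (p ^ r) y) ∨
      (∃ c, atInc π t V i c ∧ (∀ c', atInc π t V i c' → c' = c) ∧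
        ∃ i₁ : AtPt (F := F) π t ⊕ AtPt (F := F) π t⁻¹, atInc π t V i₁ (s c) ∧
          StbSwapSmooth (atO π t i) (atO π t i₁) (V c) (V (s c)) g (p ^ r) y)) :
    ∃ h : F, h ^ (p ^ r) = g y * y ^ Q := by
  have hm : 0 < p ^ r := pow_pos hp.pos r
  refine stbsw_main hπ ht hcl hp hpu hζ hunit V c₁ c₂ hκ hne hBV₁ hBV₂ hπV hSS1 harch g s hgV
    Q r tt htoric ?_
  intro H hH i
  haveI := stb_atO_isLocalRing (π := π) t i
  rcases hpts i with ⟨hi1, hi2, hsum, hres1, hres2, hfrob, γ, ε, hε, hy⟩ |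
    ⟨c, hc, honly, i₁, hi₁, hgO, hres, hres₁, hfac, hfac₁⟩
  · have hg₁ : ∀ x ∈ (V c₂).nonunits, g x ∈ (V c₁).nonunits := by
      have := hgV c₁
      rwa [hs₁] at this
    have hg₂ : ∀ x ∈ (V c₁).nonunits, g x ∈ (V c₂).nonunits := by
      have := hgV c₂
      rwa [hs₂] at this
    have hH₁ : H / (g (tt c₂) * tt c₁ ^ Q) - 1 ∈ (V c₁).nonunits := by
      have := hH c₁
      rwa [hs₁] at this
    have hH₂ : H / (g (tt c₁) * tt c₂ ^ Q) - 1 ∈ (V c₂).nonunits := by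
      have := hH c₂
      rwa [hs₂] at this
    obtain ⟨ε', γ', hε', hJ, hγ1, hγ2, hw⟩ := stbsw_glue (atO π t i) (atJ π t i) (V c₁) (V c₂)
      (stb_atO_le V hBV₁ hBV₂ i c₁ hi1) (stb_atO_le V hBV₁ hBV₂ i c₂ hi2)
      (fun x h1 h2 => stb_atO_inter hπ ht V hBV₁ hBV₂ hSS1 i x (fun c _ => by
        rcases hκ c with rfl | rfl
        · exact h1
        · exact h2))
      (fun x hx => hsum x ((IsLocalRing.mem_maximalIdeal _).1 hx))
      hres1 hres2 g Q hg₁ hg₂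
      (fun x => by
        obtain ⟨z, hz, hzx⟩ := hfrob x
        exact ⟨z, (IsLocalRing.mem_maximalIdeal _).2 hz, hzx⟩)
      hm ε hε hy (htoric c₁) (htoric c₂) hH₁ hH₂
    refine ⟨ε', γ', hε', hJ, fun c _ => ?_, hw⟩
    rcases hκ c with rfl | rfl
    · exact hγ1
    · exact hγ2
  · haveI := stb_atO_isLocalRing (π := π) t i₁
    obtain ⟨ε', γ', hε', hJ, hγ, hw⟩ := stbsw_point_one (atO π t i) (atO π t i₁) (atJ π t i)
      (V c) (V (s c))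
      (stb_atO_le V hBV₁ hBV₂ i c hc) (stb_atO_le V hBV₁ hBV₂ i₁ (s c) hi₁)
      (fun x hx => stb_atO_inter hπ ht V hBV₁ hBV₂ hSS1 i x (fun c' hc' => by
        rw [honly c' hc']
        exact hx))
      hres hres₁ g Q (hgV c) hgO hm hfac hfac₁ (htoric c) (htoric (s c)) (hH c)
    refine ⟨ε', γ', hε', hJ, fun c' hc' => ?_, hw⟩
    rw [honly c' hc']
    exact hγ

end Main

end Fermat.Agent.STB
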