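import Fermat.Agent.STB.MGFrob
import Fermat.Agent.STB.FrobReg

/-!
# STB-MG, `hfrob₁` / `hfrob₂` of `stb_mt_hpts`, final concrete form

Setting of `UNIP/MGConcrete.lean`, level `M * q`, `V = mgvV hπ ιC hq hqM`, `φ` a Frobenius element
at `A`, `g = φ̂²`:

* `stbmf_hfrob_J`    : `StbCrossFrob g (q ^ 2) 𝔫` at every crossing point `𝔫` of the chart `j`;
* `stbmf_hfrob_Jinv` : the same for the chart `1 / j`;
* `stbmf_hfrob_J_reg`, `stbmf_hfrob_Jinv_reg` : the same with the regularity of the chart of level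
  `M` as a hypothesis (`RegChart π (bgJ E′ M)`), instead of `h2 : q = 2 → 3 ∣ M`,
  `h3 : q = 3 → 2 ∣ M`.

Inputs: helper45's `stb_frobVal_conc_J`, `stb_frobVal_all_J` (`STB/FrobLift.lean`,
`STB/FrobReg.lean`) and `stbmf_crossFrob` (`STB/MGFrob.lean`).
-/

set_option autoImplicit false
set_option linter.style.haveILetI false
set_option linter.unusedSectionVars false
set_option linter.unusedVariables false

noncomputable section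

namespace Fermat.Agent.STB

open ModularCurve AlgebraicCurve Fermat.Agent.ES Fermat.Agent.ES.G2 Fermat.Agent.INJ
open IntermediateField Fermat.Agent.UNIP

section Concrete

variable {A : ValuationSubring Qb} {K₁ : IntermediateField ℚ Qb}
  [IsDiscreteValuationRing ↥(mgcA A K₁)] {π : ↥(mgcA A K₁)} (hπ : Irreducible π)
  (ιC : ↥(mgcE A K₁) →+* ℂ) {q M : ℕ} [NeZero q] [NeZero M] [NeZero (M * q)]
  (hq : q.Prime) (hqM : ¬ q ∣ M)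

/-- `hfrob₁` with the regularity of the chart of level `M` as a hypothesis. -/
theorem stbmf_hfrob_J_reg (hA : A.LiesOverPrime q) {φ : Qb ≃ₐ[ℚ] Qb}
    (hφF : A.IsFrobeniusAt φ q) (hφ : ∀ x ∈ mgcE A K₁, φ x ∈ mgcE A K₁)
    (h : RegChart (E := ↥(mgcE A K₁)) π (bgJ ↥(mgcE A K₁) M))
    (g : SemilinearAut ↥(mgcE A K₁) ↥(mgcF A K₁ (M * q)))
    (hg : ∀ x : ↥(mgcF A K₁ (M * q)),
      g • x = mgcGal (M * q) φ hφ • (mgcGal (M * q) φ hφ • x))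
    (𝔫 : AtPt (F := ↥(mgcF A K₁ (M * q))) π (mgcT A K₁ (M * q)))
    (hc₁ : atThrough 𝔫 (mgvV hπ ιC hq hqM true))
    (hc₂ : atThrough 𝔫 (mgvV hπ ιC hq hqM false)) :
    StbCrossFrob g (q ^ 2) 𝔫 :=
  stbmf_crossFrob (N := M * q) hq hA hπ hφF hφ (mgvV hπ ιC hq hqM true)
    (mgvV hπ ιC hq hqM false) (stbAtk ιC hq hqM)
    (stb_frobVal_conc_J hπ ιC hq hqM hA hφF hφ h) g hg 𝔫 hc₁ hc₂

/-- `hfrob₂` with the regularity of the chart of level `M` as a hypothesis. -/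
theorem stbmf_hfrob_Jinv_reg (hA : A.LiesOverPrime q) {φ : Qb ≃ₐ[ℚ] Qb}
    (hφF : A.IsFrobeniusAt φ q) (hφ : ∀ x ∈ mgcE A K₁, φ x ∈ mgcE A K₁)
    (h : RegChart (E := ↥(mgcE A K₁)) π (bgJ ↥(mgcE A K₁) M)⁻¹)
    (g : SemilinearAut ↥(mgcE A K₁) ↥(mgcF A K₁ (M * q)))
    (hg : ∀ x : ↥(mgcF A K₁ (M * q)),
      g • x = mgcGal (M * q) φ hφ • (mgcGal (M * q) φ hφ • x))
    (𝔫 : AtPt (F := ↥(mgcF A K₁ (M * q))) π (mgcT A K₁ (M * q))⁻¹)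
    (hc₁ : atThrough 𝔫 (mgvV hπ ιC hq hqM true))
    (hc₂ : atThrough 𝔫 (mgvV hπ ιC hq hqM false)) :
    StbCrossFrob g (q ^ 2) 𝔫 :=
  stbmf_crossFrob (N := M * q) hq hA hπ hφF hφ (mgvV hπ ιC hq hqM true)
    (mgvV hπ ιC hq hqM false) (stbAtk ιC hq hqM)
    (stb_frobVal_conc_Jinv hπ ιC hq hqM hA hφF hφ h) g hg 𝔫 hc₁ hc₂

/-- **`hfrob₁`** : the Frobenius hypotheses at the crossing points of the chart `j`,
all inputs discharged. -/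
theorem stbmf_hfrob_J (hA : A.LiesOverPrime q) (h2 : q = 2 → 3 ∣ M) (h3 : q = 3 → 2 ∣ M)
    {φ : Qb ≃ₐ[ℚ] Qb}
    (hφF : A.IsFrobeniusAt φ q) (hφ : ∀ x ∈ mgcE A K₁, φ x ∈ mgcE A K₁)
    (g : SemilinearAut ↥(mgcE A K₁) ↥(mgcF A K₁ (M * q)))
    (hg : ∀ x : ↥(mgcF A K₁ (M * q)),
      g • x = mgcGal (M * q) φ hφ • (mgcGal (M * q) φ hφ • x))
    (𝔫 : AtPt (F := ↥(mgcF A K₁ (M * q))) π (mgcT A K₁ (M * q)))
    (hc₁ : atThrough 𝔫 (mgvV hπ ιC hq hqM true))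
    (hc₂ : atThrough 𝔫 (mgvV hπ ιC hq hqM false)) :
    StbCrossFrob g (q ^ 2) 𝔫 :=
  stbmf_hfrob_J_reg hπ ιC hq hqM hA hφF hφ
    (stb_regChart_conc_J M hq hA (le_sup_left : beta0Field A ≤ mgcE A K₁) hπ hqM h2 h3)
    g hg 𝔫 hc₁ hc₂

/-- **`hfrob₂`** : the Frobenius hypotheses at the crossing points of the chart `1 / j`,
all inputs discharged. -/
theorem stbmf_hfrob_Jinv (hA : A.LiesOverPrime q) (h2 : q = 2 → 3 ∣ M) (h3 : q = 3 → 2 ∣ M)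
    {φ : Qb ≃ₐ[ℚ] Qb}
    (hφF : A.IsFrobeniusAt φ q) (hφ : ∀ x ∈ mgcE A K₁, φ x ∈ mgcE A K₁)
    (g : SemilinearAut ↥(mgcE A K₁) ↥(mgcF A K₁ (M * q)))
    (hg : ∀ x : ↥(mgcF A K₁ (M * q)),
      g • x = mgcGal (M * q) φ hφ • (mgcGal (M * q) φ hφ • x))
    (𝔫 : AtPt (F := ↥(mgcF A K₁ (M * q))) π (mgcT A K₁ (M * q))⁻¹)
    (hc₁ : atThrough 𝔫 (mgvV hπ ιC hq hqM true))
    (hc₂ : atThrough 𝔫 (mgvV hπ ιC hq hqM false)) :
    StbCrossFrob g (q ^ 2) 𝔫 :=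
  stbmf_hfrob_Jinv_reg hπ ιC hq hqM hA hφF hφ
    (stb_regChart_conc_Jinv M hq hA (le_sup_left : beta0Field A ≤ mgcE A K₁) hπ hqM h2 h3)
    g hg 𝔫 hc₁ hc₂

end Concrete

end Fermat.Agent.STB
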