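import Fermat.Agent.STB.MGMain
import Fermat.Agent.STB.MainTwo
import Fermat.Agent.UNIP.MGVertFrob
import Fermat.Agent.UNIP.MGVloc
import Fermat.Agent.STB.ToricMgv
import Fermat.Agent.INJ.ChartFinite
import Fermat.Agent.STB.MGFrobJ
import Fermat.Agent.UNIP.MGVertLocMain

/-!
# STB-MG-asm (S35 phase 2): the assembly of `StbData` (helper76)

Setting of `UNIP/MGConcrete.lean` + `UNIP/MGVertInertia.lean` at the level `M₁ * q`: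
`E′ = mgcE A K₁`, `A′ = mgcA A K₁` (a discrete valuation ring, uniformizer `π`),
`F′ = mgcF A K₁ (M₁ * q)`, `j = mgcT …`, `V = mgvV hπ ιC hq hqM` (`true ↦ V_∞`, `false ↦ V_0`),
`φ` a Frobenius element at `A`, `g = stbdG (M₁ * q) φ hφ = mgcGal … φ hφ * mgcGal … φ hφ`.

* `StbdInputs hπ ιC hq hqM` : the inputs which are NOT formal — one field per owner:
  `hSS1` ((SS1) on the chart `j`; `UNIP.mgd_hSS1` from U5 at the base), `hnode₁`, `hnode₂`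
  (the dichotomy of U5 at the closed points of the two charts; U5-concrete + MG-4: helper3,
  helper18).
* `stbData_of_inputs` : `StbdInputs … → StbData A K₁ hq hqM φ hφ`; everything else is discharged
  here: `hne` (`mgvl_hne`, helper3), `hBV₁`, `hBV₂`, `hπV`, `harch`, `hVloc₁`, `hVloc₂`
  (`mgv_*`, helper91), `hΦV`,
  `hgV`, `hgA`, `hgA'`, `g q = q` (`mgvf_*`, helper60), the toric transfer (`stb_mgt_htor₁_mgc`,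
  `stb_mgt_htor₂_mgc`, helper28), the Frobenius hypotheses at the crossing points
  (`stbmf_hfrob_J`, `stbmf_hfrob_Jinv`, helper95 + helper45), `hfin`, `hm`, `hrat` (`mg_hfin`,
  `mg_dvd_ord`, `MgcRat`), and the per-point hypothesis `hpts` by `stb_mt_hpts` (STB-C4,
  helper95).
-/

set_option autoImplicit false
set_option linter.style.haveILetI false
set_option linter.unusedSectionVars false
set_option linter.unusedVariables false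

noncomputable section

namespace Fermat.Agent.STB

open ModularCurve AlgebraicCurve Fermat.Agent.ES Fermat.Agent.ES.G2 Fermat.Agent.INJ
open Fermat.Agent.UNIP IntermediateField

section G

variable {A : ValuationSubring Qb} {K₁ : IntermediateField ℚ Qb} (N : ℕ)

/-- `g = φ̂²` as a semilinear automorphism of `F′` -/
def stbdG (φ : Qb ≃ₐ[ℚ] Qb) (hφ : ∀ x ∈ mgcE A K₁, φ x ∈ mgcE A K₁) :
    SemilinearAut ↥(mgcE A K₁) ↥(mgcF A K₁ N) :=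
  mgcGal N φ hφ * mgcGal N φ hφ

theorem stbdG_eq_pow (φ : Qb ≃ₐ[ℚ] Qb) (hφ : ∀ x ∈ mgcE A K₁, φ x ∈ mgcE A K₁) :
    stbdG N φ hφ = mgcGal N φ hφ ^ 2 :=
  (pow_two _).symm

theorem stbdG_smul (φ : Qb ≃ₐ[ℚ] Qb) (hφ : ∀ x ∈ mgcE A K₁, φ x ∈ mgcE A K₁)
    (x : ↥(mgcF A K₁ N)) :
    stbdG N φ hφ • x = mgcGal N φ hφ • mgcGal N φ hφ • x :=
  rfl

variable [NeZero N] [IsDiscreteValuationRing ↥(mgcA A K₁)]

/-- `Φ = stbcPhi` is the action of `g = stbdG` -/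
theorem stbcPhi_eq_smul (φ : Qb ≃ₐ[ℚ] Qb) (hφ : ∀ x ∈ mgcE A K₁, φ x ∈ mgcE A K₁)
    (x : ↥(mgcF A K₁ N)) :
    stbcPhi N φ hφ x = stbdG N φ hφ • x :=
  rfl

end G

section Inputs

variable {A : ValuationSubring Qb} {K₁ : IntermediateField ℚ Qb} {M₁ q : ℕ} [NeZero M₁] [NeZero q]
  [IsDiscreteValuationRing ↥(mgcA A K₁)] {π : ↥(mgcA A K₁)} (hπ : Irreducible π)
  (ιC : ↥(mgcE A K₁) →+* ℂ) (hq : q.Prime) (hqM : ¬ q ∣ M₁)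

/-- **The non-formal inputs of `StbData`** at `(A, K₁, π)`, level `M₁ * q`, for the vertical
valuation rings `V = mgvV hπ ιC hq hqM`. -/
structure StbdInputs : Prop where
  /-- (SS1) on the chart `j` -/
  hSS1 : ∀ b : ↥(mgcF A K₁ (M₁ * q)),
    IsIntegral ↥(Algebra.adjoin ↥(mgcA A K₁) {mgcT A K₁ (M₁ * q)}) b →
    (∀ c, b ∈ (mgvV hπ ιC hq hqM c).nonunits) →
    ∃ b' : ↥(mgcF A K₁ (M₁ * q)),
      IsIntegral ↥(Algebra.adjoin ↥(mgcA A K₁) {mgcT A K₁ (M₁ * q)}) b' ∧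
      b = algebraMap ↥(mgcA A K₁) ↥(mgcF A K₁ (M₁ * q)) π * b'
  /-- the dichotomy of U5 at the closed points of the chart `j` -/
  hnode₁ : ∃ (R₁ : Type) (_ : CommRing R₁)
    (j₁ : R₁ →+* ↥(zchClosure (A₀ := ↥(mgcA A K₁))
      ({mgcT A K₁ (M₁ * q)} : Set ↥(mgcF A K₁ (M₁ * q))))) (p₁ : R₁),
    MgcRamified j₁ (algebraMap ↥(mgcA A K₁) ↥(zchClosure (A₀ := ↥(mgcA A K₁))
      ({mgcT A K₁ (M₁ * q)} : Set ↥(mgcF A K₁ (M₁ * q)))) π) p₁ ∧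
    j₁ p₁ = algebraMap ↥(mgcA A K₁) ↥(zchClosure (A₀ := ↥(mgcA A K₁))
      ({mgcT A K₁ (M₁ * q)} : Set ↥(mgcF A K₁ (M₁ * q)))) ((q : ℕ) : ↥(mgcA A K₁)) ∧
    ∀ 𝔫 : AtPt (F := ↥(mgcF A K₁ (M₁ * q))) π (mgcT A K₁ (M₁ * q)),
      StbNodeAt (mgvV hπ ιC hq hqM true) (mgvV hπ ιC hq hqM false) 𝔫 j₁ p₁
  /-- the dichotomy of U5 at the closed points of the chart `1 / j` -/
  hnode₂ : ∃ (R₂ : Type) (_ : CommRing R₂)
    (j₂ : R₂ →+* ↥(zchClosure (A₀ := ↥(mgcA A K₁))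
      ({(mgcT A K₁ (M₁ * q))⁻¹} : Set ↥(mgcF A K₁ (M₁ * q))))) (p₂ : R₂),
    MgcRamified j₂ (algebraMap ↥(mgcA A K₁) ↥(zchClosure (A₀ := ↥(mgcA A K₁))
      ({(mgcT A K₁ (M₁ * q))⁻¹} : Set ↥(mgcF A K₁ (M₁ * q)))) π) p₂ ∧
    j₂ p₂ = algebraMap ↥(mgcA A K₁) ↥(zchClosure (A₀ := ↥(mgcA A K₁))
      ({(mgcT A K₁ (M₁ * q))⁻¹} : Set ↥(mgcF A K₁ (M₁ * q)))) ((q : ℕ) : ↥(mgcA A K₁)) ∧
    ∀ 𝔫 : AtPt (F := ↥(mgcF A K₁ (M₁ * q))) π (mgcT A K₁ (M₁ * q))⁻¹,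
      StbNodeAt (mgvV hπ ιC hq hqM true) (mgvV hπ ιC hq hqM false) 𝔫 j₂ p₂

variable {hπ ιC hq hqM} {φ : Qb ≃ₐ[ℚ] Qb} {hφ : ∀ x ∈ mgcE A K₁, φ x ∈ mgcE A K₁}

/-- `π ∣ q` in `A′` -/
theorem stbd_dvd_natCast (hπ : Irreducible π) (hA : A.LiesOverPrime q) :
    π ∣ ((q : ℕ) : ↥(mgcA A K₁)) := by
  have h1 : ((q : ℕ) : ↥(mgcA A K₁)) ∈ IsLocalRing.maximalIdeal ↥(mgcA A K₁) := by
    rw [beta0Ring_mem_maximalIdeal_iff]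
    have e : ((((q : ℕ) : ↥(mgcA A K₁)) : ↥(mgcE A K₁)) : Qb) = ((q : ℕ) : Qb) := by
      push_cast
      rfl
    rw [e]
    exact hA
  rw [hπ.maximalIdeal_eq] at h1
  exact Ideal.mem_span_singleton.mp h1

/-- `q ≠ 0` in `A′` -/
theorem stbd_natCast_ne_zero (hq : q.Prime) : ((q : ℕ) : ↥(mgcA A K₁)) ≠ 0 := by
  intro h
  have e : ((((q : ℕ) : ↥(mgcA A K₁)) : ↥(mgcE A K₁)) : Qb) = ((q : ℕ) : Qb) := by
    push_cast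
    rfl
  rw [h] at e
  have h0 : ((q : ℕ) : Qb) = 0 := by
    rw [← e]
    rfl
  exact hq.ne_zero (Nat.cast_eq_zero.mp h0)

set_option maxHeartbeats 1600000 in
/-- **STB-MG-asm.**  The special-fibre data `StbData` from the non-formal inputs. -/
theorem stbData_of_inputs (hA : A.LiesOverPrime q) (h2 : q = 2 → 3 ∣ M₁) (h3 : q = 3 → 2 ∣ M₁)
    (hφF : A.IsFrobeniusAt φ q) (h : StbdInputs hπ ιC hq hqM) :
    StbData A K₁ hq hqM φ hφ := by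
  have hφD : φ ∈ A.decompositionSubgroup ℚ := hφF.mem_decompositionSubgroup
  haveI := mgc_finiteDimensional A K₁ (M₁ * q)
  have ht := mgc_transcendental A K₁ (M₁ * q)
  have ht' : Transcendental ↥(mgcE A K₁) (mgcT A K₁ (M₁ * q))⁻¹ := zch_transcendental_inv ht
  haveI : FiniteDimensional (↥(mgcE A K₁))⟮(mgcT A K₁ (M₁ * q))⁻¹⟯ ↥(mgcF A K₁ (M₁ * q)) :=
    at_finiteDimensional_inv (mgcT A K₁ (M₁ * q))
  haveI : IsNoetherianRing ↥(zchClosure (A₀ := ↥(mgcA A K₁))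
      ({mgcT A K₁ (M₁ * q)} : Set ↥(mgcF A K₁ (M₁ * q)))) :=
    chart_closure_isNoetherianRing (A₀ := ↥(mgcA A K₁)) (E := ↥(mgcE A K₁)) ht
  haveI : IsNoetherianRing ↥(zchClosure (A₀ := ↥(mgcA A K₁))
      ({(mgcT A K₁ (M₁ * q))⁻¹} : Set ↥(mgcF A K₁ (M₁ * q)))) :=
    chart_closure_isNoetherianRing (A₀ := ↥(mgcA A K₁)) (E := ↥(mgcE A K₁)) ht'
  have hne := mgvl_hne hπ ιC hq hqM hA
  refine ⟨π, mgvV hπ ιC hq hqM, hπ, hne, mgv_hBV₁ hπ ιC hq hqM, mgv_hBV₂ hπ ιC hq hqM,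
    mgv_hπV hπ ιC hq hqM, h.hSS1, mgv_harch hπ ιC hq hqM,
    mgvf_hΦV_frob_sq hπ ιC hq hqM hφF hφ, stb_mgt_htor₁_mgc hπ ιC hq hqM,
    stb_mgt_htor₂_mgc hπ ιC hq hqM, ?_⟩
  intro m hqm u₀ hu₀ hdiv hrat tt htoric
  obtain ⟨R₁, _, j₁, p₁, hram₁, hjp₁, hnode₁⟩ := h.hnode₁
  obtain ⟨R₂, _, j₂, p₂, hram₂, hjp₂, hnode₂⟩ := h.hnode₂
  have hgt : stbdG (M₁ * q) φ hφ • mgcT A K₁ (M₁ * q) = mgcT A K₁ (M₁ * q) := by
    rw [stbdG_smul, mgc_smul_T, mgc_smul_T]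
  have hgq : stbdG (M₁ * q) φ hφ •
      algebraMap ↥(mgcA A K₁) ↥(mgcF A K₁ (M₁ * q)) ((q : ℕ) : ↥(mgcA A K₁)) =
      algebraMap ↥(mgcA A K₁) ↥(mgcF A K₁ (M₁ * q)) ((q : ℕ) : ↥(mgcA A K₁)) := by
    rw [map_natCast, stbdG_smul, mgvf_gal_natCast, mgvf_gal_natCast]
  have hrat' : ∀ P : Place ↥(mgcE A K₁) ↥(mgcF A K₁ (M₁ * q)), P.ord u₀ ≠ 0 →
      ∀ f ∈ P.toValuationSubring, ∃ c : ↥(mgcE A K₁),
        f - algebraMap ↥(mgcE A K₁) ↥(mgcF A K₁ (M₁ * q)) c ∈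
          P.toValuationSubring.nonunits := by
    intro P hP f hf
    refine hrat P 1 1 (fun a => rfl) ?_ f hf
    rw [map_one, one_smul]
    exact hP
  have hgV : ∀ c (f : ↥(mgcF A K₁ (M₁ * q))), f ≠ 0 →
      (mgvV hπ ιC hq hqM c).valuation (stbdG (M₁ * q) φ hφ • f / f) = 1 := fun c =>
    mgvf_val_mul _ (mgvf_hgV_gal hπ ιC hq hqM hφD hφ c) (mgvf_hgV_gal hπ ιC hq hqM hφD hφ c)
  have hgA : ∀ α : ↥(mgcA A K₁), ∃ α' : ↥(mgcA A K₁),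
      stbdG (M₁ * q) φ hφ • algebraMap ↥(mgcA A K₁) ↥(mgcF A K₁ (M₁ * q)) α =
        algebraMap ↥(mgcA A K₁) ↥(mgcF A K₁ (M₁ * q)) α' :=
    mgvf_hgA_mul (mgvf_hgA_gal (M₁ * q) hφD hφ) (mgvf_hgA_gal (M₁ * q) hφD hφ)
  have hgA' : ∀ α : ↥(mgcA A K₁), ∃ α' : ↥(mgcA A K₁),
      (stbdG (M₁ * q) φ hφ)⁻¹ • algebraMap ↥(mgcA A K₁) ↥(mgcF A K₁ (M₁ * q)) α =
        algebraMap ↥(mgcA A K₁) ↥(mgcF A K₁ (M₁ * q)) α' := by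
    have e : (stbdG (A := A) (K₁ := K₁) (M₁ * q) φ hφ)⁻¹ =
        (mgcGal (M₁ * q) φ hφ)⁻¹ * (mgcGal (M₁ * q) φ hφ)⁻¹ := mul_inv_rev _ _
    rw [e]
    exact mgvf_hgA_mul (mgvf_hgA_gal_inv (M₁ * q) hφD hφ) (mgvf_hgA_gal_inv (M₁ * q) hφD hφ)
  exact stb_mt_hpts hπ ht (mgvV hπ ιC hq hqM) true false (fun c => by cases c <;> simp) hne
    (mgv_hBV₁ hπ ιC hq hqM) (mgv_hBV₂ hπ ιC hq hqM) (mgv_hπV hπ ιC hq hqM) h.hSS1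
    (mgv_harch hπ ιC hq hqM) (mgv_hVloc₁ hπ ιC hq hqM hA h.hSS1)
    (mgv_hVloc₂ hπ ιC hq hqM hA h.hSS1) (stbdG (M₁ * q) φ hφ) hgt
    hgV hgA hgA' ((q : ℕ) : ↥(mgcA A K₁)) (stbd_natCast_ne_zero hq)
    (stbd_dvd_natCast hπ hA) hgq j₁ p₁ hram₁ hjp₁ j₂ p₂ hram₂ hjp₂ hnode₁ hnode₂ (q ^ 2)
    (stbmf_hfrob_J hπ ιC hq hqM hA h2 h3 hφF hφ (stbdG (M₁ * q) φ hφ) (fun x => rfl))
    (stbmf_hfrob_Jinv hπ ιC hq hqM hA h2 h3 hφF hφ (stbdG (M₁ * q) φ hφ) (fun x => rfl))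
    (stbcPhi (M₁ * q) φ hφ) (stbcPhi_eq_smul (M₁ * q) φ hφ) hu₀ m
    (mg_hfin (mgcE A K₁) (M₁ * q) u₀ hu₀) (mg_dvd_ord (mgcE A K₁) (M₁ * q) _ u₀ hdiv) hrat' tt
    htoric

end Inputs

end Fermat.Agent.STB
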