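import Fermat.Agent.STB.MGNodeReg
import Fermat.Agent.STB.FrobLift
import Fermat.Agent.STB.FrobReg
import Fermat.Agent.UNIP.MGChartsBeta0
import Fermat.Agent.UNIP.MGVertInertia
import Fermat.Agent.Common.FrobExists
import Fermat.Agent.UNIP.Beta0Frob

/-!
# STB-MG: `hnode₁`, `hnode₂` of `StbdInputs` (helper76), UNCONDITIONAL

Setting of `UNIP/MGConcrete.lean` + `UNIP/MGVertInertia.lean`: `A` a valuation subring of `ℚ̄` over
`q`, `K₁ / ℚ` a finite Galois extension in `ℚ̄`, `E′ = mgcE A K₁ = ℚ̄^I · K₁`, `A′ = mgcA A K₁`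
(a discrete valuation ring, ANY uniformizer `π`), `F′ = mgcF A K₁ (M q)`, `V = mgvV hπ ιC hq hqM`.

* `stbmn_hnode₁ K₁ hq hqM hA h2 h3 hπ ιC`, `stbmn_hnode₂ …` : there are a ring `R₁` (the chart `j`
  resp. `1/j` of `F_{Mq}(ℚ̄^I)` over the UNRAMIFIED base `A ∩ ℚ̄^I`), a map `j₁ : R₁ → zchClosure {t}`
  and `p₁ ∈ R₁` (the image of `q`) with `MgcRamified j₁ π p₁`, `j₁ p₁ = q` and
  `StbNodeAt V_∞ V_0 𝔫 j₁ p₁` at every closed point `𝔫` of the special fibre of the chart.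
  `h2 : q = 2 → 3 ∣ M`, `h3 : q = 3 → 2 ∣ M` (as in `u5c_*`, `stb_regChart_conc_J`).

Inputs: `stbmn_reg_J` (generic; U5 = `nodesReg_ker_J` + `nodesReg_chart_J`), `stb_regChart_conc_J`
(helper45), the Frobenius lift `stbLiftA`, `beta0Inst_main`, `vt_compat_of_le`.
-/

set_option autoImplicit false
set_option linter.style.haveILetI false
set_option linter.unusedSectionVars false
set_option linter.unusedVariables false
set_option linter.style.longLine false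

noncomputable section

namespace Fermat.Agent.STB

open ModularCurve AlgebraicCurve Fermat.Agent.ES Fermat.Agent.ES.G2 Fermat.Agent.INJ
  Fermat.Agent.UNIP Fermat.Agent.AL
open IntermediateField Polynomial

section Concrete

variable {A : ValuationSubring Qb} (K₁ : IntermediateField ℚ Qb)
  {M q : ℕ} [NeZero M] [NeZero q] [NeZero (M * q)]

/-- `j ↦ j` -/
theorem stbmn_emb_J :
    letI := beta0InstFieldAlgebra A K₁
    mgcEmb ↥(beta0Field A) ↥(beta0Field A ⊔ K₁) (M * q)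
      (nodesInstIncl ↥(beta0Field A) M q (bgJ ↥(beta0Field A) M)) = mgcT A K₁ (M * q) := by
  letI := beta0InstFieldAlgebra A K₁
  rw [nodesFinal_incl_J]
  exact Subtype.ext (coeffMap_jqModC _)

/-- `1/j ↦ 1/j` -/
theorem stbmn_emb_Jinv :
    letI := beta0InstFieldAlgebra A K₁
    mgcEmb ↥(beta0Field A) ↥(beta0Field A ⊔ K₁) (M * q)
      (nodesInstIncl ↥(beta0Field A) M q (bgJ ↥(beta0Field A) M)⁻¹) = (mgcT A K₁ (M * q))⁻¹ := by
  letI := beta0InstFieldAlgebra A K₁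
  rw [map_inv₀, map_inv₀, nodesFinal_incl_J]
  congr 1
  exact Subtype.ext (coeffMap_jqModC _)

variable [NumberField K₁] [IsGalois ℚ K₁] [IsDiscreteValuationRing ↥(mgcA A K₁)]

set_option synthInstance.maxHeartbeats 400000 in
set_option maxHeartbeats 3200000 in
/-- **`hnode₁` of `StbdInputs`** (chart `j`), unconditional. -/
theorem stbmn_hnode₁ (hq : q.Prime) (hqM : ¬ q ∣ M) (hA : A.LiesOverPrime q)
    (h2 : q = 2 → 3 ∣ M) (h3 : q = 3 → 2 ∣ M)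
    {π : ↥(mgcA A K₁)} (hπ : Irreducible π) (ιC : ↥(mgcE A K₁) →+* ℂ) :
    ∃ (R₁ : Type) (_ : CommRing R₁)
      (j₁ : R₁ →+* ↥(zchClosure (A₀ := ↥(mgcA A K₁))
        ({(mgcT A K₁ (M * q))} : Set ↥(mgcF A K₁ (M * q))))) (p₁ : R₁),
      MgcRamified j₁ (algebraMap ↥(mgcA A K₁) ↥(zchClosure (A₀ := ↥(mgcA A K₁))
        ({(mgcT A K₁ (M * q))} : Set ↥(mgcF A K₁ (M * q)))) π) p₁ ∧
      j₁ p₁ = algebraMap ↥(mgcA A K₁) ↥(zchClosure (A₀ := ↥(mgcA A K₁))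
        ({(mgcT A K₁ (M * q))} : Set ↥(mgcF A K₁ (M * q)))) ((q : ℕ) : ↥(mgcA A K₁)) ∧
      ∀ 𝔫 : AtPt (F := ↥(mgcF A K₁ (M * q))) π (mgcT A K₁ (M * q)),
        StbNodeAt (mgvV hπ ιC hq hqM true) (mgvV hπ ιC hq hqM false) 𝔫 j₁ p₁ := by
  letI := beta0InstAlgebra A K₁
  letI := beta0InstFieldAlgebra A K₁
  haveI := beta0Ring_isDVR_base (A := A) hq hA
  haveI := beta0Inst_isIntegral (A := A) K₁ hq hA
  haveI : Fact q.Prime := ⟨hq⟩
  haveI : CharP (IsLocalRing.ResidueField ↥(beta0Ring A (beta0Field A))) q :=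
    frobLift_charP A (beta0Field A) hq hA
  obtain ⟨φ, hφF⟩ := Fermat.Agent.Common.exists_isFrobeniusAt_of_liesOverPrime q hq A hA
  have hφ : ∀ x ∈ beta0Field A, φ x ∈ beta0Field A := fun x hx =>
    beta0_decomp_apply_mem hφF.mem_decompositionSubgroup hx
  have hπ₀ : Irreducible ((q : ℕ) : ↥(beta0Ring A (beta0Field A))) := beta0Ring_irreducible_q hq hA
  obtain ⟨π₁, hπ₁, -, -, -, -, -, hram, ⟨g₀, hgm, hroot, hdeg, -⟩, hadj, halg⟩ :=
    beta0Inst_main (A := A) K₁ hq hA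
  obtain ⟨κ, hκ⟩ := vt_compat_of_le (A := A)
    (le_sup_left : beta0Field A ≤ beta0Field A ⊔ K₁)
  obtain ⟨j, hj₁, hj₂, hj₃⟩ := stbmn_reg_J (beta0Field A) (A₀ := ↥(beta0Ring A (beta0Field A)))
    (A' := ↥(beta0Ring A (beta0Field A ⊔ K₁))) (E' := ↥(beta0Field A ⊔ K₁)) hq hqM
    (fun a => mgcb_hcomp K₁ a) hπ₀ (vtBase_residue hπ₀)
    (ιC.comp (algebraMap ↥(beta0Field A) ↥(beta0Field A ⊔ K₁)))
    (stb_regChart_conc_J M hq hA le_rfl hπ₀ hqM h2 h3)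
    ((stbLiftA hφF hφ).symm : ↥(beta0Ring A (beta0Field A)) →+* ↥(beta0Ring A (beta0Field A)))
    ((mgaRestrictEquiv (beta0Field A) φ hφ).symm : ↥(beta0Field A) →+* ↥(beta0Field A))
    (stbLiftTheta hφF hφ) (fun a => stbLift_hψ' hφF hφ a) (fun a => stbLift_hθ hφF hφ a)
    (fun x => stbLift_hθq hφF hφ x)
    hπ₁ hram g₀ hgm hroot hdeg hadj halg
    (t := (mgcT A K₁ (M * q))) (stbmn_emb_J K₁)
    hπ (vtBase_residue hπ) ιC hκ
  refine ⟨↥(integralClosure (Algebra.adjoin ↥(beta0Ring A (beta0Field A)) {nodesInstIncl ↥(beta0Field A) M q (bgJ ↥(beta0Field A) M)}) (modularFunctionFieldFullC ↥(beta0Field A) (M * q))), inferInstance, j,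
    (algebraMap ↥(beta0Ring A (beta0Field A)) (integralClosure (Algebra.adjoin ↥(beta0Ring A (beta0Field A)) {nodesInstIncl ↥(beta0Field A) M q (bgJ ↥(beta0Field A) M)}) (modularFunctionFieldFullC ↥(beta0Field A) (M * q))) ((q : ℕ) : ↥(beta0Ring A (beta0Field A)))), hj₁, ?_, hj₃⟩
  rw [hj₂]
  congr 1

set_option synthInstance.maxHeartbeats 400000 in
set_option maxHeartbeats 3200000 in
/-- **`hnode₂` of `StbdInputs`** (chart `1/j`), unconditional. -/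
theorem stbmn_hnode₂ (hq : q.Prime) (hqM : ¬ q ∣ M) (hA : A.LiesOverPrime q)
    (h2 : q = 2 → 3 ∣ M) (h3 : q = 3 → 2 ∣ M)
    {π : ↥(mgcA A K₁)} (hπ : Irreducible π) (ιC : ↥(mgcE A K₁) →+* ℂ) :
    ∃ (R₁ : Type) (_ : CommRing R₁)
      (j₁ : R₁ →+* ↥(zchClosure (A₀ := ↥(mgcA A K₁))
        ({(mgcT A K₁ (M * q))⁻¹} : Set ↥(mgcF A K₁ (M * q))))) (p₁ : R₁),
      MgcRamified j₁ (algebraMap ↥(mgcA A K₁) ↥(zchClosure (A₀ := ↥(mgcA A K₁))
        ({(mgcT A K₁ (M * q))⁻¹} : Set ↥(mgcF A K₁ (M * q)))) π) p₁ ∧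
      j₁ p₁ = algebraMap ↥(mgcA A K₁) ↥(zchClosure (A₀ := ↥(mgcA A K₁))
        ({(mgcT A K₁ (M * q))⁻¹} : Set ↥(mgcF A K₁ (M * q)))) ((q : ℕ) : ↥(mgcA A K₁)) ∧
      ∀ 𝔫 : AtPt (F := ↥(mgcF A K₁ (M * q))) π (mgcT A K₁ (M * q))⁻¹,
        StbNodeAt (mgvV hπ ιC hq hqM true) (mgvV hπ ιC hq hqM false) 𝔫 j₁ p₁ := by
  letI := beta0InstAlgebra A K₁
  letI := beta0InstFieldAlgebra A K₁
  haveI := beta0Ring_isDVR_base (A := A) hq hA
  haveI := beta0Inst_isIntegral (A := A) K₁ hq hA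
  haveI : Fact q.Prime := ⟨hq⟩
  haveI : CharP (IsLocalRing.ResidueField ↥(beta0Ring A (beta0Field A))) q :=
    frobLift_charP A (beta0Field A) hq hA
  obtain ⟨φ, hφF⟩ := Fermat.Agent.Common.exists_isFrobeniusAt_of_liesOverPrime q hq A hA
  have hφ : ∀ x ∈ beta0Field A, φ x ∈ beta0Field A := fun x hx =>
    beta0_decomp_apply_mem hφF.mem_decompositionSubgroup hx
  have hπ₀ : Irreducible ((q : ℕ) : ↥(beta0Ring A (beta0Field A))) := beta0Ring_irreducible_q hq hA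
  obtain ⟨π₁, hπ₁, -, -, -, -, -, hram, ⟨g₀, hgm, hroot, hdeg, -⟩, hadj, halg⟩ :=
    beta0Inst_main (A := A) K₁ hq hA
  obtain ⟨κ, hκ⟩ := vt_compat_of_le (A := A)
    (le_sup_left : beta0Field A ≤ beta0Field A ⊔ K₁)
  obtain ⟨j, hj₁, hj₂, hj₃⟩ := stbmn_reg_Jinv (beta0Field A) (A₀ := ↥(beta0Ring A (beta0Field A)))
    (A' := ↥(beta0Ring A (beta0Field A ⊔ K₁))) (E' := ↥(beta0Field A ⊔ K₁)) hq hqM
    (fun a => mgcb_hcomp K₁ a) hπ₀ (vtBase_residue hπ₀)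
    (ιC.comp (algebraMap ↥(beta0Field A) ↥(beta0Field A ⊔ K₁)))
    (stb_regChart_conc_Jinv M hq hA le_rfl hπ₀ hqM h2 h3)
    ((stbLiftA hφF hφ).symm : ↥(beta0Ring A (beta0Field A)) →+* ↥(beta0Ring A (beta0Field A)))
    ((mgaRestrictEquiv (beta0Field A) φ hφ).symm : ↥(beta0Field A) →+* ↥(beta0Field A))
    (stbLiftTheta hφF hφ) (fun a => stbLift_hψ' hφF hφ a) (fun a => stbLift_hθ hφF hφ a)
    (fun x => stbLift_hθq hφF hφ x)
    hπ₁ hram g₀ hgm hroot hdeg hadj halg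
    (t := (mgcT A K₁ (M * q))⁻¹) (stbmn_emb_Jinv K₁)
    hπ (vtBase_residue hπ) ιC hκ
  refine ⟨↥(integralClosure (Algebra.adjoin ↥(beta0Ring A (beta0Field A)) {nodesInstIncl ↥(beta0Field A) M q (bgJ ↥(beta0Field A) M)⁻¹}) (modularFunctionFieldFullC ↥(beta0Field A) (M * q))), inferInstance, j,
    (algebraMap ↥(beta0Ring A (beta0Field A)) (integralClosure (Algebra.adjoin ↥(beta0Ring A (beta0Field A)) {nodesInstIncl ↥(beta0Field A) M q (bgJ ↥(beta0Field A) M)⁻¹}) (modularFunctionFieldFullC ↥(beta0Field A) (M * q))) ((q : ℕ) : ↥(beta0Ring A (beta0Field A)))), hj₁, ?_, hj₃⟩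
  rw [hj₂]
  congr 1

end Concrete

end Fermat.Agent.STB

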