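import Fermat.Agent.STB.KronQStmt
import Fermat.Agent.ES.G2.S37Kron

/-!
# STB (S35, phase 2 of item 34), piece (A): NEW ⇒ TORIC

`N = M q`, `q ∤ M` prime, `F = F_N`, `α : F_M → F_N`, `w = w_q`, `A` over `q`, `φ` a Frobenius
element at `A` (acting on coefficients), `Φ = φ²`.

If `N_α u = c f ^ m` and `N_α (w u) = c' f' ^ m` with `f, f' ∈ F_M^×`, `c, c' ∈ ℚ̄^×`
(this is what `α_* x = 0 = β_* x` gives for the Kummer function `u` of `x ∈ J₀(N)[m]`), then by
Kronecker at `q` (`StmtKronQAt`, piece (K))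

* `stb_a_toric_infty` : `Φ u / u ≡ const · (φ (α f') / α f) ^ m` at `v_∞`;
* `stb_a_toric_zero`  : `Φ u / u ≡ const · (w (φ (α f) / α f')) ^ m` at `v_0 = v_∞ ∘ w`.

"`x ≡ const · y` at `v_∞`" is `GaussConst A N (x / y)`; at `v_0` it is `GaussConst A N (w (x / y))`.
`stb_a_exists_toric` packages both with the constants absorbed into `t_∞`, `t_0`
(`ReducesToOne`).  Also: `ReducesToOne` and `GaussConst` are stable under the decomposition group
(`stb_a_reducesToOne_smul`, `stb_a_gaussConst_smul`) and under the substitution of equal arguments.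
-/

set_option autoImplicit false
set_option linter.style.haveILetI false

noncomputable section

namespace Fermat.Agent.STB

open ModularCurve AlgebraicCurve Fermat.Agent.ES Fermat.Agent.ES.G2 HahnSeries

/-! ### The decomposition group preserves congruences -/

section Galois

variable {K L : Type*} [Field K] [Field L] [Algebra K L] {A : ValuationSubring L}

/-- an element of the decomposition group maps the maximal ideal into itself -/
theorem stb_a_map_mem_nonunits {σ : L ≃ₐ[K] L} (hσ : σ ∈ A.decompositionSubgroup K) {x : L}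
    (hx : x ∈ A.nonunits) : σ x ∈ A.nonunits := by
  have hxA : x ∈ A := ValuationSubring.nonunits_subset hx
  have h1 : (⟨x, hxA⟩ : A) ∈ IsLocalRing.maximalIdeal A :=
    ValuationSubring.coe_mem_nonunits_iff.1 hx
  have h2 : kronDecompHom σ hσ ⟨x, hxA⟩ ∈ IsLocalRing.maximalIdeal A := by
    rw [IsLocalRing.mem_maximalIdeal, mem_nonunits_iff]
    intro hu
    have hσ' : σ.symm ∈ A.decompositionSubgroup K := kron_symm_mem_decomposition hσ
    have hu' := hu.map (kronDecompHom σ.symm hσ')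
    have e : kronDecompHom σ.symm hσ' (kronDecompHom σ hσ ⟨x, hxA⟩) = ⟨x, hxA⟩ := by
      apply Subtype.ext
      rw [kronDecompHom_coe, kronDecompHom_coe]
      exact σ.symm_apply_apply x
    rw [e] at hu'
    exact (IsLocalRing.mem_maximalIdeal _).1 h1 hu'
  have h3 := ValuationSubring.coe_mem_nonunits_iff.2 h2
  rwa [kronDecompHom_coe] at h3

theorem stb_a_kronCongr_coeffMap {σ : L ≃ₐ[K] L} (hσ : σ ∈ A.decompositionSubgroup K)
    {f g : LaurentSeries L} (h : KronCongr A f g) :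
    KronCongr A (coeffMap (σ : L →+* L) f) (coeffMap (σ : L →+* L) g) := by
  intro n
  have h1 := stb_a_map_mem_nonunits hσ (h n)
  rw [map_sub] at h1
  exact h1

end Galois

section RTO

variable {A : ValuationSubring Qb} {N : ℕ} [NeZero N]

/-- `ReducesToOne` is stable under the decomposition group -/
theorem stb_a_reducesToOne_smul {σ : Qb ≃ₐ[ℚ] Qb} (hσ : σ ∈ A.decompositionSubgroup ℚ)
    {x : modularFunctionFieldBar N} (hx : ReducesToOne A N x) :
    ReducesToOne A N (arithmeticGalois (modularFunctionFieldFull N) σ • x) := by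
  obtain ⟨y₁, y₂, hy₁, hy₂, hp₁, hp₂, hc, he⟩ := hx
  refine ⟨coeffMap (σ : Qb →+* Qb) y₁, coeffMap (σ : Qb →+* Qb) y₂,
    coeffMap_mem_laurentBaseChange σ hy₁, coeffMap_mem_laurentBaseChange σ hy₂,
    hp₁.coeffMap_of_mem_decomposition σ hσ, hp₂.coeffMap_of_mem_decomposition σ hσ,
    stb_a_kronCongr_coeffMap hσ hc, ?_⟩
  show coeffMap (σ : Qb →+* Qb) (x : LaurentSeries Qb) * coeffMap (σ : Qb →+* Qb) y₂ =
    coeffMap (σ : Qb →+* Qb) y₁
  rw [← map_mul, he]

/-- `GaussConst` is stable under the decomposition group -/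
theorem stb_a_gaussConst_smul {σ : Qb ≃ₐ[ℚ] Qb} (hσ : σ ∈ A.decompositionSubgroup ℚ)
    {x : modularFunctionFieldBar N} (hx : GaussConst A N x) :
    GaussConst A N (arithmeticGalois (modularFunctionFieldFull N) σ • x) := by
  obtain ⟨c, u₁, hc, hu₁, rfl⟩ := gaussConst_iff.1 hx
  obtain ⟨g, hg⟩ : ∃ g : SemilinearAut Qb (modularFunctionFieldBar N),
      g = arithmeticGalois (modularFunctionFieldFull N) σ := ⟨_, rfl⟩
  rw [← hg]
  have h1 : g • (algebraMap Qb (modularFunctionFieldBar N) c * u₁) =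
      algebraMap Qb (modularFunctionFieldBar N) (SemilinearAut.baseAut g c) * g • u₁ := by
    rw [smul_mul', SemilinearAut.smul_algebraMap]
  rw [h1]
  refine GaussConst.const_mul ((map_ne_zero _).mpr hc) (GaussConst.of_reducesToOne ?_)
  rw [hg]
  exact stb_a_reducesToOne_smul hσ hu₁

/-- a Gauss-constant function is an `m`-th power of a constant times a function reducing to
one, after division by a suitable constant `d ^ m` -/
theorem stb_a_exists_const_pow {x : modularFunctionFieldBar N} (hx : GaussConst A N x) (m : ℕ)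
    (hm : m ≠ 0) :
    ∃ d : Qb, d ≠ 0 ∧
      ReducesToOne A N (x / algebraMap Qb (modularFunctionFieldBar N) d ^ m) := by
  obtain ⟨c, u₁, hc, hu₁, rfl⟩ := gaussConst_iff.1 hx
  obtain ⟨d, hd⟩ := IsAlgClosed.exists_pow_nat_eq c (Nat.pos_of_ne_zero hm)
  have hd0 : d ≠ 0 := by
    rintro rfl
    rw [zero_pow hm] at hd
    exact hc hd.symm
  refine ⟨d, hd0, ?_⟩
  have hd' : algebraMap Qb (modularFunctionFieldBar N) d ^ m ≠ 0 :=
    pow_ne_zero m ((map_ne_zero _).mpr hd0)
  have e : algebraMap Qb (modularFunctionFieldBar N) c * u₁ /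
      algebraMap Qb (modularFunctionFieldBar N) d ^ m = u₁ := by
    rw [← map_pow, hd, mul_div_cancel_left₀ _ ((map_ne_zero _).mpr hc)]
  rw [e]
  exact hu₁

end RTO

/-! ### (A): new ⇒ toric, abstract form -/

section Abstract

variable {F₁ F : Type*} [Field F₁] [Field F]

/-- generic algebra behind (A) -/
theorem stb_a_div_identity {u pwu ppu af paf' : F} {m : ℕ}
    (hu : u ≠ 0) (hpwu : pwu ≠ 0) (hppu : ppu ≠ 0) (haf : af ≠ 0) (hpaf' : paf' ≠ 0) :
    (af ^ m / (u * pwu)) / (paf' ^ m / (pwu * ppu)) = (ppu / u) / (paf' / af) ^ m := by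
  have h1 : af ^ m ≠ 0 := pow_ne_zero m haf
  have h2 : paf' ^ m ≠ 0 := pow_ne_zero m hpaf'
  rw [div_pow]
  field_simp

/-- **(A) at `v_∞`, abstract form.**  `GC` = "Gauss-constant", `g` = Frobenius, `w` = the
involution, `nrm` = the norm along `α`; `c`, `c'` are constants (`hc`, `hc'`). -/
theorem stb_a_toric_abstract (GC : F → Prop) (hdiv : ∀ a b : F, GC a → GC b → GC (a / b))
    (α : F₁ →+* F) (g w : F →+* F) (hg : ∀ a : F, GC a → GC (g a)) (hww : ∀ x : F, w (w x) = x)
    (nrm : F → F₁) (hK : ∀ y : F, y ≠ 0 → GC (α (nrm y) / (y * g (w y))))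
    {u : F} (hu : u ≠ 0) {f f' c c' : F₁} (hf : f ≠ 0) (hf' : f' ≠ 0)
    (hc : ∀ x : F, GC (α c * x) → GC x) (hc' : ∀ x : F, GC (α c' * x) → GC x) (m : ℕ)
    (h1 : nrm u = c * f ^ m) (h2 : nrm (w u) = c' * f' ^ m) :
    GC ((g (g u) / u) / (g (α f') / α f) ^ m) := by
  have hwu : w u ≠ 0 := (map_ne_zero w).mpr hu
  -- (K) for `u` and for `w u`
  have k1 := hK u hu
  have k2 := hK (w u) hwu
  rw [hww] at k2
  rw [h1, map_mul, map_pow, mul_div_assoc] at k1
  rw [h2, map_mul, map_pow, mul_div_assoc] at k2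
  have k1' := hc _ k1
  have k2' := hc' _ k2
  -- apply `g` to the second congruence
  have k3 := hg _ k2'
  rw [map_div₀, map_mul, map_pow] at k3
  -- divide
  have k4 := hdiv _ _ k1' k3
  rw [stb_a_div_identity hu ((map_ne_zero g).mpr hwu)
    ((map_ne_zero g).mpr ((map_ne_zero g).mpr hu)) ((map_ne_zero α).mpr hf)
    ((map_ne_zero g).mpr ((map_ne_zero α).mpr hf'))] at k4
  exact k4

/-- **(A) at `v_0 = v_∞ ∘ w`, abstract form.** -/
theorem stb_a_toric_zero_abstract (GC : F → Prop)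
    (hdiv : ∀ a b : F, GC a → GC b → GC (a / b))
    (α : F₁ →+* F) (g w : F →+* F) (hg : ∀ a : F, GC a → GC (g a)) (hww : ∀ x : F, w (w x) = x)
    (hwg : ∀ x : F, w (g x) = g (w x))
    (nrm : F → F₁) (hK : ∀ y : F, y ≠ 0 → GC (α (nrm y) / (y * g (w y))))
    {u : F} (hu : u ≠ 0) {f f' c c' : F₁} (hf : f ≠ 0) (hf' : f' ≠ 0)
    (hc : ∀ x : F, GC (α c * x) → GC x) (hc' : ∀ x : F, GC (α c' * x) → GC x) (m : ℕ)
    (h1 : nrm u = c * f ^ m) (h2 : nrm (w u) = c' * f' ^ m) :
    GC (w (g (g u) / u) / (g (α f) / α f') ^ m) := by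
  have hwu : w u ≠ 0 := (map_ne_zero w).mpr hu
  have h1' : nrm (w (w u)) = c * f ^ m := by rw [hww]; exact h1
  have key := stb_a_toric_abstract GC hdiv α g w hg hww nrm hK hwu hf' hf hc' hc m h2 h1'
  rw [map_div₀, hwg, hwg]
  exact key

/-- absorbing the constants into `t_∞`, `t_0` (abstract form); `ι` = the constants -/
theorem stb_a_exists_toric_abstract {K : Type*} [Field K] (ι : K →+* F) (GC R1 : F → Prop)
    (hpow : ∀ (x : F) (m : ℕ), m ≠ 0 → GC x → ∃ d : K, d ≠ 0 ∧ R1 (x / ι d ^ m))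
    (w : F →+* F) (hww : ∀ x : F, w (w x) = x) {y X Y : F} (hX : X ≠ 0) (hY : Y ≠ 0) (m : ℕ)
    (hm : m ≠ 0) (kinf : GC (y / X ^ m)) (k0 : GC (w y / Y ^ m)) :
    ∃ d d' : K, d ≠ 0 ∧ d' ≠ 0 ∧ ∃ t t' : F, t ≠ 0 ∧ t' ≠ 0 ∧ t = ι d * X ∧
      t' = w (ι d' * Y) ∧ R1 (y / t ^ m) ∧ R1 (w (y / t' ^ m)) := by
  obtain ⟨d, hd, hdinf⟩ := hpow _ m hm kinf
  obtain ⟨d', hd', hd0⟩ := hpow _ m hm k0
  refine ⟨d, d', hd, hd', _, _, mul_ne_zero ((map_ne_zero ι).mpr hd) hX,
    (map_ne_zero w).mpr (mul_ne_zero ((map_ne_zero ι).mpr hd') hY), rfl, rfl, ?_, ?_⟩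
  · have e : y / (ι d * X) ^ m = y / X ^ m / ι d ^ m := by
      rw [mul_pow, div_div, mul_comm (ι d ^ m)]
    rw [e]
    exact hdinf
  · have e : w (y / w (ι d' * Y) ^ m) = w y / Y ^ m / ι d' ^ m := by
      rw [map_div₀, map_pow, hww, mul_pow, div_div, mul_comm (ι d' ^ m)]
    rw [e]
    exact hd0

end Abstract

/-! ### (A): new ⇒ toric, for `F_{Mq}` -/

section Main

variable {q M : ℕ} [NeZero q] [NeZero M] [NeZero (M * q)] (hq : q.Prime) (hqM : ¬ q ∣ M)

/-- the Frobenius element as a ring endomorphism of `F_N` -/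
def stbAFrob (N : ℕ) (τ : Qb ≃ₐ[ℚ] Qb) :
    modularFunctionFieldBar N →+* modularFunctionFieldBar N :=
  (SemilinearAut.toRingAut (arithmeticGalois (modularFunctionFieldFull N) τ)).toRingHom

theorem stbAFrob_apply (N : ℕ) (τ : Qb ≃ₐ[ℚ] Qb) (x : modularFunctionFieldBar N) :
    stbAFrob N τ x = arithmeticGalois (modularFunctionFieldFull N) τ • x := rfl

/-- `w_q` as a ring endomorphism -/
def stbAW : modularFunctionFieldBar (M * q) →+* modularFunctionFieldBar (M * q) :=
  (Fermat.Agent.UNIP.atkinLehnerBar hq hqM).toAlgHom.toRingHom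

theorem stbAW_apply (x : modularFunctionFieldBar (M * q)) :
    stbAW hq hqM x = Fermat.Agent.UNIP.atkinLehnerBar hq hqM x := rfl

/-- removing a constant -/
theorem stb_a_gaussConst_of_const_mul {A : ValuationSubring Qb} {N : ℕ} [NeZero N] {c : Qb}
    (hc : c ≠ 0) (x : modularFunctionFieldBar N)
    (h : GaussConst A N (algebraMap Qb (modularFunctionFieldBar N) c * x)) : GaussConst A N x := by
  have e : x = algebraMap Qb (modularFunctionFieldBar N) c⁻¹ *
      (algebraMap Qb (modularFunctionFieldBar N) c * x) := by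
    rw [← mul_assoc, ← map_mul, inv_mul_cancel₀ hc, map_one, one_mul]
  rw [e]
  exact GaussConst.const_mul (inv_ne_zero hc) h

/-- **(A) at `v_∞`**: `Φ u / u ≡ const · (φ (α f') / α f) ^ m`. -/
theorem stb_a_toric_infty (A : ValuationSubring Qb) (τ : Qb ≃ₐ[ℚ] Qb)
    (hτ : A.IsFrobeniusAt τ q) (hK : StmtKronQAt hq hqM A τ)
    {u : modularFunctionFieldBar (M * q)} (hu : u ≠ 0)
    {f f' : modularFunctionFieldBar M} (hf : f ≠ 0) (hf' : f' ≠ 0) {c c' : Qb} (hc : c ≠ 0)
    (hc' : c' ≠ 0) (m : ℕ)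
    (h1 : stbNorm (heckeAlphaBar Qb M q).toRingHom u =
      algebraMap Qb (modularFunctionFieldBar M) c * f ^ m)
    (h2 : stbNorm (heckeAlphaBar Qb M q).toRingHom (Fermat.Agent.UNIP.atkinLehnerBar hq hqM u) =
      algebraMap Qb (modularFunctionFieldBar M) c' * f' ^ m) :
    GaussConst A (M * q)
      (((arithmeticGalois (modularFunctionFieldFull (M * q)) τ •
          arithmeticGalois (modularFunctionFieldFull (M * q)) τ • u) / u) /
        ((arithmeticGalois (modularFunctionFieldFull (M * q)) τ • heckeAlphaBar Qb M q f') /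
          heckeAlphaBar Qb M q f) ^ m) :=
  stb_a_toric_abstract (GaussConst A (M * q)) (fun _ _ ha hb => ha.div hb)
    (heckeAlphaBar Qb M q).toRingHom (stbAFrob (M * q) τ) (stbAW hq hqM)
    (fun _ ha => stb_a_gaussConst_smul hτ.mem_decompositionSubgroup ha)
    (fun x => Fermat.Agent.UNIP.atkinLehnerBar_invol hq hqM x)
    (stbNorm (heckeAlphaBar Qb M q).toRingHom) (fun y hy => hK y hy) hu hf hf'
    (fun x h => stb_a_gaussConst_of_const_mul hc x
      (((heckeAlphaBar Qb M q).commutes c) ▸ h))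
    (fun x h => stb_a_gaussConst_of_const_mul hc' x
      (((heckeAlphaBar Qb M q).commutes c') ▸ h)) m h1 h2

/-- **(A) at `v_0 = v_∞ ∘ w`**: `w (Φ u / u) ≡ const · (φ (α f) / α f') ^ m` at `v_∞`. -/
theorem stb_a_toric_zero (A : ValuationSubring Qb) (τ : Qb ≃ₐ[ℚ] Qb)
    (hτ : A.IsFrobeniusAt τ q) (hK : StmtKronQAt hq hqM A τ)
    {u : modularFunctionFieldBar (M * q)} (hu : u ≠ 0)
    {f f' : modularFunctionFieldBar M} (hf : f ≠ 0) (hf' : f' ≠ 0) {c c' : Qb} (hc : c ≠ 0)
    (hc' : c' ≠ 0) (m : ℕ)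
    (h1 : stbNorm (heckeAlphaBar Qb M q).toRingHom u =
      algebraMap Qb (modularFunctionFieldBar M) c * f ^ m)
    (h2 : stbNorm (heckeAlphaBar Qb M q).toRingHom (Fermat.Agent.UNIP.atkinLehnerBar hq hqM u) =
      algebraMap Qb (modularFunctionFieldBar M) c' * f' ^ m) :
    GaussConst A (M * q)
      (Fermat.Agent.UNIP.atkinLehnerBar hq hqM
          ((arithmeticGalois (modularFunctionFieldFull (M * q)) τ •
            arithmeticGalois (modularFunctionFieldFull (M * q)) τ • u) / u) /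
        ((arithmeticGalois (modularFunctionFieldFull (M * q)) τ • heckeAlphaBar Qb M q f) /
          heckeAlphaBar Qb M q f') ^ m) :=
  stb_a_toric_zero_abstract (GaussConst A (M * q)) (fun _ _ ha hb => ha.div hb)
    (heckeAlphaBar Qb M q).toRingHom (stbAFrob (M * q) τ) (stbAW hq hqM)
    (fun _ ha => stb_a_gaussConst_smul hτ.mem_decompositionSubgroup ha)
    (fun x => Fermat.Agent.UNIP.atkinLehnerBar_invol hq hqM x)
    (fun x => Fermat.Agent.UNIP.atkinLehnerBar_smul hq hqM τ x)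
    (stbNorm (heckeAlphaBar Qb M q).toRingHom) (fun y hy => hK y hy) hu hf hf'
    (fun x h => stb_a_gaussConst_of_const_mul hc x
      (((heckeAlphaBar Qb M q).commutes c) ▸ h))
    (fun x h => stb_a_gaussConst_of_const_mul hc' x
      (((heckeAlphaBar Qb M q).commutes c') ▸ h)) m h1 h2

/-- **(A)**, packaged: there are global functions `t_∞`, `t_0 ∈ F_N^×` trivialising
`y = Φ u / u` at the two Gauss valuations: `y / t_∞ ^ m ≡ 1` at `v_∞` and `y / t_0 ^ m ≡ 1` at
`v_0 = v_∞ ∘ w`;  `t_∞ = d · φ (α f') / α f`, `t_0 = w (d' · φ (α f) / α f')`. -/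
theorem stb_a_exists_toric (A : ValuationSubring Qb) (τ : Qb ≃ₐ[ℚ] Qb)
    (hτ : A.IsFrobeniusAt τ q) (hK : StmtKronQAt hq hqM A τ)
    {u : modularFunctionFieldBar (M * q)} (hu : u ≠ 0)
    {f f' : modularFunctionFieldBar M} (hf : f ≠ 0) (hf' : f' ≠ 0) {c c' : Qb} (hc : c ≠ 0)
    (hc' : c' ≠ 0) (m : ℕ) (hm : m ≠ 0)
    (h1 : stbNorm (heckeAlphaBar Qb M q).toRingHom u =
      algebraMap Qb (modularFunctionFieldBar M) c * f ^ m)
    (h2 : stbNorm (heckeAlphaBar Qb M q).toRingHom (Fermat.Agent.UNIP.atkinLehnerBar hq hqM u) =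
      algebraMap Qb (modularFunctionFieldBar M) c' * f' ^ m) :
    ∃ d d' : Qb, d ≠ 0 ∧ d' ≠ 0 ∧ ∃ t t' : modularFunctionFieldBar (M * q), t ≠ 0 ∧ t' ≠ 0 ∧
      t = algebraMap Qb (modularFunctionFieldBar (M * q)) d *
        ((arithmeticGalois (modularFunctionFieldFull (M * q)) τ •
          heckeAlphaBar Qb M q f') / heckeAlphaBar Qb M q f) ∧
      t' = Fermat.Agent.UNIP.atkinLehnerBar hq hqM
        (algebraMap Qb (modularFunctionFieldBar (M * q)) d' *
          ((arithmeticGalois (modularFunctionFieldFull (M * q)) τ • heckeAlphaBar Qb M q f) /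
            heckeAlphaBar Qb M q f')) ∧
      ReducesToOne A (M * q)
        (((arithmeticGalois (modularFunctionFieldFull (M * q)) τ •
          arithmeticGalois (modularFunctionFieldFull (M * q)) τ • u) / u) / t ^ m) ∧
      ReducesToOne A (M * q)
        (Fermat.Agent.UNIP.atkinLehnerBar hq hqM
          (((arithmeticGalois (modularFunctionFieldFull (M * q)) τ •
            arithmeticGalois (modularFunctionFieldFull (M * q)) τ • u) / u) / t' ^ m)) := by
  have hα : ∀ x : modularFunctionFieldBar M, x ≠ 0 → heckeAlphaBar Qb M q x ≠ 0 := fun x hx =>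
    (map_ne_zero_iff _ (heckeAlphaBar Qb M q).toRingHom.injective).mpr hx
  have hg : ∀ x : modularFunctionFieldBar (M * q), x ≠ 0 →
      stbAFrob (M * q) τ x ≠ 0 := fun x hx => (map_ne_zero (stbAFrob (M * q) τ)).mpr hx
  exact stb_a_exists_toric_abstract (algebraMap Qb (modularFunctionFieldBar (M * q)))
    (GaussConst A (M * q)) (ReducesToOne A (M * q))
    (fun x m hm hx => stb_a_exists_const_pow hx m hm)
    (stbAW hq hqM) (fun x => Fermat.Agent.UNIP.atkinLehnerBar_invol hq hqM x)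
    (div_ne_zero (hg _ (hα _ hf')) (hα _ hf)) (div_ne_zero (hg _ (hα _ hf)) (hα _ hf')) m hm
    (stb_a_toric_infty hq hqM A τ hτ hK hu hf hf' hc hc' m h1 h2)
    (stb_a_toric_zero hq hqM A τ hτ hK hu hf hf' hc hc' m h1 h2)

end Main

end Fermat.Agent.STB
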