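import Fermat.Agent.STB.Stmt
import Fermat.Agent.STB.NewToric

/-!
# STB (S35), piece (A), Kummer form: NEW ⇒ TORIC with the hypotheses of `StmtNewFrobKummerAt`

Bridges between the three ways the norm along `α`, `β : F_M → F_{Mq}` is written
(`stbNormAlpha`, `stbNormBeta` of `STB/Stmt.lean`; `stbNorm` of `STB/NormSquare.lean`), the
relation `w ∘ α = β`, and **(A)** with exactly the two norm hypotheses of `StmtNewFrobKummerAt`:
`stb_a_exists_toric_kummer`.
-/

set_option autoImplicit false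
set_option linter.style.haveILetI false

noncomputable section

namespace Fermat.Agent.STB

open ModularCurve AlgebraicCurve Fermat.Agent.ES Fermat.Agent.ES.G2 HahnSeries

variable {q M : ℕ} [NeZero q] [NeZero M] [NeZero (M * q)] (hq : q.Prime) (hqM : ¬ q ∣ M)

/-- `w ∘ α = β` -/
theorem stb_a_w_alpha (f : modularFunctionFieldBar M) :
    Fermat.Agent.UNIP.atkinLehnerBar hq hqM (heckeAlphaBar Qb M q f) = heckeBetaBar Qb M q f := by
  have hf' : (f : LaurentSeries Qb) ∈ modularFunctionFieldBar (M * q) := by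
    have h := (heckeAlphaBar Qb M q f).2
    rw [coe_heckeAlphaBar] at h
    exact h
  have e : heckeAlphaBar Qb M q f = ⟨(f : LaurentSeries Qb), hf'⟩ :=
    Subtype.ext (coe_heckeAlphaBar M q f)
  rw [e]
  apply Subtype.ext
  rw [coe_heckeBetaBar]
  exact Fermat.Agent.UNIP.atkinLehnerBar_of_mem_low hq hqM f.2 hf'

/-- `w ∘ β = α` -/
theorem stb_a_w_beta (f : modularFunctionFieldBar M) :
    Fermat.Agent.UNIP.atkinLehnerBar hq hqM (heckeBetaBar Qb M q f) = heckeAlphaBar Qb M q f := by
  rw [← stb_a_w_alpha hq hqM, Fermat.Agent.UNIP.atkinLehnerBar_invol]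

/-- `β = w ∘ α` as ring homomorphisms -/
theorem stb_a_beta_eq_comp :
    (heckeBetaBar Qb M q).toRingHom =
      ((Fermat.Agent.UNIP.atkinLehnerBar hq hqM).toRingEquiv :
        modularFunctionFieldBar (M * q) →+* modularFunctionFieldBar (M * q)).comp
        (heckeAlphaBar Qb M q).toRingHom := by
  ext f : 1
  exact (stb_a_w_alpha hq hqM f).symm

omit [NeZero (M * q)] in
/-- the norm along `α`, in the two notations -/
theorem stb_a_normAlpha_eq (u : modularFunctionFieldBar (M * q)) :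
    stbNormAlpha M q u = stbNorm (heckeAlphaBar Qb M q).toRingHom u := rfl

omit [NeZero (M * q)] [NeZero M] in
/-- the norm along `β`, in the two notations -/
theorem stb_a_normBeta_eq' (u : modularFunctionFieldBar (M * q)) :
    stbNormBeta M q u = stbNorm (heckeBetaBar Qb M q).toRingHom u := rfl

/-- `N_β u = N_α (w u)` -/
theorem stb_a_normBeta_eq (u : modularFunctionFieldBar (M * q)) :
    stbNormBeta M q u =
      stbNorm (heckeAlphaBar Qb M q).toRingHom (Fermat.Agent.UNIP.atkinLehnerBar hq hqM u) := by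
  rw [stb_a_normBeta_eq', stbNorm_congr (stb_a_beta_eq_comp hq hqM)]
  have h := stbNorm_equiv_comp (heckeAlphaBar Qb M q).toRingHom
    (Fermat.Agent.UNIP.atkinLehnerBar hq hqM).toRingEquiv
    (Fermat.Agent.UNIP.atkinLehnerBar hq hqM u)
  rw [← h]
  congr 1
  exact (Fermat.Agent.UNIP.atkinLehnerBar_invol hq hqM u).symm

omit [NeZero (M * q)] in
/-- `α` is finite (in the `StbFinite` form) -/
theorem stb_a_finite_alpha : StbFinite (heckeAlphaBar Qb M q).toRingHom :=
  Fermat.Agent.ES.H.finiteAlong_heckeAlphaBar M q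

omit [NeZero (M * q)] in
/-- a nonzero norm `c · f ^ m` has `c ≠ 0`, `f ≠ 0` -/
theorem stb_a_ne_zero_of_norm {u : modularFunctionFieldBar (M * q)} (hu : u ≠ 0) {c : Qb}
    {f : modularFunctionFieldBar M} {m : ℕ} (hm : m ≠ 0)
    (h : stbNorm (heckeAlphaBar Qb M q).toRingHom u =
      algebraMap Qb (modularFunctionFieldBar M) c * f ^ m) : c ≠ 0 ∧ f ≠ 0 := by
  have h0 := stbNorm_ne_zero _ (stb_a_finite_alpha (q := q) (M := M)) hu
  rw [h] at h0
  refine ⟨?_, ?_⟩
  · rintro rfl
    rw [map_zero, zero_mul] at h0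
    exact h0 rfl
  · rintro rfl
    rw [zero_pow hm, mul_zero] at h0
    exact h0 rfl

/-- **(A), Kummer form**: with exactly the two norm hypotheses of `StmtNewFrobKummerAt`, the
function `y = Φ u / u` (`Φ = φ²`) is trivialised by global functions `t`, `t'` at the two Gauss
valuations `v_∞` and `v_0 = v_∞ ∘ w`. -/
theorem stb_a_exists_toric_kummer (A : ValuationSubring Qb) (τ : Qb ≃ₐ[ℚ] Qb)
    (hτ : A.IsFrobeniusAt τ q) (hK : StmtKronQAt hq hqM A τ)
    {u : modularFunctionFieldBar (M * q)} (hu : u ≠ 0) (m : ℕ) (hm : m ≠ 0)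
    (h1 : ∃ (c : Qb) (f : modularFunctionFieldBar M),
      stbNormAlpha M q u = algebraMap Qb (modularFunctionFieldBar M) c * f ^ m)
    (h2 : ∃ (c : Qb) (f : modularFunctionFieldBar M),
      stbNormBeta M q u = algebraMap Qb (modularFunctionFieldBar M) c * f ^ m) :
    ∃ t t' : modularFunctionFieldBar (M * q), t ≠ 0 ∧ t' ≠ 0 ∧
      ReducesToOne A (M * q)
        (((arithmeticGalois (modularFunctionFieldFull (M * q)) τ •
          arithmeticGalois (modularFunctionFieldFull (M * q)) τ • u) / u) / t ^ m) ∧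
      ReducesToOne A (M * q)
        (Fermat.Agent.UNIP.atkinLehnerBar hq hqM
          (((arithmeticGalois (modularFunctionFieldFull (M * q)) τ •
            arithmeticGalois (modularFunctionFieldFull (M * q)) τ • u) / u) / t' ^ m)) := by
  obtain ⟨c, f, h1⟩ := h1
  obtain ⟨c', f', h2⟩ := h2
  rw [stb_a_normAlpha_eq] at h1
  rw [stb_a_normBeta_eq hq hqM] at h2
  obtain ⟨hc, hf⟩ := stb_a_ne_zero_of_norm hu hm h1
  have hwu : Fermat.Agent.UNIP.atkinLehnerBar hq hqM u ≠ 0 := (map_ne_zero _).mpr hu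
  obtain ⟨hc', hf'⟩ := stb_a_ne_zero_of_norm hwu hm h2
  obtain ⟨d, d', -, -, t, t', ht, ht', -, -, k1, k2⟩ :=
    stb_a_exists_toric hq hqM A τ hτ hK hu hf hf' hc hc' m hm h1 h2
  exact ⟨t, t', ht, ht', k1, k2⟩

end Fermat.Agent.STB
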