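/-
S35 phase 2 (plan "STB"), piece STB-MG-7 "prime powers suffice" (helper18); twin of
`UNIP/MGPrimePow.lean`.

* `StmtNewFrobKummerAtPP M₁ q` : `StmtNewFrobKummerAt M₁ q` (`STB/Stmt.lean`) for exponents
  `m = p ^ r`, `p ≠ q` prime.
* `stmtNewFrobKummerAt_of_pp : StmtNewFrobKummerAtPP M₁ q → StmtNewFrobKummerAt M₁ q`.
* `stmtNewFrobKummer_of_pp_aux` : with STB-D (`STB/Descent.lean`): `StmtNewFrobKummer` follows from
  `StmtNewFrobKummerAtPP M₁ q` at the levels with `(q = 2 → 3 ∣ M₁)`, `(q = 3 → 2 ∣ M₁)`.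
-/
import Fermat.Agent.STB.Descent
import Fermat.Agent.UNIP.MGPrimePow

set_option autoImplicit false

noncomputable section

namespace Fermat.Agent.STB

open ModularCurve AlgebraicCurve Fermat.Agent.ES Fermat.Agent.ES.G2 Fermat.Agent.UNIP

/-- (P7-a) in Kummer form at level `M₁ q`, for prime power exponents `m = p ^ r`, `p ≠ q`. -/
def StmtNewFrobKummerAtPP (M₁ q : ℕ) [NeZero M₁] [NeZero q] : Prop :=
  ∀ A : ValuationSubring Qb, A.LiesOverPrime q →
    ∀ p : ℕ, p.Prime → p ≠ q → ∀ r : ℕ,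
      ∀ σ : Qb ≃ₐ[ℚ] Qb, A.IsFrobeniusAt σ q →
        ∀ u : modularFunctionFieldBar (M₁ * q), u ≠ 0 →
          (∀ P : Place Qb (modularFunctionFieldBar (M₁ * q)), ((p ^ r : ℕ) : ℤ) ∣ P.ord u) →
          (∃ (c : Qb) (f : modularFunctionFieldBar M₁),
            stbNormAlpha M₁ q u = algebraMap Qb (modularFunctionFieldBar M₁) c * f ^ (p ^ r)) →
          (∃ (c : Qb) (f : modularFunctionFieldBar M₁),
            stbNormBeta M₁ q u = algebraMap Qb (modularFunctionFieldBar M₁) c * f ^ (p ^ r)) →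
            ∃ h : modularFunctionFieldBar (M₁ * q),
              h ^ (p ^ r) = stbFrobExpr
                (fun y => arithmeticGalois (modularFunctionFieldFull (M₁ * q)) σ • y)
                (q ^ 2) u

/-- `c · f ^ m` is `c · (f ^ k) ^ d` when `m = d k`. -/
theorem stb_pp_norm_hyp {F : Type*} [Field F] {x : F} {m d : ℕ} (hd : d ∣ m)
    {K : Type*} [Field K] [Algebra K F]
    (h : ∃ (c : K) (f : F), x = algebraMap K F c * f ^ m) :
    ∃ (c : K) (f : F), x = algebraMap K F c * f ^ d := by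
  obtain ⟨c, f, hf⟩ := h
  obtain ⟨k, rfl⟩ := hd
  exact ⟨c, f ^ k, by rw [hf, ← pow_mul, Nat.mul_comm k d]⟩

/-- **STB-MG-7**: prime power exponents suffice. -/
theorem stmtNewFrobKummerAt_of_pp (M₁ q : ℕ) [NeZero M₁] [NeZero q] (hq : q.Prime)
    (h : StmtNewFrobKummerAtPP M₁ q) : StmtNewFrobKummerAt M₁ q := by
  intro A hA m hm σ hσ u hu hdiv hα hβ
  have hm0 : m ≠ 0 := by
    rintro rfl
    exact hm (dvd_zero q)
  refine mg_pow_of_prime_powers _ m (fun p r hp hd => ?_) hm0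
  by_cases hr : r = 0
  · subst hr
    exact ⟨_, pow_one _⟩
  have hpq : p ≠ q := by
    rintro rfl
    exact hm (dvd_trans (dvd_pow_self p hr) hd)
  refine h A hA p hp hpq r σ hσ u hu (fun P => ?_) (stb_pp_norm_hyp hd hα)
    (stb_pp_norm_hyp hd hβ)
  have h1 : ((p ^ r : ℕ) : ℤ) ∣ (m : ℤ) := by exact_mod_cast hd
  exact dvd_trans h1 (hdiv P)

/-- STB-D + STB-MG-7: `StmtNewFrobKummer` from the prime power statement at the levels where the
base line of the KEY route exists. -/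
theorem stmtNewFrobKummer_of_pp_aux
    (h : ∀ (M₁ q : ℕ) [NeZero M₁] [NeZero q], q.Prime → ¬ q ∣ M₁ →
      (q = 2 → 3 ∣ M₁) → (q = 3 → 2 ∣ M₁) → StmtNewFrobKummerAtPP M₁ q) :
    StmtNewFrobKummer :=
  stmtNewFrobKummer_of_aux fun M₁ q _ _ hq hqM h2 h3 =>
    stmtNewFrobKummerAt_of_pp M₁ q hq (h M₁ q hq hqM h2 h3)

end Fermat.Agent.STB
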