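import Fermat.Agent.UNIP.MGFinal
import Fermat.Agent.STB.AbstractT2
import Fermat.Agent.STB.PrimePow
import Fermat.Agent.STB.NewToricKummer
import Fermat.Agent.UNIP.Beta0Frob

/-!
# STB-MG (S35 phase 2): `stb_main_points` in the concrete setting, and the final reduction

Twin of `UNIP/MGMain.lean` + `UNIP/MGFinal.lean`.  Setting of `UNIP/MGConcrete.lean` at the level
`N = M₁ * q`: `E′ = mgcE A K₁`, `A′ = mgcA A K₁`, `F′ = mgcF A K₁ (M₁ * q)`, `j = mgcT …`;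
`φ` a Frobenius element at `A`, `g = mgAct E′ N φ hφ`, `Φ = g ∘ g`.

* `stbcPhi N φ hφ : F′ →+* F′` — `Φ`.
* `stb_frobExpr_eq` : `Φ y / y ^ Q = stbFrobExpr g Q u` for `y = Φ u / u`.
* `stbc_main` : `stb_main_points` in the concrete setting (base hypotheses discharged).
* `StbData A K₁ hq hqM φ hφ` : the special-fibre inputs.
* `stmtNewFrobKummerAtPP_of_data` : `StmtKronQ` + `StbData` everywhere ⇒ `StmtNewFrobKummerAtPP`.
-/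

set_option autoImplicit false
set_option linter.style.haveILetI false
set_option linter.unusedSectionVars false
set_option linter.unusedVariables false

noncomputable section

namespace Fermat.Agent.STB

open ModularCurve AlgebraicCurve Fermat.Agent.ES Fermat.Agent.ES.G2 Fermat.Agent.INJ
open Fermat.Agent.UNIP IntermediateField

/-- `Φ y / y ^ Q = g⁴ u · u ^ Q / (g² u) ^ (Q + 1)` for `y = g² u / u`. -/
theorem stb_frobExpr_eq {F : Type*} [Field F] (g : F →+* F) (Q : ℕ) {u : F} (hu : u ≠ 0) :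
    (g.comp g) ((g.comp g) u / u) / ((g.comp g) u / u) ^ Q = stbFrobExpr g Q u := by
  have h2 : g (g u) ≠ 0 := (map_ne_zero g).mpr ((map_ne_zero g).mpr hu)
  unfold stbFrobExpr
  simp only [RingHom.comp_apply, map_div₀]
  rw [div_pow, pow_succ]
  field_simp

section Main

variable {A : ValuationSubring Qb} {K₁ : IntermediateField ℚ Qb} (N : ℕ) [NeZero N]
  [IsDiscreteValuationRing ↥(mgcA A K₁)]

/-- `Φ = φ²` on `F′` -/
def stbcPhi (φ : Qb ≃ₐ[ℚ] Qb) (hφ : ∀ x ∈ mgcE A K₁, φ x ∈ mgcE A K₁) :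
    ↥(mgcF A K₁ N) →+* ↥(mgcF A K₁ N) :=
  (mgAct (mgcE A K₁) N φ hφ).comp (mgAct (mgcE A K₁) N φ hφ)

theorem nfEmb_stbcPhi (φ : Qb ≃ₐ[ℚ] Qb) (hφ : ∀ x ∈ mgcE A K₁, φ x ∈ mgcE A K₁)
    (x : ↥(mgcF A K₁ N)) :
    nfEmb (mgcE A K₁) N (stbcPhi N φ hφ x)
      = arithmeticGalois (modularFunctionFieldFull N) φ •
          arithmeticGalois (modularFunctionFieldFull N) φ • nfEmb (mgcE A K₁) N x := by
  unfold stbcPhi
  rw [RingHom.comp_apply, nfEmb_mgAct, nfEmb_mgAct]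

variable {N}

/-- **`stb_main_points` in the concrete setting.** -/
theorem stbc_main {q : ℕ} (hq : q.Prime) (hA : A.LiesOverPrime q)
    {π : ↥(mgcA A K₁)} (hπ : Irreducible π)
    {p : ℕ} (hp : p.Prime) (hpq : p ≠ q)
    {κ : Type*} [Finite κ] (V : κ → ValuationSubring ↥(mgcF A K₁ N)) (c₁ c₂ : κ)
    (hκ : ∀ c, c = c₁ ∨ c = c₂) (hne : V c₁ ≠ V c₂)
    (hBV₁ : ∀ c (b : ↥(mgcF A K₁ N)),
      IsIntegral ↥(Algebra.adjoin ↥(mgcA A K₁) {mgcT A K₁ N}) b → b ∈ V c)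
    (hBV₂ : ∀ c (b : ↥(mgcF A K₁ N)),
      IsIntegral ↥(Algebra.adjoin ↥(mgcA A K₁) {(mgcT A K₁ N)⁻¹}) b → b ∈ V c)
    (hπV : ∀ c, algebraMap ↥(mgcA A K₁) ↥(mgcF A K₁ N) π ∈ (V c).nonunits)
    (hSS1 : ∀ b : ↥(mgcF A K₁ N),
      IsIntegral ↥(Algebra.adjoin ↥(mgcA A K₁) {mgcT A K₁ N}) b →
      (∀ c, b ∈ (V c).nonunits) →
      ∃ b' : ↥(mgcF A K₁ N), IsIntegral ↥(Algebra.adjoin ↥(mgcA A K₁) {mgcT A K₁ N}) b' ∧
        b = algebraMap ↥(mgcA A K₁) ↥(mgcF A K₁ N) π * b')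
    (harch : ∀ c (a x : ↥(mgcF A K₁ N)), a ∈ (V c).nonunits →
      ∃ n : ℕ, a ^ n * x ∈ (V c).nonunits)
    (Φ : ↥(mgcF A K₁ N) →+* ↥(mgcF A K₁ N))
    (hΦV : ∀ c, ∀ x ∈ (V c).nonunits, Φ x ∈ (V c).nonunits) (Q r : ℕ)
    {y : ↥(mgcF A K₁ N)} (tt : κ → ↥(mgcF A K₁ N))
    (htoric : ∀ c, y / tt c ^ (p ^ r) - 1 ∈ (V c).nonunits)
    (hpts : ∀ i : AtPt (F := ↥(mgcF A K₁ N)) π (mgcT A K₁ N) ⊕
        AtPt (F := ↥(mgcF A K₁ N)) π (mgcT A K₁ N)⁻¹,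
      (atInc π (mgcT A K₁ N) V i c₁ ∧ atInc π (mgcT A K₁ N) V i c₂ ∧
        StbCross (atO π (mgcT A K₁ N) i) (V c₁) (V c₂) Φ Q (p ^ r) y) ∨
      (∃ c, atInc π (mgcT A K₁ N) V i c ∧ (∀ c', atInc π (mgcT A K₁ N) V i c' → c' = c) ∧
        ∃ i₁ : AtPt (F := ↥(mgcF A K₁ N)) π (mgcT A K₁ N) ⊕
            AtPt (F := ↥(mgcF A K₁ N)) π (mgcT A K₁ N)⁻¹,
          atInc π (mgcT A K₁ N) V i₁ c ∧
          StbSmooth (atO π (mgcT A K₁ N) i) (atO π (mgcT A K₁ N) i₁) (V c) Φ (p ^ r) y)) :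
    ∃ h : ↥(mgcF A K₁ N), h ^ (p ^ r) = Φ y / y ^ Q := by
  haveI := mgc_finiteDimensional A K₁ N
  have hM : ((p : ℕ) : Qb) ∉ A.nonunits := by
    have := Fermat.Agent.S31.natCast_pow_not_mem_nonunits A hp hq (Ne.symm hpq) hA 1
    rwa [pow_one] at this
  have hE : beta0Field A ≤ mgcE A K₁ := le_sup_left
  obtain ⟨ζ, hζ⟩ := beta0Ring_exists_primitiveRoot (A := A) (K₀ := mgcE A K₁) hE hp.ne_zero hM
  have hpu : IsUnit ((p : ℕ) : ↥(mgcA A K₁)) := beta0Ring_hpu hM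
  have hunit := beta0Ring_hunit (A := A) (K₀ := mgcE A K₁) hq hA hE hp.ne_zero hM
  exact stb_main_points hπ (mgc_transcendental A K₁ N) (mgc_hcl A K₁ N) hp hpu hζ hunit V c₁ c₂
    hκ hne hBV₁ hBV₂ hπV hSS1 harch Φ hΦV Q r tt htoric hpts

end Main

section Data

variable (A : ValuationSubring Qb) (K₁ : IntermediateField ℚ Qb) {M₁ q : ℕ} [NeZero M₁] [NeZero q]
  (hq : q.Prime) (hqM : ¬ q ∣ M₁) [IsDiscreteValuationRing ↥(mgcA A K₁)]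

/-- the special-fibre inputs of `stbc_main` at `(A, K₁, φ)`, level `M₁ * q`:
a uniformizer `π` of `A′`, the two vertical valuation rings `V true` (at `∞`), `V false`
(at `0`) of `F′` with
* the hypotheses of `stb_main_points` on `V` (MG-8) and `hΦV`,
* the toric transfer from `ReducesToOne` over `ℚ̄` (STB-MG-t),
* the per-point hypotheses `hpts` for `y = Φ u₀ / u₀`, for every `u₀` with `m ∣ div u₀` and
  rational support, and every toric datum `tt`. -/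
def StbData (φ : Qb ≃ₐ[ℚ] Qb) (hφ : ∀ x ∈ mgcE A K₁, φ x ∈ mgcE A K₁) : Prop :=
  ∃ (π : ↥(mgcA A K₁)) (V : Bool → ValuationSubring ↥(mgcF A K₁ (M₁ * q))),
    Irreducible π ∧ V true ≠ V false ∧
    (∀ c (b : ↥(mgcF A K₁ (M₁ * q))),
      IsIntegral ↥(Algebra.adjoin ↥(mgcA A K₁) {mgcT A K₁ (M₁ * q)}) b → b ∈ V c) ∧
    (∀ c (b : ↥(mgcF A K₁ (M₁ * q))),
      IsIntegral ↥(Algebra.adjoin ↥(mgcA A K₁) {(mgcT A K₁ (M₁ * q))⁻¹}) b → b ∈ V c) ∧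
    (∀ c, algebraMap ↥(mgcA A K₁) ↥(mgcF A K₁ (M₁ * q)) π ∈ (V c).nonunits) ∧
    (∀ b : ↥(mgcF A K₁ (M₁ * q)),
      IsIntegral ↥(Algebra.adjoin ↥(mgcA A K₁) {mgcT A K₁ (M₁ * q)}) b →
      (∀ c, b ∈ (V c).nonunits) →
      ∃ b' : ↥(mgcF A K₁ (M₁ * q)),
        IsIntegral ↥(Algebra.adjoin ↥(mgcA A K₁) {mgcT A K₁ (M₁ * q)}) b' ∧
        b = algebraMap ↥(mgcA A K₁) ↥(mgcF A K₁ (M₁ * q)) π * b') ∧
    (∀ c (a x : ↥(mgcF A K₁ (M₁ * q))), a ∈ (V c).nonunits →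
      ∃ n : ℕ, a ^ n * x ∈ (V c).nonunits) ∧
    (∀ c, ∀ x ∈ (V c).nonunits, stbcPhi (M₁ * q) φ hφ x ∈ (V c).nonunits) ∧
    (∀ x₀ : ↥(mgcF A K₁ (M₁ * q)),
      ReducesToOne A (M₁ * q) (nfEmb (mgcE A K₁) (M₁ * q) x₀) → x₀ - 1 ∈ (V true).nonunits) ∧
    (∀ x₀ : ↥(mgcF A K₁ (M₁ * q)),
      ReducesToOne A (M₁ * q)
        (Fermat.Agent.UNIP.atkinLehnerBar hq hqM (nfEmb (mgcE A K₁) (M₁ * q) x₀)) →
      x₀ - 1 ∈ (V false).nonunits) ∧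
    ∀ m : ℕ, ¬ q ∣ m → ∀ u₀ : ↥(mgcF A K₁ (M₁ * q)), u₀ ≠ 0 →
      (∀ P : Place NfQb (modularFunctionFieldBar (M₁ * q)),
        (m : ℤ) ∣ P.ord (nfEmb (mgcE A K₁) (M₁ * q) u₀)) →
      MgcRat A K₁ (M₁ * q) u₀ →
      ∀ tt : Bool → ↥(mgcF A K₁ (M₁ * q)),
      (∀ c, (stbcPhi (M₁ * q) φ hφ u₀ / u₀) / tt c ^ m - 1 ∈ (V c).nonunits) →
      ∀ i : AtPt (F := ↥(mgcF A K₁ (M₁ * q))) π (mgcT A K₁ (M₁ * q)) ⊕
          AtPt (F := ↥(mgcF A K₁ (M₁ * q))) π (mgcT A K₁ (M₁ * q))⁻¹,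
        (atInc π (mgcT A K₁ (M₁ * q)) V i true ∧ atInc π (mgcT A K₁ (M₁ * q)) V i false ∧
          StbCross (atO π (mgcT A K₁ (M₁ * q)) i) (V true) (V false)
            (stbcPhi (M₁ * q) φ hφ) (q ^ 2) m (stbcPhi (M₁ * q) φ hφ u₀ / u₀)) ∨
        (∃ c, atInc π (mgcT A K₁ (M₁ * q)) V i c ∧
          (∀ c', atInc π (mgcT A K₁ (M₁ * q)) V i c' → c' = c) ∧
          ∃ i₁ : AtPt (F := ↥(mgcF A K₁ (M₁ * q))) π (mgcT A K₁ (M₁ * q)) ⊕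
              AtPt (F := ↥(mgcF A K₁ (M₁ * q))) π (mgcT A K₁ (M₁ * q))⁻¹,
            atInc π (mgcT A K₁ (M₁ * q)) V i₁ c ∧
            StbSmooth (atO π (mgcT A K₁ (M₁ * q)) i) (atO π (mgcT A K₁ (M₁ * q)) i₁) (V c)
              (stbcPhi (M₁ * q) φ hφ) m (stbcPhi (M₁ * q) φ hφ u₀ / u₀))

end Data

/-- three elements of `F_N(ℚ̄)` descend to `F_N(K₂)` for every `K₂` containing a suitable number
field -/
theorem stb_exists_descent₃ (N : ℕ) (x y z : modularFunctionFieldBar N) :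
    ∃ K₁ : IntermediateField ℚ Qb, FiniteDimensional ℚ K₁ ∧
      ∀ K₂ : IntermediateField ℚ Qb, K₁ ≤ K₂ →
        ∃ x₂ y₂ z₂ : modularFunctionFieldFullC K₂ N,
          nfEmb K₂ N x₂ = x ∧ nfEmb K₂ N y₂ = y ∧ nfEmb K₂ N z₂ = z := by
  classical
  obtain ⟨K₁, hfin, -, hK⟩ := nf_exists_descent_finset (N := N) ∅
    {(x : LaurentSeries Qb), (y : LaurentSeries Qb), (z : LaurentSeries Qb)}
    (fun w hw => by
      simp only [Finset.mem_insert, Finset.mem_singleton] at hw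
      rcases hw with rfl | rfl | rfl
      · exact x.2
      · exact y.2
      · exact z.2)
  refine ⟨K₁, hfin, fun K₂ h12 => ?_⟩
  obtain ⟨x₂, hx₂, hx⟩ := hK K₂ h12 x (by simp)
  obtain ⟨y₂, hy₂, hy⟩ := hK K₂ h12 y (by simp)
  obtain ⟨z₂, hz₂, hz⟩ := hK K₂ h12 z (by simp)
  exact ⟨⟨x₂, hx₂⟩, ⟨y₂, hy₂⟩, ⟨z₂, hz₂⟩, Subtype.ext hx, Subtype.ext hy, Subtype.ext hz⟩

set_option maxHeartbeats 1600000 in
/-- **STB-MG, final reduction.**  `StmtNewFrobKummerAtPP M₁ q` from Kronecker at `q` (STB-K) and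
the special-fibre data at every `(A, K₁, φ)`. -/
theorem stmtNewFrobKummerAtPP_of_data (M₁ q : ℕ) [NeZero M₁] [NeZero q] (hq : q.Prime)
    (hqM : ¬ q ∣ M₁) (hK : StmtKronQ hq hqM)
    (h : ∀ (A : ValuationSubring Qb) (hA : A.LiesOverPrime q) (K₁ : IntermediateField ℚ Qb)
      [NumberField K₁] [IsGalois ℚ K₁] [IsDiscreteValuationRing ↥(mgcA A K₁)]
      (φ : Qb ≃ₐ[ℚ] Qb) (_ : A.IsFrobeniusAt φ q)
      (hφ : ∀ x ∈ mgcE A K₁, φ x ∈ mgcE A K₁), StbData A K₁ hq hqM φ hφ) :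
    StmtNewFrobKummerAtPP M₁ q := by
  intro A hA p hp hpq r φ hφF u hu hdiv hα hβ
  have hm0 : p ^ r ≠ 0 := pow_ne_zero r hp.ne_zero
  have hqm : ¬ q ∣ p ^ r := fun hd =>
    hpq ((Nat.prime_dvd_prime_iff_eq hq hp).mp (hq.dvd_of_dvd_pow hd)).symm
  -- (A): toric data over `ℚ̄`
  obtain ⟨t, t', ht, ht', hR, hR'⟩ :=
    stb_a_exists_toric_kummer hq hqM A φ hφF (hK A hA φ hφF) hu (p ^ r) hm0 hα hβ
  -- a number field of definition of `u`, `t`, `t'`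
  obtain ⟨K', hK'fin, hK'⟩ := stb_exists_descent₃ (M₁ * q) u t t'
  -- rationality of the support (D8)
  obtain ⟨K₁, hK'K₁, hK₁fin, hK₁gal, hrat⟩ :=
    rat_exists_field_rational (M₁ * q) u hu K' hK'fin
  haveI : NumberField K₁ := @NumberField.mk _ _ inferInstance hK₁fin
  haveI : IsGalois ℚ K₁ := hK₁gal
  haveI : Normal ℚ K₁ := hK₁gal.to_normal
  haveI : IsDiscreteValuationRing ↥(mgcA A K₁) := beta0Ring_isDVR_sup K₁ hq hA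
  have hK₁E : K₁ ≤ mgcE A K₁ := le_sup_right
  obtain ⟨u₀, t₀, t₀', hu₀, ht₀, ht₀'⟩ := hK' (mgcE A K₁) (hK'K₁.trans hK₁E)
  have hφ : ∀ x ∈ mgcE A K₁, φ x ∈ mgcE A K₁ := fun x hx =>
    beta0_sup_decomp_apply_mem K₁ hφF.mem_decompositionSubgroup hx
  have hu₀0 : u₀ ≠ 0 := by
    rintro rfl
    apply hu
    rw [← hu₀, map_zero]
  obtain ⟨π, V, hπ, hne, hBV₁, hBV₂, hπV, hSS1, harch, hΦV, htr, htr', hpts⟩ :=
    h A hA K₁ φ hφF hφ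
  have hR₀ : MgcRat A K₁ (M₁ * q) u₀ := fun Q s σ' hs hQ f hf =>
    hrat (mgcE A K₁) hK₁E u₀ hu₀ Q s σ' hs hQ f hf
  set y₀ : ↥(mgcF A K₁ (M₁ * q)) := stbcPhi (M₁ * q) φ hφ u₀ / u₀ with hy₀
  have hy₀e : nfEmb (mgcE A K₁) (M₁ * q) y₀
      = (arithmeticGalois (modularFunctionFieldFull (M₁ * q)) φ •
          arithmeticGalois (modularFunctionFieldFull (M₁ * q)) φ • u) / u := by
    rw [hy₀, map_div₀, nfEmb_stbcPhi, hu₀]
  let tt : Bool → ↥(mgcF A K₁ (M₁ * q)) := fun c => if c then t₀ else t₀'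
  have htoric : ∀ c, y₀ / tt c ^ (p ^ r) - 1 ∈ (V c).nonunits := by
    intro c
    cases c
    · apply htr'
      show ReducesToOne A (M₁ * q) (Fermat.Agent.UNIP.atkinLehnerBar hq hqM
        (nfEmb (mgcE A K₁) (M₁ * q) (y₀ / t₀' ^ (p ^ r))))
      rw [map_div₀, map_pow, hy₀e, ht₀']
      exact hR'
    · apply htr
      show ReducesToOne A (M₁ * q) (nfEmb (mgcE A K₁) (M₁ * q) (y₀ / t₀ ^ (p ^ r)))
      rw [map_div₀, map_pow, hy₀e, ht₀]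
      exact hR
  have hdiv₀ : ∀ P : Place NfQb (modularFunctionFieldBar (M₁ * q)),
      ((p ^ r : ℕ) : ℤ) ∣ P.ord (nfEmb (mgcE A K₁) (M₁ * q) u₀) := by
    rw [hu₀]
    exact hdiv
  obtain ⟨h₀, hh₀⟩ := stbc_main hq hA hπ hp hpq V true false
    (fun c => by cases c <;> simp) hne hBV₁ hBV₂ hπV hSS1 harch (stbcPhi (M₁ * q) φ hφ) hΦV
    (q ^ 2) r tt htoric (hpts (p ^ r) hqm u₀ hu₀0 hdiv₀ hR₀ tt htoric)
  refine ⟨nfEmb (mgcE A K₁) (M₁ * q) h₀, ?_⟩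
  rw [← map_pow, hh₀]
  have e1 : stbcPhi (M₁ * q) φ hφ y₀ / y₀ ^ (q ^ 2)
      = stbFrobExpr (mgAct (mgcE A K₁) (M₁ * q) φ hφ) (q ^ 2) u₀ :=
    stb_frobExpr_eq (mgAct (mgcE A K₁) (M₁ * q) φ hφ) (q ^ 2) hu₀0
  rw [e1]
  unfold stbFrobExpr
  simp only [map_div₀, map_mul, map_pow, nfEmb_mgAct, hu₀]

end Fermat.Agent.STB
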