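import Mathlib

/-!
# STB-X (`FrobFix`), abstract part: the square of a Frobenius lift fixes every crossing point

S35 phase 2 (plan `NOTES/S35-plan.md`, step (B1)).  Pure commutative algebra (Mathlib only).

Setting (that of `UNIP/NodesChartHom.lean`): `B` the chart of level `N = M₁ q`, `φ : C →+* B` the
chart of level `M₁`, `ρ, ρ₀ : B →+* K` the two reductions (`ker ρ = 𝔭_∞`, `ker ρ₀ = 𝔭_0`),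
`w : B ≃+* B` the Atkin–Lehner involution (`ρ₀ = ρ ∘ w`), `Ψ : B ≃+* B` the coefficientwise action
of a Frobenius lift.  `StbFrobData φ ρ ρ₀ w Ψ q` collects

* `hw   : ρ₀ b = ρ (w b)`, `hww : w (w b) = b`, `hΨw : Ψ (w b) = w (Ψ b)`;
* `hΨρ  : ρ (Ψ.symm b) = 0 ↔ ρ b = 0`          (`ρ ∘ Ψ⁻¹ = θ ∘ ρ`, `θ` injective);
* `hsurj : ∀ b, ∃ c, ρ (φ c) = ρ b`             (`ρ(B) = ρ(C)`, `NodesRankData.exists_eq`);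
* `hfrob : ρ₀ (φ c) = ρ (Ψ.symm (φ c)) ^ q`     (Frobenius congruence (G3) with `c′ = Ψ⁻¹ c`).

A *crossing point* is a prime `𝔫` of `B` containing `ker ρ` and `ker ρ₀`.

Main results (`h : StbFrobData …`, `𝔫` a crossing point, `q ≠ 0`):
* `StbFrobData.mem_iff_swap`    : `y ∈ 𝔫 ↔ w (Ψ.symm y) ∈ 𝔫`        (`𝔫 = Ψ w 𝔫`);
* `StbFrobData.swap_mem_iff`    : `w y ∈ 𝔫 ↔ Ψ.symm y ∈ 𝔫`          (`w 𝔫 = Ψ⁻¹ 𝔫`);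
* `StbFrobData.frobSq_mem_iff`  : `Ψ (Ψ y) ∈ 𝔫 ↔ y ∈ 𝔫`             (**`Φ 𝔫 = 𝔫`**, `Φ = Ψ²`);
* `StbFrobData.comap_frobSq`, `StbFrobData.map_frobSq` : the same as equalities of ideals;
* `StbFrobData.ker_frob_iff`, `StbFrobData.ker₀_frob_iff` : `Ψ` preserves `𝔭_∞` and `𝔭_0`;
* `StbFrobData.swap_cross` : `w 𝔫` is again a crossing point;
* `stb_frobSq_sub_pow_mem` : **`Φ̄ = (·)^{q²}` on `B ⧸ 𝔫`** when the point is rational over the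
  constants and `Ψ a ≡ a ^ q` on the constants.
-/

set_option autoImplicit false
set_option linter.style.haveILetI false

namespace Fermat.Agent.STB

section Abstract

variable {B C K : Type*} [CommRing B] [CommRing C] [Field K]

/-- The hypotheses on a Frobenius lift `Ψ` acting on a chart `B` of level `M₁ q`. -/
structure StbFrobData (φ : C →+* B) (ρ ρ₀ : B →+* K) (w Ψ : B ≃+* B) (q : ℕ) : Prop where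
  hw : ∀ b : B, ρ₀ b = ρ (w b)
  hww : ∀ b : B, w (w b) = b
  hΨw : ∀ b : B, Ψ (w b) = w (Ψ b)
  hΨρ : ∀ b : B, ρ (Ψ.symm b) = 0 ↔ ρ b = 0
  hsurj : ∀ b : B, ∃ c : C, ρ (φ c) = ρ b
  hfrob : ∀ c : C, ρ₀ (φ c) = ρ (Ψ.symm (φ c)) ^ q

namespace StbFrobData

variable {φ : C →+* B} {ρ ρ₀ : B →+* K} {w Ψ : B ≃+* B} {q : ℕ}

theorem hw' (h : StbFrobData φ ρ ρ₀ w Ψ q) (b : B) : ρ₀ (w b) = ρ b := by
  rw [h.hw, h.hww]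

theorem symm_swap (h : StbFrobData φ ρ ρ₀ w Ψ q) (b : B) : Ψ.symm (w b) = w (Ψ.symm b) := by
  apply Ψ.injective
  rw [RingEquiv.apply_symm_apply, h.hΨw, RingEquiv.apply_symm_apply]

/-- `Ψ` preserves `𝔭_∞ = ker ρ`. -/
theorem ker_frob_iff (h : StbFrobData φ ρ ρ₀ w Ψ q) (b : B) : ρ (Ψ b) = 0 ↔ ρ b = 0 := by
  have := h.hΨρ (Ψ b)
  rw [RingEquiv.symm_apply_apply] at this
  exact this.symm

/-- `Ψ⁻¹` preserves `𝔭_0 = ker ρ₀`. -/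
theorem ker₀_symm_iff (h : StbFrobData φ ρ ρ₀ w Ψ q) (b : B) :
    ρ₀ (Ψ.symm b) = 0 ↔ ρ₀ b = 0 := by
  rw [h.hw, h.hw, ← h.symm_swap, h.hΨρ]

/-- `Ψ` preserves `𝔭_0 = ker ρ₀`. -/
theorem ker₀_frob_iff (h : StbFrobData φ ρ ρ₀ w Ψ q) (b : B) : ρ₀ (Ψ b) = 0 ↔ ρ₀ b = 0 := by
  have := h.ker₀_symm_iff (Ψ b)
  rw [RingEquiv.symm_apply_apply] at this
  exact this.symm

/-- The image `w 𝔫` of a crossing point is a crossing point. -/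
theorem swap_cross (h : StbFrobData φ ρ ρ₀ w Ψ q) (𝔫 : Ideal B)
    (hinf : ∀ x : B, ρ x = 0 → x ∈ 𝔫) (h0 : ∀ x : B, ρ₀ x = 0 → x ∈ 𝔫) :
    (∀ x : B, ρ x = 0 → x ∈ 𝔫.comap (w : B →+* B)) ∧
      (∀ x : B, ρ₀ x = 0 → x ∈ 𝔫.comap (w : B →+* B)) := by
  refine ⟨fun x hx => ?_, fun x hx => ?_⟩
  · rw [Ideal.mem_comap]
    exact h0 _ (by rw [RingEquiv.coe_toRingHom, h.hw', hx])
  · rw [Ideal.mem_comap]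
    exact hinf _ (by rw [RingEquiv.coe_toRingHom, ← h.hw, hx])

/-- Only `ker ρ₀ ≤ 𝔫` is used: on the chart of level `M₁`, `c ∈ 𝔫 ↔ w (Ψ⁻¹ c) ∈ 𝔫`. -/
theorem mem_iff_swap_low (h : StbFrobData φ ρ ρ₀ w Ψ q) (hq : q ≠ 0)
    (𝔫 : Ideal B) [h𝔫 : 𝔫.IsPrime] (h0 : ∀ x : B, ρ₀ x = 0 → x ∈ 𝔫) (c : C) :
    φ c ∈ 𝔫 ↔ w (Ψ.symm (φ c)) ∈ 𝔫 := by
  have hker : φ c - w (Ψ.symm (φ c)) ^ q ∈ 𝔫 := by
    apply h0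
    rw [map_sub, map_pow, h.hw', h.hfrob, sub_self]
  constructor
  · intro hc
    have h1 : w (Ψ.symm (φ c)) ^ q ∈ 𝔫 := by
      have := 𝔫.sub_mem hc hker
      rwa [sub_sub_cancel] at this
    exact h𝔫.mem_of_pow_mem q h1
  · intro hz
    have h1 : w (Ψ.symm (φ c)) ^ q ∈ 𝔫 := 𝔫.pow_mem_of_mem hz q (Nat.pos_of_ne_zero hq)
    have := 𝔫.add_mem hker h1
    rwa [sub_add_cancel] at this

/-- **`𝔫 = Ψ w 𝔫`** for a crossing point `𝔫`. -/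
theorem mem_iff_swap (h : StbFrobData φ ρ ρ₀ w Ψ q) (hq : q ≠ 0)
    (𝔫 : Ideal B) [𝔫.IsPrime] (hinf : ∀ x : B, ρ x = 0 → x ∈ 𝔫)
    (h0 : ∀ x : B, ρ₀ x = 0 → x ∈ 𝔫) (y : B) :
    y ∈ 𝔫 ↔ w (Ψ.symm y) ∈ 𝔫 := by
  obtain ⟨c, hc⟩ := h.hsurj y
  have hd : ρ (y - φ c) = 0 := by rw [map_sub, hc, sub_self]
  have h1 : y - φ c ∈ 𝔫 := hinf _ hd
  have h2 : w (Ψ.symm y) - w (Ψ.symm (φ c)) ∈ 𝔫 := by
    apply h0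
    rw [← map_sub, ← map_sub, h.hw', h.hΨρ]
    exact hd
  have e1 : y ∈ 𝔫 ↔ φ c ∈ 𝔫 := by
    constructor
    · intro hy
      have := 𝔫.sub_mem hy h1
      rwa [sub_sub_cancel] at this
    · intro hc'
      have := 𝔫.add_mem h1 hc'
      rwa [sub_add_cancel] at this
  have e2 : w (Ψ.symm y) ∈ 𝔫 ↔ w (Ψ.symm (φ c)) ∈ 𝔫 := by
    constructor
    · intro hy
      have := 𝔫.sub_mem hy h2
      rwa [sub_sub_cancel] at this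
    · intro hc'
      have := 𝔫.add_mem h2 hc'
      rwa [sub_add_cancel] at this
  rw [e1, e2]
  exact h.mem_iff_swap_low hq 𝔫 h0 c

/-- **`w 𝔫 = Ψ⁻¹ 𝔫`** for a crossing point `𝔫`. -/
theorem swap_mem_iff (h : StbFrobData φ ρ ρ₀ w Ψ q) (hq : q ≠ 0)
    (𝔫 : Ideal B) [h𝔫 : 𝔫.IsPrime] (hinf : ∀ x : B, ρ x = 0 → x ∈ 𝔫)
    (h0 : ∀ x : B, ρ₀ x = 0 → x ∈ 𝔫) (y : B) :
    w y ∈ 𝔫 ↔ Ψ.symm y ∈ 𝔫 := by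
  haveI : (𝔫.comap (w : B →+* B)).IsPrime := Ideal.comap_isPrime _ _
  obtain ⟨hinf', h0'⟩ := h.swap_cross 𝔫 hinf h0
  have := h.mem_iff_swap hq (𝔫.comap (w : B →+* B)) hinf' h0' y
  rw [Ideal.mem_comap, Ideal.mem_comap, RingEquiv.coe_toRingHom, h.hww] at this
  exact this

/-- **`Ψ 𝔫 = w 𝔫`** for a crossing point `𝔫`. -/
theorem frob_mem_iff_swap (h : StbFrobData φ ρ ρ₀ w Ψ q) (hq : q ≠ 0)
    (𝔫 : Ideal B) [h𝔫 : 𝔫.IsPrime] (hinf : ∀ x : B, ρ x = 0 → x ∈ 𝔫)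
    (h0 : ∀ x : B, ρ₀ x = 0 → x ∈ 𝔫) (y : B) :
    Ψ y ∈ 𝔫 ↔ w y ∈ 𝔫 := by
  have := h.mem_iff_swap hq 𝔫 hinf h0 (Ψ y)
  rw [RingEquiv.symm_apply_apply] at this
  exact this

/-- **The square of the Frobenius lift fixes every crossing point**, inverse form. -/
theorem frobSq_symm_mem_iff (h : StbFrobData φ ρ ρ₀ w Ψ q) (hq : q ≠ 0)
    (𝔫 : Ideal B) [h𝔫 : 𝔫.IsPrime] (hinf : ∀ x : B, ρ x = 0 → x ∈ 𝔫)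
    (h0 : ∀ x : B, ρ₀ x = 0 → x ∈ 𝔫) (y : B) :
    Ψ.symm (Ψ.symm y) ∈ 𝔫 ↔ y ∈ 𝔫 := by
  rw [h.mem_iff_swap hq 𝔫 hinf h0 y, h.swap_mem_iff hq 𝔫 hinf h0]

/-- **The square of the Frobenius lift fixes every crossing point: `Φ 𝔫 = 𝔫`.** -/
theorem frobSq_mem_iff (h : StbFrobData φ ρ ρ₀ w Ψ q) (hq : q ≠ 0)
    (𝔫 : Ideal B) [h𝔫 : 𝔫.IsPrime] (hinf : ∀ x : B, ρ x = 0 → x ∈ 𝔫)
    (h0 : ∀ x : B, ρ₀ x = 0 → x ∈ 𝔫) (y : B) :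
    Ψ (Ψ y) ∈ 𝔫 ↔ y ∈ 𝔫 := by
  have := h.frobSq_symm_mem_iff hq 𝔫 hinf h0 (Ψ (Ψ y))
  rw [RingEquiv.symm_apply_apply, RingEquiv.symm_apply_apply] at this
  exact this.symm

theorem comap_frobSq (h : StbFrobData φ ρ ρ₀ w Ψ q) (hq : q ≠ 0)
    (𝔫 : Ideal B) [h𝔫 : 𝔫.IsPrime] (hinf : ∀ x : B, ρ x = 0 → x ∈ 𝔫)
    (h0 : ∀ x : B, ρ₀ x = 0 → x ∈ 𝔫) :
    𝔫.comap ((Ψ.trans Ψ : B ≃+* B) : B →+* B) = 𝔫 := by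
  ext y
  rw [Ideal.mem_comap]
  exact h.frobSq_mem_iff hq 𝔫 hinf h0 y

theorem map_frobSq (h : StbFrobData φ ρ ρ₀ w Ψ q) (hq : q ≠ 0)
    (𝔫 : Ideal B) [h𝔫 : 𝔫.IsPrime] (hinf : ∀ x : B, ρ x = 0 → x ∈ 𝔫)
    (h0 : ∀ x : B, ρ₀ x = 0 → x ∈ 𝔫) :
    𝔫.map ((Ψ.trans Ψ : B ≃+* B) : B →+* B) = 𝔫 := by
  have h1 := h.comap_frobSq hq 𝔫 hinf h0
  conv_lhs => rw [← h1]
  exact Ideal.map_comap_of_surjective _ (Ψ.trans Ψ).surjective 𝔫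

end StbFrobData

end Abstract

section Residue

variable {B A' : Type*} [CommRing B] [CommRing A']

/-- If `Ψ a ≡ a ^ q` modulo a `Ψ`-stable ideal `J` for the constants `a`, then
`Ψ² a ≡ a ^ (q²)` modulo `J`. -/
theorem stb_frobSq_const (ι : A' →+* B) (Ψ : B →+* B) (J : Ideal B) (q : ℕ)
    (hJ : ∀ x ∈ J, Ψ x ∈ J) (hΨ : ∀ a : A', Ψ (ι a) - ι a ^ q ∈ J) (a : A') :
    Ψ (Ψ (ι a)) - ι a ^ (q ^ 2) ∈ J := by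
  have h1 : Ψ (Ψ (ι a) - ι a ^ q) ∈ J := hJ _ (hΨ a)
  have h2 : Ψ (ι a) ^ q - (ι a ^ q) ^ q ∈ J := by
    obtain ⟨z, hz⟩ := sub_dvd_pow_sub_pow (Ψ (ι a)) (ι a ^ q) q
    rw [hz]
    exact J.mul_mem_right _ (hΨ a)
  have e : Ψ (Ψ (ι a)) - ι a ^ (q ^ 2) =
      Ψ (Ψ (ι a) - ι a ^ q) + (Ψ (ι a) ^ q - (ι a ^ q) ^ q) := by
    rw [map_sub, map_pow, ← pow_mul, pow_two]
    ring
  rw [e]
  exact J.add_mem h1 h2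

/-- **`Φ̄ = (·)^{q²}` on `B ⧸ 𝔫`**: if `𝔫` is `Φ`-stable, rational over the constants, and
`Ψ a ≡ a ^ q` modulo a `Ψ`-stable ideal `J ≤ 𝔫` on the constants, then
`Φ b ≡ b ^ (q²)` modulo `𝔫` for every `b`. -/
theorem stb_frobSq_sub_pow_mem (ι : A' →+* B) (Ψ : B →+* B) (J 𝔫 : Ideal B) (q : ℕ)
    (hJ𝔫 : J ≤ 𝔫) (hJ : ∀ x ∈ J, Ψ x ∈ J) (hΨ : ∀ a : A', Ψ (ι a) - ι a ^ q ∈ J)
    (hΦ : ∀ x ∈ 𝔫, Ψ (Ψ x) ∈ 𝔫) (hrat : ∀ b : B, ∃ a : A', b - ι a ∈ 𝔫) (b : B) :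
    Ψ (Ψ b) - b ^ (q ^ 2) ∈ 𝔫 := by
  obtain ⟨a, ha⟩ := hrat b
  have h1 : Ψ (Ψ (b - ι a)) ∈ 𝔫 := hΦ _ ha
  have h2 : Ψ (Ψ (ι a)) - ι a ^ (q ^ 2) ∈ 𝔫 := hJ𝔫 (stb_frobSq_const ι Ψ J q hJ hΨ a)
  have h3 : b ^ (q ^ 2) - ι a ^ (q ^ 2) ∈ 𝔫 := by
    obtain ⟨z, hz⟩ := sub_dvd_pow_sub_pow b (ι a) (q ^ 2)
    rw [hz]
    exact 𝔫.mul_mem_right _ ha
  have e : Ψ (Ψ b) - b ^ (q ^ 2) =
      Ψ (Ψ (b - ι a)) + (Ψ (Ψ (ι a)) - ι a ^ (q ^ 2)) - (b ^ (q ^ 2) - ι a ^ (q ^ 2)) := by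
    rw [map_sub, map_sub]
    ring
  rw [e]
  exact 𝔫.sub_mem (𝔫.add_mem h1 h2) h3

end Residue

end Fermat.Agent.STB
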