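import Mathlib
import Fermat.Agent.STB.FrobFix

/-!
# STB-X (`FrobFix`), part 2a: the square of a Frobenius lift fixes every crossing point
## valuation form, no `w`-stability of the chart needed

S35 phase 2 (plan `NOTES/S35-plan.md`, step (B1)).  Pure algebra (Mathlib only).

`F` a field (the function field `F_N(E′)`), `B ⊆ F` a subring (a chart), `Vinf`, `V0` two valuation
subrings containing `B` (the vertical valuation rings), `w, Ψ : F ≃+* F` (Atkin–Lehner, Frobenius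
lift).  A *point* of `B` is given by its prime ideal, here as a subset `N ⊆ F` (`StbPt B N`); it is a
*crossing point* if `B ∩ 𝔪(Vinf) ⊆ N` and `B ∩ 𝔪(V0) ⊆ N`.

Hypotheses (`StbFrobVal`):
* `w² = 1`, `Ψ w = w Ψ`, `w` swaps `𝔪(Vinf)` and `𝔪(V0)`, `Ψ⁻¹` preserves `𝔪(Vinf)`, `Ψ^{±1} B ⊆ B`;
* `hwB` : for `b ∈ B` there is `e ∈ B`, `e ≡ 1` at `Vinf`, with `e · w b ∈ B`
  (`e = 1` on the chart `j`; `e = ℓ(1/j)ⁿ`, `ℓ ≡ 1 mod q`, on the chart `1/j`);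
* `hkey` : every `b ∈ B` is congruent at `Vinf` to some `c ∈ B` satisfying the Frobenius congruence
  `w c ≡ (Ψ⁻¹ c) ^ q` at `Vinf`   (`ρ(B) = ρ(C)` and (G3) on the chart `C` of level `M₁`).

Main result: `StbFrobVal.frobSq_mem_iff` : `y ∈ N ↔ Ψ⁻¹ (Ψ⁻¹ y) ∈ N` for a crossing point `N`.
-/

set_option autoImplicit false
set_option linter.unusedSectionVars false
set_option linter.unusedVariables false

namespace Fermat.Agent.STB

variable {F : Type*} [Field F]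

/-- A prime ideal of the subring `B ⊆ F`, as a subset of `F`. -/
structure StbPt (B : Subring F) (N : Set F) : Prop where
  sub : ∀ x ∈ N, x ∈ B
  zero : (0 : F) ∈ N
  add : ∀ x ∈ N, ∀ y ∈ N, x + y ∈ N
  mul : ∀ a ∈ B, ∀ x ∈ N, a * x ∈ N
  one : (1 : F) ∉ N
  prime : ∀ a ∈ B, ∀ b ∈ B, a * b ∈ N → a ∈ N ∨ b ∈ N

/-- the local ring `B_N ⊆ F` -/
def stbLoc (B : Subring F) (N : Set F) : Set F := {x | ∃ s ∈ B, s ∉ N ∧ s * x ∈ B}

/-- the maximal ideal `N B_N ⊆ F` -/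
def stbLocMax (B : Subring F) (N : Set F) : Set F := {x | ∃ s ∈ B, s ∉ N ∧ s * x ∈ N}

namespace StbPt

variable {B : Subring F} {N : Set F}

theorem neg (h : StbPt B N) {x : F} (hx : x ∈ N) : -x ∈ N := by
  have := h.mul (-1) (B.neg_mem B.one_mem) x hx
  rwa [neg_one_mul] at this

theorem sub' (h : StbPt B N) {x y : F} (hx : x ∈ N) (hy : y ∈ N) : x - y ∈ N := by
  rw [sub_eq_add_neg]
  exact h.add _ hx _ (h.neg hy)

theorem mem_iff_of_sub (h : StbPt B N) {x y : F} (hxy : x - y ∈ N) : x ∈ N ↔ y ∈ N := by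
  constructor
  · intro hx
    have := h.sub' hx hxy
    rwa [sub_sub_cancel] at this
  · intro hy
    have := h.add _ hxy _ hy
    rwa [sub_add_cancel] at this

theorem not_mem_mul (h : StbPt B N) {s t : F} (hs : s ∈ B) (ht : t ∈ B) (hsN : s ∉ N)
    (htN : t ∉ N) : s * t ∉ N := fun hst => (h.prime s hs t ht hst).elim hsN htN

theorem loc_of_mem (h : StbPt B N) {b : F} (hb : b ∈ B) : b ∈ stbLoc B N :=
  ⟨1, B.one_mem, h.one, by rw [one_mul]; exact hb⟩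

theorem locMax_le_loc (h : StbPt B N) {x : F} (hx : x ∈ stbLocMax B N) : x ∈ stbLoc B N := by
  obtain ⟨s, hs, hsN, hsx⟩ := hx
  exact ⟨s, hs, hsN, h.sub _ hsx⟩

theorem locMax_add (h : StbPt B N) {x y : F} (hx : x ∈ stbLocMax B N)
    (hy : y ∈ stbLocMax B N) : x + y ∈ stbLocMax B N := by
  obtain ⟨s, hs, hsN, hsx⟩ := hx
  obtain ⟨t, ht, htN, hty⟩ := hy
  refine ⟨s * t, B.mul_mem hs ht, h.not_mem_mul hs ht hsN htN, ?_⟩
  have e : s * t * (x + y) = t * (s * x) + s * (t * y) := by ring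
  rw [e]
  exact h.add _ (h.mul t ht _ hsx) _ (h.mul s hs _ hty)

theorem locMax_neg (h : StbPt B N) {x : F} (hx : x ∈ stbLocMax B N) : -x ∈ stbLocMax B N := by
  obtain ⟨s, hs, hsN, hsx⟩ := hx
  refine ⟨s, hs, hsN, ?_⟩
  rw [mul_neg]
  exact h.neg hsx

theorem locMax_mem_iff_of_sub (h : StbPt B N) {x y : F} (hxy : x - y ∈ stbLocMax B N) :
    x ∈ stbLocMax B N ↔ y ∈ stbLocMax B N := by
  constructor
  · intro hx
    have := h.locMax_add hx (h.locMax_neg hxy)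
    rwa [neg_sub, add_sub_cancel] at this
  · intro hy
    have := h.locMax_add hxy hy
    rwa [sub_add_cancel] at this

theorem locMax_mul (h : StbPt B N) {x y : F} (hx : x ∈ stbLoc B N)
    (hy : y ∈ stbLocMax B N) : x * y ∈ stbLocMax B N := by
  obtain ⟨s, hs, hsN, hsx⟩ := hx
  obtain ⟨t, ht, htN, hty⟩ := hy
  refine ⟨s * t, B.mul_mem hs ht, h.not_mem_mul hs ht hsN htN, ?_⟩
  have e : s * t * (x * y) = (s * x) * (t * y) := by ring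
  rw [e]
  exact h.mul _ hsx _ hty

theorem locMax_prime (h : StbPt B N) {x y : F} (hx : x ∈ stbLoc B N) (hy : y ∈ stbLoc B N)
    (hxy : x * y ∈ stbLocMax B N) : x ∈ stbLocMax B N ∨ y ∈ stbLocMax B N := by
  obtain ⟨s, hs, hsN, hsx⟩ := hx
  obtain ⟨t, ht, htN, hty⟩ := hy
  obtain ⟨r, hr, hrN, hrxy⟩ := hxy
  have e : r * ((s * x) * (t * y)) = (s * t) * (r * (x * y)) := by ring
  have h1 : r * ((s * x) * (t * y)) ∈ N := by
    rw [e]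
    exact h.mul _ (B.mul_mem hs ht) _ hrxy
  have h2 : (s * x) * (t * y) ∈ N :=
    (h.prime r hr _ (B.mul_mem hsx hty) h1).resolve_left hrN
  rcases h.prime _ hsx _ hty h2 with h3 | h3
  · exact Or.inl ⟨s, hs, hsN, h3⟩
  · exact Or.inr ⟨t, ht, htN, h3⟩

theorem one_not_mem_locMax (h : StbPt B N) : (1 : F) ∉ stbLocMax B N := by
  rintro ⟨s, hs, hsN, hs1⟩
  rw [mul_one] at hs1
  exact hsN hs1

theorem loc_mul (h : StbPt B N) {x y : F} (hx : x ∈ stbLoc B N) (hy : y ∈ stbLoc B N) :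
    x * y ∈ stbLoc B N := by
  obtain ⟨s, hs, hsN, hsx⟩ := hx
  obtain ⟨t, ht, htN, hty⟩ := hy
  refine ⟨s * t, B.mul_mem hs ht, h.not_mem_mul hs ht hsN htN, ?_⟩
  have e : s * t * (x * y) = (s * x) * (t * y) := by ring
  rw [e]
  exact B.mul_mem hsx hty

theorem loc_pow (h : StbPt B N) {x : F} (hx : x ∈ stbLoc B N) (n : ℕ) :
    x ^ n ∈ stbLoc B N := by
  induction n with
  | zero => rw [pow_zero]; exact h.loc_of_mem B.one_mem
  | succ n ih => rw [pow_succ]; exact h.loc_mul ih hx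

theorem locMax_of_pow (h : StbPt B N) {x : F} (hx : x ∈ stbLoc B N) {n : ℕ}
    (hxn : x ^ n ∈ stbLocMax B N) : x ∈ stbLocMax B N := by
  induction n with
  | zero => rw [pow_zero] at hxn; exact absurd hxn h.one_not_mem_locMax
  | succ n ih =>
    rw [pow_succ] at hxn
    rcases h.locMax_prime (h.loc_pow hx n) hx hxn with h1 | h1
    · exact ih h1
    · exact h1

theorem locMax_pow (h : StbPt B N) {x : F} (hx : x ∈ stbLocMax B N) {n : ℕ} (hn : n ≠ 0) :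
    x ^ n ∈ stbLocMax B N := by
  obtain ⟨m, rfl⟩ := Nat.exists_eq_succ_of_ne_zero hn
  rw [pow_succ]
  exact h.locMax_mul (h.loc_pow (h.locMax_le_loc hx) m) hx

theorem mem_locMax_iff (h : StbPt B N) {b : F} (hb : b ∈ B) : b ∈ stbLocMax B N ↔ b ∈ N := by
  constructor
  · rintro ⟨s, hs, hsN, hsb⟩
    exact (h.prime s hs b hb hsb).resolve_left hsN
  · intro hbN
    exact ⟨1, B.one_mem, h.one, by rw [one_mul]; exact hbN⟩

/-- a component through the point: elements of the local ring which are nonunits of `V` lie in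
the maximal ideal -/
theorem locMax_of_nonunits (h : StbPt B N) (V : ValuationSubring F) (hBV : ∀ b ∈ B, b ∈ V)
    (hthr : ∀ b ∈ B, b ∈ V.nonunits → b ∈ N) {x : F} (hx : x ∈ stbLoc B N)
    (hxV : x ∈ V.nonunits) : x ∈ stbLocMax B N := by
  obtain ⟨s, hs, hsN, hsx⟩ := hx
  refine ⟨s, hs, hsN, hthr _ hsx ?_⟩
  rw [ValuationSubring.mem_nonunits_iff] at hxV ⊢
  rw [map_mul]
  have h1 : V.valuation s ≤ 1 := (V.valuation_le_one_iff s).mpr (hBV s hs)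
  calc V.valuation s * V.valuation x ≤ 1 * V.valuation x := mul_le_mul_left h1 _
    _ = V.valuation x := one_mul _
    _ < 1 := hxV

end StbPt

/-- The hypotheses on a Frobenius lift `Ψ` and the Atkin–Lehner involution `w` acting on the
function field `F`, relative to a chart `B` and the vertical valuation rings `Vinf`, `V0`. -/
structure StbFrobVal (B : Subring F) (Vinf V0 : ValuationSubring F) (w Ψ : F ≃+* F) (q : ℕ) :
    Prop where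
  hBinf : ∀ b ∈ B, b ∈ Vinf
  hB0 : ∀ b ∈ B, b ∈ V0
  hww : ∀ x : F, w (w x) = x
  hΨw : ∀ x : F, Ψ (w x) = w (Ψ x)
  hV0 : ∀ x : F, x ∈ V0.nonunits ↔ w x ∈ Vinf.nonunits
  hΨV : ∀ x : F, x ∈ Vinf.nonunits → Ψ.symm x ∈ Vinf.nonunits
  hΨB : ∀ b ∈ B, Ψ b ∈ B
  hΨB' : ∀ b ∈ B, Ψ.symm b ∈ B
  hwB : ∀ b ∈ B, ∃ e ∈ B, e - 1 ∈ Vinf.nonunits ∧ e * w b ∈ B
  hkey : ∀ b ∈ B, ∃ c ∈ B, b - c ∈ Vinf.nonunits ∧ w c - (Ψ.symm c) ^ q ∈ Vinf.nonunits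

/-- a crossing point: both components pass through `N` -/
structure StbCrossPt (B : Subring F) (Vinf V0 : ValuationSubring F) (N : Set F) : Prop
    extends StbPt B N where
  thrInf : ∀ b ∈ B, b ∈ Vinf.nonunits → b ∈ N
  thr0 : ∀ b ∈ B, b ∈ V0.nonunits → b ∈ N

namespace StbFrobVal

variable {B : Subring F} {Vinf V0 : ValuationSubring F} {w Ψ : F ≃+* F} {q : ℕ} {N : Set F}

theorem symm_swap (h : StbFrobVal B Vinf V0 w Ψ q) (x : F) : Ψ.symm (w x) = w (Ψ.symm x) := by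
  apply Ψ.injective
  rw [RingEquiv.apply_symm_apply, h.hΨw, RingEquiv.apply_symm_apply]

theorem swap_mem_V0 (h : StbFrobVal B Vinf V0 w Ψ q) {x : F} (hx : x ∈ Vinf.nonunits) :
    w x ∈ V0.nonunits := by
  rw [h.hV0, h.hww]
  exact hx

theorem swap_mem_Vinf (h : StbFrobVal B Vinf V0 w Ψ q) {x : F} (hx : x ∈ V0.nonunits) :
    w x ∈ Vinf.nonunits := (h.hV0 x).mp hx

/-- `Ψ⁻¹` preserves `𝔪(V0)` -/
theorem symm_mem_V0 (h : StbFrobVal B Vinf V0 w Ψ q) {x : F} (hx : x ∈ V0.nonunits) :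
    Ψ.symm x ∈ V0.nonunits := by
  rw [h.hV0, ← h.symm_swap]
  exact h.hΨV _ ((h.hV0 x).mp hx)

/-- the multiplier `e` of `hwB` is a unit at every crossing point -/
theorem unit_not_mem (h : StbFrobVal B Vinf V0 w Ψ q) (hN : StbCrossPt B Vinf V0 N) {e : F}
    (he : e ∈ B) (he1 : e - 1 ∈ Vinf.nonunits) : e ∉ N := by
  intro heN
  have h1 : e - 1 ∈ N := hN.thrInf _ (B.sub_mem he B.one_mem) he1
  have h2 := hN.toStbPt.sub' heN h1
  rw [sub_sub_cancel] at h2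
  exact hN.one h2

/-- `w B ⊆ B_N` at every crossing point -/
theorem swap_mem_loc (h : StbFrobVal B Vinf V0 w Ψ q) (hN : StbCrossPt B Vinf V0 N) {b : F}
    (hb : b ∈ B) : w b ∈ stbLoc B N := by
  obtain ⟨e, he, he1, hew⟩ := h.hwB b hb
  exact ⟨e, he, h.unit_not_mem hN he he1, hew⟩

/-- the point `w N` -/
def swapPt (B : Subring F) (w : F ≃+* F) (N : Set F) : Set F :=
  {b | b ∈ B ∧ w b ∈ stbLocMax B N}

theorem swapPt_crossPt (h : StbFrobVal B Vinf V0 w Ψ q) (hN : StbCrossPt B Vinf V0 N) :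
    StbCrossPt B Vinf V0 (swapPt B w N) where
  sub := fun x hx => hx.1
  zero := ⟨B.zero_mem, by
    rw [map_zero]
    exact (hN.toStbPt.mem_locMax_iff B.zero_mem).mpr hN.zero⟩
  add := fun x hx y hy => ⟨B.add_mem hx.1 hy.1, by
    rw [map_add]
    exact hN.toStbPt.locMax_add hx.2 hy.2⟩
  mul := fun a ha x hx => ⟨B.mul_mem ha hx.1, by
    rw [map_mul]
    exact hN.toStbPt.locMax_mul (h.swap_mem_loc hN ha) hx.2⟩
  one := fun h1 => by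
    have := h1.2
    rw [map_one] at this
    exact hN.toStbPt.one_not_mem_locMax this
  prime := fun a ha b hb hab => by
    have h1 := hab.2
    rw [map_mul] at h1
    rcases hN.toStbPt.locMax_prime (h.swap_mem_loc hN ha) (h.swap_mem_loc hN hb) h1 with h2 | h2
    · exact Or.inl ⟨ha, h2⟩
    · exact Or.inr ⟨hb, h2⟩
  thrInf := fun b hb hbV => ⟨hb,
    hN.toStbPt.locMax_of_nonunits V0 h.hB0 hN.thr0 (h.swap_mem_loc hN hb) (h.swap_mem_V0 hbV)⟩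
  thr0 := fun b hb hbV => ⟨hb,
    hN.toStbPt.locMax_of_nonunits Vinf h.hBinf hN.thrInf (h.swap_mem_loc hN hb)
      (h.swap_mem_Vinf hbV)⟩

/-- **Step 1: `N = Ψ w N`.**  For `y ∈ B`: `y ∈ N ↔ w (Ψ⁻¹ y) ∈ N B_N`. -/
theorem mem_iff_swap (h : StbFrobVal B Vinf V0 w Ψ q) (hq : q ≠ 0)
    (hN : StbCrossPt B Vinf V0 N) {y : F} (hy : y ∈ B) :
    y ∈ N ↔ w (Ψ.symm y) ∈ stbLocMax B N := by
  obtain ⟨c, hc, hyc, hfrob⟩ := h.hkey y hy
  have hP := hN.toStbPt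
  -- `y ∈ N ↔ c ∈ N`
  have e1 : y ∈ N ↔ c ∈ N := hP.mem_iff_of_sub (hN.thrInf _ (B.sub_mem hy hc) hyc)
  -- `z = w (Ψ⁻¹ c)`
  have hzO : w (Ψ.symm c) ∈ stbLoc B N := h.swap_mem_loc hN (h.hΨB' c hc)
  have hzq : w (Ψ.symm c) ^ q ∈ stbLoc B N := hP.loc_pow hzO q
  have hcO : c ∈ stbLoc B N := hP.loc_of_mem hc
  -- `c - z ^ q ∈ 𝔪(V0) ∩ B_N`
  have h1 : c - w (Ψ.symm c) ^ q ∈ V0.nonunits := by
    have := h.swap_mem_V0 hfrob
    rwa [map_sub, h.hww, map_pow] at this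
  have h1O : c - w (Ψ.symm c) ^ q ∈ stbLoc B N := by
    obtain ⟨s, hs, hsN, hsz⟩ := hzq
    refine ⟨s, hs, hsN, ?_⟩
    rw [mul_sub]
    exact B.sub_mem (B.mul_mem hs hc) hsz
  have h2 : c - w (Ψ.symm c) ^ q ∈ stbLocMax B N :=
    hP.locMax_of_nonunits V0 h.hB0 hN.thr0 h1O h1
  have e2 : c ∈ N ↔ w (Ψ.symm c) ∈ stbLocMax B N := by
    rw [← hP.mem_locMax_iff hc, hP.locMax_mem_iff_of_sub h2]
    exact ⟨fun hz => hP.locMax_of_pow hzO hz, fun hz => hP.locMax_pow hz hq⟩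
  -- `w (Ψ⁻¹ y) - z ∈ 𝔪(V0) ∩ B_N`
  have h3 : w (Ψ.symm y) - w (Ψ.symm c) ∈ V0.nonunits := by
    rw [← map_sub, ← map_sub]
    exact h.swap_mem_V0 (h.hΨV _ hyc)
  have h3O : w (Ψ.symm y) - w (Ψ.symm c) ∈ stbLoc B N := by
    rw [← map_sub, ← map_sub]
    exact h.swap_mem_loc hN (h.hΨB' _ (B.sub_mem hy hc))
  have h4 : w (Ψ.symm y) - w (Ψ.symm c) ∈ stbLocMax B N :=
    hP.locMax_of_nonunits V0 h.hB0 hN.thr0 h3O h3
  rw [e1, e2, hP.locMax_mem_iff_of_sub h4]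

/-- **Step 2: `w N = Ψ⁻¹ N`.**  For `y ∈ B`: `w y ∈ N B_N ↔ Ψ⁻¹ y ∈ N`. -/
theorem swap_mem_iff (h : StbFrobVal B Vinf V0 w Ψ q) (hq : q ≠ 0)
    (hN : StbCrossPt B Vinf V0 N) {y : F} (hy : y ∈ B) :
    w y ∈ stbLocMax B N ↔ Ψ.symm y ∈ N := by
  have hP := hN.toStbPt
  have hN' := h.swapPt_crossPt hN
  have key := h.mem_iff_swap hq hN' hy
  have hΨy : Ψ.symm y ∈ B := h.hΨB' y hy
  have e1 : y ∈ swapPt B w N ↔ w y ∈ stbLocMax B N := ⟨fun hh => hh.2, fun hh => ⟨hy, hh⟩⟩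
  rw [← e1, key]
  constructor
  · rintro ⟨s, hs, hsN, hsx⟩
    -- `w s · Ψ⁻¹ y ∈ N B_N`, `w s ∉ N B_N`
    have h1 : w (s * w (Ψ.symm y)) ∈ stbLocMax B N := hsx.2
    rw [map_mul, h.hww] at h1
    have h2 : w s ∉ stbLocMax B N := fun hh => hsN ⟨hs, hh⟩
    have h3 := (hP.locMax_prime (h.swap_mem_loc hN hs) (hP.loc_of_mem hΨy) h1).resolve_left h2
    exact (hP.mem_locMax_iff hΨy).mp h3
  · intro hΨN
    obtain ⟨e, he, he1, hew⟩ := h.hwB _ hΨy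
    refine ⟨e, he, h.unit_not_mem hN' he he1, hew, ?_⟩
    rw [map_mul, h.hww]
    exact hP.locMax_mul (h.swap_mem_loc hN he) ((hP.mem_locMax_iff hΨy).mpr hΨN)

/-- **The square of the Frobenius lift fixes every crossing point**, inverse form:
`y ∈ N ↔ Ψ⁻¹ (Ψ⁻¹ y) ∈ N`. -/
theorem frobSq_symm_mem_iff (h : StbFrobVal B Vinf V0 w Ψ q) (hq : q ≠ 0)
    (hN : StbCrossPt B Vinf V0 N) {y : F} (hy : y ∈ B) :
    Ψ.symm (Ψ.symm y) ∈ N ↔ y ∈ N := by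
  rw [h.mem_iff_swap hq hN hy, h.swap_mem_iff hq hN (h.hΨB' y hy)]

/-- **The square of the Frobenius lift fixes every crossing point: `Φ N = N`.** -/
theorem frobSq_mem_iff (h : StbFrobVal B Vinf V0 w Ψ q) (hq : q ≠ 0)
    (hN : StbCrossPt B Vinf V0 N) {y : F} (hy : y ∈ B) :
    Ψ (Ψ y) ∈ N ↔ y ∈ N := by
  have := h.frobSq_symm_mem_iff hq hN (h.hΨB _ (h.hΨB y hy))
  rw [RingEquiv.symm_apply_apply, RingEquiv.symm_apply_apply] at this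
  exact this.symm

/-- `Ψ N = w N` -/
theorem frob_mem_iff_swap (h : StbFrobVal B Vinf V0 w Ψ q) (hq : q ≠ 0)
    (hN : StbCrossPt B Vinf V0 N) {y : F} (hy : y ∈ B) :
    Ψ y ∈ N ↔ w y ∈ stbLocMax B N := by
  have := h.mem_iff_swap hq hN (h.hΨB y hy)
  rw [RingEquiv.symm_apply_apply] at this
  exact this

end StbFrobVal


/-! ## Ideals of a subalgebra -/

section Ideal

variable {R : Type*} [CommRing R] [Algebra R F] (S : Subalgebra R F)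

/-- an ideal of the subalgebra `S ⊆ F`, as a subset of `F` -/
def stbIdealSet (𝔫 : Ideal S) : Set F := {x | ∃ h : x ∈ S, (⟨x, h⟩ : S) ∈ 𝔫}

variable {S}

theorem coe_mem_stbIdealSet {𝔫 : Ideal S} (b : S) : (b : F) ∈ stbIdealSet S 𝔫 ↔ b ∈ 𝔫 :=
  ⟨fun ⟨_, h⟩ => h, fun h => ⟨b.2, h⟩⟩

theorem stbPt_of_isPrime (𝔫 : Ideal S) [h𝔫 : 𝔫.IsPrime] :
    StbPt S.toSubring (stbIdealSet S 𝔫) where
  sub := fun x hx => hx.1
  zero := ⟨S.zero_mem, 𝔫.zero_mem⟩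
  add := fun x hx y hy => ⟨S.add_mem hx.1 hy.1, 𝔫.add_mem hx.2 hy.2⟩
  mul := fun a ha x hx => ⟨S.mul_mem ha hx.1, 𝔫.mul_mem_left ⟨a, ha⟩ hx.2⟩
  one := fun h1 => h𝔫.ne_top ((Ideal.eq_top_iff_one 𝔫).mpr h1.2)
  prime := fun a ha b hb hab => by
    have h1 : (⟨a, ha⟩ : S) * ⟨b, hb⟩ ∈ 𝔫 := hab.2
    rcases h𝔫.mem_or_mem h1 with h2 | h2
    · exact Or.inl ⟨ha, h2⟩
    · exact Or.inr ⟨hb, h2⟩

theorem stbCrossPt_of_isPrime (𝔫 : Ideal S) [h𝔫 : 𝔫.IsPrime] (Vinf V0 : ValuationSubring F)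
    (hc₁ : ∀ b : S, (b : F) ∈ Vinf.nonunits → b ∈ 𝔫)
    (hc₂ : ∀ b : S, (b : F) ∈ V0.nonunits → b ∈ 𝔫) :
    StbCrossPt S.toSubring Vinf V0 (stbIdealSet S 𝔫) where
  toStbPt := stbPt_of_isPrime 𝔫
  thrInf := fun b hb hbV => ⟨hb, hc₁ ⟨b, hb⟩ hbV⟩
  thr0 := fun b hb hbV => ⟨hb, hc₂ ⟨b, hb⟩ hbV⟩

variable {Vinf V0 : ValuationSubring F} {w Ψ : F ≃+* F} {q : ℕ}

/-- **`Φ 𝔫 = 𝔫` at a crossing point `𝔫` of the chart `S`** (`Φ = Ψ²`). -/
theorem stb_cross_frobSq_mem_iff (h : StbFrobVal S.toSubring Vinf V0 w Ψ q) (hq : q ≠ 0)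
    (𝔫 : Ideal S) [𝔫.IsPrime]
    (hc₁ : ∀ b : S, (b : F) ∈ Vinf.nonunits → b ∈ 𝔫)
    (hc₂ : ∀ b : S, (b : F) ∈ V0.nonunits → b ∈ 𝔫) (b : S) :
    (⟨Ψ (Ψ (b : F)), h.hΨB _ (h.hΨB _ b.2)⟩ : S) ∈ 𝔫 ↔ b ∈ 𝔫 := by
  have := h.frobSq_mem_iff hq (stbCrossPt_of_isPrime 𝔫 Vinf V0 hc₁ hc₂) (y := (b : F)) b.2
  rw [coe_mem_stbIdealSet] at this
  rw [← this]
  exact (coe_mem_stbIdealSet (𝔫 := 𝔫) ⟨Ψ (Ψ (b : F)), h.hΨB _ (h.hΨB _ b.2)⟩).symm

theorem stb_cross_frobSq_symm_mem_iff (h : StbFrobVal S.toSubring Vinf V0 w Ψ q) (hq : q ≠ 0)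
    (𝔫 : Ideal S) [𝔫.IsPrime]
    (hc₁ : ∀ b : S, (b : F) ∈ Vinf.nonunits → b ∈ 𝔫)
    (hc₂ : ∀ b : S, (b : F) ∈ V0.nonunits → b ∈ 𝔫) (b : S) :
    (⟨Ψ.symm (Ψ.symm (b : F)), h.hΨB' _ (h.hΨB' _ b.2)⟩ : S) ∈ 𝔫 ↔ b ∈ 𝔫 := by
  have := h.frobSq_symm_mem_iff hq (stbCrossPt_of_isPrime 𝔫 Vinf V0 hc₁ hc₂) (y := (b : F)) b.2
  rw [coe_mem_stbIdealSet] at this
  rw [← this]
  exact (coe_mem_stbIdealSet (𝔫 := 𝔫)
    ⟨Ψ.symm (Ψ.symm (b : F)), h.hΨB' _ (h.hΨB' _ b.2)⟩).symm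

/-- the shape `hgB` of `at_local_factor` / `stb_local_factor`, for `Φ = Ψ²` -/
theorem stb_cross_hgB (h : StbFrobVal S.toSubring Vinf V0 w Ψ q) (hq : q ≠ 0)
    (𝔫 : Ideal S) [𝔫.IsPrime]
    (hc₁ : ∀ b : S, (b : F) ∈ Vinf.nonunits → b ∈ 𝔫)
    (hc₂ : ∀ b : S, (b : F) ∈ V0.nonunits → b ∈ 𝔫) (b : S) (hb : b ∈ 𝔫) :
    ∃ b' : S, b' ∈ 𝔫 ∧ Ψ (Ψ (b : F)) = (b' : F) :=
  ⟨_, (stb_cross_frobSq_mem_iff h hq 𝔫 hc₁ hc₂ b).mpr hb, rfl⟩

/-- the shape `hgB'` of `at_local_factor` / `stb_local_factor`, for `Φ = Ψ²` -/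
theorem stb_cross_hgB' (h : StbFrobVal S.toSubring Vinf V0 w Ψ q) (hq : q ≠ 0)
    (𝔫 : Ideal S) [𝔫.IsPrime]
    (hc₁ : ∀ b : S, (b : F) ∈ Vinf.nonunits → b ∈ 𝔫)
    (hc₂ : ∀ b : S, (b : F) ∈ V0.nonunits → b ∈ 𝔫) (b : S) (hb : b ∈ 𝔫) :
    ∃ b' : S, b' ∈ 𝔫 ∧ Ψ.symm (Ψ.symm (b : F)) = (b' : F) :=
  ⟨_, (stb_cross_frobSq_symm_mem_iff h hq 𝔫 hc₁ hc₂ b).mpr hb, rfl⟩

/-- restriction of a ring endomorphism of `F` to a stable subalgebra -/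
def stbRestrict (S : Subalgebra R F) (Ψ : F →+* F) (hΨ : ∀ b ∈ S, Ψ b ∈ S) : S →+* S where
  toFun b := ⟨Ψ b, hΨ _ b.2⟩
  map_one' := Subtype.ext (map_one Ψ)
  map_mul' x y := Subtype.ext (map_mul Ψ _ _)
  map_zero' := Subtype.ext (map_zero Ψ)
  map_add' x y := Subtype.ext (map_add Ψ _ _)

@[simp] theorem stbRestrict_coe (Ψ : F →+* F) (hΨ : ∀ b ∈ S, Ψ b ∈ S) (b : S) :
    ((stbRestrict S Ψ hΨ b : S) : F) = Ψ b := rfl

/-- **`Φ̄ = (·)^{q²}` on `S ⧸ 𝔫` at a crossing point** (shape `hfrobB` of `stb_glue_frob_chart`):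
`Φ b = b ^ (q²) + c`, `c ∈ 𝔫`.  `π ∈ 𝔫` is the uniformizer of the base `R`, `Ψ a ≡ a ^ q mod π` on
`R`, and the point is rational (`hrat`). -/
theorem stb_cross_hfrobB (h : StbFrobVal S.toSubring Vinf V0 w Ψ q) (hq : q ≠ 0)
    (𝔫 : Ideal S) [𝔫.IsPrime]
    (hc₁ : ∀ b : S, (b : F) ∈ Vinf.nonunits → b ∈ 𝔫)
    (hc₂ : ∀ b : S, (b : F) ∈ V0.nonunits → b ∈ 𝔫)
    (π : R) (hπ : algebraMap R S π ∈ 𝔫)
    (hΨR : ∀ a : R, ∃ c : R, Ψ (algebraMap R F a) = algebraMap R F (a ^ q + π * c))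
    (hrat : ∀ b : S, ∃ a : R, b - algebraMap R S a ∈ 𝔫) (b : S) :
    ∃ c : S, c ∈ 𝔫 ∧ Ψ (Ψ (b : F)) = (b : F) ^ (q ^ 2) + (c : F) := by
  set Ψ' : S →+* S := stbRestrict S (Ψ : F →+* F) h.hΨB with hΨ'
  have hJ : ∀ x ∈ Ideal.span {algebraMap R S π}, Ψ' x ∈ Ideal.span {algebraMap R S π} := by
    intro x hx
    obtain ⟨z, rfl⟩ := Ideal.mem_span_singleton.mp hx
    obtain ⟨c, hc⟩ := hΨR π
    rw [Ideal.mem_span_singleton]
    refine ⟨algebraMap R S (π ^ (q - 1) + c) * Ψ' z, ?_⟩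
    apply Subtype.ext
    show Ψ (algebraMap R F π * (z : F)) =
      algebraMap R F π * (algebraMap R F (π ^ (q - 1) + c) * Ψ (z : F))
    rw [map_mul, hc, ← mul_assoc, ← map_mul]
    congr 2
    have : π ^ q = π * π ^ (q - 1) := by
      rw [← pow_succ', Nat.sub_add_cancel (Nat.pos_of_ne_zero hq)]
    rw [this]
    ring
  have hΨ : ∀ a : R, Ψ' (algebraMap R S a) - algebraMap R S a ^ q ∈
      Ideal.span {algebraMap R S π} := by
    intro a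
    obtain ⟨c, hc⟩ := hΨR a
    rw [Ideal.mem_span_singleton]
    refine ⟨algebraMap R S c, ?_⟩
    apply Subtype.ext
    show Ψ (algebraMap R F a) - algebraMap R F a ^ q = algebraMap R F π * algebraMap R F c
    rw [hc, map_add, map_mul, map_pow]
    ring
  have hΦ : ∀ x ∈ 𝔫, Ψ' (Ψ' x) ∈ 𝔫 := fun x hx =>
    (stb_cross_frobSq_mem_iff h hq 𝔫 hc₁ hc₂ x).mpr hx
  have key := stb_frobSq_sub_pow_mem (algebraMap R S) Ψ' (Ideal.span {algebraMap R S π}) 𝔫 q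
    ((Ideal.span_singleton_le_iff_mem 𝔫).mpr hπ) hJ hΨ hΦ hrat b
  refine ⟨_, key, ?_⟩
  show Ψ (Ψ (b : F)) = (b : F) ^ (q ^ 2) + (Ψ (Ψ (b : F)) - (b : F) ^ (q ^ 2))
  ring

end Ideal

/-! ## Preservation of a discrete valuation -/

section Val

/-- `σ` preserves the valuation of `V` as soon as `σ V ⊆ V` and there is a uniformizer `ϖ`
(every `f ≠ 0` is `ϖ ^ (-k) · unit`) with `σ ϖ / ϖ` a unit.  (No triviality on the residue field
needed: this is the form of `ls_valuation_map_div_eq_one` for a Frobenius lift.) -/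
theorem stb_valuation_map_div_eq_one (V : ValuationSubring F) (σ : F →+* F)
    (hσ : ∀ x ∈ V, σ x ∈ V) (ϖ : F) (hϖ : V.valuation (σ ϖ / ϖ) = 1)
    {f : F} (k : ℤ) (hf : V.valuation (f * ϖ ^ k) = 1) :
    V.valuation (σ f / f) = 1 := by
  have hϖ0 : ϖ ≠ 0 := by
    intro h
    rw [h, map_zero, div_zero, map_zero] at hϖ
    exact zero_ne_one hϖ
  have hσϖ0 : σ ϖ ≠ 0 := (map_ne_zero σ).mpr hϖ0
  set x := f * ϖ ^ k with hxdef
  have hx0 : x ≠ 0 := by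
    intro h
    rw [h, map_zero] at hf
    exact zero_ne_one hf
  have hf0 : f ≠ 0 := by
    intro h
    apply hx0
    rw [hxdef, h, zero_mul]
  have hσf0 : σ f ≠ 0 := (map_ne_zero σ).mpr hf0
  have hxmem : x ∈ V := (V.valuation_le_one_iff x).mp hf.le
  have hxinv : x⁻¹ ∈ V := by
    rw [← V.valuation_le_one_iff, map_inv₀, hf, inv_one]
  have h1 : V.valuation (σ x) ≤ 1 := (V.valuation_le_one_iff _).mpr (hσ x hxmem)
  have h2 : V.valuation (σ x)⁻¹ ≤ 1 := by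
    have := (V.valuation_le_one_iff _).mpr (hσ _ hxinv)
    rwa [map_inv₀] at this
  have hσx0 : σ x ≠ 0 := (map_ne_zero σ).mpr hx0
  have hvσx0 : V.valuation (σ x) ≠ 0 := (Valuation.ne_zero_iff _).mpr hσx0
  have h3 : V.valuation (σ x) = 1 := by
    apply le_antisymm h1
    rw [map_inv₀] at h2
    have := inv_le_one₀ (zero_lt_iff.mpr hvσx0) |>.mp h2
    exact this
  -- `σ f / f = (σ x / x) * (σ ϖ / ϖ) ^ (-k)`
  have e : σ f / f = (σ x / x) * ((σ ϖ / ϖ) ^ k)⁻¹ := by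
    rw [hxdef, map_mul, map_zpow₀]
    have hϖk : ϖ ^ k ≠ 0 := zpow_ne_zero k hϖ0
    have hσϖk : σ ϖ ^ k ≠ 0 := zpow_ne_zero k hσϖ0
    rw [div_zpow]
    field_simp
  rw [e, map_mul, map_div₀, h3, hf, map_inv₀, map_zpow₀, hϖ, one_zpow, div_one, inv_one, mul_one]

/-- a ring automorphism preserving `V` (together with its inverse) preserves `𝔪(V)` -/
theorem stb_map_mem_nonunits (V : ValuationSubring F) (σ : F ≃+* F)
    (hσ' : ∀ x ∈ V, σ.symm x ∈ V) {x : F} (hx : x ∈ V.nonunits) (hσx : σ x ∈ V) :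
    σ x ∈ V.nonunits := by
  rw [ValuationSubring.mem_nonunits_iff] at hx ⊢
  by_contra hcon
  have h1 : V.valuation (σ x) = 1 :=
    le_antisymm ((V.valuation_le_one_iff _).mpr hσx) (not_lt.mp hcon)
  have hσx0 : σ x ≠ 0 := by
    intro h0
    rw [h0, map_zero] at h1
    exact zero_ne_one h1
  have h2 : (σ x)⁻¹ ∈ V := by
    rw [← V.valuation_le_one_iff, map_inv₀, h1, inv_one]
  have h3 := hσ' _ h2
  rw [map_inv₀, RingEquiv.symm_apply_apply] at h3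
  have h4 : V.valuation x⁻¹ ≤ 1 := (V.valuation_le_one_iff _).mpr h3
  rw [map_inv₀] at h4
  have hx0 : x ≠ 0 := fun h0 => hσx0 (by rw [h0, map_zero])
  have hvx0 : V.valuation x ≠ 0 := (Valuation.ne_zero_iff _).mpr hx0
  have h5 : 1 ≤ V.valuation x := (inv_le_one₀ (zero_lt_iff.mpr hvx0)).mp h4
  exact absurd hx (not_lt.mpr h5)

end Val

end Fermat.Agent.STB
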