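import Mathlib
import Fermat.Agent.UNIP.NodesCuspPoly

/-!
# STB-X (`FrobFix`), part 2c: the closed points of the special fibre are rational

`R` a local ring with algebraically closed residue field (e.g. `A′ = A ∩ E′`,
`stb_isAlgClosed_residue`), `F` an `R`-algebra (a field), `S ⊆ F` a subalgebra which is integral
over `R[u]` (a chart, `S = zchClosure {u}`), `𝔫` a maximal ideal of `S` containing `𝔪_R`.
Then `S ⧸ 𝔫` is the residue field of `R`:

* `stb_rational` : `∀ b : S, ∃ a : R, b - algebraMap R S a ∈ 𝔫`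
  (the hypothesis `hrat` of `stb_cross_hfrobB`).

Proof: `S ⧸ 𝔫` is a field, integral over the image of `κ[X]` (`X ↦ u`), hence the kernel of
`κ[X] → S ⧸ 𝔫` is maximal, and `κ → κ[X] ⧸ P` is integral (Zariski's lemma,
`Polynomial.quotient_mk_comp_C_isIntegral_of_isJacobsonRing`); `κ` is algebraically closed.
-/

set_option autoImplicit false
set_option linter.style.haveILetI false
set_option linter.unusedSectionVars false

namespace Fermat.Agent.STB

open Polynomial Fermat.Agent.UNIP

variable {R F : Type*} [CommRing R] [IsLocalRing R] [Field F] [Algebra R F]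

/-- **The closed points of the special fibre of a chart are rational** over a base with
algebraically closed residue field. -/
theorem stb_rational [IsAlgClosed (IsLocalRing.ResidueField R)] (S : Subalgebra R F) {u : F}
    (hu : u ∈ S) (hS : ∀ b ∈ S, IsIntegral (Algebra.adjoin R {u}) b)
    (𝔫 : Ideal S) [h𝔫 : 𝔫.IsMaximal]
    (h𝔪 : ∀ a ∈ IsLocalRing.maximalIdeal R, algebraMap R S a ∈ 𝔫) (b : S) :
    ∃ a : R, b - algebraMap R S a ∈ 𝔫 := by
  letI : Field (S ⧸ 𝔫) := Ideal.Quotient.field 𝔫
  set f : R →+* S ⧸ 𝔫 := (Ideal.Quotient.mk 𝔫).comp (algebraMap R S) with hf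
  -- `f` factors through the residue field
  set g : IsLocalRing.ResidueField R →+* S ⧸ 𝔫 :=
    Ideal.Quotient.lift (IsLocalRing.maximalIdeal R) f (fun a ha => by
      rw [hf, RingHom.comp_apply]
      exact Ideal.Quotient.eq_zero_iff_mem.mpr (h𝔪 a ha)) with hg
  have hgf : ∀ a : R, g (IsLocalRing.residue R a) = f a := fun a => rfl
  set uS : S := ⟨u, hu⟩ with huS
  set ev : (IsLocalRing.ResidueField R)[X] →+* S ⧸ 𝔫 :=
    Polynomial.eval₂RingHom g (Ideal.Quotient.mk 𝔫 uS) with hev
  -- the two maps `R[X] → S ⧸ 𝔫` agree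
  have hcomp : ev.comp (Polynomial.mapRingHom (IsLocalRing.residue R)) =
      (Ideal.Quotient.mk 𝔫).comp ((aeval uS : R[X] →ₐ[R] S) : R[X] →+* S) := by
    apply Polynomial.ringHom_ext
    · intro a
      simp only [RingHom.comp_apply, Polynomial.coe_mapRingHom, Polynomial.map_C, hev,
        Polynomial.coe_eval₂RingHom, Polynomial.eval₂_C, hgf, hf, RingHom.coe_coe,
        Polynomial.aeval_C]
    · simp only [RingHom.comp_apply, Polynomial.coe_mapRingHom, Polynomial.map_X, hev,
        Polynomial.coe_eval₂RingHom, Polynomial.eval₂_X, RingHom.coe_coe, Polynomial.aeval_X]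
  -- `ev` is integral
  have hint : ev.IsIntegral := by
    intro x
    obtain ⟨c, rfl⟩ := Ideal.Quotient.mk_surjective x
    obtain ⟨p, hp, hpc⟩ := (cusp_isIntegral_adjoin_iff (A := R) u (c : F)).mp (hS c c.2)
    refine ⟨p.map (Polynomial.mapRingHom (IsLocalRing.residue R)), hp.map _, ?_⟩
    rw [Polynomial.eval₂_map, hcomp, ← Polynomial.hom_eval₂]
    have h0 : p.eval₂ ((aeval uS : R[X] →ₐ[R] S) : R[X] →+* S) c = 0 := by
      apply Subtype.val_injective
      have h1 := Polynomial.hom_eval₂ p ((aeval uS : R[X] →ₐ[R] S) : R[X] →+* S)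
        (S.val : S →+* F) c
      have h2 : (S.val : S →+* F).comp ((aeval uS : R[X] →ₐ[R] S) : R[X] →+* S) =
          ((aeval u : R[X] →ₐ[R] F) : R[X] →+* F) := by
        apply Polynomial.ringHom_ext
        · intro a
          simp
        · simp [huS]
      rw [h2] at h1
      have h3 : (S.val : S →+* F) c = (c : F) := rfl
      rw [h3, hpc] at h1
      rw [ZeroMemClass.coe_zero]
      exact h1
    rw [h0, map_zero]
  -- the kernel of `ev` is maximal
  haveI hmax : (RingHom.ker ev).IsMaximal := by
    rw [RingHom.ker_eq_comap_bot]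
    haveI : (⊥ : Ideal (S ⧸ 𝔫)).IsMaximal := Ideal.bot_isMaximal
    exact Ideal.isMaximal_comap_of_isIntegral_of_isMaximal' ev hint ⊥
  have hJ := Polynomial.quotient_mk_comp_C_isIntegral_of_isJacobsonRing (RingHom.ker ev)
  have hlift : (RingHom.kerLift ev).IsIntegral := by
    have h1 : ((RingHom.kerLift ev).comp (Ideal.Quotient.mk (RingHom.ker ev))).IsIntegral := by
      have : (RingHom.kerLift ev).comp (Ideal.Quotient.mk (RingHom.ker ev)) = ev := by
        ext x <;> simp [RingHom.kerLift_mk]
      rw [this]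
      exact hint
    exact RingHom.IsIntegral.tower_top _ _ h1
  have hgint : g.IsIntegral := by
    have h1 := hJ.trans _ _ hlift
    have h2 : (RingHom.kerLift ev).comp ((Ideal.Quotient.mk (RingHom.ker ev)).comp C) = g := by
      ext x
      simp [RingHom.kerLift_mk, hev]
    rw [h2] at h1
    exact h1
  obtain ⟨x, hx⟩ := (IsAlgClosed.ringHom_bijective_of_isIntegral g hgint).2
    (Ideal.Quotient.mk 𝔫 b)
  obtain ⟨a, rfl⟩ := IsLocalRing.residue_surjective x
  refine ⟨a, ?_⟩
  rw [← Ideal.Quotient.eq_zero_iff_mem, map_sub, ← hx, hgf, hf, RingHom.comp_apply, sub_self]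

end Fermat.Agent.STB
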