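import Fermat.Agent.STB.MainTwo
import Fermat.Agent.STB.FrobPoint
import Fermat.Agent.STB.FrobRat

/-!
# STB-C3 — `StbCrossFrob` at a crossing point from `StbFrobVal` (STB-X)

`stb_cf_crossFrob` : the Frobenius hypotheses `StbCrossFrob g (q ^ 2) 𝔫` of `stb_mt_hpts` /
`stb_main_two` at a crossing point `𝔫` of the chart `u`, from

* `h : StbFrobVal (zchClosure {u}).toSubring V₁ V₂ w Ψ q` (helper45, `STB/FrobPoint.lean`),
* `g • x = Ψ (Ψ x)`,
* the Frobenius congruence on the base `Ψ a = a ^ q + π c` (`stb_frob_congr_ring`),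
* the residue field of the base is algebraically closed (`stb_isAlgClosed_residue`).
-/

set_option autoImplicit false
set_option linter.style.haveILetI false
set_option linter.unusedSectionVars false
set_option linter.unusedVariables false

namespace Fermat.Agent.STB

open Polynomial IntermediateField Fermat.Agent.INJ AlgebraicCurve Fermat.Agent.UNIP

section CrossFrob

variable {A₀ E F : Type*} [CommRing A₀] [IsDomain A₀] [IsDiscreteValuationRing A₀]
  [Field E] [Algebra A₀ E] [IsFractionRing A₀ E] [CharZero E]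
  [Field F] [Algebra E F] [Algebra A₀ F] [IsScalarTower A₀ E F]
  {π : A₀}

/-- the closed points of the special fibre of the chart `u` are rational over the base -/
theorem stb_cf_rational [IsAlgClosed (IsLocalRing.ResidueField A₀)] (hπ : Irreducible π)
    {u : F} (𝔫 : AtPt (F := F) π u) (b : ↥(zchClosure (A₀ := A₀) ({u} : Set F))) :
    ∃ a : A₀, b - algebraMap A₀ ↥(zchClosure (A₀ := A₀) ({u} : Set F)) a ∈ 𝔫.1 := by
  haveI := 𝔫.2.1
  refine stb_rational (zchClosure (A₀ := A₀) ({u} : Set F)) (u := u) ?_ ?_ 𝔫.1 ?_ b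
  · exact mem_zchClosure.mpr (isIntegral_algebraMap (R := ↥(Algebra.adjoin A₀ ({u} : Set F)))
      (x := ⟨u, Algebra.subset_adjoin (Set.mem_singleton u)⟩))
  · exact fun b hb => mem_zchClosure.mp hb
  · intro a ha
    rw [hπ.maximalIdeal_eq, Ideal.mem_span_singleton] at ha
    obtain ⟨c, rfl⟩ := ha
    rw [map_mul]
    exact Ideal.mul_mem_right _ _ 𝔫.2.2

/-- **STB-C3.**  `StbCrossFrob g (q ^ 2) 𝔫` at a crossing point from `StbFrobVal`. -/
theorem stb_cf_crossFrob [IsAlgClosed (IsLocalRing.ResidueField A₀)] (hπ : Irreducible π)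
    {u : F} (V₁ V₂ : ValuationSubring F) (w Ψ : F ≃+* F) (q : ℕ) (hq : q ≠ 0)
    (h : StbFrobVal (zchClosure (A₀ := A₀) ({u} : Set F)).toSubring V₁ V₂ w Ψ q)
    (g : SemilinearAut E F) (hg : ∀ x : F, g • x = Ψ (Ψ x))
    (hΨR : ∀ a : A₀, ∃ c : A₀, Ψ (algebraMap A₀ F a) = algebraMap A₀ F (a ^ q + π * c))
    (𝔫 : AtPt (F := F) π u) (hc₁ : atThrough 𝔫 V₁) (hc₂ : atThrough 𝔫 V₂) :
    StbCrossFrob g (q ^ 2) 𝔫 := by
  haveI := 𝔫.2.1.isPrime
  have hg' : ∀ x : F, g⁻¹ • x = Ψ.symm (Ψ.symm x) := by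
    intro x
    have h1 : g • (Ψ.symm (Ψ.symm x)) = x := by
      rw [hg, RingEquiv.apply_symm_apply, RingEquiv.apply_symm_apply]
    calc g⁻¹ • x = g⁻¹ • (g • (Ψ.symm (Ψ.symm x))) := by rw [h1]
      _ = Ψ.symm (Ψ.symm x) := inv_smul_smul _ _
  refine ⟨fun b hb => ?_, fun b hb => ?_, fun b => ?_⟩
  · obtain ⟨b', hb', e⟩ := stb_cross_hgB h hq 𝔫.1 hc₁ hc₂ b hb
    exact ⟨b', hb', by rw [hg]; exact e⟩
  · obtain ⟨b', hb', e⟩ := stb_cross_hgB' h hq 𝔫.1 hc₁ hc₂ b hb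
    exact ⟨b', hb', by rw [hg']; exact e⟩
  · obtain ⟨c, hc, e⟩ := stb_cross_hfrobB h hq 𝔫.1 hc₁ hc₂ π 𝔫.2.2 hΨR
      (stb_cf_rational hπ 𝔫) b
    exact ⟨c, hc, by rw [hg]; exact e⟩

end CrossFrob

end Fermat.Agent.STB
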