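/-
RIB / MP, piece MP-SW part 2 (helper45): the hypotheses of `stbsw_main_points` which concern the
SWAPPING endomorphism `g = Ψ ∘ w` (`Ψ` a Frobenius lift, `w` the Atkin–Lehner involution), from
`StbFrobVal` (STB-X, `STB/FrobPoint.lean`).

* `StbFrobVal.swapFrob_sub_pow` : (Fr′), set form: at a crossing point `N` of the chart `B`,
  `g (B_N) ⊆ B_N` and `g x − x ^ q ∈ N B_N`.
* `stbsw_cross_hfrob` : (Fr′) in the form of the 4th field of `StbCross (atLoc 𝔫) V₁ V₂ g q m y`.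
* `stbsw_exists_preimage` : for a local subring `O` of `F` with `g (B_u) ⊆ O` (rational residue
  field): the point `𝔫₁ = B_u ∩ g⁻¹ 𝔪_O` of the chart `u`, `g (atLoc 𝔫₁) ⊆ O`, and incidence.
-/
import Fermat.Agent.STB.CrossFrob
import Fermat.Agent.STB.SwapT

set_option autoImplicit false
set_option linter.unusedSectionVars false
set_option linter.unusedVariables false
set_option linter.style.haveILetI false

namespace Fermat.Agent.STB

open Polynomial IntermediateField Fermat.Agent.INJ Fermat.Agent.UNIP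

section SetForm

variable {F : Type*} [Field F]

/-- cancellation of a unit of the local ring `B_N` -/
theorem StbPt.loc_of_unit_mul {B : Subring F} {N : Set F} (h : StbPt B N) {a x : F}
    (ha : a ∈ stbLoc B N) (ha' : a ∉ stbLocMax B N) (hax : a * x ∈ stbLoc B N) :
    x ∈ stbLoc B N := by
  obtain ⟨s₁, hs₁, hs₁N, hb₁⟩ := ha
  obtain ⟨s₂, hs₂, hs₂N, hb₂⟩ := hax
  have hb₁N : s₁ * a ∉ N := fun hh => ha' ⟨s₁, hs₁, hs₁N, hh⟩
  refine ⟨s₂ * (s₁ * a), B.mul_mem hs₂ hb₁, h.not_mem_mul hs₂ hb₁ hs₂N hb₁N, ?_⟩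
  have e : s₂ * (s₁ * a) * x = s₁ * (s₂ * (a * x)) := by ring
  rw [e]
  exact B.mul_mem hs₁ hb₂

theorem StbPt.loc_add {B : Subring F} {N : Set F} (h : StbPt B N) {x y : F}
    (hx : x ∈ stbLoc B N) (hy : y ∈ stbLoc B N) : x + y ∈ stbLoc B N := by
  obtain ⟨s, hs, hsN, hsx⟩ := hx
  obtain ⟨t, ht, htN, hty⟩ := hy
  refine ⟨s * t, B.mul_mem hs ht, h.not_mem_mul hs ht hsN htN, ?_⟩
  have e : s * t * (x + y) = t * (s * x) + s * (t * y) := by ring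
  rw [e]
  exact B.add_mem (B.mul_mem ht hsx) (B.mul_mem hs hty)

theorem StbPt.loc_neg {B : Subring F} {N : Set F} (h : StbPt B N) {x : F}
    (hx : x ∈ stbLoc B N) : -x ∈ stbLoc B N := by
  obtain ⟨s, hs, hsN, hsx⟩ := hx
  refine ⟨s, hs, hsN, ?_⟩
  rw [mul_neg]
  exact B.neg_mem hsx

theorem StbPt.loc_sub {B : Subring F} {N : Set F} (h : StbPt B N) {x y : F}
    (hx : x ∈ stbLoc B N) (hy : y ∈ stbLoc B N) : x - y ∈ stbLoc B N := by
  rw [sub_eq_add_neg]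
  exact h.loc_add hx (h.loc_neg hy)

theorem StbPt.locMax_sub {B : Subring F} {N : Set F} (h : StbPt B N) {x y : F}
    (hx : x ∈ stbLocMax B N) (hy : y ∈ stbLocMax B N) : x - y ∈ stbLocMax B N := by
  rw [sub_eq_add_neg]
  exact h.locMax_add hx (h.locMax_neg hy)

/-- `x ≡ y` modulo `N B_N` implies `x ^ n ≡ y ^ n` -/
theorem StbPt.locMax_pow_sub_pow {B : Subring F} {N : Set F} (h : StbPt B N) {x y : F}
    (hx : x ∈ stbLoc B N) (hy : y ∈ stbLoc B N) (hxy : x - y ∈ stbLocMax B N) (n : ℕ) :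
    x ^ n - y ^ n ∈ stbLocMax B N := by
  induction n with
  | zero =>
    rw [pow_zero, pow_zero, sub_self]
    exact (h.mem_locMax_iff B.zero_mem).mpr h.zero
  | succ n ih =>
    have e : x ^ (n + 1) - y ^ (n + 1) = x ^ n * (x - y) + y * (x ^ n - y ^ n) := by ring
    rw [e]
    exact h.locMax_add (h.locMax_mul (h.loc_pow hx n) hxy) (h.locMax_mul hy ih)

namespace StbFrobVal

variable {B : Subring F} {Vinf V0 : ValuationSubring F} {w Ψ : F ≃+* F} {q : ℕ} {N : Set F}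

/-- `g B ⊆ B_N` at a crossing point, `g = Ψ ∘ w` -/
theorem swapFrob_chart_mem_loc (h : StbFrobVal B Vinf V0 w Ψ q) (hN : StbCrossPt B Vinf V0 N)
    {b : F} (hb : b ∈ B) : Ψ (w b) ∈ stbLoc B N := by
  rw [h.hΨw]
  exact h.swap_mem_loc hN (h.hΨB b hb)

/-- `g⁻¹ (N B_N) ∩ B = N` at a crossing point -/
theorem swapFrob_chart_mem_locMax_iff (h : StbFrobVal B Vinf V0 w Ψ q) (hq : q ≠ 0)
    (hN : StbCrossPt B Vinf V0 N) {b : F} (hb : b ∈ B) :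
    Ψ (w b) ∈ stbLocMax B N ↔ b ∈ N := by
  rw [h.hΨw, h.swap_mem_iff hq hN (h.hΨB b hb), RingEquiv.symm_apply_apply]

/-- `g (B_N) ⊆ B_N` at a crossing point -/
theorem swapFrob_mem_loc (h : StbFrobVal B Vinf V0 w Ψ q) (hq : q ≠ 0)
    (hN : StbCrossPt B Vinf V0 N) {x : F} (hx : x ∈ stbLoc B N) : Ψ (w x) ∈ stbLoc B N := by
  obtain ⟨s, hs, hsN, hsx⟩ := hx
  have h1 : Ψ (w s) * Ψ (w x) ∈ stbLoc B N := by
    rw [← map_mul, ← map_mul]
    exact h.swapFrob_chart_mem_loc hN hsx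
  exact hN.toStbPt.loc_of_unit_mul (h.swapFrob_chart_mem_loc hN hs)
    (fun hh => hsN ((h.swapFrob_chart_mem_locMax_iff hq hN hs).mp hh)) h1

/-- `g (N B_N) ⊆ N B_N` at a crossing point -/
theorem swapFrob_mem_locMax (h : StbFrobVal B Vinf V0 w Ψ q) (hq : q ≠ 0)
    (hN : StbCrossPt B Vinf V0 N) {x : F} (hx : x ∈ stbLocMax B N) :
    Ψ (w x) ∈ stbLocMax B N := by
  obtain ⟨s, hs, hsN, hsx⟩ := hx
  have h1 : Ψ (w s) * Ψ (w x) ∈ stbLocMax B N := by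
    rw [← map_mul, ← map_mul]
    exact (h.swapFrob_chart_mem_locMax_iff hq hN (hN.toStbPt.sub _ hsx)).mpr hsx
  exact (hN.toStbPt.locMax_prime (h.swapFrob_chart_mem_loc hN hs)
    (h.swapFrob_mem_loc hq hN (hN.toStbPt.locMax_le_loc ⟨s, hs, hsN, hsx⟩)) h1).resolve_left
    (fun hh => hsN ((h.swapFrob_chart_mem_locMax_iff hq hN hs).mp hh))

/-- **(Fr′), set form.**  At a crossing point `N` of the chart `B`, rational over the base `R`
(`hrat`), `w` fixing the constants and `Ψ a ≡ a ^ q mod π` on `R`: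
`g x − x ^ q ∈ N B_N` for every `x ∈ B_N`, `g = Ψ ∘ w`. -/
theorem swapFrob_sub_pow {R : Type*} [CommRing R] (ι : R →+* F)
    (h : StbFrobVal B Vinf V0 w Ψ q) (hq : q ≠ 0) (hN : StbCrossPt B Vinf V0 N)
    (hιB : ∀ a : R, ι a ∈ B) (π : R) (hπ : ι π ∈ N)
    (hwR : ∀ a : R, w (ι a) = ι a)
    (hΨR : ∀ a : R, ∃ c : R, Ψ (ι a) = ι (a ^ q + π * c))
    (hrat : ∀ b ∈ B, ∃ a : R, b - ι a ∈ N) {x : F} (hx : x ∈ stbLoc B N) :
    Ψ (w x) - x ^ q ∈ stbLocMax B N := by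
  have hP := hN.toStbPt
  -- chart level
  have hchart : ∀ b ∈ B, Ψ (w b) - b ^ q ∈ stbLocMax B N := by
    intro b hb
    obtain ⟨a, ha⟩ := hrat b hb
    obtain ⟨c, hc⟩ := hΨR a
    have h1 : Ψ (w (b - ι a)) ∈ stbLocMax B N :=
      (h.swapFrob_chart_mem_locMax_iff hq hN (hP.sub _ ha)).mpr ha
    have h2 : ι π * ι c ∈ stbLocMax B N := by
      rw [mul_comm]
      exact (hP.mem_locMax_iff (B.mul_mem (hιB c) (hιB π))).mpr (hP.mul _ (hιB c) _ hπ)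
    have h3 : b ^ q - ι a ^ q ∈ stbLocMax B N :=
      hP.locMax_pow_sub_pow (hP.loc_of_mem hb) (hP.loc_of_mem (hιB a))
        ((hP.mem_locMax_iff (B.sub_mem hb (hιB a))).mpr ha) q
    have e : Ψ (w b) - b ^ q = Ψ (w (b - ι a)) + ι π * ι c - (b ^ q - ι a ^ q) := by
      rw [map_sub, map_sub, hwR, hc, map_add, map_mul, map_pow]
      ring
    rw [e]
    exact hP.locMax_sub (hP.locMax_add h1 h2) h3
  obtain ⟨s, hs, hsN, hsx⟩ := hx
  have hxO : x ∈ stbLoc B N := ⟨s, hs, hsN, hsx⟩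
  have hgs : Ψ (w s) ∈ stbLoc B N := h.swapFrob_chart_mem_loc hN hs
  have hgs' : Ψ (w s) ∉ stbLocMax B N :=
    fun hh => hsN ((h.swapFrob_chart_mem_locMax_iff hq hN hs).mp hh)
  have hsq : s ^ q ∈ stbLoc B N := hP.loc_pow (hP.loc_of_mem hs) q
  have hsq' : s ^ q ∉ stbLocMax B N := fun hh =>
    hsN ((hP.mem_locMax_iff hs).mp (hP.locMax_of_pow (hP.loc_of_mem hs) hh))
  have hgx : Ψ (w x) ∈ stbLoc B N := h.swapFrob_mem_loc hq hN hxO
  have hxq : x ^ q ∈ stbLoc B N := hP.loc_pow hxO q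
  -- `g s · s ^ q · (g x − x ^ q) = s ^ q · (g (s x) − (s x) ^ q) − (s x) ^ q · (g s − s ^ q)`
  have e : (Ψ (w s) * s ^ q) * (Ψ (w x) - x ^ q) =
      s ^ q * (Ψ (w (s * x)) - (s * x) ^ q) - (s * x) ^ q * (Ψ (w s) - s ^ q) := by
    rw [map_mul, map_mul, mul_pow]
    ring
  have h4 : (Ψ (w s) * s ^ q) * (Ψ (w x) - x ^ q) ∈ stbLocMax B N := by
    rw [e]
    exact hP.locMax_sub (hP.locMax_mul hsq (hchart _ hsx))
      (hP.locMax_mul (hP.loc_pow (hP.loc_of_mem hsx) q) (hchart s hs))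
  have h5 : Ψ (w s) * s ^ q ∉ stbLocMax B N := fun hh =>
    (hP.locMax_prime hgs hsq hh).elim hgs' hsq'
  exact (hP.locMax_prime (hP.loc_mul hgs hsq) (hP.loc_sub hgx hxq) h4).resolve_left h5

end StbFrobVal

end SetForm

section AtForm

variable {A₀ E F : Type*} [CommRing A₀] [IsDomain A₀] [IsDiscreteValuationRing A₀]
  [Field E] [Algebra A₀ E] [IsFractionRing A₀ E] [CharZero E]
  [Field F] [Algebra E F] [Algebra A₀ F] [IsScalarTower A₀ E F]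
  {π : A₀}

/-- the local ring `atLoc 𝔫` in set form -/
theorem stbsw_mem_atLoc_iff {u : F} (𝔫 : AtPt (F := F) π u) {x : F} :
    x ∈ atLoc 𝔫 ↔
      x ∈ stbLoc (zchClosure (A₀ := A₀) ({u} : Set F)).toSubring
        (stbIdealSet (zchClosure (A₀ := A₀) ({u} : Set F)) 𝔫.1) := by
  constructor
  · rintro ⟨b, s, hs, hsx⟩
    refine ⟨(s : F), s.2, fun hh => hs ((coe_mem_stbIdealSet s).mp hh), ?_⟩
    have e : (s : F) * x = (b : F) := hsx
    rw [e]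
    exact b.2
  · rintro ⟨s, hs, hsN, hsx⟩
    exact ⟨⟨s * x, hsx⟩, ⟨s, hs⟩, fun hh => hsN ⟨hs, hh⟩, rfl⟩

/-- nonunits of the local ring `atLoc 𝔫` in set form -/
theorem stbsw_not_isUnit_of_locMax {u : F} (𝔫 : AtPt (F := F) π u) (z : atLoc 𝔫)
    (hz : (z : F) ∈ stbLocMax (zchClosure (A₀ := A₀) ({u} : Set F)).toSubring
      (stbIdealSet (zchClosure (A₀ := A₀) ({u} : Set F)) 𝔫.1)) : ¬ IsUnit z := by
  haveI := 𝔫.2.1.isPrime
  have hP := stbPt_of_isPrime (S := zchClosure (A₀ := A₀) ({u} : Set F)) 𝔫.1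
  intro hu
  obtain ⟨z', hz'⟩ := hu.exists_right_inv
  have h1 : (z' : F) * (z : F) = 1 := by
    rw [mul_comm]
    exact congrArg Subtype.val hz'
  have h2 := hP.locMax_mul ((stbsw_mem_atLoc_iff 𝔫).mp z'.2) hz
  rw [h1] at h2
  exact hP.one_not_mem_locMax h2

/-- **(Fr′) at a crossing point, swap form** : the 4th field of
`StbCross (atLoc 𝔫) V₁ V₂ g q m y` for `g = Ψ ∘ w`, from `StbFrobVal` on the chart `u`. -/
theorem stbsw_cross_hfrob [IsAlgClosed (IsLocalRing.ResidueField A₀)] (hπ : Irreducible π)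
    {u : F} (V₁ V₂ : ValuationSubring F) (w Ψ : F ≃+* F) (q : ℕ) (hq : q ≠ 0)
    (h : StbFrobVal (zchClosure (A₀ := A₀) ({u} : Set F)).toSubring V₁ V₂ w Ψ q)
    (g : F →+* F) (hg : ∀ x : F, g x = Ψ (w x))
    (hwR : ∀ a : A₀, w (algebraMap A₀ F a) = algebraMap A₀ F a)
    (hΨR : ∀ a : A₀, ∃ c : A₀, Ψ (algebraMap A₀ F a) = algebraMap A₀ F (a ^ q + π * c))
    (𝔫 : AtPt (F := F) π u) (hc₁ : atThrough 𝔫 V₁) (hc₂ : atThrough 𝔫 V₂) (x : atLoc 𝔫) :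
    ∃ z : atLoc 𝔫, ¬ IsUnit z ∧ (z : F) = g (x : F) - (x : F) ^ q := by
  haveI := 𝔫.2.1.isPrime
  have hN := stbCrossPt_of_isPrime (S := zchClosure (A₀ := A₀) ({u} : Set F)) 𝔫.1 V₁ V₂ hc₁ hc₂
  have hx := (stbsw_mem_atLoc_iff 𝔫).mp x.2
  have hιB : ∀ a : A₀, algebraMap A₀ F a ∈ (zchClosure (A₀ := A₀) ({u} : Set F)).toSubring :=
    fun a => (zchClosure (A₀ := A₀) ({u} : Set F)).algebraMap_mem a
  have hπN : algebraMap A₀ F π ∈ stbIdealSet (zchClosure (A₀ := A₀) ({u} : Set F)) 𝔫.1 :=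
    ⟨hιB π, 𝔫.2.2⟩
  have hrat : ∀ b ∈ (zchClosure (A₀ := A₀) ({u} : Set F)).toSubring,
      ∃ a : A₀, b - algebraMap A₀ F a ∈ stbIdealSet (zchClosure (A₀ := A₀) ({u} : Set F)) 𝔫.1 := by
    intro b hb
    obtain ⟨a, ha⟩ := stb_cf_rational hπ 𝔫 ⟨b, hb⟩
    exact ⟨a, Subalgebra.sub_mem _ hb (hιB a), ha⟩
  have key := h.swapFrob_sub_pow (algebraMap A₀ F) hq hN hιB π hπN hwR hΨR hrat hx
  have hmem : g (x : F) - (x : F) ^ q ∈ atLoc 𝔫 := by
    rw [hg]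
    exact (stbsw_mem_atLoc_iff 𝔫).mpr (hN.toStbPt.locMax_le_loc key)
  refine ⟨⟨_, hmem⟩, stbsw_not_isUnit_of_locMax 𝔫 _ ?_, rfl⟩
  show g (x : F) - (x : F) ^ q ∈ _
  rw [hg]
  exact key

/-- nonunits of the local ring `atLoc 𝔫`, set form, converse -/
theorem stbsw_locMax_of_not_isUnit {u : F} (𝔫 : AtPt (F := F) π u) (z : atLoc 𝔫)
    (hz : ¬ IsUnit z) :
    (z : F) ∈ stbLocMax (zchClosure (A₀ := A₀) ({u} : Set F)).toSubring
      (stbIdealSet (zchClosure (A₀ := A₀) ({u} : Set F)) 𝔫.1) := by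
  haveI := 𝔫.2.1.isPrime
  obtain ⟨b, s, hs, hsx⟩ := z.2
  have hb : b ∈ 𝔫.1 := by
    by_contra hb
    exact hz (ls_isUnit_of_not_mem Subtype.val_injective 𝔫.1 z hb hs hsx)
  refine ⟨(s : F), s.2, fun hh => hs ((coe_mem_stbIdealSet s).mp hh), ?_⟩
  have e : (s : F) * (z : F) = (b : F) := hsx
  rw [e]
  exact (coe_mem_stbIdealSet b).mpr hb

/-- the closed points are rational: every element of `atLoc 𝔫` is congruent to a constant -/
theorem stbsw_atLoc_rational [IsAlgClosed (IsLocalRing.ResidueField A₀)] (hπ : Irreducible π)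
    {u : F} (𝔫 : AtPt (F := F) π u) {x : F} (hx : x ∈ atLoc 𝔫) :
    ∃ a : A₀, x - algebraMap A₀ F a ∈
      stbLocMax (zchClosure (A₀ := A₀) ({u} : Set F)).toSubring
        (stbIdealSet (zchClosure (A₀ := A₀) ({u} : Set F)) 𝔫.1) := by
  haveI := 𝔫.2.1.isPrime
  obtain ⟨b, s, hs, hsx⟩ := hx
  have hsx' : (s : F) * x = (b : F) := hsx
  obtain ⟨a₁, ha₁⟩ := stb_cf_rational hπ 𝔫 b
  obtain ⟨a₂, ha₂⟩ := stb_cf_rational hπ 𝔫 s
  have ha₂u : IsUnit a₂ := by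
    by_contra hnu
    have hmem : a₂ ∈ IsLocalRing.maximalIdeal A₀ := (IsLocalRing.mem_maximalIdeal a₂).mpr hnu
    rw [hπ.maximalIdeal_eq, Ideal.mem_span_singleton] at hmem
    obtain ⟨c, rfl⟩ := hmem
    apply hs
    have h1 : algebraMap A₀ ↥(zchClosure (A₀ := A₀) ({u} : Set F)) (π * c) ∈ 𝔫.1 := by
      rw [map_mul]
      exact Ideal.mul_mem_right _ _ 𝔫.2.2
    have := 𝔫.1.add_mem ha₂ h1
    rwa [sub_add_cancel] at this
  obtain ⟨a₃, ha₃⟩ := ha₂u.exists_right_inv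
  refine ⟨a₁ * a₃, (s : F), s.2, fun hh => hs ((coe_mem_stbIdealSet s).mp hh), ?_⟩
  have h3 : algebraMap A₀ F a₂ * algebraMap A₀ F a₃ = 1 := by
    rw [← map_mul, ha₃, map_one]
  have key := (coe_mem_stbIdealSet (𝔫 := 𝔫.1)
    ((b - algebraMap A₀ ↥(zchClosure (A₀ := A₀) ({u} : Set F)) a₁) -
      (s - algebraMap A₀ ↥(zchClosure (A₀ := A₀) ({u} : Set F)) a₂) *
        algebraMap A₀ ↥(zchClosure (A₀ := A₀) ({u} : Set F)) (a₁ * a₃))).mpr
    (𝔫.1.sub_mem ha₁ (Ideal.mul_mem_right _ _ ha₂))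
  have e : (s : F) * (x - algebraMap A₀ F (a₁ * a₃)) =
      ((b : F) - algebraMap A₀ F a₁) - ((s : F) - algebraMap A₀ F a₂) *
        algebraMap A₀ F (a₁ * a₃) := by
    rw [mul_sub, hsx', map_mul]
    linear_combination (-(algebraMap A₀ F a₁)) * h3
  rw [e]
  exact key

/-- **The preimage of a closed point under `g`.**  `𝔫` a closed point of the chart `u₀`,
`g (B_u) ⊆ atLoc 𝔫`, `g a ≡ a ^ q mod π` on the base (residue field algebraically closed).  Then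
`𝔫₁ = B_u ∩ g⁻¹ (𝔪 (atLoc 𝔫))` is a closed point of the chart `u`, `g (atLoc 𝔫₁) ⊆ atLoc 𝔫`, and
if `g 𝔪(W') ⊆ 𝔪(W)` and `W` passes through `𝔫` then `W'` passes through `𝔫₁`. -/
theorem stbsw_exists_preimage_iff [IsAlgClosed (IsLocalRing.ResidueField A₀)]
    (hπ : Irreducible π)
    {u u₀ : F} (𝔫 : AtPt (F := F) π u₀) (g : F →+* F) (q : ℕ) (hq : q ≠ 0)
    (hgB : ∀ b : F, IsIntegral ↥(Algebra.adjoin A₀ {u}) b → g b ∈ atLoc 𝔫)
    (hgA : ∀ a : A₀, ∃ c : A₀, g (algebraMap A₀ F a) = algebraMap A₀ F (a ^ q + π * c)) :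
    ∃ 𝔫₁ : AtPt (F := F) π u, (∀ x ∈ atLoc 𝔫₁, g x ∈ atLoc 𝔫) ∧
      (∀ W W' : ValuationSubring F, (∀ x ∈ W'.nonunits, g x ∈ W.nonunits) →
        (∀ b : F, IsIntegral ↥(Algebra.adjoin A₀ {u₀}) b → b ∈ W) → atThrough 𝔫 W →
        atThrough 𝔫₁ W') ∧
      ∀ b : ↥(zchClosure (A₀ := A₀) ({u} : Set F)), b ∈ 𝔫₁.1 ↔
        g (b : F) ∈ stbLocMax (zchClosure (A₀ := A₀) ({u₀} : Set F)).toSubring
          (stbIdealSet (zchClosure (A₀ := A₀) ({u₀} : Set F)) 𝔫.1) := by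
  haveI := 𝔫.2.1.isPrime
  haveI hloc : IsLocalRing (atLoc 𝔫) := ls_localSubring_isLocalRing Subtype.val_injective 𝔫.1
  have hP₀ := stbPt_of_isPrime (S := zchClosure (A₀ := A₀) ({u₀} : Set F)) 𝔫.1
  have hιB : ∀ a : A₀, algebraMap A₀ F a ∈ (zchClosure (A₀ := A₀) ({u₀} : Set F)).toSubring :=
    fun a => (zchClosure (A₀ := A₀) ({u₀} : Set F)).algebraMap_mem a
  have hιS : ∀ a : A₀, algebraMap A₀ F a ∈ zchClosure (A₀ := A₀) ({u} : Set F) :=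
    fun a => (zchClosure (A₀ := A₀) ({u} : Set F)).algebraMap_mem a
  -- the ring homomorphism `φ : B_u → atLoc 𝔫`
  let φ : ↥(zchClosure (A₀ := A₀) ({u} : Set F)) →+* ↥(atLoc 𝔫) :=
    (g.comp (zchClosure (A₀ := A₀) ({u} : Set F)).val.toRingHom).codRestrict (atLoc 𝔫)
      (fun b => hgB _ (mem_zchClosure.mp b.2))
  have hφ : ∀ b : ↥(zchClosure (A₀ := A₀) ({u} : Set F)), ((φ b : atLoc 𝔫) : F) = g (b : F) :=
    fun b => rfl
  have hiff : ∀ b : ↥(zchClosure (A₀ := A₀) ({u} : Set F)),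
      b ∈ Ideal.comap φ (IsLocalRing.maximalIdeal (atLoc 𝔫)) ↔
        g (b : F) ∈ stbLocMax (zchClosure (A₀ := A₀) ({u₀} : Set F)).toSubring
          (stbIdealSet (zchClosure (A₀ := A₀) ({u₀} : Set F)) 𝔫.1) := by
    intro b
    rw [Ideal.mem_comap, IsLocalRing.mem_maximalIdeal, mem_nonunits_iff]
    constructor
    · intro h
      exact stbsw_locMax_of_not_isUnit 𝔫 (φ b) h
    · intro h
      exact stbsw_not_isUnit_of_locMax 𝔫 (φ b) h
  have hπmax : algebraMap A₀ F π ∈ stbLocMax (zchClosure (A₀ := A₀) ({u₀} : Set F)).toSubring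
      (stbIdealSet (zchClosure (A₀ := A₀) ({u₀} : Set F)) 𝔫.1) :=
    (hP₀.mem_locMax_iff (hιB π)).mpr ⟨hιB π, 𝔫.2.2⟩
  have hconst : ∀ a : A₀, algebraMap A₀ F a ∈
      stbLoc (zchClosure (A₀ := A₀) ({u₀} : Set F)).toSubring
        (stbIdealSet (zchClosure (A₀ := A₀) ({u₀} : Set F)) 𝔫.1) :=
    fun a => hP₀.loc_of_mem (hιB a)
  have hπc : ∀ c : A₀, algebraMap A₀ F (π * c) ∈
      stbLocMax (zchClosure (A₀ := A₀) ({u₀} : Set F)).toSubring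
        (stbIdealSet (zchClosure (A₀ := A₀) ({u₀} : Set F)) 𝔫.1) := by
    intro c
    rw [map_mul, mul_comm]
    exact hP₀.locMax_mul (hconst c) hπmax
  have hgπ : ∀ c : A₀, g (algebraMap A₀ F (π * c)) ∈
      stbLocMax (zchClosure (A₀ := A₀) ({u₀} : Set F)).toSubring
        (stbIdealSet (zchClosure (A₀ := A₀) ({u₀} : Set F)) 𝔫.1) := by
    intro c
    obtain ⟨d, hd⟩ := hgA (π * c)
    have e : (π * c) ^ q + π * d = π * (π ^ (q - 1) * c ^ q + d) := by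
      obtain ⟨n, rfl⟩ := Nat.exists_eq_succ_of_ne_zero hq
      rw [Nat.succ_sub_one, mul_pow, pow_succ]
      ring
    rw [hd, e]
    exact hπc _
  -- maximality
  have hmax : (Ideal.comap φ (IsLocalRing.maximalIdeal (atLoc 𝔫))).IsMaximal := by
    rw [Ideal.isMaximal_iff]
    refine ⟨fun h1 => ?_, fun J x hIJ hxI hxJ => ?_⟩
    · rw [Ideal.mem_comap, map_one] at h1
      exact (IsLocalRing.maximalIdeal.isMaximal _).ne_top ((Ideal.eq_top_iff_one _).mpr h1)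
    · obtain ⟨a', ha'⟩ := stbsw_atLoc_rational hπ 𝔫 (hgB _ (mem_zchClosure.mp x.2))
      obtain ⟨z, hz⟩ := IsAlgClosed.exists_pow_nat_eq (IsLocalRing.residue A₀ a')
        (Nat.pos_of_ne_zero hq)
      obtain ⟨a₁, rfl⟩ := IsLocalRing.residue_surjective z
      have hres : a₁ ^ q - a' ∈ IsLocalRing.maximalIdeal A₀ := by
        rw [← IsLocalRing.residue_eq_zero_iff, map_sub, map_pow, hz, sub_self]
      rw [hπ.maximalIdeal_eq, Ideal.mem_span_singleton] at hres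
      obtain ⟨d, hd⟩ := hres
      obtain ⟨c, hc⟩ := hgA a₁
      have hxa : x - algebraMap A₀ ↥(zchClosure (A₀ := A₀) ({u} : Set F)) a₁ ∈
          Ideal.comap φ (IsLocalRing.maximalIdeal (atLoc 𝔫)) := by
        rw [hiff]
        have e : g ((x - algebraMap A₀ ↥(zchClosure (A₀ := A₀) ({u} : Set F)) a₁ :
            ↥(zchClosure (A₀ := A₀) ({u} : Set F))) : F) =
            (g (x : F) - algebraMap A₀ F a') - algebraMap A₀ F (π * (d + c)) := by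
          have e1 : ((x - algebraMap A₀ ↥(zchClosure (A₀ := A₀) ({u} : Set F)) a₁ :
              ↥(zchClosure (A₀ := A₀) ({u} : Set F))) : F) = (x : F) - algebraMap A₀ F a₁ := rfl
          have e2 : algebraMap A₀ F (a₁ ^ q) - algebraMap A₀ F a' = algebraMap A₀ F (π * d) := by
            rw [← map_sub, hd]
          rw [e1, map_sub, hc, map_add, mul_add, map_add]
          linear_combination -e2
        rw [e]
        exact hP₀.locMax_sub ha' (hπc _)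
      have ha₁u : IsUnit a₁ := by
        by_contra hnu
        have hmem : a₁ ∈ IsLocalRing.maximalIdeal A₀ := (IsLocalRing.mem_maximalIdeal a₁).mpr hnu
        rw [hπ.maximalIdeal_eq, Ideal.mem_span_singleton] at hmem
        obtain ⟨e, rfl⟩ := hmem
        apply hxI
        have h1 : algebraMap A₀ ↥(zchClosure (A₀ := A₀) ({u} : Set F)) (π * e) ∈
            Ideal.comap φ (IsLocalRing.maximalIdeal (atLoc 𝔫)) := by
          rw [hiff]
          exact hgπ e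
        have := Ideal.add_mem _ hxa h1
        rwa [sub_add_cancel] at this
      obtain ⟨a₃, ha₃⟩ := ha₁u.exists_left_inv
      have h2 : algebraMap A₀ ↥(zchClosure (A₀ := A₀) ({u} : Set F)) a₁ ∈ J := by
        have := J.sub_mem hxJ (hIJ hxa)
        rwa [sub_sub_cancel] at this
      have h3 := J.mul_mem_left (algebraMap A₀ ↥(zchClosure (A₀ := A₀) ({u} : Set F)) a₃) h2
      rwa [← map_mul, ha₃, map_one] at h3
  have hπI : algebraMap A₀ ↥(zchClosure (A₀ := A₀) ({u} : Set F)) π ∈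
      Ideal.comap φ (IsLocalRing.maximalIdeal (atLoc 𝔫)) := by
    rw [hiff]
    have := hgπ 1
    rwa [mul_one] at this
  refine ⟨⟨Ideal.comap φ (IsLocalRing.maximalIdeal (atLoc 𝔫)), hmax, hπI⟩, ?_, ?_, hiff⟩
  · rintro x ⟨b, s, hs, hsx⟩
    have hsx' : (s : F) * x = (b : F) := hsx
    have hsu : IsUnit (φ s) := by
      by_contra hnu
      exact hs ((Ideal.mem_comap).mpr ((IsLocalRing.mem_maximalIdeal _).mpr hnu))
    obtain ⟨v, hv⟩ := hsu.exists_left_inv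
    have hv' : (v : F) * g (s : F) = 1 := by
      have := congrArg Subtype.val hv
      simpa [hφ] using this
    have e : g x = (v : F) * g (b : F) := by
      rw [← hsx', map_mul, ← mul_assoc, hv', one_mul]
    rw [e]
    exact (atLoc 𝔫).mul_mem v.2 (φ b).2
  · intro W W' hgW hBW hthr b hb
    show b ∈ Ideal.comap φ (IsLocalRing.maximalIdeal (atLoc 𝔫))
    rw [hiff]
    exact hP₀.locMax_of_nonunits W (fun b hb => hBW b (mem_zchClosure.mp hb))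
      (fun b hb hbW => ⟨hb, hthr ⟨b, hb⟩ hbW⟩)
      ((stbsw_mem_atLoc_iff 𝔫).mp (hgB _ (mem_zchClosure.mp b.2))) (hgW _ hb)

/-- `stbsw_exists_preimage_iff` without the characterisation of `𝔫₁` -/
theorem stbsw_exists_preimage [IsAlgClosed (IsLocalRing.ResidueField A₀)] (hπ : Irreducible π)
    {u u₀ : F} (𝔫 : AtPt (F := F) π u₀) (g : F →+* F) (q : ℕ) (hq : q ≠ 0)
    (hgB : ∀ b : F, IsIntegral ↥(Algebra.adjoin A₀ {u}) b → g b ∈ atLoc 𝔫)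
    (hgA : ∀ a : A₀, ∃ c : A₀, g (algebraMap A₀ F a) = algebraMap A₀ F (a ^ q + π * c)) :
    ∃ 𝔫₁ : AtPt (F := F) π u, (∀ x ∈ atLoc 𝔫₁, g x ∈ atLoc 𝔫) ∧
      ∀ W W' : ValuationSubring F, (∀ x ∈ W'.nonunits, g x ∈ W.nonunits) →
        (∀ b : F, IsIntegral ↥(Algebra.adjoin A₀ {u₀}) b → b ∈ W) → atThrough 𝔫 W →
        atThrough 𝔫₁ W' := by
  obtain ⟨𝔫₁, h1, h2, -⟩ := stbsw_exists_preimage_iff hπ (u := u) 𝔫 g q hq hgB hgA
  exact ⟨𝔫₁, h1, h2⟩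

/-- `A₀[t] ⊆ atLoc 𝔫` if `t ∈ atLoc 𝔫` -/
theorem stbsw_adjoin_le_atLoc {u t : F} (𝔫 : AtPt (F := F) π u) (ht : t ∈ atLoc 𝔫) :
    ∀ x ∈ Algebra.adjoin A₀ ({t} : Set F), x ∈ atLoc 𝔫 := by
  haveI := 𝔫.2.1.isPrime
  intro x hx
  induction hx using Algebra.adjoin_induction with
  | mem y hy =>
    rw [Set.mem_singleton_iff] at hy
    rw [hy]
    exact ht
  | algebraMap r =>
    exact ls_algebraMap_mem 𝔫.1 (algebraMap A₀ ↥(zchClosure (A₀ := A₀) ({u} : Set F)) r)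
  | add x y _ _ hx hy => exact (atLoc 𝔫).add_mem hx hy
  | mul x y _ _ hx hy => exact (atLoc 𝔫).mul_mem hx hy

/-- integrality over `A₀[t]` implies integrality over every subring containing `A₀[t]` -/
theorem stbsw_isIntegral_of_adjoin_le (O : Subring F) {t : F}
    (h : ∀ x ∈ Algebra.adjoin A₀ ({t} : Set F), x ∈ O)
    {b : F} (hb : IsIntegral ↥(Algebra.adjoin A₀ ({t} : Set F)) b) : IsIntegral ↥O b := by
  obtain ⟨p, hp, hpb⟩ := hb
  let j : ↥(Algebra.adjoin A₀ ({t} : Set F)) →+* ↥O :=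
    (Algebra.adjoin A₀ ({t} : Set F)).val.toRingHom.codRestrict O (fun x => h x x.2)
  refine ⟨p.map j, hp.map j, ?_⟩
  rw [Polynomial.eval₂_map]
  exact hpb

/-- the chart `B_t` lies in `atLoc 𝔫` if `t ∈ atLoc 𝔫` (`atLoc 𝔫` is integrally closed) -/
theorem stbsw_isIntegral_mem_atLoc {u t : F} (𝔫 : AtPt (F := F) π u) (ht : t ∈ atLoc 𝔫)
    {b : F} (hb : IsIntegral ↥(Algebra.adjoin A₀ ({t} : Set F)) b) : b ∈ atLoc 𝔫 := by
  haveI := 𝔫.2.1.isPrime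
  exact ls_isIntegral_mem_localSubring (at_chart_integrallyClosed (A₀ := A₀) u) 𝔫.1 b
    (stbsw_isIntegral_of_adjoin_le (atLoc 𝔫) (stbsw_adjoin_le_atLoc 𝔫 ht) hb)

/-- **Swap geometry at the points of the two charts.**  `g` preserves the chart `t`, maps the
chart `t⁻¹` into `B_{t⁻¹}[1/e]` with multipliers `e ≡ 1 mod t⁻¹`, and `g 𝔪(V (s c)) ⊆ 𝔪(V c)`.
Then every closed point `i` on the component `c` has a preimage `i₁` on the component `s c`: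
`g (atO i₁) ⊆ atO i`  (first field of `StbSwapSmooth`). -/
theorem stbsw_smooth_geom [IsAlgClosed (IsLocalRing.ResidueField A₀)] (hπ : Irreducible π)
    {κ : Type*} {t : F} (V : κ → ValuationSubring F)
    (hBV₁ : ∀ c (b : F), IsIntegral ↥(Algebra.adjoin A₀ {t}) b → b ∈ V c)
    (hBV₂ : ∀ c (b : F), IsIntegral ↥(Algebra.adjoin A₀ {t⁻¹}) b → b ∈ V c)
    (g : F →+* F) (q : ℕ) (hq : q ≠ 0)
    (hgA : ∀ a : A₀, ∃ c : A₀, g (algebraMap A₀ F a) = algebraMap A₀ F (a ^ q + π * c))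
    (s : κ → κ) (hgV : ∀ c, ∀ x ∈ (V (s c)).nonunits, g x ∈ (V c).nonunits)
    (hgJ : ∀ b : F, IsIntegral ↥(Algebra.adjoin A₀ {t}) b →
      IsIntegral ↥(Algebra.adjoin A₀ {t}) (g b))
    (hgL : ∀ b : F, IsIntegral ↥(Algebra.adjoin A₀ {t⁻¹}) b →
      ∃ e e' : F, IsIntegral ↥(Algebra.adjoin A₀ {t⁻¹}) e ∧
        IsIntegral ↥(Algebra.adjoin A₀ {t⁻¹}) e' ∧ e = 1 + t⁻¹ * e' ∧
        IsIntegral ↥(Algebra.adjoin A₀ {t⁻¹}) (e * g b))
    (i : AtPt (F := F) π t ⊕ AtPt (F := F) π t⁻¹) (c : κ) (hc : atInc π t V i c) :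
    ∃ i₁ : AtPt (F := F) π t ⊕ AtPt (F := F) π t⁻¹, atInc π t V i₁ (s c) ∧
      ∀ x ∈ atO π t i₁, g x ∈ atO π t i := by
  rcases i with 𝔫 | 𝔫
  · haveI := 𝔫.2.1.isPrime
    obtain ⟨𝔫₁, h1, h2⟩ := stbsw_exists_preimage hπ (u := t) 𝔫 g q hq
      (fun b hb => ls_algebraMap_mem 𝔫.1
        (⟨g b, mem_zchClosure.mpr (hgJ b hb)⟩ : ↥(zchClosure (A₀ := A₀) ({t} : Set F)))) hgA
    exact ⟨Sum.inl 𝔫₁, h2 (V c) (V (s c)) (hgV c) (hBV₁ c) hc, h1⟩
  · haveI := 𝔫.2.1.isPrime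
    have htinv : IsIntegral ↥(Algebra.adjoin A₀ ({t⁻¹} : Set F)) t⁻¹ :=
      isIntegral_algebraMap (R := ↥(Algebra.adjoin A₀ ({t⁻¹} : Set F)))
        (x := ⟨t⁻¹, Algebra.subset_adjoin (Set.mem_singleton _)⟩)
    by_cases hcusp : (⟨t⁻¹, mem_zchClosure.mpr htinv⟩ :
        ↥(zchClosure (A₀ := A₀) ({t⁻¹} : Set F))) ∈ 𝔫.1
    · -- a point over `t = ∞`
      obtain ⟨𝔫₁, h1, h2⟩ := stbsw_exists_preimage hπ (u := t⁻¹) 𝔫 g q hq
        (fun b hb => by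
          obtain ⟨e, e', he, he', hee', heb⟩ := hgL b hb
          refine ⟨⟨e * g b, mem_zchClosure.mpr heb⟩, ⟨e, mem_zchClosure.mpr he⟩, ?_, rfl⟩
          intro he𝔫
          have h3 : (⟨t⁻¹, mem_zchClosure.mpr htinv⟩ :
              ↥(zchClosure (A₀ := A₀) ({t⁻¹} : Set F))) * ⟨e', mem_zchClosure.mpr he'⟩ ∈ 𝔫.1 :=
            Ideal.mul_mem_right _ _ hcusp
          have h4 := 𝔫.1.sub_mem he𝔫 h3
          have h5 : (⟨e, mem_zchClosure.mpr he⟩ : ↥(zchClosure (A₀ := A₀) ({t⁻¹} : Set F))) -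
              ⟨t⁻¹, mem_zchClosure.mpr htinv⟩ * ⟨e', mem_zchClosure.mpr he'⟩ = 1 := by
            apply Subtype.ext
            show e - t⁻¹ * e' = 1
            rw [hee']
            ring
          rw [h5] at h4
          exact 𝔫.2.1.ne_top ((Ideal.eq_top_iff_one _).mpr h4)) hgA
      exact ⟨Sum.inr 𝔫₁, h2 (V c) (V (s c)) (hgV c) (hBV₂ c) hc, h1⟩
    · -- a point of the chart `t⁻¹` which lies on the chart `t`
      have ht0 : t ≠ 0 := by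
        rintro rfl
        apply hcusp
        have : (⟨(0 : F)⁻¹, mem_zchClosure.mpr htinv⟩ :
            ↥(zchClosure (A₀ := A₀) ({(0 : F)⁻¹} : Set F))) = 0 := Subtype.ext inv_zero
        rw [this]
        exact 𝔫.1.zero_mem
      have ht : t ∈ atLoc 𝔫 :=
        ⟨1, ⟨t⁻¹, mem_zchClosure.mpr htinv⟩, hcusp, by
          show t⁻¹ * t = ((1 : ↥(zchClosure (A₀ := A₀) ({t⁻¹} : Set F))) : F)
          rw [inv_mul_cancel₀ ht0]
          rfl⟩
      obtain ⟨𝔫₁, h1, h2⟩ := stbsw_exists_preimage hπ (u := t) 𝔫 g q hq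
        (fun b hb => stbsw_isIntegral_mem_atLoc 𝔫 ht (hgJ b hb)) hgA
      exact ⟨Sum.inl 𝔫₁, h2 (V c) (V (s c)) (hgV c) (hBV₂ c) hc, h1⟩

/-- **A crossing preimage forces equality of the points.**  If the preimage `𝔫₁` (chart `u`) of
`𝔫` (chart `u₀`) under `g = Ψ ∘ w` is a crossing point, then `B_u ⊆ atLoc 𝔫` and
`𝔪 (atLoc 𝔫) ∩ B_u = 𝔫₁`. -/
theorem stbsw_preimage_cross {u u₀ : F} (V₁ V₂ : ValuationSubring F) (w Ψ : F ≃+* F) (q : ℕ)
    (hq : q ≠ 0)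
    (h : StbFrobVal (zchClosure (A₀ := A₀) ({u} : Set F)).toSubring V₁ V₂ w Ψ q)
    (g : F →+* F) (hg : ∀ x : F, g x = Ψ (w x))
    (𝔫 : AtPt (F := F) π u₀) (𝔫₁ : AtPt (F := F) π u)
    (hc₁ : atThrough 𝔫₁ V₁) (hc₂ : atThrough 𝔫₁ V₂)
    (hgO : ∀ x ∈ atLoc 𝔫₁, g x ∈ atLoc 𝔫)
    (hiff : ∀ b : ↥(zchClosure (A₀ := A₀) ({u} : Set F)), b ∈ 𝔫₁.1 ↔
      g (b : F) ∈ stbLocMax (zchClosure (A₀ := A₀) ({u₀} : Set F)).toSubring
        (stbIdealSet (zchClosure (A₀ := A₀) ({u₀} : Set F)) 𝔫.1))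
    (b : ↥(zchClosure (A₀ := A₀) ({u} : Set F))) :
    (b : F) ∈ atLoc 𝔫 ∧
      ((b : F) ∈ stbLocMax (zchClosure (A₀ := A₀) ({u₀} : Set F)).toSubring
        (stbIdealSet (zchClosure (A₀ := A₀) ({u₀} : Set F)) 𝔫.1) ↔ b ∈ 𝔫₁.1) := by
  haveI := 𝔫.2.1.isPrime
  haveI := 𝔫₁.2.1.isPrime
  have hP₀ := stbPt_of_isPrime (S := zchClosure (A₀ := A₀) ({u₀} : Set F)) 𝔫.1
  have hN₁ := stbCrossPt_of_isPrime (S := zchClosure (A₀ := A₀) ({u} : Set F)) 𝔫₁.1 V₁ V₂ hc₁ hc₂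
  have hP₁ := hN₁.toStbPt
  have hb : (b : F) ∈ (zchClosure (A₀ := A₀) ({u} : Set F)).toSubring := b.2
  obtain ⟨s', hs', hs'N, hb'⟩ := h.swap_mem_loc hN₁ (h.hΨB' _ hb)
  have hgb : g (w (Ψ.symm (b : F))) = (b : F) := by
    rw [hg, h.hww, RingEquiv.apply_symm_apply]
  have e : g s' * (b : F) = g (s' * w (Ψ.symm (b : F))) := by
    rw [map_mul, hgb]
  have hgs : g s' ∈ stbLoc (zchClosure (A₀ := A₀) ({u₀} : Set F)).toSubring
      (stbIdealSet (zchClosure (A₀ := A₀) ({u₀} : Set F)) 𝔫.1) :=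
    (stbsw_mem_atLoc_iff 𝔫).mp (hgO _ ((stbsw_mem_atLoc_iff 𝔫₁).mpr (hP₁.loc_of_mem hs')))
  have hgs' : g s' ∉ stbLocMax (zchClosure (A₀ := A₀) ({u₀} : Set F)).toSubring
      (stbIdealSet (zchClosure (A₀ := A₀) ({u₀} : Set F)) 𝔫.1) := fun hh =>
    hs'N ((coe_mem_stbIdealSet (⟨s', hs'⟩ : ↥(zchClosure (A₀ := A₀) ({u} : Set F)))).mpr
      ((hiff ⟨s', hs'⟩).mpr hh))
  have hgb' : g (s' * w (Ψ.symm (b : F))) ∈
      stbLoc (zchClosure (A₀ := A₀) ({u₀} : Set F)).toSubring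
        (stbIdealSet (zchClosure (A₀ := A₀) ({u₀} : Set F)) 𝔫.1) :=
    (stbsw_mem_atLoc_iff 𝔫).mp (hgO _ ((stbsw_mem_atLoc_iff 𝔫₁).mpr (hP₁.loc_of_mem hb')))
  have hbO : (b : F) ∈ stbLoc (zchClosure (A₀ := A₀) ({u₀} : Set F)).toSubring
      (stbIdealSet (zchClosure (A₀ := A₀) ({u₀} : Set F)) 𝔫.1) :=
    hP₀.loc_of_unit_mul hgs hgs' (by rw [e]; exact hgb')
  refine ⟨(stbsw_mem_atLoc_iff 𝔫).mpr hbO, ?_⟩
  have e1 : (b : F) ∈ stbLocMax (zchClosure (A₀ := A₀) ({u₀} : Set F)).toSubring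
      (stbIdealSet (zchClosure (A₀ := A₀) ({u₀} : Set F)) 𝔫.1) ↔
      g (s' * w (Ψ.symm (b : F))) ∈ stbLocMax (zchClosure (A₀ := A₀) ({u₀} : Set F)).toSubring
        (stbIdealSet (zchClosure (A₀ := A₀) ({u₀} : Set F)) 𝔫.1) := by
    rw [← e]
    constructor
    · intro hh
      exact hP₀.locMax_mul hgs hh
    · intro hh
      exact (hP₀.locMax_prime hgs hbO hh).resolve_left hgs'
  have e2 : g (s' * w (Ψ.symm (b : F))) ∈
      stbLocMax (zchClosure (A₀ := A₀) ({u₀} : Set F)).toSubring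
        (stbIdealSet (zchClosure (A₀ := A₀) ({u₀} : Set F)) 𝔫.1) ↔
      s' * w (Ψ.symm (b : F)) ∈ stbIdealSet (zchClosure (A₀ := A₀) ({u} : Set F)) 𝔫₁.1 := by
    rw [← hiff ⟨_, hb'⟩]
    exact (coe_mem_stbIdealSet
      (⟨_, hb'⟩ : ↥(zchClosure (A₀ := A₀) ({u} : Set F)))).symm
  have e3 : s' * w (Ψ.symm (b : F)) ∈ stbIdealSet (zchClosure (A₀ := A₀) ({u} : Set F)) 𝔫₁.1 ↔
      w (Ψ.symm (b : F)) ∈ stbLocMax (zchClosure (A₀ := A₀) ({u} : Set F)).toSubring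
        (stbIdealSet (zchClosure (A₀ := A₀) ({u} : Set F)) 𝔫₁.1) := by
    constructor
    · intro hh
      exact ⟨s', hs', hs'N, hh⟩
    · intro hh
      exact (hP₁.mem_locMax_iff hb').mp (hP₁.locMax_mul (hP₁.loc_of_mem hs') hh)
  have e4 := h.mem_iff_swap hq hN₁ hb
  rw [e1, e2, e3, ← e4]
  exact coe_mem_stbIdealSet b

/-- transfer of incidence along an equality of points -/
theorem stbsw_through_transfer {u u₀ : F} (𝔫 : AtPt (F := F) π u₀) (𝔫₁ : AtPt (F := F) π u)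
    (hB : ∀ b : ↥(zchClosure (A₀ := A₀) ({u} : Set F)), (b : F) ∈ atLoc 𝔫 ∧
      ((b : F) ∈ stbLocMax (zchClosure (A₀ := A₀) ({u₀} : Set F)).toSubring
        (stbIdealSet (zchClosure (A₀ := A₀) ({u₀} : Set F)) 𝔫.1) ↔ b ∈ 𝔫₁.1))
    (hB₀ : ∀ b : ↥(zchClosure (A₀ := A₀) ({u₀} : Set F)), (b : F) ∈ atLoc 𝔫₁)
    (W : ValuationSubring F)
    (hBW : ∀ b : F, IsIntegral ↥(Algebra.adjoin A₀ {u}) b → b ∈ W)
    (hW : atThrough 𝔫₁ W) : atThrough 𝔫 W := by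
  haveI := 𝔫.2.1.isPrime
  haveI := 𝔫₁.2.1.isPrime
  have hP₀ := stbPt_of_isPrime (S := zchClosure (A₀ := A₀) ({u₀} : Set F)) 𝔫.1
  have hP₁ := stbPt_of_isPrime (S := zchClosure (A₀ := A₀) ({u} : Set F)) 𝔫₁.1
  intro b hb
  have h1 : (b : F) ∈ stbLocMax (zchClosure (A₀ := A₀) ({u} : Set F)).toSubring
      (stbIdealSet (zchClosure (A₀ := A₀) ({u} : Set F)) 𝔫₁.1) :=
    hP₁.locMax_of_nonunits W (fun x hx => hBW x (mem_zchClosure.mp hx))
      (fun x hx hxW => ⟨hx, hW ⟨x, hx⟩ hxW⟩) ((stbsw_mem_atLoc_iff 𝔫₁).mp (hB₀ b)) hb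
  obtain ⟨s', hs', hs'N, hb'⟩ := h1
  have hs0 := hB ⟨s', hs'⟩
  have hb0 := hB ⟨s' * (b : F), hP₁.sub _ hb'⟩
  have h2 : s' * (b : F) ∈ stbLocMax (zchClosure (A₀ := A₀) ({u₀} : Set F)).toSubring
      (stbIdealSet (zchClosure (A₀ := A₀) ({u₀} : Set F)) 𝔫.1) :=
    hb0.2.mpr hb'.2
  have h3 : s' ∉ stbLocMax (zchClosure (A₀ := A₀) ({u₀} : Set F)).toSubring
      (stbIdealSet (zchClosure (A₀ := A₀) ({u₀} : Set F)) 𝔫.1) := fun hh =>
    hs'N ⟨hs', hs0.2.mp hh⟩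
  have h4 := (hP₀.locMax_prime ((stbsw_mem_atLoc_iff 𝔫).mp hs0.1) (hP₀.loc_of_mem b.2)
    h2).resolve_left h3
  exact (coe_mem_stbIdealSet b).mp ((hP₀.mem_locMax_iff b.2).mp h4)

/-- **Swap geometry at the one-component points** (complete form).  As `stbsw_smooth_geom`,
with `g = Ψ ∘ w` and `StbFrobVal` on both charts: if only the component `c` passes through `i`,
then only `s c` passes through the preimage `i₁`. -/
theorem stbsw_smooth_geom_only [IsAlgClosed (IsLocalRing.ResidueField A₀)] (hπ : Irreducible π)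
    {κ : Type*} {t : F} (V : κ → ValuationSubring F) (c₁ c₂ : κ) (hκ : ∀ c, c = c₁ ∨ c = c₂)
    (hBV₁ : ∀ c (b : F), IsIntegral ↥(Algebra.adjoin A₀ {t}) b → b ∈ V c)
    (hBV₂ : ∀ c (b : F), IsIntegral ↥(Algebra.adjoin A₀ {t⁻¹}) b → b ∈ V c)
    (w Ψ : F ≃+* F) (q : ℕ) (hq : q ≠ 0)
    (h₁ : StbFrobVal (zchClosure (A₀ := A₀) ({t} : Set F)).toSubring (V c₁) (V c₂) w Ψ q)
    (h₂ : StbFrobVal (zchClosure (A₀ := A₀) ({t⁻¹} : Set F)).toSubring (V c₁) (V c₂) w Ψ q)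
    (g : F →+* F) (hg : ∀ x : F, g x = Ψ (w x))
    (hgA : ∀ a : A₀, ∃ c : A₀, g (algebraMap A₀ F a) = algebraMap A₀ F (a ^ q + π * c))
    (s : κ → κ) (hgV : ∀ c, ∀ x ∈ (V (s c)).nonunits, g x ∈ (V c).nonunits)
    (hgJ : ∀ b : F, IsIntegral ↥(Algebra.adjoin A₀ {t}) b →
      IsIntegral ↥(Algebra.adjoin A₀ {t}) (g b))
    (hgL : ∀ b : F, IsIntegral ↥(Algebra.adjoin A₀ {t⁻¹}) b →
      ∃ e e' : F, IsIntegral ↥(Algebra.adjoin A₀ {t⁻¹}) e ∧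
        IsIntegral ↥(Algebra.adjoin A₀ {t⁻¹}) e' ∧ e = 1 + t⁻¹ * e' ∧
        IsIntegral ↥(Algebra.adjoin A₀ {t⁻¹}) (e * g b))
    (i : AtPt (F := F) π t ⊕ AtPt (F := F) π t⁻¹) (c : κ) (hc : atInc π t V i c)
    (honly : ∀ c', atInc π t V i c' → c' = c) :
    ∃ i₁ : AtPt (F := F) π t ⊕ AtPt (F := F) π t⁻¹, atInc π t V i₁ (s c) ∧
      (∀ c', atInc π t V i₁ c' → c' = s c) ∧
      ∀ x ∈ atO π t i₁, g x ∈ atO π t i := by
  -- the common final step: if all components pass through `i`, we are done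
  have hfin : (∀ c', atInc π t V i c') → ∀ c', c' = s c := fun hall c' => by
    rw [honly c' (hall c'), honly (s c) (hall (s c))]
  -- both components pass through `i₁` as soon as some `c' ≠ s c` does
  have hboth : ∀ (P : κ → Prop), P (s c) → ∀ c', P c' → c' ≠ s c → P c₁ ∧ P c₂ := by
    intro P hsc c' hc' hne
    rcases hκ c' with rfl | rfl
    · rcases hκ (s c) with h | h
      · exact absurd h.symm hne
      · exact ⟨hc', h ▸ hsc⟩
    · rcases hκ (s c) with h | h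
      · exact ⟨h ▸ hsc, hc'⟩
      · exact absurd h.symm hne
  rcases i with 𝔫 | 𝔫
  · haveI := 𝔫.2.1.isPrime
    obtain ⟨𝔫₁, h1, h2, h3⟩ := stbsw_exists_preimage_iff hπ (u := t) 𝔫 g q hq
      (fun b hb => ls_algebraMap_mem 𝔫.1
        (⟨g b, mem_zchClosure.mpr (hgJ b hb)⟩ : ↥(zchClosure (A₀ := A₀) ({t} : Set F)))) hgA
    haveI := 𝔫₁.2.1.isPrime
    have hsc : atThrough 𝔫₁ (V (s c)) := h2 (V c) (V (s c)) (hgV c) (hBV₁ c) hc
    refine ⟨Sum.inl 𝔫₁, hsc, fun c' hc' => ?_, h1⟩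
    by_contra hne
    obtain ⟨hth₁, hth₂⟩ := hboth (fun c'' => atThrough 𝔫₁ (V c'')) hsc c' hc' hne
    have hX := stbsw_preimage_cross (V c₁) (V c₂) w Ψ q hq h₁ g hg 𝔫 𝔫₁ hth₁ hth₂ h1 h3
    have hall : ∀ c'', atInc π t V (Sum.inl 𝔫) c'' := by
      intro c''
      refine stbsw_through_transfer 𝔫 𝔫₁ hX (fun b => ls_algebraMap_mem 𝔫₁.1 b) (V c'')
        (hBV₁ c'') ?_
      rcases hκ c'' with rfl | rfl
      · exact hth₁
      · exact hth₂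
    exact hne (hfin hall c')
  · haveI := 𝔫.2.1.isPrime
    have htinv : IsIntegral ↥(Algebra.adjoin A₀ ({t⁻¹} : Set F)) t⁻¹ :=
      isIntegral_algebraMap (R := ↥(Algebra.adjoin A₀ ({t⁻¹} : Set F)))
        (x := ⟨t⁻¹, Algebra.subset_adjoin (Set.mem_singleton _)⟩)
    by_cases hcusp : (⟨t⁻¹, mem_zchClosure.mpr htinv⟩ :
        ↥(zchClosure (A₀ := A₀) ({t⁻¹} : Set F))) ∈ 𝔫.1
    · obtain ⟨𝔫₁, h1, h2, h3⟩ := stbsw_exists_preimage_iff hπ (u := t⁻¹) 𝔫 g q hq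
        (fun b hb => by
          obtain ⟨e, e', he, he', hee', heb⟩ := hgL b hb
          refine ⟨⟨e * g b, mem_zchClosure.mpr heb⟩, ⟨e, mem_zchClosure.mpr he⟩, ?_, rfl⟩
          intro he𝔫
          have h3 : (⟨t⁻¹, mem_zchClosure.mpr htinv⟩ :
              ↥(zchClosure (A₀ := A₀) ({t⁻¹} : Set F))) * ⟨e', mem_zchClosure.mpr he'⟩ ∈ 𝔫.1 :=
            Ideal.mul_mem_right _ _ hcusp
          have h4 := 𝔫.1.sub_mem he𝔫 h3
          have h5 : (⟨e, mem_zchClosure.mpr he⟩ : ↥(zchClosure (A₀ := A₀) ({t⁻¹} : Set F))) -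
              ⟨t⁻¹, mem_zchClosure.mpr htinv⟩ * ⟨e', mem_zchClosure.mpr he'⟩ = 1 := by
            apply Subtype.ext
            show e - t⁻¹ * e' = 1
            rw [hee']
            ring
          rw [h5] at h4
          exact 𝔫.2.1.ne_top ((Ideal.eq_top_iff_one _).mpr h4)) hgA
      haveI := 𝔫₁.2.1.isPrime
      have hsc : atThrough 𝔫₁ (V (s c)) := h2 (V c) (V (s c)) (hgV c) (hBV₂ c) hc
      refine ⟨Sum.inr 𝔫₁, hsc, fun c' hc' => ?_, h1⟩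
      by_contra hne
      obtain ⟨hth₁, hth₂⟩ := hboth (fun c'' => atThrough 𝔫₁ (V c'')) hsc c' hc' hne
      have hX := stbsw_preimage_cross (V c₁) (V c₂) w Ψ q hq h₂ g hg 𝔫 𝔫₁ hth₁ hth₂ h1 h3
      have hall : ∀ c'', atInc π t V (Sum.inr 𝔫) c'' := by
        intro c''
        refine stbsw_through_transfer 𝔫 𝔫₁ hX (fun b => ls_algebraMap_mem 𝔫₁.1 b) (V c'')
          (hBV₂ c'') ?_
        rcases hκ c'' with rfl | rfl
        · exact hth₁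
        · exact hth₂
      exact hne (hfin hall c')
    · have ht0 : t ≠ 0 := by
        rintro rfl
        apply hcusp
        have : (⟨(0 : F)⁻¹, mem_zchClosure.mpr htinv⟩ :
            ↥(zchClosure (A₀ := A₀) ({(0 : F)⁻¹} : Set F))) = 0 := Subtype.ext inv_zero
        rw [this]
        exact 𝔫.1.zero_mem
      have ht : t ∈ atLoc 𝔫 :=
        ⟨1, ⟨t⁻¹, mem_zchClosure.mpr htinv⟩, hcusp, by
          show t⁻¹ * t = ((1 : ↥(zchClosure (A₀ := A₀) ({t⁻¹} : Set F))) : F)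
          rw [inv_mul_cancel₀ ht0]
          rfl⟩
      obtain ⟨𝔫₁, h1, h2, h3⟩ := stbsw_exists_preimage_iff hπ (u := t) 𝔫 g q hq
        (fun b hb => stbsw_isIntegral_mem_atLoc 𝔫 ht (hgJ b hb)) hgA
      haveI := 𝔫₁.2.1.isPrime
      have hsc : atThrough 𝔫₁ (V (s c)) := h2 (V c) (V (s c)) (hgV c) (hBV₂ c) hc
      refine ⟨Sum.inl 𝔫₁, hsc, fun c' hc' => ?_, h1⟩
      by_contra hne
      obtain ⟨hth₁, hth₂⟩ := hboth (fun c'' => atThrough 𝔫₁ (V c'')) hsc c' hc' hne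
      have hX := stbsw_preimage_cross (V c₁) (V c₂) w Ψ q hq h₁ g hg 𝔫 𝔫₁ hth₁ hth₂ h1 h3
      -- `t ∉ 𝔫₁`, hence `t⁻¹ ∈ atLoc 𝔫₁` and `B_{t⁻¹} ⊆ atLoc 𝔫₁`
      have hP₀ := stbPt_of_isPrime (S := zchClosure (A₀ := A₀) ({t⁻¹} : Set F)) 𝔫.1
      have htint : IsIntegral ↥(Algebra.adjoin A₀ ({t} : Set F)) t :=
        isIntegral_algebraMap (R := ↥(Algebra.adjoin A₀ ({t} : Set F)))
          (x := ⟨t, Algebra.subset_adjoin (Set.mem_singleton _)⟩)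
      have ht𝔫₁ : (⟨t, mem_zchClosure.mpr htint⟩ : ↥(zchClosure (A₀ := A₀) ({t} : Set F))) ∉
          𝔫₁.1 := by
        intro hmem
        have h5 := (hX ⟨t, mem_zchClosure.mpr htint⟩).2.mpr hmem
        have h6 := hP₀.locMax_mul
          (hP₀.loc_of_mem (mem_zchClosure.mpr htinv : t⁻¹ ∈ zchClosure (A₀ := A₀) ({t⁻¹} : Set F)))
          h5
        have h7 : t⁻¹ * t = 1 := inv_mul_cancel₀ ht0
        rw [show t⁻¹ * ((⟨t, mem_zchClosure.mpr htint⟩ :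
          ↥(zchClosure (A₀ := A₀) ({t} : Set F))) : F) = 1 from h7] at h6
        exact hP₀.one_not_mem_locMax h6
      have htinv₁ : t⁻¹ ∈ atLoc 𝔫₁ :=
        ⟨1, ⟨t, mem_zchClosure.mpr htint⟩, ht𝔫₁, by
          show t * t⁻¹ = ((1 : ↥(zchClosure (A₀ := A₀) ({t} : Set F))) : F)
          rw [mul_inv_cancel₀ ht0]
          rfl⟩
      have hall : ∀ c'', atInc π t V (Sum.inr 𝔫) c'' := by
        intro c''
        refine stbsw_through_transfer 𝔫 𝔫₁ hX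
          (fun b => stbsw_isIntegral_mem_atLoc 𝔫₁ htinv₁ (mem_zchClosure.mp b.2)) (V c'')
          (hBV₁ c'') ?_
        rcases hκ c'' with rfl | rfl
        · exact hth₁
        · exact hth₂
      exact hne (hfin hall c')

end AtForm

end Fermat.Agent.STB
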