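/-
RIB / MP, piece MP-SW part 3 (helper45): the hypotheses of `stbsw_main_points` concerning
`g = φ̂ ∘ w_q` in the CONCRETE setting of `UNIP/MGConcrete.lean` (`F′ = mgcF A K₁ (M q)`,
`V = mgvV hπ ιC hq hqM`, `t = mgcT`), twin of `STB/MGFrob.lean`, `STB/MGFrobJ.lean`.

* `stbswG`            : `g = φ̂ ∘ w_q` as a ring endomorphism of `F′`;
* `stbsw_mf_hgV`      : `g 𝔪(V (!c)) ⊆ 𝔪(V c)`;
* `stbsw_mf_hfrob_J`, `stbsw_mf_hfrob_Jinv` : (Fr′) at the crossing points of the two charts;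
* `stbsw_mf_geom`     : the preimage points at the one-component points.
-/
import Fermat.Agent.STB.SwapFrob
import Fermat.Agent.STB.MGFrobJ
import Fermat.Agent.UNIP.MGVertFrob
import Fermat.Agent.STB.MGMain
import Fermat.Agent.STB.ToricTransfer

set_option autoImplicit false
set_option linter.style.haveILetI false
set_option linter.unusedSectionVars false
set_option linter.unusedVariables false

noncomputable section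

namespace Fermat.Agent.STB

open ModularCurve AlgebraicCurve Fermat.Agent.ES Fermat.Agent.ES.G2 Fermat.Agent.INJ
open IntermediateField Fermat.Agent.UNIP Fermat.Agent.AL

section Concrete

variable {A : ValuationSubring Qb} {K₁ : IntermediateField ℚ Qb}
  [IsDiscreteValuationRing ↥(mgcA A K₁)] {π : ↥(mgcA A K₁)} (hπ : Irreducible π)
  (ιC : ↥(mgcE A K₁) →+* ℂ) {q M : ℕ} [NeZero q] [NeZero M] [NeZero (M * q)]
  (hq : q.Prime) (hqM : ¬ q ∣ M)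

/-- `g = φ̂ ∘ w_q` on `F′ = F_{Mq}(E′)` -/
def stbswG (φ : Qb ≃ₐ[ℚ] Qb) (hφ : ∀ x ∈ mgcE A K₁, φ x ∈ mgcE A K₁) :
    ↥(mgcF A K₁ (M * q)) →+* ↥(mgcF A K₁ (M * q)) :=
  (mgAct (mgcE A K₁) (M * q) φ hφ).comp
    ((stbAtk ιC hq hqM : ↥(mgcF A K₁ (M * q)) ≃+* ↥(mgcF A K₁ (M * q))) :
      ↥(mgcF A K₁ (M * q)) →+* ↥(mgcF A K₁ (M * q)))

theorem stbswG_apply (φ : Qb ≃ₐ[ℚ] Qb) (hφ : ∀ x ∈ mgcE A K₁, φ x ∈ mgcE A K₁)
    (x : ↥(mgcF A K₁ (M * q))) :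
    stbswG ιC hq hqM φ hφ x =
      mgRingAut (M * q) (mgaRestrictEquiv (mgcE A K₁) φ hφ) (stbAtk ιC hq hqM x) := rfl

theorem stbswG_smul (φ : Qb ≃ₐ[ℚ] Qb) (hφ : ∀ x ∈ mgcE A K₁, φ x ∈ mgcE A K₁)
    (x : ↥(mgcF A K₁ (M * q))) :
    stbswG ιC hq hqM φ hφ x =
      mgcGal (M * q) φ hφ • (atkinLehner ↥(mgcE A K₁) ιC hq hqM x) := rfl

/-- `g = φ̂ ∘ w_q` over `ℚ̄` : the image of `g x` in `F_{Mq}(ℚ̄)` is `φ • w_q (image of x)`. -/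
theorem nfEmb_stbswG (φ : Qb ≃ₐ[ℚ] Qb) (hφ : ∀ x ∈ mgcE A K₁, φ x ∈ mgcE A K₁)
    (x : ↥(mgcF A K₁ (M * q))) :
    nfEmb (mgcE A K₁) (M * q) (stbswG ιC hq hqM φ hφ x) =
      arithmeticGalois (modularFunctionFieldFull (M * q)) φ •
        atkinLehnerBar hq hqM (nfEmb (mgcE A K₁) (M * q) x) := by
  rw [stb_mgt_atkinLehnerBar_nfEmb' ιC hq hqM x, ← nfEmb_mgAct]
  rfl

/-- `w_q` fixes the constants -/
theorem stbsw_mf_hwR (a : ↥(mgcA A K₁)) :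
    stbAtk ιC hq hqM (algebraMap ↥(mgcA A K₁) ↥(mgcF A K₁ (M * q)) a) =
      algebraMap ↥(mgcA A K₁) ↥(mgcF A K₁ (M * q)) a := by
  rw [mgcAlgAGen_algebraMap]
  exact (atkinLehner ↥(mgcE A K₁) ιC hq hqM).commutes _

/-- the Frobenius congruence of `g` on the base -/
theorem stbsw_mf_hgA (hπ₀ : Irreducible π) {φ : Qb ≃ₐ[ℚ] Qb} (hφF : A.IsFrobeniusAt φ q)
    (hφ : ∀ x ∈ mgcE A K₁, φ x ∈ mgcE A K₁) (a : ↥(mgcA A K₁)) :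
    ∃ c : ↥(mgcA A K₁),
      stbswG ιC hq hqM φ hφ (algebraMap ↥(mgcA A K₁) ↥(mgcF A K₁ (M * q)) a) =
        algebraMap ↥(mgcA A K₁) ↥(mgcF A K₁ (M * q)) (a ^ q + π * c) := by
  obtain ⟨c, hc⟩ := stbmf_hΨR (N := M * q) hφF hφ hπ₀ a
  refine ⟨c, ?_⟩
  rw [stbswG_apply, stbsw_mf_hwR]
  exact hc

/-- **`hgV`** : `g = φ̂ ∘ w_q` swaps the two vertical components. -/
theorem stbsw_mf_hgV {φ : Qb ≃ₐ[ℚ] Qb} (hφD : φ ∈ A.decompositionSubgroup ℚ)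
    (hφ : ∀ x ∈ mgcE A K₁, φ x ∈ mgcE A K₁) :
    ∀ c : Bool, ∀ x ∈ (mgvV hπ ιC hq hqM (!c)).nonunits,
      stbswG ιC hq hqM φ hφ x ∈ (mgvV hπ ιC hq hqM c).nonunits := by
  have hV0 : ∀ x : ↥(mgcF A K₁ (M * q)), x ∈ (mgvV hπ ιC hq hqM false).nonunits ↔
      stbAtk ιC hq hqM x ∈ (mgvV hπ ιC hq hqM true).nonunits := fun x =>
    stb_mem_nonunits_comap (mgvV hπ ιC hq hqM true)
      (atkinLehner ↥(mgcE A K₁) ιC hq hqM).toRingEquiv.toRingHom x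
  intro c x hx
  cases c
  · -- `c = false`
    rw [hV0, stbswG_apply, stbAtk_mgRingAut, stbAtk_invol]
    exact mgvf_hΦV_gal hπ ιC hq hqM hφD hφ true x hx
  · -- `c = true`
    exact mgvf_hΦV_gal hπ ιC hq hqM hφD hφ true _ ((hV0 x).mp hx)

/-- **(Fr′), chart `j`** : the 4th field of `StbCross (atLoc 𝔫) (V true) (V false) g q m y` at
every crossing point of the chart `j`, `g = φ̂ ∘ w_q`. -/
theorem stbsw_mf_hfrob_J (hA : A.LiesOverPrime q) (h2 : q = 2 → 3 ∣ M) (h3 : q = 3 → 2 ∣ M)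
    {φ : Qb ≃ₐ[ℚ] Qb} (hφF : A.IsFrobeniusAt φ q) (hφ : ∀ x ∈ mgcE A K₁, φ x ∈ mgcE A K₁)
    (𝔫 : AtPt (F := ↥(mgcF A K₁ (M * q))) π (mgcT A K₁ (M * q)))
    (hc₁ : atThrough 𝔫 (mgvV hπ ιC hq hqM true))
    (hc₂ : atThrough 𝔫 (mgvV hπ ιC hq hqM false)) (x : atLoc 𝔫) :
    ∃ z : atLoc 𝔫, ¬ IsUnit z ∧
      (z : ↥(mgcF A K₁ (M * q))) =
        stbswG ιC hq hqM φ hφ (x : ↥(mgcF A K₁ (M * q))) - (x : ↥(mgcF A K₁ (M * q))) ^ q := by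
  haveI : IsAlgClosed (IsLocalRing.ResidueField ↥(mgcA A K₁)) :=
    stb_isAlgClosed_residue hq hA (le_sup_left : beta0Field A ≤ mgcE A K₁)
  exact stbsw_cross_hfrob hπ (mgvV hπ ιC hq hqM true) (mgvV hπ ιC hq hqM false)
    (stbAtk ιC hq hqM) (mgRingAut (M * q) (mgaRestrictEquiv (mgcE A K₁) φ hφ)) q hq.ne_zero
    (stb_frobVal_all_J hπ ιC hq hqM hA (le_sup_left : beta0Field A ≤ mgcE A K₁) h2 h3 hφF hφ)
    (stbswG ιC hq hqM φ hφ) (stbswG_apply ιC hq hqM φ hφ) (stbsw_mf_hwR ιC hq hqM)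
    (stbmf_hΨR (N := M * q) hφF hφ hπ) 𝔫 hc₁ hc₂ x

/-- **(Fr′), chart `1 / j`**. -/
theorem stbsw_mf_hfrob_Jinv (hA : A.LiesOverPrime q) (h2 : q = 2 → 3 ∣ M) (h3 : q = 3 → 2 ∣ M)
    {φ : Qb ≃ₐ[ℚ] Qb} (hφF : A.IsFrobeniusAt φ q) (hφ : ∀ x ∈ mgcE A K₁, φ x ∈ mgcE A K₁)
    (𝔫 : AtPt (F := ↥(mgcF A K₁ (M * q))) π (mgcT A K₁ (M * q))⁻¹)
    (hc₁ : atThrough 𝔫 (mgvV hπ ιC hq hqM true))
    (hc₂ : atThrough 𝔫 (mgvV hπ ιC hq hqM false)) (x : atLoc 𝔫) :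
    ∃ z : atLoc 𝔫, ¬ IsUnit z ∧
      (z : ↥(mgcF A K₁ (M * q))) =
        stbswG ιC hq hqM φ hφ (x : ↥(mgcF A K₁ (M * q))) - (x : ↥(mgcF A K₁ (M * q))) ^ q := by
  haveI : IsAlgClosed (IsLocalRing.ResidueField ↥(mgcA A K₁)) :=
    stb_isAlgClosed_residue hq hA (le_sup_left : beta0Field A ≤ mgcE A K₁)
  exact stbsw_cross_hfrob hπ (mgvV hπ ιC hq hqM true) (mgvV hπ ιC hq hqM false)
    (stbAtk ιC hq hqM) (mgRingAut (M * q) (mgaRestrictEquiv (mgcE A K₁) φ hφ)) q hq.ne_zero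
    (stb_frobVal_all_Jinv hπ ιC hq hqM hA (le_sup_left : beta0Field A ≤ mgcE A K₁) h2 h3 hφF hφ)
    (stbswG ιC hq hqM φ hφ) (stbswG_apply ιC hq hqM φ hφ) (stbsw_mf_hwR ιC hq hqM)
    (stbmf_hΨR (N := M * q) hφF hφ hπ) 𝔫 hc₁ hc₂ x

/-- **`hgJ`** : `g = φ̂ ∘ w_q` preserves the chart `j`. -/
theorem stbsw_mf_hgJ {φ : Qb ≃ₐ[ℚ] Qb} (hφD : φ ∈ A.decompositionSubgroup ℚ)
    (hφ : ∀ x ∈ mgcE A K₁, φ x ∈ mgcE A K₁) (b : ↥(mgcF A K₁ (M * q)))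
    (hb : IsIntegral ↥(Algebra.adjoin ↥(mgcA A K₁) {mgcT A K₁ (M * q)}) b) :
    IsIntegral ↥(Algebra.adjoin ↥(mgcA A K₁) {mgcT A K₁ (M * q)})
      (stbswG ιC hq hqM φ hφ b) := by
  rw [stbswG_smul]
  refine stb_mt_isIntegral_smul (mgcGal (M * q) φ hφ) (mgc_smul_T (M * q) φ hφ)
    (mgvf_hgA_gal (M * q) hφD hφ) ?_
  exact nodesSwap_chartJ (A := ↥(mgcA A K₁)) (E := ↥(mgcE A K₁)) (M := M) (q := q) ιC hq hqM hb

/-- `L = 1 + j⁻¹ · ℓ′`, `ℓ′` integral over `A[j⁻¹]` -/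
theorem stbsw_mf_L_eq :
    ∃ e' : ↥(mgcF A K₁ (M * q)),
      IsIntegral ↥(Algebra.adjoin ↥(mgcA A K₁) {(mgcT A K₁ (M * q))⁻¹}) e' ∧
      nodesSwapL ↥(mgcE A K₁) M q hq = 1 + (mgcT A K₁ (M * q))⁻¹ * e' := by
  refine ⟨(Polynomial.divX (cuspEll (nodesSwapPhi q hq))).eval₂
      (Int.castRingHom ↥(mgcF A K₁ (M * q))) (mgcT A K₁ (M * q))⁻¹,
    nodesSwap_eval₂_int_isIntegral (A := ↥(mgcA A K₁)) _ _, ?_⟩
  have h0 : (cuspEll (nodesSwapPhi q hq)).coeff 0 = 1 :=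
    cuspEll_coeff_zero (nodesSwapPhi_monic q hq)
  have h1 := Polynomial.divX_mul_X_add (cuspEll (nodesSwapPhi q hq))
  rw [h0] at h1
  show (cuspEll (nodesSwapPhi q hq)).eval₂ (Int.castRingHom ↥(mgcF A K₁ (M * q)))
      (mgcT A K₁ (M * q))⁻¹ = _
  conv_lhs => rw [← h1]
  rw [Polynomial.eval₂_add, Polynomial.eval₂_mul, Polynomial.eval₂_X, Polynomial.eval₂_C,
    map_one]
  ring

/-- `L ^ N = 1 + j⁻¹ · e′`, `e′` integral over `A[j⁻¹]` -/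
theorem stbsw_mf_L_pow_eq (N : ℕ) :
    ∃ e' : ↥(mgcF A K₁ (M * q)),
      IsIntegral ↥(Algebra.adjoin ↥(mgcA A K₁) {(mgcT A K₁ (M * q))⁻¹}) e' ∧
      nodesSwapL ↥(mgcE A K₁) M q hq ^ N = 1 + (mgcT A K₁ (M * q))⁻¹ * e' := by
  obtain ⟨l, hl, hL⟩ := stbsw_mf_L_eq (A := A) (K₁ := K₁) (M := M) hq
  have htinv : IsIntegral ↥(Algebra.adjoin ↥(mgcA A K₁) {(mgcT A K₁ (M * q))⁻¹})
      (mgcT A K₁ (M * q))⁻¹ :=
    isIntegral_algebraMap (R := ↥(Algebra.adjoin ↥(mgcA A K₁) {(mgcT A K₁ (M * q))⁻¹}))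
      (x := ⟨(mgcT A K₁ (M * q))⁻¹, Algebra.subset_adjoin (Set.mem_singleton _)⟩)
  induction N with
  | zero => exact ⟨0, isIntegral_zero, by rw [pow_zero, mul_zero, add_zero]⟩
  | succ n ih =>
    obtain ⟨e', he', hn⟩ := ih
    refine ⟨e' + l + (mgcT A K₁ (M * q))⁻¹ * (e' * l),
      (he'.add hl).add (htinv.mul (he'.mul hl)), ?_⟩
    rw [pow_succ, hn, hL]
    ring

/-- **`hgL`** : on the chart `1 / j`, `g b` becomes integral after multiplication by a unit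
`e ≡ 1 mod j⁻¹`. -/
theorem stbsw_mf_hgL {φ : Qb ≃ₐ[ℚ] Qb} (hφD : φ ∈ A.decompositionSubgroup ℚ)
    (hφ : ∀ x ∈ mgcE A K₁, φ x ∈ mgcE A K₁) (b : ↥(mgcF A K₁ (M * q)))
    (hb : IsIntegral ↥(Algebra.adjoin ↥(mgcA A K₁) {(mgcT A K₁ (M * q))⁻¹}) b) :
    ∃ e e' : ↥(mgcF A K₁ (M * q)),
      IsIntegral ↥(Algebra.adjoin ↥(mgcA A K₁) {(mgcT A K₁ (M * q))⁻¹}) e ∧
      IsIntegral ↥(Algebra.adjoin ↥(mgcA A K₁) {(mgcT A K₁ (M * q))⁻¹}) e' ∧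
      e = 1 + (mgcT A K₁ (M * q))⁻¹ * e' ∧
      IsIntegral ↥(Algebra.adjoin ↥(mgcA A K₁) {(mgcT A K₁ (M * q))⁻¹})
        (e * stbswG ιC hq hqM φ hφ b) := by
  -- `g b = w (φ̂ b)`
  have hΨb : IsIntegral ↥(Algebra.adjoin ↥(mgcA A K₁) {(mgcT A K₁ (M * q))⁻¹})
      (mgcGal (M * q) φ hφ • b) :=
    stb_mt_isIntegral_smul (mgcGal (M * q) φ hφ) (at_smul_inv (mgc_smul_T (M * q) φ hφ))
      (mgvf_hgA_gal (M * q) hφD hφ) hb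
  obtain ⟨N, hN⟩ := nodesSwap_chartInv (A := ↥(mgcA A K₁)) (E := ↥(mgcE A K₁)) (M := M)
    (q := q) ιC hq hqM hΨb
  obtain ⟨e', he', hLN⟩ := stbsw_mf_L_pow_eq (A := A) (K₁ := K₁) (M := M) hq N
  refine ⟨nodesSwapL ↥(mgcE A K₁) M q hq ^ N, e',
    (nodesSwap_L_isIntegral (A := ↥(mgcA A K₁)) (E := ↥(mgcE A K₁)) (M := M) (q := q) hq).pow N,
    he', hLN, ?_⟩
  have e : stbswG ιC hq hqM φ hφ b =
      atkinLehner ↥(mgcE A K₁) ιC hq hqM (mgcGal (M * q) φ hφ • b) := by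
    rw [stbswG_apply]
    exact stbAtk_mgRingAut ιC hq hqM (mgaRestrictEquiv (mgcE A K₁) φ hφ) b
  rw [e]
  exact hN

/-- **Swap geometry at the one-component points, concrete form.**  If only the component `c`
passes through the closed point `i` (of the chart `j` or `1 / j`), there is a closed point `i₁`
through which only the component `!c` passes, with `g (atO i₁) ⊆ atO i`, `g = φ̂ ∘ w_q`
(the point `i₁` and the first field of `StbSwapSmooth` in `stbsw_main_points`). -/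
theorem stbsw_mf_geom (hA : A.LiesOverPrime q) (h2 : q = 2 → 3 ∣ M) (h3 : q = 3 → 2 ∣ M)
    {φ : Qb ≃ₐ[ℚ] Qb} (hφF : A.IsFrobeniusAt φ q) (hφ : ∀ x ∈ mgcE A K₁, φ x ∈ mgcE A K₁)
    (i : AtPt (F := ↥(mgcF A K₁ (M * q))) π (mgcT A K₁ (M * q)) ⊕
      AtPt (F := ↥(mgcF A K₁ (M * q))) π (mgcT A K₁ (M * q))⁻¹) (c : Bool)
    (hc : atInc π (mgcT A K₁ (M * q)) (mgvV hπ ιC hq hqM) i c)
    (honly : ∀ c', atInc π (mgcT A K₁ (M * q)) (mgvV hπ ιC hq hqM) i c' → c' = c) :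
    ∃ i₁ : AtPt (F := ↥(mgcF A K₁ (M * q))) π (mgcT A K₁ (M * q)) ⊕
        AtPt (F := ↥(mgcF A K₁ (M * q))) π (mgcT A K₁ (M * q))⁻¹,
      atInc π (mgcT A K₁ (M * q)) (mgvV hπ ιC hq hqM) i₁ (!c) ∧
      (∀ c', atInc π (mgcT A K₁ (M * q)) (mgvV hπ ιC hq hqM) i₁ c' → c' = !c) ∧
      ∀ x ∈ atO π (mgcT A K₁ (M * q)) i₁,
        stbswG ιC hq hqM φ hφ x ∈ atO π (mgcT A K₁ (M * q)) i := by
  haveI : IsAlgClosed (IsLocalRing.ResidueField ↥(mgcA A K₁)) :=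
    stb_isAlgClosed_residue hq hA (le_sup_left : beta0Field A ≤ mgcE A K₁)
  have hφD : φ ∈ A.decompositionSubgroup ℚ := hφF.mem_decompositionSubgroup
  exact stbsw_smooth_geom_only hπ (mgvV hπ ιC hq hqM) true false
    (fun c => by cases c <;> simp) (mgv_hBV₁ hπ ιC hq hqM) (mgv_hBV₂ hπ ιC hq hqM)
    (stbAtk ιC hq hqM) (mgRingAut (M * q) (mgaRestrictEquiv (mgcE A K₁) φ hφ)) q hq.ne_zero
    (stb_frobVal_all_J hπ ιC hq hqM hA (le_sup_left : beta0Field A ≤ mgcE A K₁) h2 h3 hφF hφ)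
    (stb_frobVal_all_Jinv hπ ιC hq hqM hA (le_sup_left : beta0Field A ≤ mgcE A K₁) h2 h3 hφF hφ)
    (stbswG ιC hq hqM φ hφ) (stbswG_apply ιC hq hqM φ hφ)
    (stbsw_mf_hgA ιC hq hqM hπ hφF hφ) (fun c => !c)
    (stbsw_mf_hgV hπ ιC hq hqM hφD hφ) (stbsw_mf_hgJ ιC hq hqM hφD hφ)
    (stbsw_mf_hgL ιC hq hqM hφD hφ) i c hc honly

end Concrete

section Main

variable {A : ValuationSubring Qb} {K₁ : IntermediateField ℚ Qb} {N : ℕ} [NeZero N]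
  [IsDiscreteValuationRing ↥(mgcA A K₁)]

/-- **`stbsw_main_points` in the concrete setting** (twin of `stbc_main`). -/
theorem stbsw_c_main {q : ℕ} (hq : q.Prime) (hA : A.LiesOverPrime q)
    {π : ↥(mgcA A K₁)} (hπ : Irreducible π)
    {p : ℕ} (hp : p.Prime) (hpq : p ≠ q)
    {κ : Type*} [Finite κ] (V : κ → ValuationSubring ↥(mgcF A K₁ N)) (c₁ c₂ : κ)
    (hκ : ∀ c, c = c₁ ∨ c = c₂) (hne : V c₁ ≠ V c₂)
    (hBV₁ : ∀ c (b : ↥(mgcF A K₁ N)),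
      IsIntegral ↥(Algebra.adjoin ↥(mgcA A K₁) {mgcT A K₁ N}) b → b ∈ V c)
    (hBV₂ : ∀ c (b : ↥(mgcF A K₁ N)),
      IsIntegral ↥(Algebra.adjoin ↥(mgcA A K₁) {(mgcT A K₁ N)⁻¹}) b → b ∈ V c)
    (hπV : ∀ c, algebraMap ↥(mgcA A K₁) ↥(mgcF A K₁ N) π ∈ (V c).nonunits)
    (hSS1 : ∀ b : ↥(mgcF A K₁ N),
      IsIntegral ↥(Algebra.adjoin ↥(mgcA A K₁) {mgcT A K₁ N}) b →
      (∀ c, b ∈ (V c).nonunits) →
      ∃ b' : ↥(mgcF A K₁ N), IsIntegral ↥(Algebra.adjoin ↥(mgcA A K₁) {mgcT A K₁ N}) b' ∧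
        b = algebraMap ↥(mgcA A K₁) ↥(mgcF A K₁ N) π * b')
    (harch : ∀ c (a x : ↥(mgcF A K₁ N)), a ∈ (V c).nonunits →
      ∃ n : ℕ, a ^ n * x ∈ (V c).nonunits)
    (g : ↥(mgcF A K₁ N) →+* ↥(mgcF A K₁ N)) (s : κ → κ) (hs₁ : s c₁ = c₂) (hs₂ : s c₂ = c₁)
    (hgV : ∀ c, ∀ x ∈ (V (s c)).nonunits, g x ∈ (V c).nonunits) (Q r : ℕ)
    {y : ↥(mgcF A K₁ N)} (tt : κ → ↥(mgcF A K₁ N))
    (htoric : ∀ c, y / tt c ^ (p ^ r) - 1 ∈ (V c).nonunits)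
    (hpts : ∀ i : AtPt (F := ↥(mgcF A K₁ N)) π (mgcT A K₁ N) ⊕
        AtPt (F := ↥(mgcF A K₁ N)) π (mgcT A K₁ N)⁻¹,
      (atInc π (mgcT A K₁ N) V i c₁ ∧ atInc π (mgcT A K₁ N) V i c₂ ∧
        StbCross (atO π (mgcT A K₁ N) i) (V c₁) (V c₂) g Q (p ^ r) y) ∨
      (∃ c, atInc π (mgcT A K₁ N) V i c ∧ (∀ c', atInc π (mgcT A K₁ N) V i c' → c' = c) ∧
        ∃ i₁ : AtPt (F := ↥(mgcF A K₁ N)) π (mgcT A K₁ N) ⊕
            AtPt (F := ↥(mgcF A K₁ N)) π (mgcT A K₁ N)⁻¹,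
          atInc π (mgcT A K₁ N) V i₁ (s c) ∧
          StbSwapSmooth (atO π (mgcT A K₁ N) i) (atO π (mgcT A K₁ N) i₁) (V c) (V (s c)) g
            (p ^ r) y)) :
    ∃ h : ↥(mgcF A K₁ N), h ^ (p ^ r) = g y * y ^ Q := by
  haveI := mgc_finiteDimensional A K₁ N
  have hM : ((p : ℕ) : Qb) ∉ A.nonunits := by
    have := Fermat.Agent.S31.natCast_pow_not_mem_nonunits A hp hq (Ne.symm hpq) hA 1
    rwa [pow_one] at this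
  have hE : beta0Field A ≤ mgcE A K₁ := le_sup_left
  obtain ⟨ζ, hζ⟩ := beta0Ring_exists_primitiveRoot (A := A) (K₀ := mgcE A K₁) hE hp.ne_zero hM
  have hpu : IsUnit ((p : ℕ) : ↥(mgcA A K₁)) := beta0Ring_hpu hM
  have hunit := beta0Ring_hunit (A := A) (K₀ := mgcE A K₁) hq hA hE hp.ne_zero hM
  exact stbsw_main_points hπ (mgc_transcendental A K₁ N) (mgc_hcl A K₁ N) hp hpu hζ hunit V c₁ c₂
    hκ hne hBV₁ hBV₂ hπV hSS1 harch g s hs₁ hs₂ hgV Q r tt htoric hpts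

end Main

end Fermat.Agent.STB
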