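import Fermat.Agent.STB.P1Smo
import Fermat.Agent.S23.Main
import Fermat.Agent.S22.Final
import Fermat.Agent.S49.Normalize
import Fermat.Agent.S49.EigenAlg
import Fermat.Prelude.Def_CuspForm_Newforms

/-!
# STB-P1 (helper46): a Hecke polynomial separating a newform from the lower level

`stb_p1` : for a newform `g` of level `M` (prelude `CuspForm.IsNewform`), a proper divisor
`M₁ ∣ M` and a finite set of primes `S` containing the primes of `M`, there is a Hecke polynomial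
`P ∈ ℤ[X_ℓ : ℓ ∉ S]` which kills `S₂(Γ₀(M₁))` and has `χ_g(P) ≠ 0`.

Hypothesis `hpkg`: the faithful `p`-adic Eichler–Shimura package at every level and prime (the
same hypothesis as in `Fermat.Agent.S30.s30_statement_of_pkg`); it is used for strong
multiplicity one only (`stb_p1_smo`).

Variants: `stb_p1_chig` (`χ_g` given as a character `chig` of `heckeAlgebra M 2 S`, as in S35),
`stb_p1_iota` (after a ring homomorphism `iota : chig.range → O'`, `O'` of characteristic zero).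
-/

set_option autoImplicit false

noncomputable section

namespace Fermat.Agent.STB

open ModularCurve Fermat.Agent.ES Fermat.Agent.S31 Fermat.Agent.S30 ModularFormClass
  CongruenceSubgroup

/-- A common eigenvector whose character is dominated by a given character of a subring. -/
theorem stb_p1_abstract {𝕋 : Type*} [CommRing 𝕋] [Module.Finite ℤ 𝕋]
    {A : Type*} [CommRing A] (ι : A →+* 𝕋)
    {V : Type*} [AddCommGroup V] [Module ℂ V] [FiniteDimensional ℂ V]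
    (ρ : 𝕋 →+* Module.End ℂ V) (hρ : Function.Injective ρ)
    (χ : A →+* ℂ) (hker : RingHom.ker ι ≤ RingHom.ker χ) :
    ∃ (v : V) (ψ : 𝕋 →+* ℂ), v ≠ 0 ∧ (∀ t, ρ t v = ψ t • v) ∧
      RingHom.ker (ψ.comp ι) ≤ RingHom.ker χ := by
  classical
  have hint : Algebra.IsIntegral ℤ 𝕋 := inferInstance
  have hιint : ι.IsIntegral := by
    intro x
    obtain ⟨P, hP, hPx⟩ := Algebra.IsIntegral.isIntegral (R := ℤ) x
    refine ⟨P.map (Int.castRingHom A), hP.map _, ?_⟩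
    rw [Polynomial.eval₂_map]
    have hc : ι.comp (Int.castRingHom A) = algebraMap ℤ 𝕋 := RingHom.ext_int _ _
    rw [hc]
    exact hPx
  let _ : Algebra A 𝕋 := ι.toAlgebra
  have hAint : Algebra.IsIntegral A 𝕋 := ⟨hιint⟩
  have hprime : (RingHom.ker χ).IsPrime := RingHom.ker_isPrime χ
  have hbot : (⊥ : Ideal 𝕋).comap (algebraMap A 𝕋) ≤ RingHom.ker χ := hker
  obtain ⟨Q, -, hQprime, hQ⟩ :=
    Ideal.exists_ideal_over_prime_of_isIntegral (S := 𝕋) (RingHom.ker χ) ⊥ hbot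
  obtain ⟨v, ψ, hv, hψ, hkerψ⟩ := Fermat.Agent.S49.exists_eigenvector_of_injective ρ hρ Q
  refine ⟨v, ψ, hv, hψ, ?_⟩
  intro a ha
  rw [← hQ]
  exact hkerψ ha

/-- The conjugate of a normalised eigenform under a ring endomorphism of `ℂ`. -/
theorem stb_p1_conj_eigenform {N : ℕ} [NeZero N] (σ : ℂ →+* ℂ) (f : CuspForm (Gamma0 N) 2)
    (hf : f.IsNormalizedEigenform) :
    ∃ f' : CuspForm (Gamma0 N) 2, f'.IsNormalizedEigenform ∧
      ∀ n : ℕ, qCoeff ⇑f' n = σ (qCoeff ⇑f n) := by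
  obtain ⟨f', hf'⟩ := Fermat.Agent.S23.main_stmtSigma N 2 σ f
  have hq : ∀ n : ℕ, qCoeff ⇑f' n = σ (qCoeff ⇑f n) := fun n => by
    unfold qCoeff
    rw [hf', PowerSeries.coeff_map]
  refine ⟨f', ⟨?_, ?_, ?_, ?_⟩, hq⟩
  · rw [hq, hf.qCoeff_one, map_one]
  · intro m n hmn
    rw [hq, hq, hq, hf.qCoeff_mul_of_coprime m n hmn, map_mul]
  · intro p r hp hpN
    rw [hq, hq, hq, hq, hf.qCoeff_prime_pow_of_not_dvd p r hp hpN, map_sub, map_mul, map_mul,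
      map_natCast]
  · intro p r hp hpN
    rw [hq, hq, hq, hf.qCoeff_prime_pow_of_dvd p r hp hpN, map_mul]

section p1

variable {M M₁ : ℕ} [NeZero M] [NeZero M₁]

/-- **STB-P1**: a Hecke polynomial in the variables outside `S` which kills the cusp forms of the
lower level `M₁` and does not kill the newform `g`. -/
theorem stb_p1 (hpkg : ∀ (N p : ℕ) [NeZero N], p.Prime → ESPkgFaith N p)
    {g : CuspForm (Gamma0 M) 2} (hg : g.IsNewform) (hM₁ : M₁ ∣ M) (hne : M₁ ≠ M)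
    (S : Finset ℕ) (hMS : ∀ q : ℕ, q.Prime → q ∣ M → q ∈ S) :
    ∃ P ∈ MvPolynomial.supported ℤ (outsideVars (↑S : Set ℕ)),
      CuspForm.heckeEvalForms M₁ 2 P = 0 ∧ heckeValue g P ≠ 0 := by
  classical
  by_contra hcon
  push Not at hcon
  obtain ⟨A, hA⟩ : ∃ A : Subalgebra ℤ HeckeAlg,
      A = MvPolynomial.supported ℤ (outsideVars (↑S : Set ℕ)) := ⟨_, rfl⟩
  obtain ⟨ι, hι⟩ : ∃ ι : A →+* CuspForm.heckeAlgebra M₁ 2 ∅,
      ∀ a : A, ι a = CuspForm.heckeEvalForms M₁ 2 (a : HeckeAlg) :=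
    ⟨(CuspForm.heckeEvalForms M₁ 2).comp A.val.toRingHom, fun a => rfl⟩
  obtain ⟨χ, hχ⟩ : ∃ χ : A →+* ℂ, ∀ a : A, χ a = heckeValue g (a : HeckeAlg) :=
    ⟨((MvPolynomial.aeval (fun ℓ : Nat.Primes => qCoeff ⇑g ℓ) :
      HeckeAlg →ₐ[ℤ] ℂ) : HeckeAlg →+* ℂ).comp A.val.toRingHom, fun a => rfl⟩
  have hker : RingHom.ker ι ≤ RingHom.ker χ := by
    intro a ha
    rw [RingHom.mem_ker] at ha ⊢
    rw [hχ]
    rw [hι] at ha
    exact hcon (a : HeckeAlg) (hA ▸ a.2) ha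
  have hfin : Module.Finite ℤ (CuspForm.heckeAlgebra M₁ 2 ∅) :=
    Fermat.Agent.S22.moduleFinite_heckeAlgebra M₁ 2 ∅
  have hfd : FiniteDimensional ℂ (CuspForm (Gamma0 M₁) 2) :=
    Fermat.Agent.S49.finiteDimensional_cuspForm M₁ 2
  obtain ⟨v, ψ, hv, hψ, hkψ⟩ := stb_p1_abstract ι
    ((CuspForm.heckeAlgebra M₁ 2 ∅).val.toRingHom) Subtype.val_injective χ hker
  obtain ⟨f, hf, hfq⟩ := Fermat.Agent.S49.exists_normalized_eigenform v hv ψ hψ
  have hint : ∀ a, IsIntegral ℤ ((ψ.comp ι) a) := fun a =>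
    map_isIntegral_int ψ (Algebra.IsIntegral.isIntegral (ι a))
  obtain ⟨σ, hσ⟩ := stb_p1_exists_sigma (ψ.comp ι) χ hint hkψ
  obtain ⟨f₁, hf₁, hf₁q⟩ := stb_p1_conj_eigenform (σ : ℂ →+* ℂ) f hf
  have hout : ∀ ℓ : ℕ, ℓ.Prime → ℓ ∉ S → qCoeff ⇑f₁ ℓ = qCoeff ⇑g ℓ := by
    intro ℓ hℓ hℓS
    have hℓM : ¬ ℓ ∣ M := fun h => hℓS (hMS ℓ hℓ h)
    have hℓM₁ : ¬ ℓ ∣ M₁ := fun h => hℓM (h.trans hM₁)
    obtain ⟨ℓ', rfl⟩ : ∃ ℓ' : Nat.Primes, (ℓ' : ℕ) = ℓ := ⟨⟨ℓ, hℓ⟩, rfl⟩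
    have hX : (MvPolynomial.X ℓ' : HeckeAlg) ∈ A := by
      rw [hA]
      exact (MvPolynomial.X_mem_supported (R := ℤ)).mpr hℓS
    have h1 : ι ⟨MvPolynomial.X ℓ', hX⟩ =
        CuspForm.heckeAlgebra.T hℓ hℓM₁ (Set.notMem_empty _) := by
      rw [hι]
      exact CuspForm.heckeEvalForms_heckeGen_of_not_dvd (N := M₁) (k := 2) (ℓ := ℓ') hℓM₁
    have h2 := hσ ⟨MvPolynomial.X ℓ', hX⟩
    rw [RingHom.comp_apply, h1, ← hfq (ℓ' : ℕ) hℓ hℓM₁, hχ] at h2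
    rw [hf₁q]
    exact h2.trans (stb_p1_heckeValue_X g ℓ')
  have hall := stb_p1_smo hpkg hM₁ g hg.1 f₁ hf₁ S hout
  exact hg.2 M₁ hM₁ hne ⟨f₁, hf₁, hall⟩

/-- on Hecke polynomials in the variables outside `S`, a character `chig` of the Hecke algebra
with `chig T_ℓ = a_ℓ(g)` is `heckeValue g` -/
theorem stb_p1_chig_eq {g : CuspForm (Gamma0 M) 2} (S : Set ℕ)
    (hMS : ∀ ℓ : ℕ, ℓ.Prime → ℓ ∉ S → ¬ ℓ ∣ M)
    (chig : CuspForm.heckeAlgebra M 2 S →+* ℂ)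
    (hchig : ∀ (ℓ : ℕ) (hℓ : ℓ.Prime) (hℓM : ¬ ℓ ∣ M) (hℓS : ℓ ∉ S),
      chig (CuspForm.heckeAlgebra.T hℓ hℓM hℓS) = qCoeff ⇑g ℓ)
    {t : HeckeAlg} (ht : t ∈ MvPolynomial.supported ℤ (outsideVars S)) :
    chig (evalS M S t) = heckeValue g t := by
  rw [MvPolynomial.supported_eq_adjoin_X] at ht
  induction ht using Algebra.adjoin_induction with
  | mem x hx =>
    obtain ⟨ℓ, hℓ, rfl⟩ := hx
    have hℓS : (ℓ : ℕ) ∉ S := hℓ
    have h1 : evalS M S (MvPolynomial.X ℓ) =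
        CuspForm.heckeAlgebra.T ℓ.2 (hMS ℓ ℓ.2 hℓS) hℓS :=
      evalS_heckeGen ℓ.2 (hMS ℓ ℓ.2 hℓS) hℓS
    rw [h1]
    exact (hchig (ℓ : ℕ) ℓ.2 (hMS ℓ ℓ.2 hℓS) hℓS).trans (stb_p1_heckeValue_X g ℓ).symm
  | algebraMap r =>
    rw [AlgHom.commutes, stb_p1_heckeValue_algebraMap, eq_intCast, map_intCast]
  | add x y _ _ ihx ihy =>
    rw [map_add, map_add, ihx, ihy, stb_p1_heckeValue_add]
  | mul x y _ _ ihx ihy =>
    rw [map_mul, map_mul, ihx, ihy, stb_p1_heckeValue_mul]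

/-- **STB-P1**, in terms of a character `chig` of the Hecke algebra away from `S` (as in S35). -/
theorem stb_p1_chig (hpkg : ∀ (N p : ℕ) [NeZero N], p.Prime → ESPkgFaith N p)
    {g : CuspForm (Gamma0 M) 2} (hg : g.IsNewform) (hM₁ : M₁ ∣ M) (hne : M₁ ≠ M)
    (S : Finset ℕ) (hMS : ∀ q : ℕ, q.Prime → q ∣ M → q ∈ S)
    (chig : CuspForm.heckeAlgebra M 2 (↑S : Set ℕ) →+* ℂ)
    (hchig : ∀ (ℓ : ℕ) (hℓ : ℓ.Prime) (hℓM : ¬ ℓ ∣ M) (hℓS : ℓ ∉ (↑S : Set ℕ)),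
      chig (CuspForm.heckeAlgebra.T hℓ hℓM hℓS) = qCoeff ⇑g ℓ) :
    ∃ P ∈ MvPolynomial.supported ℤ (outsideVars (↑S : Set ℕ)),
      CuspForm.heckeEvalForms M₁ 2 P = 0 ∧ chig (evalS M (↑S : Set ℕ) P) ≠ 0 := by
  obtain ⟨P, hP, hP0, hPg⟩ := stb_p1 hpkg hg hM₁ hne S hMS
  refine ⟨P, hP, hP0, ?_⟩
  rw [stb_p1_chig_eq (↑S : Set ℕ) (fun ℓ hℓ hℓS h => hℓS (hMS ℓ hℓ h)) chig hchig hP]
  exact hPg

/-- a ring homomorphism from the range of a character of the Hecke algebra to a ring of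
characteristic zero is injective -/
theorem stb_p1_iota_injective (S : Set ℕ) (chig : CuspForm.heckeAlgebra M 2 S →+* ℂ)
    {O' : Type*} [CommRing O'] [CharZero O'] (iota : chig.range →+* O') :
    Function.Injective iota := by
  have hfin : Module.Finite ℤ (CuspForm.heckeAlgebra M 2 S) :=
    Fermat.Agent.S22.moduleFinite_heckeAlgebra M 2 S
  refine stb_p1_injective_of_integral chig.range.subtype iota Subtype.val_injective ?_
  rintro ⟨d, t, rfl⟩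
  exact map_isIntegral_int chig (Algebra.IsIntegral.isIntegral t)

/-- **STB-P1**, after a ring homomorphism `iota : chig.range → O'` (as in S35). -/
theorem stb_p1_iota (hpkg : ∀ (N p : ℕ) [NeZero N], p.Prime → ESPkgFaith N p)
    {g : CuspForm (Gamma0 M) 2} (hg : g.IsNewform) (hM₁ : M₁ ∣ M) (hne : M₁ ≠ M)
    (S : Finset ℕ) (hMS : ∀ q : ℕ, q.Prime → q ∣ M → q ∈ S)
    (chig : CuspForm.heckeAlgebra M 2 (↑S : Set ℕ) →+* ℂ)
    (hchig : ∀ (ℓ : ℕ) (hℓ : ℓ.Prime) (hℓM : ¬ ℓ ∣ M) (hℓS : ℓ ∉ (↑S : Set ℕ)),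
      chig (CuspForm.heckeAlgebra.T hℓ hℓM hℓS) = qCoeff ⇑g ℓ)
    {O' : Type*} [CommRing O'] [CharZero O'] (iota : chig.range →+* O') :
    ∃ P ∈ MvPolynomial.supported ℤ (outsideVars (↑S : Set ℕ)),
      CuspForm.heckeEvalForms M₁ 2 P = 0 ∧
        (iota.comp chig.rangeRestrict) (evalS M (↑S : Set ℕ) P) ≠ 0 := by
  obtain ⟨P, hP, hP0, hPg⟩ := stb_p1_chig hpkg hg hM₁ hne S hMS chig hchig
  refine ⟨P, hP, hP0, fun h => hPg ?_⟩
  rw [RingHom.comp_apply] at h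
  have h1 := stb_p1_iota_injective (↑S : Set ℕ) chig iota (h.trans (map_zero iota).symm)
  exact congrArg Subtype.val h1

end p1

end Fermat.Agent.STB
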