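import Fermat.Agent.STB.SmoothFac
import Fermat.Agent.STB.GluingChart

/-!
# STB-S2 — the smooth-point disjunct `StbSmooth` of `stb_main_points`, from chart data

`stb_main_points` (STB-T, `STB/AbstractT2.lean`) asks at every closed point `i` with one
component `c` for `StbSmooth (atO π t i) (atO π t i₁) (V c) Φ m y`, `i₁` the preimage of `i`
under `Φ`.  Here it is assembled from chart data:

* (F) at `𝔫` and at `𝔫₁` : `stb_smooth_facAt` (STB-S), the vertical multiplicity of `y` being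
  read off the toric hypothesis `y ≡ tt ^ m` at `V c` (`stb_sp_val_of_toric`) because `π` is a
  uniformizer of `V c` (`stb_sp_unif`, `stb_sp_princ`);
* (N) at `𝔫` and at `𝔫₁` : `stb_gc_res` + `stb_gc_gen_disc` (STB-G, helper76).

Main statements: `stb_sp_smooth` (charts `u`, `u₁` arbitrary), `stb_sp_hunif` (the hypothesis
`hunif` from (SS1), `hVloc`, distinctness and the archimedean property).
-/

set_option autoImplicit false
set_option linter.style.haveILetI false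
set_option linter.unusedSectionVars false
set_option linter.unusedVariables false

namespace Fermat.Agent.STB

open Polynomial IntermediateField Fermat.Agent.INJ AlgebraicCurve Fermat.Agent.UNIP

section Unif

variable {F : Type*} [Field F]

/-- descent on the exponent: if `𝔪(V) = ϖ V` and `v(ϖ ^ N) < v(x)`, `x ∈ V`, then `x` is a unit
times a power of `ϖ` -/
theorem stb_sp_unif_aux (V : ValuationSubring F) {ϖ : F} (hϖ0 : ϖ ≠ 0)
    (hprinc : ∀ x ∈ V.nonunits, ∃ x' ∈ V, x = ϖ * x') :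
    ∀ (N : ℕ) (x : F), x ∈ V → x ≠ 0 → ϖ ^ N * x⁻¹ ∈ V.nonunits →
      ∃ k : ℕ, V.valuation (x / ϖ ^ k) = 1 := by
  intro N
  induction N with
  | zero =>
    intro x hx hx0 h
    exfalso
    rw [pow_zero, one_mul, ValuationSubring.mem_nonunits_iff, map_inv₀] at h
    have h1 : V.valuation x ≤ 1 := (V.valuation_le_one_iff x).2 hx
    have h2 : V.valuation x ≠ 0 := (Valuation.ne_zero_iff _).2 hx0
    have h3 : 1 < V.valuation x := by
      by_contra hcon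
      rw [not_lt] at hcon
      have := (one_le_inv₀ (zero_lt_iff.2 h2)).2 hcon
      exact absurd h (not_lt.2 this)
    exact absurd h1 (not_le.2 h3)
  | succ N ih =>
    intro x hx hx0 h
    by_cases hxn : x ∈ V.nonunits
    · obtain ⟨x', hx', rfl⟩ := hprinc x hxn
      have hx'0 : x' ≠ 0 := right_ne_zero_of_mul hx0
      have e : ϖ ^ (N + 1) * (ϖ * x')⁻¹ = ϖ ^ N * x'⁻¹ := by
        rw [pow_succ]
        field_simp
      rw [e] at h
      obtain ⟨k, hk⟩ := ih x' hx' hx'0 h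
      refine ⟨k + 1, ?_⟩
      have e2 : ϖ * x' / ϖ ^ (k + 1) = x' / ϖ ^ k := by
        rw [pow_succ]
        field_simp
      rw [e2]
      exact hk
    · refine ⟨0, ?_⟩
      rw [pow_zero, div_one]
      exact le_antisymm ((V.valuation_le_one_iff x).2 hx)
        (not_lt.1 fun h' => hxn ((ValuationSubring.mem_nonunits_iff V).2 h'))

/-- **`ϖ` is a uniformizer.**  If `𝔪(V) = ϖ V` and `V` is archimedean, every `x ≠ 0` is a unit
of `V` times an integral power of `ϖ`. -/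
theorem stb_sp_unif (V : ValuationSubring F) (harch : StbArch V) {ϖ : F} (hϖ0 : ϖ ≠ 0)
    (hϖ : ϖ ∈ V.nonunits) (hprinc : ∀ x ∈ V.nonunits, ∃ x' ∈ V, x = ϖ * x')
    {x : F} (hx0 : x ≠ 0) : ∃ k : ℤ, V.valuation (x / ϖ ^ k) = 1 := by
  rcases V.mem_or_inv_mem x with hx | hx
  · obtain ⟨N, hN⟩ := harch x⁻¹ ϖ hϖ
    rw [mul_comm] at hN
    obtain ⟨k, hk⟩ := stb_sp_unif_aux V hϖ0 hprinc N x hx hx0 hN
    exact ⟨k, by rw [zpow_natCast]; exact hk⟩
  · obtain ⟨N, hN⟩ := harch x⁻¹⁻¹ ϖ hϖ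
    rw [mul_comm] at hN
    obtain ⟨k, hk⟩ := stb_sp_unif_aux V hϖ0 hprinc N x⁻¹ hx (inv_ne_zero hx0) hN
    refine ⟨-(k : ℤ), ?_⟩
    have e : x / ϖ ^ (-(k : ℤ)) = (x⁻¹ / ϖ ^ k)⁻¹ := by
      rw [zpow_neg, zpow_natCast]
      field_simp
    rw [e, map_inv₀, hk, inv_one]

/-- the vertical multiplicity from the toric hypothesis: `y ≡ tt ^ m` at `V` and `tt = unit · ϖ ^ k`
give `y / (ϖ ^ k) ^ m` a unit of `V` -/
theorem stb_sp_val_of_toric (V : ValuationSubring F) {ϖ y tt : F} {m : ℕ} {k : ℤ}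
    (htoric : y / tt ^ m - 1 ∈ V.nonunits) (hk : V.valuation (tt / ϖ ^ k) = 1) :
    V.valuation (y / (ϖ ^ k) ^ m) = 1 := by
  have h1 : V.valuation (y / tt ^ m) = 1 := stbUnit_of_sub_one htoric
  have h10 : y / tt ^ m ≠ 0 := fun h => by rw [h, map_zero] at h1; exact zero_ne_one h1
  have htt : tt ^ m ≠ 0 := fun h => h10 (by rw [h, div_zero])
  have h20 : tt / ϖ ^ k ≠ 0 := fun h => by rw [h, map_zero] at hk; exact zero_ne_one hk
  have hϖk : ϖ ^ k ≠ 0 := fun h => h20 (by rw [h, div_zero])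
  have e : y / (ϖ ^ k) ^ m = (y / tt ^ m) * (tt / ϖ ^ k) ^ m := by
    rw [div_pow]
    field_simp
  rw [e, map_mul, map_pow, h1, hk, one_pow, one_mul]

/-- `y ≠ 0` from the toric hypothesis -/
theorem stb_sp_ne_zero_of_toric (V : ValuationSubring F) {y tt : F} {m : ℕ}
    (htoric : y / tt ^ m - 1 ∈ V.nonunits) : y ≠ 0 := by
  rintro rfl
  have h1 : V.valuation ((0 : F) / tt ^ m) = 1 := stbUnit_of_sub_one htoric
  rw [zero_div, map_zero] at h1
  exact zero_ne_one h1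

end Unif

section Chart

variable {A₀ E F : Type*} [CommRing A₀] [IsDomain A₀] [IsDiscreteValuationRing A₀]
  [Field E] [Algebra A₀ E] [IsFractionRing A₀ E] [CharZero E]
  [Field F] [Algebra E F] [Algebra A₀ F] [IsScalarTower A₀ E F]
  {π : A₀} {κ : Type*}

/-- **(N) at a smooth point of the chart `u`.** -/
theorem stb_sp_res {u : F}
    [IsNoetherianRing ↥(zchClosure (A₀ := A₀) ({u} : Set F))]
    (W : ValuationSubring F)
    (hBW : ∀ b : F, IsIntegral ↥(Algebra.adjoin A₀ {u}) b → b ∈ W)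
    (hπW : algebraMap A₀ F π ∈ W.nonunits)
    (hWloc : ∀ x : F, x ∈ W → ∃ b s : F, IsIntegral ↥(Algebra.adjoin A₀ {u}) b ∧
      IsIntegral ↥(Algebra.adjoin A₀ {u}) s ∧ s ∉ W.nonunits ∧ s * x = b)
    (𝔫 : AtPt (F := F) π u) (hthr : atThrough 𝔫 W)
    (s : ↥(zchClosure (A₀ := A₀) ({u} : Set F))) (hs : s ∈ 𝔫.1)
    (hgen : NodesLocGen 𝔫.1 {algebraMap A₀ ↥(zchClosure (A₀ := A₀) ({u} : Set F)) π, s}) :
    StbRes (atLoc 𝔫) W := by
  haveI := 𝔫.2.1.isPrime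
  have hinj : Function.Injective (algebraMap ↥(zchClosure (A₀ := A₀) ({u} : Set F)) F) :=
    Subtype.val_injective
  have hBW' : ∀ b : ↥(zchClosure (A₀ := A₀) ({u} : Set F)),
      algebraMap ↥(zchClosure (A₀ := A₀) ({u} : Set F)) F b ∈ W :=
    fun b => hBW _ (mem_zchClosure.mp b.2)
  intro a e n he hn h
  exact stb_gc_res hinj 𝔫.1 W hBW' hthr
    (fun x hx => by
      obtain ⟨b, d, hb, hd, hdW, hdx⟩ := hWloc x hx
      exact ⟨⟨b, mem_zchClosure.mpr hb⟩, ⟨d, mem_zchClosure.mpr hd⟩, hdW, hdx⟩)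
    s hs (stb_gc_gen_disc 𝔫.1 W hBW' hgen hπW) a e n he hn h

/-- **`𝔪(V c) = π · V c`** from (SS1), `V c = (B_u)_{𝔭_c}` and the incomparability of the
vertical primes. -/
theorem stb_sp_princ {u : F} [Finite κ] (V : κ → ValuationSubring F)
    (hBV : ∀ c (b : F), IsIntegral ↥(Algebra.adjoin A₀ {u}) b → b ∈ V c)
    (hSS1 : ∀ b : F, IsIntegral ↥(Algebra.adjoin A₀ {u}) b → (∀ c, b ∈ (V c).nonunits) →
      ∃ b' : F, IsIntegral ↥(Algebra.adjoin A₀ {u}) b' ∧ b = algebraMap A₀ F π * b')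
    (hVloc : ∀ c (x : F), x ∈ V c → ∃ b s : F, IsIntegral ↥(Algebra.adjoin A₀ {u}) b ∧
      IsIntegral ↥(Algebra.adjoin A₀ {u}) s ∧ s ∉ (V c).nonunits ∧ s * x = b)
    (c : κ) (hnle : ∀ c', c' ≠ c → ¬ V c ≤ V c') :
    ∀ x ∈ (V c).nonunits, ∃ x' ∈ V c, x = algebraMap A₀ F π * x' := by
  classical
  haveI : Fintype κ := Fintype.ofFinite κ
  -- an integral multiplier: unit at `c`, in `𝔪(V c')` for `c' ≠ c`
  have hd : ∀ c', c' ≠ c → ∃ d : F, IsIntegral ↥(Algebra.adjoin A₀ {u}) d ∧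
      d ∈ (V c').nonunits ∧ d ∉ (V c).nonunits := by
    intro c' hc'
    by_contra hcon
    push Not at hcon
    apply hnle c' hc'
    intro x hx
    obtain ⟨b, s, hb, hs, hsV, hsx⟩ := hVloc c x hx
    have hs' : s ∉ (V c').nonunits := fun h => hsV (hcon s hs h)
    have hs1 : (V c').valuation s = 1 := stb_gc_val_eq_one (V c') (hBV c' s hs) hs'
    have hs0 : s ≠ 0 := fun h => by rw [h, map_zero] at hs1; exact zero_ne_one hs1
    have hx' : x = s⁻¹ * b := by rw [← hsx]; field_simp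
    rw [hx']
    refine (V c').mul_mem _ _ ?_ (hBV c' b hb)
    rw [← (V c').valuation_le_one_iff, map_inv₀, hs1, inv_one]
  choose! d hdint hdc' hdc using hd
  set e : F := ∏ c' ∈ Finset.univ.filter (fun c' => c' ≠ c), d c' with he
  have heint : IsIntegral ↥(Algebra.adjoin A₀ {u}) e :=
    IsIntegral.prod _ fun c' hc' => hdint c' (Finset.mem_filter.mp hc').2
  have hec : (V c).valuation e = 1 := by
    rw [he, map_prod]
    refine Finset.prod_eq_one fun c' hc' => ?_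
    have hc'' := (Finset.mem_filter.mp hc').2
    exact stb_gc_val_eq_one (V c) (hBV c _ (hdint c' hc'')) (hdc c' hc'')
  have hec' : ∀ c', c' ≠ c → e ∈ (V c').nonunits := by
    intro c' hc'
    have hmem : c' ∈ Finset.univ.filter (fun c' => c' ≠ c) :=
      Finset.mem_filter.mpr ⟨Finset.mem_univ _, hc'⟩
    rw [he, ← Finset.mul_prod_erase _ _ hmem]
    rw [mul_comm]
    refine pwi_mul_mem_nonunits (V c') ?_ (hdc' c' hc')
    exact hBV c' _ (IsIntegral.prod _ fun c'' hc'' =>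
      hdint c'' (Finset.mem_filter.mp (Finset.mem_of_mem_erase hc'')).2)
  intro x hx
  obtain ⟨b, s, hb, hs, hsV, hsx⟩ := hVloc c x (stb_nonunits_subset hx)
  have hs1 : (V c).valuation s = 1 := stb_gc_val_eq_one (V c) (hBV c s hs) hsV
  have hs0 : s ≠ 0 := fun h => by rw [h, map_zero] at hs1; exact zero_ne_one hs1
  have he0 : e ≠ 0 := fun h => by rw [h, map_zero] at hec; exact zero_ne_one hec
  have hbc : b ∈ (V c).nonunits := by
    rw [← hsx]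
    exact pwi_mul_mem_nonunits (V c) (hBV c s hs) hx
  obtain ⟨b', hb', hbb'⟩ := hSS1 (e * b) (heint.mul hb) (fun c' => by
    by_cases hc' : c' = c
    · rw [hc']
      exact pwi_mul_mem_nonunits (V c) (hBV c e heint) hbc
    · rw [mul_comm]
      exact pwi_mul_mem_nonunits (V c') (hBV c' b hb) (hec' c' hc'))
  refine ⟨(e * s)⁻¹ * b', ?_, ?_⟩
  · refine (V c).mul_mem _ _ ?_ (hBV c b' hb')
    rw [← (V c).valuation_le_one_iff, map_inv₀, map_mul, hec, hs1, one_mul, inv_one]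
  · have e1 : algebraMap A₀ F π * ((e * s)⁻¹ * b') = (e * s)⁻¹ * (algebraMap A₀ F π * b') := by
      ring
    rw [e1, ← hbb', ← hsx]
    field_simp

/-- **`hunif`**: `π` is a uniformizer of every vertical valuation ring `V c`, from (SS1),
`V c = (B_u)_{𝔭_c}`, distinctness and the archimedean property. -/
theorem stb_sp_hunif (hπ0 : algebraMap A₀ F π ≠ 0) {u : F} [Finite κ]
    (V : κ → ValuationSubring F)
    (hBV : ∀ c (b : F), IsIntegral ↥(Algebra.adjoin A₀ {u}) b → b ∈ V c)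
    (hπV : ∀ c, algebraMap A₀ F π ∈ (V c).nonunits)
    (hSS1 : ∀ b : F, IsIntegral ↥(Algebra.adjoin A₀ {u}) b → (∀ c, b ∈ (V c).nonunits) →
      ∃ b' : F, IsIntegral ↥(Algebra.adjoin A₀ {u}) b' ∧ b = algebraMap A₀ F π * b')
    (hVloc : ∀ c (x : F), x ∈ V c → ∃ b s : F, IsIntegral ↥(Algebra.adjoin A₀ {u}) b ∧
      IsIntegral ↥(Algebra.adjoin A₀ {u}) s ∧ s ∉ (V c).nonunits ∧ s * x = b)
    (hne : ∀ c c', c ≠ c' → V c ≠ V c')
    (harch : ∀ c (a x : F), a ∈ (V c).nonunits → ∃ N : ℕ, a ^ N * x ∈ (V c).nonunits) :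
    ∀ c (x : F), x ≠ 0 → ∃ k : ℤ, (V c).valuation (x / algebraMap A₀ F π ^ k) = 1 := by
  have harch' : ∀ c, StbArch (V c) := fun c x a ha => by
    obtain ⟨N, hN⟩ := harch c a x ha
    exact ⟨N, by rw [mul_comm]; exact hN⟩
  intro c x hx
  exact stb_sp_unif (V c) (harch' c) hπ0 (hπV c)
    (stb_sp_princ V hBV hSS1 hVloc c fun c' hc' =>
      stb_not_le_of_ne (harch' c) hπ0 (hπV c') (hne c c' (Ne.symm hc'))) hx

/-- **`Φ (O_{𝔫₁}) ⊆ O_𝔫`** from the chart: `Φ` maps the chart `u₁` into the chart `u` and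
elements outside `𝔫₁` outside `𝔫` (i.e. `Φ⁻¹ 𝔫 ⊆ 𝔫₁`). -/
theorem stb_sp_map_loc {u u₁ : F} (𝔫 : AtPt (F := F) π u) (𝔫₁ : AtPt (F := F) π u₁)
    (Φ : F →+* F)
    (hΦB : ∀ b : ↥(zchClosure (A₀ := A₀) ({u₁} : Set F)),
      ∃ b' : ↥(zchClosure (A₀ := A₀) ({u} : Set F)), Φ (b : F) = (b' : F) ∧
        (b ∉ 𝔫₁.1 → b' ∉ 𝔫.1)) :
    ∀ x ∈ atLoc 𝔫₁, Φ x ∈ atLoc 𝔫 := by
  rintro x ⟨b, d, hd, hdx⟩
  obtain ⟨b', hb', -⟩ := hΦB b
  obtain ⟨d', hd', hd'n⟩ := hΦB d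
  refine ⟨b', d', hd'n hd, ?_⟩
  have h := congrArg Φ hdx
  rw [map_mul] at h
  change Φ (d : F) * Φ x = Φ (b : F) at h
  rw [hd', hb'] at h
  exact h

/-- **The smooth-point disjunct of `stb_main_points`.**  `𝔫` a smooth closed point of the chart
`u` (`𝔫 = (π, s)` locally), `𝔫₁` a smooth closed point of the chart `u₁` (`𝔫₁ = (π, s₁)`
locally), both on the component `c` only, `Φ (O_{𝔫₁}) ⊆ O_𝔫`; `y ≡ tt ^ m` at `V c` (toric),
`m ∣ ord_P y` on the tubes of `𝔫` and `𝔫₁`, the points of these tubes in the support of `y`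
rational.  Then `StbSmooth O_𝔫 O_{𝔫₁} (V c) Φ m y`. -/
theorem stb_sp_smooth (hπ : Irreducible π) {u u₁ : F} (hu : Transcendental E u)
    (hu₁ : Transcendental E u₁) [FiniteDimensional E⟮u⟯ F] [FiniteDimensional E⟮u₁⟯ F]
    [Finite κ]
    [IsNoetherianRing ↥(zchClosure (A₀ := A₀) ({u} : Set F))]
    [IsNoetherianRing ↥(zchClosure (A₀ := A₀) ({u₁} : Set F))]
    (V : κ → ValuationSubring F)
    (hBV : ∀ c (b : F), IsIntegral ↥(Algebra.adjoin A₀ {u}) b → b ∈ V c)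
    (hBV₁ : ∀ c (b : F), IsIntegral ↥(Algebra.adjoin A₀ {u₁}) b → b ∈ V c)
    (hπV : ∀ c, algebraMap A₀ F π ∈ (V c).nonunits)
    (hSS1 : ∀ b : F, IsIntegral ↥(Algebra.adjoin A₀ {u}) b → (∀ c, b ∈ (V c).nonunits) →
      ∃ b' : F, IsIntegral ↥(Algebra.adjoin A₀ {u}) b' ∧ b = algebraMap A₀ F π * b')
    (hSS1₁ : ∀ b : F, IsIntegral ↥(Algebra.adjoin A₀ {u₁}) b → (∀ c, b ∈ (V c).nonunits) →
      ∃ b' : F, IsIntegral ↥(Algebra.adjoin A₀ {u₁}) b' ∧ b = algebraMap A₀ F π * b')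
    (hVloc : ∀ c (x : F), x ∈ V c → ∃ b s : F, IsIntegral ↥(Algebra.adjoin A₀ {u}) b ∧
      IsIntegral ↥(Algebra.adjoin A₀ {u}) s ∧ s ∉ (V c).nonunits ∧ s * x = b)
    (hVloc₁ : ∀ c (x : F), x ∈ V c → ∃ b s : F, IsIntegral ↥(Algebra.adjoin A₀ {u₁}) b ∧
      IsIntegral ↥(Algebra.adjoin A₀ {u₁}) s ∧ s ∉ (V c).nonunits ∧ s * x = b)
    (c : κ)
    (hunif : ∀ x : F, x ≠ 0 → ∃ k : ℤ, (V c).valuation (x / algebraMap A₀ F π ^ k) = 1)
    (𝔫 : AtPt (F := F) π u) (𝔫₁ : AtPt (F := F) π u₁)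
    (s : ↥(zchClosure (A₀ := A₀) ({u} : Set F))) (hs : s ∈ 𝔫.1)
    (hgen : NodesLocGen 𝔫.1 {algebraMap A₀ ↥(zchClosure (A₀ := A₀) ({u} : Set F)) π, s})
    (s₁ : ↥(zchClosure (A₀ := A₀) ({u₁} : Set F))) (hs₁ : s₁ ∈ 𝔫₁.1)
    (hgen₁ : NodesLocGen 𝔫₁.1 {algebraMap A₀ ↥(zchClosure (A₀ := A₀) ({u₁} : Set F)) π, s₁})
    (hc : atThrough 𝔫 (V c)) (hc₁ : atThrough 𝔫₁ (V c))
    (honly : ∀ c', atThrough 𝔫 (V c') → c' = c) (honly₁ : ∀ c', atThrough 𝔫₁ (V c') → c' = c)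
    (Φ : F →+* F) (hΦO : ∀ x ∈ atLoc 𝔫₁, Φ x ∈ atLoc 𝔫)
    {y : F} (m : ℕ) (tt : F) (htoric : y / tt ^ m - 1 ∈ (V c).nonunits)
    (hfin : {P : Place E F | LsTube ↥(zchClosure (A₀ := A₀) ({u} : Set F)) u 𝔫.1 P ∧
      P.ord y ≠ 0}.Finite)
    (hm : ∀ P : Place E F, LsTube ↥(zchClosure (A₀ := A₀) ({u} : Set F)) u 𝔫.1 P →
      (m : ℤ) ∣ P.ord y)
    (hrat : ∀ P : Place E F, LsTube ↥(zchClosure (A₀ := A₀) ({u} : Set F)) u 𝔫.1 P →
      P.ord y ≠ 0 → ∀ f ∈ P.toValuationSubring,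
        ∃ c : E, f - algebraMap E F c ∈ P.toValuationSubring.nonunits)
    (hfin₁ : {P : Place E F | LsTube ↥(zchClosure (A₀ := A₀) ({u₁} : Set F)) u₁ 𝔫₁.1 P ∧
      P.ord y ≠ 0}.Finite)
    (hm₁ : ∀ P : Place E F, LsTube ↥(zchClosure (A₀ := A₀) ({u₁} : Set F)) u₁ 𝔫₁.1 P →
      (m : ℤ) ∣ P.ord y)
    (hrat₁ : ∀ P : Place E F, LsTube ↥(zchClosure (A₀ := A₀) ({u₁} : Set F)) u₁ 𝔫₁.1 P →
      P.ord y ≠ 0 → ∀ f ∈ P.toValuationSubring,
        ∃ c : E, f - algebraMap E F c ∈ P.toValuationSubring.nonunits) :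
    StbSmooth (atLoc 𝔫) (atLoc 𝔫₁) (V c) Φ m y := by
  have hy : y ≠ 0 := stb_sp_ne_zero_of_toric (V c) htoric
  obtain ⟨k, hval⟩ : ∃ k : ℤ, (V c).valuation (y / (algebraMap A₀ F π ^ k) ^ m) = 1 := by
    by_cases htt : tt = 0
    · have h1 : (V c).valuation (y / tt ^ m) = 1 := stbUnit_of_sub_one htoric
      by_cases hm0 : m = 0
      · refine ⟨0, ?_⟩
        rw [hm0, pow_zero, div_one] at h1
        rw [hm0, pow_zero, div_one]
        exact h1
      · rw [htt, zero_pow hm0, div_zero, map_zero] at h1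
        exact absurd h1 zero_ne_one
    · obtain ⟨k, hk⟩ := hunif tt htt
      exact ⟨k, stb_sp_val_of_toric (V c) htoric hk⟩
  refine ⟨hΦO, ?_, ?_, ?_, ?_⟩
  · exact stb_sp_res (V c) (hBV c) (hπV c) (hVloc c) 𝔫 hc s hs hgen
  · exact stb_sp_res (V c) (hBV₁ c) (hπV c) (hVloc₁ c) 𝔫₁ hc₁ s₁ hs₁ hgen₁
  · exact stb_smooth_facAt hπ hu V hBV hπV hSS1 hVloc 𝔫 s hs hgen hy m k
      (fun c' hc' => by rw [honly c' hc']; exact hval) hfin hm hrat
  · exact stb_smooth_facAt hπ hu₁ V hBV₁ hπV hSS1₁ hVloc₁ 𝔫₁ s₁ hs₁ hgen₁ hy m k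
      (fun c' hc' => by rw [honly₁ c' hc']; exact hval) hfin₁ hm₁ hrat₁

end Chart

end Fermat.Agent.STB
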