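import Fermat.Agent.ES.Kronecker
import Fermat.Agent.UNIP.MGVertGauss

/-!
# STB-MG-t, generic core: the toric transfer

`hB : VtBase ι r π` a discrete base (`ι : A₀ → E` the fraction field, `r : A₀ → k` the residue
map), `ψ : E →+* L` an embedding into a field with a valuation subring `AL` *compatible* with the
base:

* `(c1)` `ψ (ι a) ∈ AL`;
* `(c2)` `ψ (ι a) ∈ 𝔪_AL → r a = 0`;
* `(c3)` `ψ (ι π) ∈ 𝔪_AL`

(`AL` need not be discrete: `AL` is a valuation subring of `ℚ̄` in the application).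

`stb_mgt_core` : if `x ∈ E((Q))` is a quotient of series over `A₀` and `ψ̂ x · y₂ = y₁` with
`y₁, y₂ ∈ L((Q))` `AL`-primitive and `y₁ ≡ y₂` modulo `𝔪_AL` (i.e. "`ψ̂ x` reduces to one"), then
`x - 1` lies in the kernel of the reduction of the Gauss ring of the base.
-/

set_option autoImplicit false
set_option linter.unusedSectionVars false
set_option linter.style.haveILetI false

noncomputable section

namespace Fermat.Agent.STB

open ModularCurve Fermat.Agent.INJ Fermat.Agent.ES Fermat.Agent.UNIP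

section Core

variable {A₀ E k : Type*} [CommRing A₀] [Field E] [Field k]
  {ι : A₀ →+* E} {r : A₀ →+* k} {π : A₀}
  {L : Type*} [Field L] {AL : ValuationSubring L} {ψ : E →+* L}

/-- series over the base with nonzero reduction are `AL`-primitive -/
theorem stb_mgt_prim (h1 : ∀ a, ψ (ι a) ∈ AL) (h2 : ∀ a, ψ (ι a) ∈ AL.nonunits → r a = 0)
    {T : LaurentSeries A₀} (hT : coeffMap r T ≠ 0) :
    KronPrim AL (coeffMap ψ (coeffMap ι T)) := by
  refine ⟨fun n => ?_, ?_⟩
  · rw [coeffMap_coeff, coeffMap_coeff]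
    exact h1 _
  · by_contra hcon
    push Not at hcon
    apply hT
    ext n
    rw [coeffMap_coeff, HahnSeries.coeff_zero]
    apply h2
    have := hcon n
    rwa [coeffMap_coeff, coeffMap_coeff] at this

/-- series over the base are `AL`-integral -/
theorem stb_mgt_int (h1 : ∀ a, ψ (ι a) ∈ AL) (T : LaurentSeries A₀) :
    KronInt AL (coeffMap ψ (coeffMap ι T)) := fun n => by
  rw [coeffMap_coeff, coeffMap_coeff]
  exact h1 _

/-- a primitive series is not congruent to `0` -/
theorem stb_mgt_not_prim_of_congr_zero {f : LaurentSeries L} (hf : KronPrim AL f)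
    (h0 : KronCongr AL f 0) : False := by
  obtain ⟨-, n, hn⟩ := hf
  apply hn
  have := h0 n
  rwa [HahnSeries.coeff_zero, sub_zero] at this

/-- `f ≡ 0` and `g` integral ⇒ `f g ≡ 0` -/
theorem stb_mgt_congr_zero_mul {f g : LaurentSeries L} (hf : KronInt AL f) (hg : KronInt AL g)
    (h0 : KronCongr AL f 0) : KronCongr AL (f * g) 0 := by
  have h00 : KronInt AL (0 : LaurentSeries L) := fun n => by
    rw [HahnSeries.coeff_zero]
    exact AL.zero_mem
  have := KronCongr.mul hf h00 hg hg h0 (KronCongr.refl g)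
  rwa [zero_mul] at this

/-- `y₁ ≡ y₂` ⇒ `y₁ - y₂ ≡ 0` -/
theorem stb_mgt_sub_congr_zero {y₁ y₂ : LaurentSeries L} (h : KronCongr AL y₁ y₂) :
    KronCongr AL (y₁ - y₂) 0 := fun n => by
  rw [HahnSeries.coeff_zero, sub_zero, HahnSeries.coeff_sub]
  exact h n

theorem stb_mgt_int_sub {y₁ y₂ : LaurentSeries L} (h1 : KronInt AL y₁) (h2 : KronInt AL y₂) :
    KronInt AL (y₁ - y₂) := fun n => by
  rw [HahnSeries.coeff_sub]
  exact AL.sub_mem (h1 n) (h2 n)

/-- the constant series of an element of `AL` is integral -/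
theorem stb_mgt_int_C {c : L} (hc : c ∈ AL) : KronInt AL (HahnSeries.C c : LaurentSeries L) :=
  fun n => by
    rw [HahnSeries.C_apply, HahnSeries.coeff_single]
    split_ifs
    · exact hc
    · exact AL.zero_mem

/-- **Toric transfer, generic core.**  If `ψ̂ x` reduces to one at `AL`, then `x - 1` lies in the
kernel of the reduction of the Gauss ring of the base. -/
theorem stb_mgt_core (hB : VtBase ι r π) (h1 : ∀ a, ψ (ι a) ∈ AL)
    (h2 : ∀ a, ψ (ι a) ∈ AL.nonunits → r a = 0)
    {x : LaurentSeries E} (hx : VtFrac ι x) {y₁ y₂ : LaurentSeries L}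
    (hy₁ : KronPrim AL y₁) (hy₂ : KronPrim AL y₂) (hc : KronCongr AL y₁ y₂)
    (hxy : coeffMap ψ x * y₂ = y₁) :
    ∃ h : x - 1 ∈ gaussRing ι r, gaussRed r hB.inj ⟨x - 1, h⟩ = 0 := by
  have hδ : coeffMap ψ (x - 1) * y₂ = y₁ - y₂ := by
    rw [map_sub, map_one, sub_mul, one_mul, hxy]
  have hδ0 : KronCongr AL (y₁ - y₂) 0 := stb_mgt_sub_congr_zero hc
  have hδi : KronInt AL (y₁ - y₂) := stb_mgt_int_sub hy₁.1 hy₂.1
  have hz : VtFrac ι (x - 1) := by
    rw [sub_eq_add_neg]
    exact hx.add hB.inj VtFrac.one.neg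
  by_cases hz0 : x - 1 = 0
  · refine ⟨by rw [hz0]; exact (gaussRing ι r).zero_mem, ?_⟩
    have : (⟨x - 1, by rw [hz0]; exact (gaussRing ι r).zero_mem⟩ : gaussRing ι r) = 0 :=
      Subtype.ext hz0
    rw [this, map_zero]
  obtain ⟨d, u, ⟨T, b, hT, hb, hu⟩, h | h⟩ := vt_exists_pow_mul (r := r) hB hz0 hz
  · -- `x - 1 = π ^ d · u`
    rcases Nat.eq_zero_or_pos d with rfl | hd
    · exfalso
      rw [pow_zero, one_mul] at h
      rw [← h] at hu
      have hu' := congrArg (coeffMap ψ) hu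
      rw [map_mul] at hu'
      have key : coeffMap ψ (coeffMap ι b) * (y₁ - y₂) = coeffMap ψ (coeffMap ι T) * y₂ := by
        rw [← hδ, ← hu']
        ring
      have hprim : KronPrim AL (coeffMap ψ (coeffMap ι T) * y₂) :=
        (stb_mgt_prim h1 h2 hT).mul hy₂
      rw [← key, mul_comm] at hprim
      exact stb_mgt_not_prim_of_congr_zero hprim
        (stb_mgt_congr_zero_mul hδi (stb_mgt_int h1 b) hδ0)
    · obtain ⟨d', rfl⟩ : ∃ d', d = d' + 1 := ⟨d - 1, by omega⟩
      have hy : HahnSeries.C (ι π) ^ d' * u ∈ gaussRing ι r :=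
        (gaussRing ι r).mul_mem ((gaussRing ι r).pow_mem (hahnC_mem_gaussRing r π) d')
          (VtUnit.mem ⟨T, b, hT, hb, hu⟩)
      have hxe : x - 1 = HahnSeries.C (ι π) * (HahnSeries.C (ι π) ^ d' * u) := by
        rw [h, pow_succ]
        ring
      have hmem : x - 1 ∈ gaussRing ι r := by
        rw [hxe]
        exact (gaussRing ι r).mul_mem (hahnC_mem_gaussRing r π) hy
      refine ⟨hmem, ?_⟩
      rw [gaussRed_eq_zero_iff_dvd r hB.inj hB.rπ hB.ker]
      exact ⟨⟨_, hy⟩, hxe⟩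
  · -- `(x - 1)⁻¹ = π ^ d · u` : impossible
    exfalso
    have h3 : (x - 1) * (HahnSeries.C (ι π) ^ d * u) = 1 := by
      rw [← h]
      exact mul_inv_cancel₀ hz0
    have h4 : coeffMap ι b = (x - 1) * (HahnSeries.C (ι π) ^ d * coeffMap ι T) := by
      rw [← hu]
      linear_combination (-(coeffMap ι b)) * h3
    have h5 := congrArg (coeffMap ψ) h4
    rw [map_mul, map_mul, map_pow, coeffMap_hahnC] at h5
    have key : coeffMap ψ (coeffMap ι b) * y₂ =
        (y₁ - y₂) * (HahnSeries.C (ψ (ι π)) ^ d * coeffMap ψ (coeffMap ι T)) := by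
      rw [← hδ, h5]
      ring
    have hprim : KronPrim AL (coeffMap ψ (coeffMap ι b) * y₂) :=
      (stb_mgt_prim h1 h2 hb).mul hy₂
    rw [key] at hprim
    exact stb_mgt_not_prim_of_congr_zero hprim
      (stb_mgt_congr_zero_mul hδi
        (((stb_mgt_int_C (h1 π)).pow d).mul (stb_mgt_int h1 T)) hδ0)

end Core

end Fermat.Agent.STB
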