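import Fermat.Agent.STB.NormSquare
import Fermat.Agent.ES.KummerBridge
import Fermat.Prelude.Def_AlgebraicCurve_Correspondence

/-!
# STB-P3, generic part: the push-forward on `Pic⁰` along a finite morphism, in Kummer form
(helper92)

* `stbPush φ hφ hfin hN : Pic0 K F' →+ Pic0 K F` : the push-forward `φ_*` along
  `φ : F →ₐ[K] F'` (prelude `Pic0.pushforwardHom` for the algebra structure `algebraAlong φ`).
* `stbPush_mk` : on classes of divisors.
* `stb_kummerRel_push` : if `u` is a Kummer function of `x` (`n · D = div u`) then the norm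
  `stbNorm φ u` is a Kummer function of `φ_* x`.
-/

set_option autoImplicit false
set_option linter.style.haveILetI false

noncomputable section

namespace Fermat.Agent.STB

open AlgebraicCurve Fermat.Agent.ES

section Push

variable {K F F' : Type*} [Field K] [Field F] [Field F'] [Algebra K F] [Algebra K F']

/-- the push-forward on `Pic⁰` along `φ` -/
def stbPush (φ : F →ₐ[K] F') (hφ : φ.toRingHom.IsIntegral) (hfin : FiniteAlong K φ)
    (hN : NormFormulaAlong K φ hfin) : Pic0 K F' →+ Pic0 K F :=
  letI := algebraAlong φ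
  haveI := isScalarTower_along φ
  haveI := isIntegral_along φ hφ
  haveI : Module.Finite F F' := hfin
  Pic0.pushforwardHom K F F' hN

/-- the push-forward of degree-zero divisors along `φ` -/
def stbPushDegZero (φ : F →ₐ[K] F') (hφ : φ.toRingHom.IsIntegral) :
    Divisor.degZero (K := K) (F := F') →+ Divisor.degZero (K := K) (F := F) :=
  letI := algebraAlong φ
  haveI := isScalarTower_along φ
  haveI := isIntegral_along φ hφ
  Pic0.pushforwardDegZeroHom F

theorem coe_stbPushDegZero (φ : F →ₐ[K] F') (hφ : φ.toRingHom.IsIntegral)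
    (D : Divisor.degZero (K := K) (F := F')) :
    (stbPushDegZero φ hφ D : Divisor K F) = Divisor.pushforwardAlong φ hφ (D : Divisor K F') :=
  rfl

theorem stbPush_mk (φ : F →ₐ[K] F') (hφ : φ.toRingHom.IsIntegral) (hfin : FiniteAlong K φ)
    (hN : NormFormulaAlong K φ hfin) (D : Divisor.degZero (K := K) (F := F')) :
    stbPush φ hφ hfin hN (Pic0.mk D) = Pic0.mk (stbPushDegZero φ hφ D) := rfl

/-- the push-forward of `div u` is `div (N_φ u)` -/
theorem stb_pushforwardAlong_apply_of_ord (φ : F →ₐ[K] F') (hφ : φ.toRingHom.IsIntegral)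
    (hfin : FiniteAlong K φ) (hN : NormFormulaAlong K φ hfin)
    {D : Divisor K F'} {u : F'} (hu : u ≠ 0) (hD : ∀ w : Place K F', D w = w.ord u)
    (v : Place K F) :
    Divisor.pushforwardAlong φ hφ D v = v.ord (stbNorm φ.toRingHom u) := by
  letI := algebraAlong φ
  haveI := isScalarTower_along φ
  haveI := isIntegral_along φ hφ
  haveI : Module.Finite F F' := hfin
  exact hN u hu D hD v

/-- **Kummer form of the push-forward.** -/
theorem stb_kummerRel_push (φ : F →ₐ[K] F') (hφ : φ.toRingHom.IsIntegral)
    (hfin : FiniteAlong K φ) (hN : NormFormulaAlong K φ hfin)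
    {n : ℕ} {x : Pic0 K F'} {u : F'} (h : KummerRel n x u) :
    KummerRel n (stbPush φ hφ hfin hN x) (stbNorm φ.toRingHom u) := by
  obtain ⟨D, rfl, hu, hD⟩ := h
  refine ⟨stbPushDegZero φ hφ D, (stbPush_mk φ hφ hfin hN D).symm,
    stbNorm_ne_zero _ hfin hu, fun v => ?_⟩
  have hnD : ∀ w : Place K F', ((n : ℤ) • (D : Divisor K F')) w = w.ord u := by
    intro w
    rw [Finsupp.smul_apply, smul_eq_mul]
    exact hD w
  have h1 := stb_pushforwardAlong_apply_of_ord φ hφ hfin hN hu hnD v
  rw [map_zsmul, Finsupp.smul_apply, smul_eq_mul] at h1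
  rw [coe_stbPushDegZero]
  exact h1

end Push

end Fermat.Agent.STB
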