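import Fermat.Agent.STB.KronQStmt
import Fermat.Agent.ES.G2.S37Kron
import Fermat.Agent.ES.G2.HeckeNormCore

/-!
# S35 / plan STB, piece STB-K: Kronecker's congruence at `q ∥ Mq` for norms (helper60)

`F = F_M`, `F' = F_{Mq}` (`q ∤ M` prime), `α : F → F'` the inclusion, `w = w_q` the Atkin–Lehner
involution, `A ⊂ ℚ̄` a valuation ring over `q`, `τ` a Frobenius element at `A`.

* `stmtNormQ : StmtNormQ hq hqM` : `N_α(y) = y · ∏_{b<q} (w y)(ζ^b t^{1/q})` for ALL `y ∈ F'`
  (the `q + 1` embeddings `hnFam` of `ES/G2/HeckeNormCore.lean`, applied to a general element);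
* `stmtKronQ : StmtKronQ hq hqM` : **(K)** `α(N_α y) / (y · τ(w y))` is Gauss-constant at `A`
  (`kronNorm_congr` for primitive series + multiplicativity, `s37Kron_gaussConst_of_mul`);
* `stb_k_prim` : the precise form for `w y` primitive: `α(N_α y) / (y · τ(w y)) ≡ 1`;
* `stb_k_kronNorm_mem` : `∏_{b<q} z(ζ^b t^{1/q}) ∈ F'` for `z ∈ F'`.
-/

set_option autoImplicit false
set_option linter.style.haveILetI false

noncomputable section

namespace Fermat.Agent.STB

open ModularCurve AlgebraicCurve Fermat.Agent.ES Fermat.Agent.ES.G2 Fermat.Agent.UNIP HahnSeries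
  FrobAux

section Norm

variable {q M : ℕ} [NeZero q] [NeZero M] [NeZero (M * q)] (hq : q.Prime) (hqM : ¬ q ∣ M)

/-- `w_q ∘ α = β` -/
theorem stb_k_w_alpha (x : modularFunctionFieldBar M) :
    atkinLehnerBar hq hqM (heckeAlphaBar Qb M q x) = heckeBetaBar Qb M q x := by
  have hx' : (x : LaurentSeries Qb) ∈ modularFunctionFieldBar (M * q) := hdeg_bar_le M q x.2
  have e : heckeAlphaBar Qb M q x = ⟨(x : LaurentSeries Qb), hx'⟩ :=
    Subtype.ext (coe_heckeAlphaBar M q x)
  rw [e]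
  apply Subtype.ext
  rw [coe_heckeBetaBar]
  exact atkinLehnerBar_of_mem_low hq hqM x.2 hx'

/-- `w_q ∘ β = α` -/
theorem stb_k_w_beta (x : modularFunctionFieldBar M) :
    atkinLehnerBar hq hqM (heckeBetaBar Qb M q x) = heckeAlphaBar Qb M q x := by
  have hx' : qExpand Qb q (x : LaurentSeries Qb) ∈ modularFunctionFieldBar (M * q) :=
    (heckeBetaBar Qb M q x).2
  have e : heckeBetaBar Qb M q x = ⟨qExpand Qb q (x : LaurentSeries Qb), hx'⟩ :=
    Subtype.ext (coe_heckeBetaBar M q x)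
  rw [e]
  apply Subtype.ext
  rw [coe_heckeAlphaBar]
  exact atkinLehnerBar_qExpand hq hqM x.2 hx'

omit [NeZero (M * q)] in
include hq hqM in
theorem stb_k_finite : StbFinite (heckeAlphaBar Qb M q).toRingHom :=
  hdeg_finiteDimensional M q hq hqM

omit [NeZero (M * q)] in
include hq hqM in
theorem stb_k_deg : stbDeg (heckeAlphaBar Qb M q).toRingHom = q + 1 :=
  hdeg_finrank M q hq hqM

/-- `w_q` as a ring endomorphism of `F_{Mq}` -/
def stbKW : modularFunctionFieldBar (M * q) →+* modularFunctionFieldBar (M * q) :=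
  (atkinLehnerBar hq hqM).toAlgHom.toRingHom

theorem stbKW_apply (y : modularFunctionFieldBar (M * q)) :
    stbKW hq hqM y = atkinLehnerBar hq hqM y := rfl

/-- **(K), norm formula.** -/
theorem stmtNormQ : StmtNormQ hq hqM := by
  intro ζ hζ y
  have hsep : letI := (heckeAlphaBar Qb M q).toRingHom.toAlgebra
      Algebra.IsSeparable (modularFunctionFieldBar M) (modularFunctionFieldBar (M * q)) := by
    letI := (heckeAlphaBar Qb M q).toRingHom.toAlgebra
    haveI : CharZero (modularFunctionFieldBar M) :=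
      charZero_of_injective_algebraMap (algebraMap Qb (modularFunctionFieldBar M)).injective
    haveI : FiniteDimensional (modularFunctionFieldBar M) (modularFunctionFieldBar (M * q)) :=
      hdeg_finiteDimensional M q hq hqM
    infer_instance
  have hcard : Fintype.card (Option (Fin q)) = stbDeg (heckeAlphaBar Qb M q).toRingHom := by
    rw [stb_k_deg hq hqM, Fintype.card_option, Fintype.card_fin]
  have key := stbNorm_eq_prod (heckeAlphaBar Qb M q).toRingHom (stb_k_finite hq hqM) hsep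
    (hnBase M q) (hnFam M q (stbKW hq hqM) ζ)
    (fun i x => hnFam_alpha M q (stbKW hq hqM) (stb_k_w_alpha hq hqM) ζ hζ.pow_eq_one i x)
    (hnFam_injective M q hq (stbKW hq hqM) (stb_k_w_beta hq hqM) ζ hζ) hcard y
  rw [Fintype.prod_option] at key
  have h1 : hnFam M q (stbKW hq hqM) ζ none y
      = algebraMap HnOmega HnOmegaBar (qExpand Qb q (y : LaurentSeries Qb)) := rfl
  have h2 : ∀ b : Fin q, hnFam M q (stbKW hq hqM) ζ (some b) y
      = algebraMap HnOmega HnOmegaBar (kronRot (ζ ^ (b : ℕ))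
          ((atkinLehnerBar hq hqM y : modularFunctionFieldBar (M * q)) : LaurentSeries Qb)) :=
    fun b => rfl
  rw [hnBase_apply, h1] at key
  simp only [h2] at key
  rw [← map_prod, ← map_mul,
    Fin.prod_univ_eq_prod_range (fun b => kronRot (ζ ^ b)
      ((atkinLehnerBar hq hqM y : modularFunctionFieldBar (M * q)) : LaurentSeries Qb)) q,
    ← qExpand_kronNorm_field ζ hζ, ← map_mul] at key
  exact qExpand_injective q (hn_algebraMap_injective key)

end Norm

section Kron

variable {q M : ℕ} [NeZero q] [NeZero M] [NeZero (M * q)] (hq : q.Prime) (hqM : ¬ q ∣ M)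

/-- the operator `z ↦ α(N_α(w z)) / (w z · τ z)`; as a series it is `∏_b z(ζ^b t^{1/q}) / τ z` -/
def stbKOp (τ : Qb ≃ₐ[ℚ] Qb) (z : modularFunctionFieldBar (M * q)) :
    modularFunctionFieldBar (M * q) :=
  heckeAlphaBar Qb M q (stbNorm (heckeAlphaBar Qb M q).toRingHom (atkinLehnerBar hq hqM z)) /
    (atkinLehnerBar hq hqM z * (arithmeticGalois (modularFunctionFieldFull (M * q)) τ • z))

theorem stbKOp_mul (τ : Qb ≃ₐ[ℚ] Qb) (a b : modularFunctionFieldBar (M * q)) :
    stbKOp hq hqM τ (a * b) = stbKOp hq hqM τ a * stbKOp hq hqM τ b := by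
  unfold stbKOp
  rw [map_mul, stbNorm_mul, map_mul, smul_mul', mul_mul_mul_comm, mul_div_mul_comm]

theorem stbKOp_algebraMap (τ : Qb ≃ₐ[ℚ] Qb) (c : Qb) :
    ∃ d : Qb, stbKOp hq hqM τ (algebraMap Qb (modularFunctionFieldBar (M * q)) c) =
      algebraMap Qb (modularFunctionFieldBar (M * q)) d ∧ (c ≠ 0 → d ≠ 0) := by
  obtain ⟨g, hg⟩ : ∃ g : SemilinearAut Qb (modularFunctionFieldBar (M * q)),
      g = arithmeticGalois (modularFunctionFieldFull (M * q)) τ := ⟨_, rfl⟩
  obtain ⟨b, hb⟩ : ∃ b : Qb ≃+* Qb, b = SemilinearAut.baseAut g := ⟨_, rfl⟩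
  have h1 : g • algebraMap Qb (modularFunctionFieldBar (M * q)) c =
      algebraMap Qb (modularFunctionFieldBar (M * q)) (b c) := by
    rw [hb]
    exact SemilinearAut.smul_algebraMap g c
  have h2 : atkinLehnerBar hq hqM (algebraMap Qb (modularFunctionFieldBar (M * q)) c) =
      algebraMap Qb (modularFunctionFieldBar (M * q)) c := AlgEquiv.commutes _ c
  have h3 : algebraMap Qb (modularFunctionFieldBar (M * q)) c =
      (heckeAlphaBar Qb M q).toRingHom (algebraMap Qb (modularFunctionFieldBar M) c) :=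
    (AlgHom.commutes (heckeAlphaBar Qb M q) c).symm
  have h4 : stbNorm (heckeAlphaBar Qb M q).toRingHom
      (algebraMap Qb (modularFunctionFieldBar (M * q)) c) =
        algebraMap Qb (modularFunctionFieldBar M) c ^ (q + 1) := by
    rw [h3, ← stb_k_deg hq hqM]
    exact stbNorm_apply _ (stb_k_finite hq hqM) _
  refine ⟨c ^ (q + 1) / (c * b c), ?_, ?_⟩
  · unfold stbKOp
    rw [← hg, h2, h1, h4, map_pow, AlgHom.commutes, map_div₀, map_mul, map_pow]
  · intro hc
    exact div_ne_zero (pow_ne_zero _ hc) (mul_ne_zero hc ((map_ne_zero _).mpr hc))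

omit [NeZero (M * q)] in
/-- cancelling in `q`-expansions -/
theorem stb_k_div_coe (n : modularFunctionFieldBar M) (W : modularFunctionFieldBar (M * q))
    (hW0 : W ≠ 0) (k : LaurentSeries Qb)
    (hN : (n : LaurentSeries Qb) = (W : LaurentSeries Qb) * k) :
    ((heckeAlphaBar Qb M q n / W : modularFunctionFieldBar (M * q)) : LaurentSeries Qb) = k := by
  have hWs : (W : LaurentSeries Qb) ≠ 0 := fun h => hW0 (Subtype.ext h)
  obtain ⟨Z, hZ⟩ : ∃ Z : modularFunctionFieldBar (M * q), Z = heckeAlphaBar Qb M q n / W :=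
    ⟨_, rfl⟩
  have e : Z * W = heckeAlphaBar Qb M q n := by
    rw [hZ]
    exact div_mul_cancel₀ _ hW0
  rw [← hZ]
  have es' : (Z : LaurentSeries Qb) * (W : LaurentSeries Qb) = (W : LaurentSeries Qb) * k :=
    calc (Z : LaurentSeries Qb) * (W : LaurentSeries Qb)
        = ((Z * W : modularFunctionFieldBar (M * q)) : LaurentSeries Qb) := rfl
      _ = ((heckeAlphaBar Qb M q n : modularFunctionFieldBar (M * q)) : LaurentSeries Qb) :=
          congrArg Subtype.val e
      _ = (n : LaurentSeries Qb) := coe_heckeAlphaBar M q n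
      _ = (W : LaurentSeries Qb) * k := hN
  apply mul_right_cancel₀ hWs
  rw [es', mul_comm]

/-- `∏_{b<q} z(ζ^b t^{1/q})` is the `q`-expansion of `α(N_α(w z)) / w z` -/
theorem stb_k_kronNorm_eq (ζ : Qbˣ) (hζ : IsPrimitiveRoot ζ q)
    (z : modularFunctionFieldBar (M * q)) (hz : z ≠ 0) :
    ((heckeAlphaBar Qb M q
        (stbNorm (heckeAlphaBar Qb M q).toRingHom (atkinLehnerBar hq hqM z)) /
          atkinLehnerBar hq hqM z : modularFunctionFieldBar (M * q)) : LaurentSeries Qb) =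
      kronNorm q ζ (z : LaurentSeries Qb) := by
  have hwz : atkinLehnerBar hq hqM z ≠ 0 :=
    (map_ne_zero_iff _ (atkinLehnerBar hq hqM).injective).mpr hz
  have hN := stmtNormQ hq hqM ζ hζ (atkinLehnerBar hq hqM z)
  rw [atkinLehnerBar_invol] at hN
  exact stb_k_div_coe _ _ hwz _ hN

omit [NeZero M] [NeZero (M * q)] in
theorem stb_k_kronNorm_zero (ζ : Qbˣ) : kronNorm q ζ (0 : LaurentSeries Qb) = 0 := by
  apply kronNorm_unique
  rw [map_zero, kronRotProd]
  symm
  apply Finset.prod_eq_zero (Finset.mem_range.2 (Nat.pos_of_ne_zero (NeZero.ne q)))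
  exact map_zero _

include hq hqM in
/-- `∏_{b<q} z(ζ^b t^{1/q}) ∈ F_{Mq}` for `z ∈ F_{Mq}` -/
theorem stb_k_kronNorm_mem (ζ : Qbˣ) (hζ : IsPrimitiveRoot ζ q)
    {z : LaurentSeries Qb} (hz : z ∈ modularFunctionFieldBar (M * q)) :
    kronNorm q ζ z ∈ modularFunctionFieldBar (M * q) := by
  by_cases h0 : z = 0
  · subst h0
    rw [stb_k_kronNorm_zero]
    exact zero_mem _
  · have hz0 : (⟨z, hz⟩ : modularFunctionFieldBar (M * q)) ≠ 0 :=
      fun h => h0 (congrArg Subtype.val h)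
    rw [← stb_k_kronNorm_eq hq hqM ζ hζ ⟨z, hz⟩ hz0]
    exact Subtype.property _

variable {A : ValuationSubring Qb}

/-- (K) for a primitive series: `∏_b z(ζ^b t^{1/q}) / τ z ≡ 1` -/
theorem stb_k_prim_op (hA : A.LiesOverPrime q) {τ : Qb ≃ₐ[ℚ] Qb} (hτ : A.IsFrobeniusAt τ q)
    {y : LaurentSeries Qb} (hy : y ∈ modularFunctionFieldBar (M * q)) (hP : KronPrim A y) :
    ReducesToOne A (M * q) (stbKOp hq hqM τ ⟨y, hy⟩) := by
  obtain ⟨ζ, hζ⟩ := frob_exists_primitiveRoot q hq.ne_zero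
  have hζ1 : ζ ^ q = 1 := hζ.pow_eq_one
  obtain ⟨Y, hYs⟩ : ∃ Y : modularFunctionFieldBar (M * q), (Y : LaurentSeries Qb) = y :=
    ⟨⟨y, hy⟩, rfl⟩
  have hYe : (⟨y, hy⟩ : modularFunctionFieldBar (M * q)) = Y := Subtype.ext hYs.symm
  rw [hYe]
  have hY0 : Y ≠ 0 := by
    intro h
    apply frob_ne_zero_of_kronPrim hP
    rw [← hYs, h]
    rfl
  have hwY0 : atkinLehnerBar hq hqM Y ≠ 0 :=
    (map_ne_zero_iff _ (atkinLehnerBar hq hqM).injective).mpr hY0
  obtain ⟨Z, hZ⟩ : ∃ Z : modularFunctionFieldBar (M * q),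
      Z = heckeAlphaBar Qb M q
        (stbNorm (heckeAlphaBar Qb M q).toRingHom (atkinLehnerBar hq hqM Y)) /
          atkinLehnerBar hq hqM Y := ⟨_, rfl⟩
  have hZs : (Z : LaurentSeries Qb) = kronNorm q ζ y := by
    rw [hZ, stb_k_kronNorm_eq hq hqM ζ hζ Y hY0, hYs]
  obtain ⟨T, hT⟩ : ∃ T : modularFunctionFieldBar (M * q),
      T = arithmeticGalois (modularFunctionFieldFull (M * q)) τ • Y := ⟨_, rfl⟩
  have hTs : (T : LaurentSeries Qb) = coeffMap (τ : Qb →+* Qb) y := by
    rw [hT, ← hYs]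
    rfl
  have hT0 : T ≠ 0 := by
    rw [hT]
    simpa using hY0
  have hop : stbKOp hq hqM τ Y * T = Z := by
    rw [hZ]
    unfold stbKOp
    rw [← hT]
    field_simp
  refine ⟨kronNorm q ζ y, coeffMap (τ : Qb →+* Qb) y, ?_, ?_, ?_, ?_, ?_, ?_⟩
  · rw [← hZs]
    exact Z.2
  · exact coeffMap_mem_laurentBaseChange τ hy
  · exact KronPrim.of_congr (hP.coeffMap_of_mem_decomposition τ hτ.mem_decompositionSubgroup)
      (hP.1.kronNorm ζ hζ1) (kronNorm_congr hq hA ζ hζ1 τ hτ hP.1).symm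
  · exact hP.coeffMap_of_mem_decomposition τ hτ.mem_decompositionSubgroup
  · exact kronNorm_congr hq hA ζ hζ1 τ hτ hP.1
  · rw [← hZs, ← hTs]
    exact congrArg Subtype.val hop

/-- **(K) Kronecker at `q` for norms.** -/
theorem stmtKronQ : StmtKronQ hq hqM := by
  intro A hA τ hτ y hy
  have hwy : atkinLehnerBar hq hqM y ≠ 0 :=
    (map_ne_zero_iff _ (atkinLehnerBar hq hqM).injective).mpr hy
  have h := s37Kron_gaussConst_of_mul stmtPrim hq hA (stbKOp hq hqM τ) (stbKOp_mul hq hqM τ)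
    (stbKOp_algebraMap hq hqM τ) (fun z hz hP => stb_k_prim_op hq hqM hA hτ hz hP)
    (atkinLehnerBar hq hqM y) hwy
  unfold stbKOp at h
  rw [atkinLehnerBar_invol] at h
  exact h

/-- (K), precise form: if `w y` has a primitive `q`-expansion then `α(N_α y) / (y · τ(w y))`
reduces to one (no constant). -/
theorem stb_k_prim (hA : A.LiesOverPrime q) {τ : Qb ≃ₐ[ℚ] Qb} (hτ : A.IsFrobeniusAt τ q)
    (y : modularFunctionFieldBar (M * q))
    (hP : KronPrim A ((atkinLehnerBar hq hqM y : modularFunctionFieldBar (M * q)) :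
      LaurentSeries Qb)) :
    ReducesToOne A (M * q)
      (heckeAlphaBar Qb M q (stbNorm (heckeAlphaBar Qb M q).toRingHom y) /
        (y * (arithmeticGalois (modularFunctionFieldFull (M * q)) τ •
          atkinLehnerBar hq hqM y))) := by
  have h := stb_k_prim_op hq hqM hA hτ (atkinLehnerBar hq hqM y).2 hP
  unfold stbKOp at h
  rw [Subtype.coe_eta, atkinLehnerBar_invol] at h
  exact h

end Kron

end Fermat.Agent.STB
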