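import Fermat.Agent.STB.CrossFac
import Fermat.Agent.STB.GluingChart
import Fermat.Agent.STB.AbstractT2

/-!
# STB-C2 — the disjunct `StbCross` of `stb_main_points` at a crossing point, from chart data

Setting of `stb_cross_facAt` (STB-L part 2): `B' = zchClosure {u}` the chart over the ramified base
`A₀`, `R` the chart over the unramified base (U5), `j : R →+* B'` with `MgcRamified j π p`,
`𝔫 : AtPt π u` a closed point fixed by `g`; crossing datum of U5 at `𝔫.comap j`: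
`X, Y : R`, `j X ∈ 𝔪(V c₁)`, `j Y ∈ 𝔪(V c₂)`, `𝔫.comap j = (p, X, Y)` locally, and both components
pass through `𝔫 ∩ j R`.

* `stb_cp_through` : `atThrough 𝔫 V` from "through" on `j R`.
* `stb_cp_locGen`  : `NodesLocGen 𝔫 {π, j X, j Y}` on `B'`.
* `stb_cp_sum`     : **(S)**, `stb_cp_res₁`, `stb_cp_res₂` : **(N)**, `stb_cp_frob` : **(Fr)**
  for `O = atLoc 𝔫` in the form used by `StbCross`.
* `stb_cp_cross`   : `atThrough 𝔫 (V c₁) ∧ atThrough 𝔫 (V c₂) ∧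
  StbCross (atLoc 𝔫) (V c₁) (V c₂) Φ Q m (g • x / x)`, `Φ = g` as a ring endomorphism.
* `stb_cp_cross_inl`, `stb_cp_cross_inr` : the first disjunct of `hpts i` of `stb_main_points`
  for `i = Sum.inl 𝔫`, `i = Sum.inr 𝔫`.
-/

set_option autoImplicit false
set_option linter.style.haveILetI false
set_option linter.unusedSectionVars false
set_option linter.unusedVariables false

namespace Fermat.Agent.STB

open Polynomial IntermediateField Fermat.Agent.INJ AlgebraicCurve Fermat.Agent.UNIP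

section CrossPoint

variable {A₀ E F : Type*} [CommRing A₀] [IsDomain A₀] [IsDiscreteValuationRing A₀]
  [Field E] [Algebra A₀ E] [IsFractionRing A₀ E] [CharZero E]
  [Field F] [Algebra E F] [Algebra A₀ F] [IsScalarTower A₀ E F]
  {π : A₀} {κ : Type*}

/-- "through" on the ramified chart `B'` from "through" on the image of the unramified chart. -/
theorem stb_cp_through {u : F} (W : ValuationSubring F)
    (hBW : ∀ b : F, IsIntegral ↥(Algebra.adjoin A₀ {u}) b → b ∈ W)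
    (hπW : algebraMap A₀ F π ∈ W.nonunits)
    (𝔫 : AtPt (F := F) π u)
    {R : Type*} [CommRing R] (j : R →+* ↥(zchClosure (A₀ := A₀) ({u} : Set F))) (p : R)
    (hram : MgcRamified j (algebraMap A₀ ↥(zchClosure (A₀ := A₀) ({u} : Set F)) π) p)
    (hthr : ∀ x : R, ((j x : ↥(zchClosure (A₀ := A₀) ({u} : Set F))) : F) ∈ W.nonunits →
      j x ∈ 𝔫.1) :
    atThrough 𝔫 W := by
  intro b hb
  obtain ⟨y, z, rfl⟩ := hram.decomp b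
  have hzW : ((z : ↥(zchClosure (A₀ := A₀) ({u} : Set F))) : F) ∈ W :=
    hBW _ (mem_zchClosure.mp z.2)
  have hϖz : algebraMap A₀ F π * (z : F) ∈ W.nonunits := by
    rw [mul_comm]
    exact pwi_mul_mem_nonunits W hzW hπW
  have hjy : ((j y : ↥(zchClosure (A₀ := A₀) ({u} : Set F))) : F) ∈ W.nonunits := by
    have e : ((j y : ↥(zchClosure (A₀ := A₀) ({u} : Set F))) : F)
        = ((j y + algebraMap A₀ ↥(zchClosure (A₀ := A₀) ({u} : Set F)) π * z :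
            ↥(zchClosure (A₀ := A₀) ({u} : Set F))) : F) - algebraMap A₀ F π * (z : F) := by
      push_cast
      show _ = _ + algebraMap A₀ F π * (z : F) - _
      ring
    rw [e]
    exact W.nonunits.sub_mem hb hϖz
  exact Ideal.add_mem _ (hthr y hjy) (Ideal.mul_mem_right _ _ 𝔫.2.2)

/-- the crossing datum of U5 on the ramified chart: `𝔫 = (π, j X, j Y)` locally -/
theorem stb_cp_locGen {u : F} (𝔫 : AtPt (F := F) π u)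
    {R : Type*} [CommRing R] (j : R →+* ↥(zchClosure (A₀ := A₀) ({u} : Set F))) (p : R)
    (hram : MgcRamified j (algebraMap A₀ ↥(zchClosure (A₀ := A₀) ({u} : Set F)) π) p)
    (X Y : R) (hgen : NodesLocGen (𝔫.1.comap j) {p, X, Y}) :
    NodesLocGen 𝔫.1 {algebraMap A₀ ↥(zchClosure (A₀ := A₀) ({u} : Set F)) π, j X, j Y} :=
  hram.mgg_locGen_triple 𝔫.2.2 X Y hgen

/-- **(S)** at a crossing point of the chart `u`, in the form of `StbCross`. -/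
theorem stb_cp_sum {u : F} (V₁ V₂ : ValuationSubring F)
    (hBV₁ : ∀ b : F, IsIntegral ↥(Algebra.adjoin A₀ {u}) b → b ∈ V₁)
    (hBV₂ : ∀ b : F, IsIntegral ↥(Algebra.adjoin A₀ {u}) b → b ∈ V₂)
    (hπV₁ : algebraMap A₀ F π ∈ V₁.nonunits)
    (𝔫 : AtPt (F := F) π u) (hthr₁ : atThrough 𝔫 V₁) (hthr₂ : atThrough 𝔫 V₂)
    (X Y : ↥(zchClosure (A₀ := A₀) ({u} : Set F))) (hX : (X : F) ∈ V₁.nonunits) (hY : (Y : F) ∈ V₂.nonunits)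
    (hgen : NodesLocGen 𝔫.1 {algebraMap A₀ ↥(zchClosure (A₀ := A₀) ({u} : Set F)) π, X, Y}) :
    ∀ x : atLoc 𝔫, ¬ IsUnit x →
      ∃ a b : atLoc 𝔫, (a : F) ∈ V₁.nonunits ∧ (b : F) ∈ V₂.nonunits ∧ x = a + b := by
  haveI := 𝔫.2.1.isPrime
  haveI : IsLocalRing (ls_localSubring (F := F) 𝔫.1) :=
    ls_localSubring_isLocalRing Subtype.val_injective 𝔫.1
  intro x hx
  exact stb_gc_sum (B := ↥(zchClosure (A₀ := A₀) ({u} : Set F))) Subtype.val_injective 𝔫.1 V₁ V₂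
    (fun b => hBV₁ _ (mem_zchClosure.mp b.2)) (fun b => hBV₂ _ (mem_zchClosure.mp b.2))
    hthr₁ hthr₂ hgen hπV₁ hX hY x ((IsLocalRing.mem_maximalIdeal _).2 hx)

/-- **(N)** at a crossing point of the chart `u`, branch `V₁ ∋ π, X` (parameter `Y`). -/
theorem stb_cp_res₁ {u : F} [IsNoetherianRing ↥(zchClosure (A₀ := A₀) ({u} : Set F))] (V₁ : ValuationSubring F)
    (hBV₁ : ∀ b : F, IsIntegral ↥(Algebra.adjoin A₀ {u}) b → b ∈ V₁)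
    (hπV₁ : algebraMap A₀ F π ∈ V₁.nonunits)
    (hVloc₁ : ∀ x : F, x ∈ V₁ → ∃ b s : F, IsIntegral ↥(Algebra.adjoin A₀ {u}) b ∧
      IsIntegral ↥(Algebra.adjoin A₀ {u}) s ∧ s ∉ V₁.nonunits ∧ s * x = b)
    (𝔫 : AtPt (F := F) π u) (hthr₁ : atThrough 𝔫 V₁)
    (X Y : ↥(zchClosure (A₀ := A₀) ({u} : Set F))) (hX : (X : F) ∈ V₁.nonunits) (hY : Y ∈ 𝔫.1)
    (hgen : NodesLocGen 𝔫.1 {algebraMap A₀ ↥(zchClosure (A₀ := A₀) ({u} : Set F)) π, X, Y}) :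
    StbRes (atLoc 𝔫) V₁ := by
  haveI := 𝔫.2.1.isPrime
  intro a e n he hn h
  exact stb_gc_res (B := ↥(zchClosure (A₀ := A₀) ({u} : Set F))) Subtype.val_injective 𝔫.1 V₁
    (fun b => hBV₁ _ (mem_zchClosure.mp b.2)) hthr₁
    (fun x hx => by
      obtain ⟨b, s, hb, hs, hsV, hsx⟩ := hVloc₁ x hx
      exact ⟨⟨b, mem_zchClosure.mpr hb⟩, ⟨s, mem_zchClosure.mpr hs⟩, hsV, hsx⟩)
    Y hY
    (stb_gc_gen_node (B := ↥(zchClosure (A₀ := A₀) ({u} : Set F))) 𝔫.1 V₁ (fun b => hBV₁ _ (mem_zchClosure.mp b.2)) hgen hπV₁ hX)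
    a e n he hn h

/-- **(N)** at a crossing point of the chart `u`, branch `V₂ ∋ π, Y` (parameter `X`). -/
theorem stb_cp_res₂ {u : F} [IsNoetherianRing ↥(zchClosure (A₀ := A₀) ({u} : Set F))] (V₂ : ValuationSubring F)
    (hBV₂ : ∀ b : F, IsIntegral ↥(Algebra.adjoin A₀ {u}) b → b ∈ V₂)
    (hπV₂ : algebraMap A₀ F π ∈ V₂.nonunits)
    (hVloc₂ : ∀ x : F, x ∈ V₂ → ∃ b s : F, IsIntegral ↥(Algebra.adjoin A₀ {u}) b ∧
      IsIntegral ↥(Algebra.adjoin A₀ {u}) s ∧ s ∉ V₂.nonunits ∧ s * x = b)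
    (𝔫 : AtPt (F := F) π u) (hthr₂ : atThrough 𝔫 V₂)
    (X Y : ↥(zchClosure (A₀ := A₀) ({u} : Set F))) (hX : X ∈ 𝔫.1) (hY : (Y : F) ∈ V₂.nonunits)
    (hgen : NodesLocGen 𝔫.1 {algebraMap A₀ ↥(zchClosure (A₀ := A₀) ({u} : Set F)) π, X, Y}) :
    StbRes (atLoc 𝔫) V₂ := by
  haveI := 𝔫.2.1.isPrime
  intro a e n he hn h
  exact stb_gc_res (B := ↥(zchClosure (A₀ := A₀) ({u} : Set F))) Subtype.val_injective 𝔫.1 V₂
    (fun b => hBV₂ _ (mem_zchClosure.mp b.2)) hthr₂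
    (fun x hx => by
      obtain ⟨b, s, hb, hs, hsV, hsx⟩ := hVloc₂ x hx
      exact ⟨⟨b, mem_zchClosure.mpr hb⟩, ⟨s, mem_zchClosure.mpr hs⟩, hsV, hsx⟩)
    X hX
    (stb_gc_gen_node' (B := ↥(zchClosure (A₀ := A₀) ({u} : Set F))) 𝔫.1 V₂ (fun b => hBV₂ _ (mem_zchClosure.mp b.2)) hgen hπV₂ hY)
    a e n he hn h

/-- **(Fr)** at a point of the chart `u` fixed by `Φ`, in the form of `StbCross`. -/
theorem stb_cp_frob {u : F} (𝔫 : AtPt (F := F) π u) (Φ : F →+* F) (Q : ℕ)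
    (hfrobB : ∀ b : ↥(zchClosure (A₀ := A₀) ({u} : Set F)), ∃ c : ↥(zchClosure (A₀ := A₀) ({u} : Set F)), c ∈ 𝔫.1 ∧ Φ (b : F) = (b : F) ^ Q + (c : F)) :
    ∀ x : atLoc 𝔫, ∃ z : atLoc 𝔫, ¬ IsUnit z ∧ (z : F) = Φ (x : F) - (x : F) ^ Q := by
  haveI := 𝔫.2.1.isPrime
  haveI : IsLocalRing (ls_localSubring (F := F) 𝔫.1) :=
    ls_localSubring_isLocalRing Subtype.val_injective 𝔫.1
  intro x
  obtain ⟨z, hz, hzx⟩ := stb_gc_frob (B := ↥(zchClosure (A₀ := A₀) ({u} : Set F))) Subtype.val_injective 𝔫.1 Φ Q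
    (fun b => by
      obtain ⟨c, hc, h⟩ := hfrobB b
      exact ⟨c, hc, h⟩) x
  exact ⟨z, (IsLocalRing.mem_maximalIdeal (R := ls_localSubring (F := F) 𝔫.1) z).1 hz, hzx⟩

/-- **STB-C2.**  The hypotheses `StbCross` of `stb_main_points` at a crossing point `𝔫` of the
chart `u` fixed by `g` (`Φ = g` as a ring endomorphism of `F`), for `y = g • x / x`, from the
crossing datum of U5 on the unramified chart (`hthr₁ … hgen`), the Frobenius congruence on the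
chart (`hfrobB`, STB-X) and the local factor (`stb_cross_facAt`, STB-L). -/
theorem stb_cp_cross (hπ : Irreducible π) {u : F} (hu : Transcendental E u)
    [FiniteDimensional E⟮u⟯ F] [Finite κ]
    [IsNoetherianRing ↥(zchClosure (A₀ := A₀) ({u} : Set F))]
    (V : κ → ValuationSubring F)
    (hBV : ∀ c (b : F), IsIntegral ↥(Algebra.adjoin A₀ {u}) b → b ∈ V c)
    (hπV : ∀ c, algebraMap A₀ F π ∈ (V c).nonunits)
    (hSS1 : ∀ b : F, IsIntegral ↥(Algebra.adjoin A₀ {u}) b → (∀ c, b ∈ (V c).nonunits) →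
      ∃ b' : F, IsIntegral ↥(Algebra.adjoin A₀ {u}) b' ∧ b = algebraMap A₀ F π * b')
    (hVloc : ∀ c (x : F), x ∈ V c → ∃ b s : F, IsIntegral ↥(Algebra.adjoin A₀ {u}) b ∧
      IsIntegral ↥(Algebra.adjoin A₀ {u}) s ∧ s ∉ (V c).nonunits ∧ s * x = b)
    (g : SemilinearAut E F) (hgu : g • u = u)
    (𝔫 : AtPt (F := F) π u)
    (hgB : ∀ b : ↥(zchClosure (A₀ := A₀) ({u} : Set F)), b ∈ 𝔫.1 →
      ∃ b' : ↥(zchClosure (A₀ := A₀) ({u} : Set F)), b' ∈ 𝔫.1 ∧ g • (b : F) = b')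
    (hgB' : ∀ b : ↥(zchClosure (A₀ := A₀) ({u} : Set F)), b ∈ 𝔫.1 →
      ∃ b' : ↥(zchClosure (A₀ := A₀) ({u} : Set F)), b' ∈ 𝔫.1 ∧ g⁻¹ • (b : F) = b')
    (hgB₀ : ∀ b : F, IsIntegral ↥(Algebra.adjoin A₀ {u}) b →
      IsIntegral ↥(Algebra.adjoin A₀ {u}) (g • b))
    (hgB₀' : ∀ b : F, IsIntegral ↥(Algebra.adjoin A₀ {u}) b →
      IsIntegral ↥(Algebra.adjoin A₀ {u}) (g⁻¹ • b))
    (hgV : ∀ c (f : F), f ≠ 0 → (V c).valuation (g • f / f) = 1)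
    (hgA : ∀ α : A₀, ∃ α' : A₀, g • algebraMap A₀ F α = algebraMap A₀ F α')
    (q : A₀) (hq0 : q ≠ 0) (hqπ : π ∣ q) (hgq : g • algebraMap A₀ F q = algebraMap A₀ F q)
    {R : Type*} [CommRing R] (j : R →+* ↥(zchClosure (A₀ := A₀) ({u} : Set F))) (p : R)
    (hram : MgcRamified j (algebraMap A₀ ↥(zchClosure (A₀ := A₀) ({u} : Set F)) π) p)
    (hjp : j p = algebraMap A₀ ↥(zchClosure (A₀ := A₀) ({u} : Set F)) q)
    (c₁ c₂ : κ) (hκ : ∀ c, c = c₁ ∨ c = c₂)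
    (hthr₁ : ∀ x : R, ((j x : ↥(zchClosure (A₀ := A₀) ({u} : Set F))) : F) ∈ (V c₁).nonunits → j x ∈ 𝔫.1)
    (hthr₂ : ∀ x : R, ((j x : ↥(zchClosure (A₀ := A₀) ({u} : Set F))) : F) ∈ (V c₂).nonunits → j x ∈ 𝔫.1)
    (X Y : R) (hX : ((j X : ↥(zchClosure (A₀ := A₀) ({u} : Set F))) : F) ∈ (V c₁).nonunits)
    (hY : ((j Y : ↥(zchClosure (A₀ := A₀) ({u} : Set F))) : F) ∈ (V c₂).nonunits)
    (hgen : NodesLocGen (𝔫.1.comap j) {p, X, Y})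
    (Φ : F →+* F) (hΦ : ∀ x : F, Φ x = g • x) (Q : ℕ)
    (hfrobB : ∀ b : ↥(zchClosure (A₀ := A₀) ({u} : Set F)), ∃ c : ↥(zchClosure (A₀ := A₀) ({u} : Set F)), c ∈ 𝔫.1 ∧ Φ (b : F) = (b : F) ^ Q + (c : F))
    {x : F} (hx : x ≠ 0) (m : ℕ)
    (hfin : {P : Place E F | LsTube ↥(zchClosure (A₀ := A₀) ({u} : Set F)) u 𝔫.1 P ∧
      g • P ≠ P ∧ P.ord x ≠ 0}.Finite)
    (hm : ∀ P : Place E F, LsTube ↥(zchClosure (A₀ := A₀) ({u} : Set F)) u 𝔫.1 P → g • P ≠ P →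
      (m : ℤ) ∣ P.ord x)
    (hrat : ∀ P : Place E F, LsTube ↥(zchClosure (A₀ := A₀) ({u} : Set F)) u 𝔫.1 P →
      g • P ≠ P → P.ord x ≠ 0 → ∀ f ∈ P.toValuationSubring,
        ∃ c : E, f - algebraMap E F c ∈ P.toValuationSubring.nonunits) :
    atThrough 𝔫 (V c₁) ∧ atThrough 𝔫 (V c₂) ∧
      StbCross (atLoc 𝔫) (V c₁) (V c₂) Φ Q m (Φ x / x) := by
  haveI := 𝔫.2.1.isPrime
  have hT₁ : atThrough 𝔫 (V c₁) := stb_cp_through (V c₁) (hBV c₁) (hπV c₁) 𝔫 j p hram hthr₁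
  have hT₂ : atThrough 𝔫 (V c₂) := stb_cp_through (V c₂) (hBV c₂) (hπV c₂) 𝔫 j p hram hthr₂
  have hG := stb_cp_locGen 𝔫 j p hram X Y hgen
  refine ⟨hT₁, hT₂, ?_, ?_, ?_, ?_, ?_⟩
  · exact stb_cp_sum (V c₁) (V c₂) (hBV c₁) (hBV c₂) (hπV c₁) 𝔫 hT₁ hT₂ (j X) (j Y) hX hY hG
  · exact stb_cp_res₁ (V c₁) (hBV c₁) (hπV c₁) (hVloc c₁) 𝔫 hT₁ (j X) (j Y) hX (hT₂ _ hY) hG
  · exact stb_cp_res₂ (V c₂) (hBV c₂) (hπV c₂) (hVloc c₂) 𝔫 hT₂ (j X) (j Y) (hT₁ _ hX) hY hG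
  · exact stb_cp_frob 𝔫 Φ Q hfrobB
  · rw [hΦ x]
    exact stb_cross_facAt hπ hu V hBV hπV hSS1 hVloc g hgu 𝔫 hgB hgB' hgB₀ hgB₀' hgV hgA q hq0
      hqπ hgq j p hram hjp c₁ c₂ hκ (Or.inr ⟨hthr₁, hthr₂, X, Y, hX, hY, hgen⟩) hx m hfin hm hrat

/-- **STB-C2, chart `t`**: the first disjunct of `hpts (Sum.inl 𝔫)` of `stb_main_points`. -/
theorem stb_cp_cross_inl (hπ : Irreducible π) {t : F} (ht : Transcendental E t)
    [FiniteDimensional E⟮t⟯ F] [Finite κ]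
    [IsNoetherianRing ↥(zchClosure (A₀ := A₀) ({t} : Set F))]
    (V : κ → ValuationSubring F)
    (hBV : ∀ c (b : F), IsIntegral ↥(Algebra.adjoin A₀ {t}) b → b ∈ V c)
    (hπV : ∀ c, algebraMap A₀ F π ∈ (V c).nonunits)
    (hSS1 : ∀ b : F, IsIntegral ↥(Algebra.adjoin A₀ {t}) b → (∀ c, b ∈ (V c).nonunits) →
      ∃ b' : F, IsIntegral ↥(Algebra.adjoin A₀ {t}) b' ∧ b = algebraMap A₀ F π * b')
    (hVloc : ∀ c (x : F), x ∈ V c → ∃ b s : F, IsIntegral ↥(Algebra.adjoin A₀ {t}) b ∧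
      IsIntegral ↥(Algebra.adjoin A₀ {t}) s ∧ s ∉ (V c).nonunits ∧ s * x = b)
    (g : SemilinearAut E F) (hgu : g • t = t)
    (𝔫 : AtPt (F := F) π t)
    (hgB : ∀ b : ↥(zchClosure (A₀ := A₀) ({t} : Set F)), b ∈ 𝔫.1 →
      ∃ b' : ↥(zchClosure (A₀ := A₀) ({t} : Set F)), b' ∈ 𝔫.1 ∧ g • (b : F) = b')
    (hgB' : ∀ b : ↥(zchClosure (A₀ := A₀) ({t} : Set F)), b ∈ 𝔫.1 →
      ∃ b' : ↥(zchClosure (A₀ := A₀) ({t} : Set F)), b' ∈ 𝔫.1 ∧ g⁻¹ • (b : F) = b')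
    (hgB₀ : ∀ b : F, IsIntegral ↥(Algebra.adjoin A₀ {t}) b →
      IsIntegral ↥(Algebra.adjoin A₀ {t}) (g • b))
    (hgB₀' : ∀ b : F, IsIntegral ↥(Algebra.adjoin A₀ {t}) b →
      IsIntegral ↥(Algebra.adjoin A₀ {t}) (g⁻¹ • b))
    (hgV : ∀ c (f : F), f ≠ 0 → (V c).valuation (g • f / f) = 1)
    (hgA : ∀ α : A₀, ∃ α' : A₀, g • algebraMap A₀ F α = algebraMap A₀ F α')
    (q : A₀) (hq0 : q ≠ 0) (hqπ : π ∣ q) (hgq : g • algebraMap A₀ F q = algebraMap A₀ F q)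
    {R : Type*} [CommRing R] (j : R →+* ↥(zchClosure (A₀ := A₀) ({t} : Set F))) (p : R)
    (hram : MgcRamified j (algebraMap A₀ ↥(zchClosure (A₀ := A₀) ({t} : Set F)) π) p)
    (hjp : j p = algebraMap A₀ ↥(zchClosure (A₀ := A₀) ({t} : Set F)) q)
    (c₁ c₂ : κ) (hκ : ∀ c, c = c₁ ∨ c = c₂)
    (hthr₁ : ∀ x : R, ((j x : ↥(zchClosure (A₀ := A₀) ({t} : Set F))) : F) ∈ (V c₁).nonunits → j x ∈ 𝔫.1)
    (hthr₂ : ∀ x : R, ((j x : ↥(zchClosure (A₀ := A₀) ({t} : Set F))) : F) ∈ (V c₂).nonunits → j x ∈ 𝔫.1)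
    (X Y : R) (hX : ((j X : ↥(zchClosure (A₀ := A₀) ({t} : Set F))) : F) ∈ (V c₁).nonunits)
    (hY : ((j Y : ↥(zchClosure (A₀ := A₀) ({t} : Set F))) : F) ∈ (V c₂).nonunits)
    (hgen : NodesLocGen (𝔫.1.comap j) {p, X, Y})
    (Φ : F →+* F) (hΦ : ∀ x : F, Φ x = g • x) (Q : ℕ)
    (hfrobB : ∀ b : ↥(zchClosure (A₀ := A₀) ({t} : Set F)), ∃ c : ↥(zchClosure (A₀ := A₀) ({t} : Set F)), c ∈ 𝔫.1 ∧ Φ (b : F) = (b : F) ^ Q + (c : F))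
    {x : F} (hx : x ≠ 0) (m : ℕ)
    (hfin : {P : Place E F | LsTube ↥(zchClosure (A₀ := A₀) ({t} : Set F)) t 𝔫.1 P ∧
      g • P ≠ P ∧ P.ord x ≠ 0}.Finite)
    (hm : ∀ P : Place E F, LsTube ↥(zchClosure (A₀ := A₀) ({t} : Set F)) t 𝔫.1 P → g • P ≠ P →
      (m : ℤ) ∣ P.ord x)
    (hrat : ∀ P : Place E F, LsTube ↥(zchClosure (A₀ := A₀) ({t} : Set F)) t 𝔫.1 P →
      g • P ≠ P → P.ord x ≠ 0 → ∀ f ∈ P.toValuationSubring,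
        ∃ c : E, f - algebraMap E F c ∈ P.toValuationSubring.nonunits) :
    atInc π t V (Sum.inl 𝔫) c₁ ∧ atInc π t V (Sum.inl 𝔫) c₂ ∧
      StbCross (atO π t (Sum.inl 𝔫)) (V c₁) (V c₂) Φ Q m (Φ x / x) :=
  stb_cp_cross hπ ht V hBV hπV hSS1 hVloc g hgu 𝔫 hgB hgB' hgB₀ hgB₀' hgV hgA q hq0 hqπ hgq
    j p hram hjp c₁ c₂ hκ hthr₁ hthr₂ X Y hX hY hgen Φ hΦ Q hfrobB hx m hfin hm hrat

/-- **STB-C2, chart `t⁻¹`**: the first disjunct of `hpts (Sum.inr 𝔫)` of `stb_main_points`. -/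
theorem stb_cp_cross_inr (hπ : Irreducible π) {t : F} (ht' : Transcendental E t⁻¹)
    [FiniteDimensional E⟮t⁻¹⟯ F] [Finite κ]
    [IsNoetherianRing ↥(zchClosure (A₀ := A₀) ({t⁻¹} : Set F))]
    (V : κ → ValuationSubring F)
    (hBV : ∀ c (b : F), IsIntegral ↥(Algebra.adjoin A₀ {t⁻¹}) b → b ∈ V c)
    (hπV : ∀ c, algebraMap A₀ F π ∈ (V c).nonunits)
    (hSS1 : ∀ b : F, IsIntegral ↥(Algebra.adjoin A₀ {t⁻¹}) b → (∀ c, b ∈ (V c).nonunits) →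
      ∃ b' : F, IsIntegral ↥(Algebra.adjoin A₀ {t⁻¹}) b' ∧ b = algebraMap A₀ F π * b')
    (hVloc : ∀ c (x : F), x ∈ V c → ∃ b s : F, IsIntegral ↥(Algebra.adjoin A₀ {t⁻¹}) b ∧
      IsIntegral ↥(Algebra.adjoin A₀ {t⁻¹}) s ∧ s ∉ (V c).nonunits ∧ s * x = b)
    (g : SemilinearAut E F) (hgu : g • t⁻¹ = t⁻¹)
    (𝔫 : AtPt (F := F) π t⁻¹)
    (hgB : ∀ b : ↥(zchClosure (A₀ := A₀) ({t⁻¹} : Set F)), b ∈ 𝔫.1 →
      ∃ b' : ↥(zchClosure (A₀ := A₀) ({t⁻¹} : Set F)), b' ∈ 𝔫.1 ∧ g • (b : F) = b')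
    (hgB' : ∀ b : ↥(zchClosure (A₀ := A₀) ({t⁻¹} : Set F)), b ∈ 𝔫.1 →
      ∃ b' : ↥(zchClosure (A₀ := A₀) ({t⁻¹} : Set F)), b' ∈ 𝔫.1 ∧ g⁻¹ • (b : F) = b')
    (hgB₀ : ∀ b : F, IsIntegral ↥(Algebra.adjoin A₀ {t⁻¹}) b →
      IsIntegral ↥(Algebra.adjoin A₀ {t⁻¹}) (g • b))
    (hgB₀' : ∀ b : F, IsIntegral ↥(Algebra.adjoin A₀ {t⁻¹}) b →
      IsIntegral ↥(Algebra.adjoin A₀ {t⁻¹}) (g⁻¹ • b))
    (hgV : ∀ c (f : F), f ≠ 0 → (V c).valuation (g • f / f) = 1)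
    (hgA : ∀ α : A₀, ∃ α' : A₀, g • algebraMap A₀ F α = algebraMap A₀ F α')
    (q : A₀) (hq0 : q ≠ 0) (hqπ : π ∣ q) (hgq : g • algebraMap A₀ F q = algebraMap A₀ F q)
    {R : Type*} [CommRing R] (j : R →+* ↥(zchClosure (A₀ := A₀) ({t⁻¹} : Set F))) (p : R)
    (hram : MgcRamified j (algebraMap A₀ ↥(zchClosure (A₀ := A₀) ({t⁻¹} : Set F)) π) p)
    (hjp : j p = algebraMap A₀ ↥(zchClosure (A₀ := A₀) ({t⁻¹} : Set F)) q)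
    (c₁ c₂ : κ) (hκ : ∀ c, c = c₁ ∨ c = c₂)
    (hthr₁ : ∀ x : R, ((j x : ↥(zchClosure (A₀ := A₀) ({t⁻¹} : Set F))) : F) ∈ (V c₁).nonunits → j x ∈ 𝔫.1)
    (hthr₂ : ∀ x : R, ((j x : ↥(zchClosure (A₀ := A₀) ({t⁻¹} : Set F))) : F) ∈ (V c₂).nonunits → j x ∈ 𝔫.1)
    (X Y : R) (hX : ((j X : ↥(zchClosure (A₀ := A₀) ({t⁻¹} : Set F))) : F) ∈ (V c₁).nonunits)
    (hY : ((j Y : ↥(zchClosure (A₀ := A₀) ({t⁻¹} : Set F))) : F) ∈ (V c₂).nonunits)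
    (hgen : NodesLocGen (𝔫.1.comap j) {p, X, Y})
    (Φ : F →+* F) (hΦ : ∀ x : F, Φ x = g • x) (Q : ℕ)
    (hfrobB : ∀ b : ↥(zchClosure (A₀ := A₀) ({t⁻¹} : Set F)), ∃ c : ↥(zchClosure (A₀ := A₀) ({t⁻¹} : Set F)), c ∈ 𝔫.1 ∧ Φ (b : F) = (b : F) ^ Q + (c : F))
    {x : F} (hx : x ≠ 0) (m : ℕ)
    (hfin : {P : Place E F | LsTube ↥(zchClosure (A₀ := A₀) ({t⁻¹} : Set F)) t⁻¹ 𝔫.1 P ∧
      g • P ≠ P ∧ P.ord x ≠ 0}.Finite)
    (hm : ∀ P : Place E F, LsTube ↥(zchClosure (A₀ := A₀) ({t⁻¹} : Set F)) t⁻¹ 𝔫.1 P → g • P ≠ P →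
      (m : ℤ) ∣ P.ord x)
    (hrat : ∀ P : Place E F, LsTube ↥(zchClosure (A₀ := A₀) ({t⁻¹} : Set F)) t⁻¹ 𝔫.1 P →
      g • P ≠ P → P.ord x ≠ 0 → ∀ f ∈ P.toValuationSubring,
        ∃ c : E, f - algebraMap E F c ∈ P.toValuationSubring.nonunits) :
    atInc π t V (Sum.inr 𝔫) c₁ ∧ atInc π t V (Sum.inr 𝔫) c₂ ∧
      StbCross (atO π t (Sum.inr 𝔫)) (V c₁) (V c₂) Φ Q m (Φ x / x) :=
  stb_cp_cross hπ ht' V hBV hπV hSS1 hVloc g hgu 𝔫 hgB hgB' hgB₀ hgB₀' hgV hgA q hq0 hqπ hgq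
    j p hram hjp c₁ c₂ hκ hthr₁ hthr₂ X Y hX hY hgen Φ hΦ Q hfrobB hx m hfin hm hrat

end CrossPoint

end Fermat.Agent.STB
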