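import Fermat.Agent.STB.MGData
import Fermat.Agent.STB.KronQ

/-!
# STB-MG, top: `StmtNewFrobKummer` from the non-formal inputs `StbdInputs` (helper76)

* `StmtStbdInputs` : the inputs `StbdInputs hπ ιC hq hqM` (`STB/MGData.lean`) for SOME uniformizer
  `π` of `A′ = mgcA A K₁` and SOME embedding `ιC`, at every level `M₁ * q` with `q ∤ M₁`,
  `(q = 2 → 3 ∣ M₁)`, `(q = 3 → 2 ∣ M₁)`, every `A` over `q` and every number field `K₁` Galois
  over `ℚ` for which `A′` is a discrete valuation ring.
* `stmtNewFrobKummer_of_inputs : StmtStbdInputs → StmtNewFrobKummer`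
  (`stbData_of_inputs`, `stmtNewFrobKummerAtPP_of_data` (helper50), `stmtKronQ` (helper60, STB-K),
  `stmtNewFrobKummer_of_pp_aux` (helper18, STB-D + STB-MG-7)).
-/

set_option autoImplicit false
set_option linter.style.haveILetI false
set_option linter.unusedSectionVars false
set_option linter.unusedVariables false

noncomputable section

namespace Fermat.Agent.STB

open ModularCurve AlgebraicCurve Fermat.Agent.ES Fermat.Agent.ES.G2 Fermat.Agent.INJ
open Fermat.Agent.UNIP IntermediateField

/-- the non-formal inputs of `StbData` at all levels where the base line of KEY exists -/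
def StmtStbdInputs : Prop :=
  ∀ (M₁ q : ℕ) [NeZero M₁] [NeZero q] (hq : q.Prime) (hqM : ¬ q ∣ M₁),
    (q = 2 → 3 ∣ M₁) → (q = 3 → 2 ∣ M₁) →
    ∀ (A : ValuationSubring Qb), A.LiesOverPrime q →
    ∀ (K₁ : IntermediateField ℚ Qb) [NumberField K₁] [IsGalois ℚ K₁]
      [IsDiscreteValuationRing ↥(mgcA A K₁)],
      ∃ (π : ↥(mgcA A K₁)) (hπ : Irreducible π) (ιC : ↥(mgcE A K₁) →+* ℂ),
        StbdInputs hπ ιC hq hqM

/-- **STB-MG, top.**  (P7-a) in Kummer form at all levels from the non-formal inputs. -/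
theorem stmtNewFrobKummer_of_inputs (h : StmtStbdInputs) : StmtNewFrobKummer :=
  stmtNewFrobKummer_of_pp_aux fun M₁ q _ _ hq hqM h2 h3 =>
    stmtNewFrobKummerAtPP_of_data M₁ q hq hqM (stmtKronQ hq hqM)
      fun A hA K₁ _ _ _ φ hφF hφ => by
        obtain ⟨π, hπ, ιC, hin⟩ := h M₁ q hq hqM h2 h3 A hA K₁
        exact stbData_of_inputs hA h2 h3 hφF hin

end Fermat.Agent.STB
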