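import Fermat.Agent.STB.FrobChart
import Fermat.Agent.UNIP.NodesFinalFull
import Fermat.Agent.UNIP.MGVert

/-!
# STB-X (`FrobFix`), part 2e: `StbFrobVal` on the charts `j`, `1/j` of `F_{Mq}(K₀)`

* `stb_hwB_J`, `stb_hwB_Jinv` : the input `hwB` of `stb_frobVal_chart` on the charts `j` (`e = 1`)
  and `1/j` (`e = ℓ(1/j) ^ N`, `ℓ ≡ 1 mod q`);
* `stb_gaussBase_of_vtBase`, `stbVinf_eq_vtInf`, `stbV0_eq_vtFam` : the Gauss valuation rings of
  `FrobChart.lean` are the vertical valuation rings `vtFam` of MG-8 (`UNIP/MGVert.lean`);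
* `StbFrobVal.congr_val` : transport along equalities of the valuation rings;
* **`stb_frobVal_J`**, **`stb_frobVal_Jinv`** : `StbFrobVal (chart) (vtFam true) (vtFam false) w_q Ψ q`
  for the charts `j`, `1/j` of `F_{Mq}(K₀)`, in the setting of `NodesFinalFull.lean`
  (`A₀` a discrete valuation ring with fraction field `K₀ ⊆ ℚ̄`, the data of `tsHyp_jline`).
-/

set_option autoImplicit false
set_option linter.style.haveILetI false
set_option linter.unusedSectionVars false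
set_option linter.unusedVariables false
set_option linter.style.longLine false
set_option synthInstance.maxHeartbeats 400000
set_option maxHeartbeats 1000000

noncomputable section

namespace Fermat.Agent.STB

open ModularCurve Polynomial IntermediateField Fermat.Agent.INJ Fermat.Agent.AL Fermat.Agent.UNIP

section Transport

variable {F : Type*} [Field F]

/-- transport of `StbFrobVal` along equalities of the two valuation rings -/
theorem StbFrobVal.congr_val {B : Subring F} {Vinf V0 Vinf' V0' : ValuationSubring F}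
    {w Ψ : F ≃+* F} {q : ℕ} (h : StbFrobVal B Vinf V0 w Ψ q) (h1 : Vinf = Vinf') (h2 : V0 = V0') :
    StbFrobVal B Vinf' V0' w Ψ q := by
  subst h1 h2
  exact h

end Transport

section Base

variable {A E k : Type*} [CommRing A] [IsDomain A] [WfDvdMonoid A] [Field E] [Algebra A E]
  [IsFractionRing A E] [Field k] {r : A →+* k} {π : A}

/-- a base of MG-8 is a Gauss base of U5 -/
theorem stb_gaussBase_of_vtBase (hV : VtBase (algebraMap A E) r π) : GaussBase r π where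
  ne_zero := hV.ne
  not_unit := fun h => by
    have h1 : IsUnit (r π) := h.map r
    rw [hV.rπ] at h1
    exact not_isUnit_zero h1
  ker := hV.ker
  map_pi := hV.rπ

theorem stbVinf_eq_vtInf (hB : GaussBase r π) (hV : VtBase (algebraMap A E) r π) (N : ℕ)
    [NeZero N] : stbVinf hB N = vtInf hV N :=
  SetLike.ext fun _ => Iff.rfl

variable (ιC : E →+* ℂ) {q M : ℕ} [NeZero q] [NeZero M] [NeZero (M * q)] (hq : q.Prime)
  (hqM : ¬ q ∣ M)
  [Algebra A (modularFunctionFieldFullC E (M * q))]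
  [IsScalarTower A E (modularFunctionFieldFullC E (M * q))]

theorem stbVinf_eq_vtFam (hB : GaussBase r π) (hV : VtBase (algebraMap A E) r π) :
    stbVinf hB (M * q) = vtFam hV ιC hq hqM true :=
  SetLike.ext fun _ => Iff.rfl

theorem stbV0_eq_vtFam (hB : GaussBase r π) (hV : VtBase (algebraMap A E) r π) :
    stbV0 hB ιC hq hqM = vtFam hV ιC hq hqM false :=
  SetLike.ext fun _ => Iff.rfl

/-- **`hwB` on the chart `j`**: `w_q` preserves the chart. -/
theorem stb_hwB_J (hB : GaussBase r π) (b : modularFunctionFieldFullC E (M * q))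
    (hb : IsIntegral (Algebra.adjoin A {nodesFrobJ E M q}) b) :
    ∃ e : modularFunctionFieldFullC E (M * q),
      IsIntegral (Algebra.adjoin A {nodesFrobJ E M q}) e ∧
      e - 1 ∈ (stbVinf hB (M * q)).nonunits ∧
      IsIntegral (Algebra.adjoin A {nodesFrobJ E M q}) (e * atkinLehner E ιC hq hqM b) := by
  refine ⟨1, isIntegral_one, ?_, ?_⟩
  · rw [sub_self, ValuationSubring.mem_nonunits_iff, map_zero]
    exact zero_lt_one
  · rw [one_mul]
    exact nodesSwap_chartJ ιC hq hqM hb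

/-- **`hwB` on the chart `1/j`**: `e = L ^ N`, `L = ℓ(1/j) ≡ 1`. -/
theorem stb_hwB_Jinv [CharP k q] (hB : GaussBase r π) (b : modularFunctionFieldFullC E (M * q))
    (hb : IsIntegral (Algebra.adjoin A {(nodesFrobJ E M q)⁻¹}) b) :
    ∃ e : modularFunctionFieldFullC E (M * q),
      IsIntegral (Algebra.adjoin A {(nodesFrobJ E M q)⁻¹}) e ∧
      e - 1 ∈ (stbVinf hB (M * q)).nonunits ∧
      IsIntegral (Algebra.adjoin A {(nodesFrobJ E M q)⁻¹}) (e * atkinLehner E ιC hq hqM b) := by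
  obtain ⟨N, hN⟩ := nodesSwap_chartInv (A := A) (E := E) (M := M) (q := q) ιC hq hqM hb
  have hLG := nodesSwapL_mem (A := A) (E := E) (M := M) (q := q) r hq
  refine ⟨nodesSwapL E M q hq ^ N,
    (nodesSwap_L_isIntegral (A := A) (E := E) (M := M) (q := q) hq).pow N, ?_, hN⟩
  rw [mem_nonunits_stbVinf]
  have hmem : ((nodesSwapL E M q hq ^ N - 1 : modularFunctionFieldFullC E (M * q)) :
      LaurentSeries E) ∈ gaussRing (algebraMap A E) r :=
    Subring.sub_mem _ (Subring.pow_mem _ hLG N) (Subring.one_mem _)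
  refine ⟨hmem, ?_⟩
  have e : (⟨_, hmem⟩ : gaussRing (algebraMap A E) r) =
      (⟨_, hLG⟩ : gaussRing (algebraMap A E) r) ^ N - 1 := Subtype.ext rfl
  rw [e, map_sub, map_pow, map_one,
    nodesSwap_gaussRed_L (A := A) (E := E) (M := M) (q := q) r hq hLG, one_pow, sub_self]

end Base

section JCharts

variable (K₀ : IntermediateField ℚ NfQb) {A₀ : Type} [CommRing A₀] [IsDomain A₀]
  [IsDiscreteValuationRing A₀] [Algebra A₀ K₀] [IsFractionRing A₀ K₀]
  {k : Type*} [Field k] {r : A₀ →+* k} {π : A₀} (ιC : K₀ →+* ℂ)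
  {q M : ℕ} [NeZero q] [NeZero M] [NeZero (M * q)] (hq : q.Prime) (hqM : ¬ q ∣ M)
  [Algebra A₀ (modularFunctionFieldFullC K₀ M)]
  [IsScalarTower A₀ K₀ (modularFunctionFieldFullC K₀ M)]
  [Algebra A₀ (modularFunctionFieldFullC K₀ (M * q))]
  [IsScalarTower A₀ K₀ (modularFunctionFieldFullC K₀ (M * q))]

theorem stb_incl_J : nodesInstIncl K₀ M q (bgJ K₀ M) = bgJ K₀ (M * q) :=
  Subtype.ext (nodesInstIncl_coe M q (bgJ K₀ M))

theorem stb_incl_Jinv : nodesInstIncl K₀ M q (bgJ K₀ M)⁻¹ = (bgJ K₀ (M * q))⁻¹ := by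
  rw [map_inv₀, stb_incl_J]

theorem stb_bgJ_eq : bgJ K₀ (M * q) = nodesFrobJ K₀ M q := Subtype.ext rfl

/-- **`StbFrobVal` on the chart `j` of `F_{Mq}(K₀)`**; `Ψ` the coefficientwise action of a
Frobenius lift `s` of `K₀` (`ψA`, `ψA'` the restrictions of `s`, `s⁻¹` to `A₀`, `θ = Frob⁻¹`). -/
theorem stb_frobVal_J [Fact q.Prime] [CharP k q] [PerfectRing k q]
    (hV : VtBase (algebraMap A₀ K₀) r π) (hπ : Irreducible π)
    (e : ℕ) (h6 : 6 ∣ e) (hM : M ∣ e) (he : IsUnit (e : A₀))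
    (hζ : ∃ ζ : A₀, IsPrimitiveRoot ζ e)
    (s : K₀ ≃+* K₀) (ψA ψA' : A₀ →+* A₀) (θ : k →+* k)
    (hψ : ∀ a, s (algebraMap A₀ K₀ a) = algebraMap A₀ K₀ (ψA a))
    (hψ' : ∀ a, s.symm (algebraMap A₀ K₀ a) = algebraMap A₀ K₀ (ψA' a))
    (hθ : ∀ a, r (ψA' a) = θ (r a)) (hθq : ∀ x, θ x ^ q = x) :
    StbFrobVal
      ((integralClosure (Algebra.adjoin A₀ {bgJ K₀ (M * q)})
        (modularFunctionFieldFullC K₀ (M * q))).restrictScalars A₀).toSubring
      (vtFam hV ιC hq hqM true) (vtFam hV ιC hq hqM false) (stbAtk ιC hq hqM)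
      (mgRingAut (M * q) s) q := by
  have hB : GaussBase r π := stb_gaussBase_of_vtBase hV
  have hts := RegInst.tsHyp_jline K₀ M r hπ hV.ker hV.rπ q e h6 hM he hζ
  haveI := hts.isDomain
  haveI := hts.isIntegrallyClosed
  have hd := nodesFinal_hd_J K₀ r ιC hq hqM hπ hV.ker hV.rπ e h6 hM he hζ
  have key := stb_frobVal_modular hB ιC hq hqM s ψA ψA' θ hψ hψ' hθ hθq (bgJ K₀ M)
    (nodesFinal_J_mem K₀ r) (nodesFinal_J_fixed K₀ (s : K₀ →+* K₀))
    (nodesFinal_wJ_mem K₀ r ιC hq hqM) hd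
    (by
      rw [nodesFinal_incl_J]
      exact fun b hb => stb_hwB_J ιC hq hqM hB b hb)
  rw [stb_incl_J] at key
  exact key.congr_val (stbVinf_eq_vtFam ιC hq hqM hB hV) (stbV0_eq_vtFam ιC hq hqM hB hV)

/-- **`StbFrobVal` on the chart `1/j` of `F_{Mq}(K₀)`**. -/
theorem stb_frobVal_Jinv [Fact q.Prime] [CharP k q] [PerfectRing k q]
    (hV : VtBase (algebraMap A₀ K₀) r π) (hπ : Irreducible π)
    (e : ℕ) (h6 : 6 ∣ e) (hM : M ∣ e) (he : IsUnit (e : A₀))
    (hζ : ∃ ζ : A₀, IsPrimitiveRoot ζ e)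
    (s : K₀ ≃+* K₀) (ψA ψA' : A₀ →+* A₀) (θ : k →+* k)
    (hψ : ∀ a, s (algebraMap A₀ K₀ a) = algebraMap A₀ K₀ (ψA a))
    (hψ' : ∀ a, s.symm (algebraMap A₀ K₀ a) = algebraMap A₀ K₀ (ψA' a))
    (hθ : ∀ a, r (ψA' a) = θ (r a)) (hθq : ∀ x, θ x ^ q = x) :
    StbFrobVal
      ((integralClosure (Algebra.adjoin A₀ {(bgJ K₀ (M * q))⁻¹})
        (modularFunctionFieldFullC K₀ (M * q))).restrictScalars A₀).toSubring
      (vtFam hV ιC hq hqM true) (vtFam hV ιC hq hqM false) (stbAtk ιC hq hqM)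
      (mgRingAut (M * q) s) q := by
  have hB : GaussBase r π := stb_gaussBase_of_vtBase hV
  have hts := RegInst.tsHyp_jline K₀ M r hπ hV.ker hV.rπ q e h6 hM he hζ
  haveI := hts.inv_isDomain
  haveI := hts.inv_isIntegrallyClosed
  have hd := nodesFinal_hd_Jinv K₀ r ιC hq hqM hπ hV.ker hV.rπ e h6 hM he hζ
  have key := stb_frobVal_modular hB ιC hq hqM s ψA ψA' θ hψ hψ' hθ hθq (bgJ K₀ M)⁻¹
    (nodesFinal_Jinv_mem K₀ r) (nodesFinal_Jinv_fixed K₀ (s : K₀ →+* K₀))
    (nodesFinal_wJinv_mem K₀ r ιC hq hqM) hd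
    (by
      rw [stb_incl_Jinv, stb_bgJ_eq]
      exact fun b hb => stb_hwB_Jinv ιC hq hqM hB b hb)
  rw [stb_incl_Jinv] at key
  exact key.congr_val (stbVinf_eq_vtFam ιC hq hqM hB hV) (stbV0_eq_vtFam ιC hq hqM hB hV)

end JCharts

end Fermat.Agent.STB
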