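import Fermat.Agent.STB.PushCore
import Fermat.Agent.STB.Stmt
import Fermat.Agent.ES.HeckeKummer
import Fermat.Agent.ES.G2.HeckeNormCore
import Fermat.Agent.ES.G2.HeckeDeg
import Fermat.Agent.UNIP.Cheap

/-!
# STB-P3 (S35, phase 2 of item 34): the degeneracy push-forwards commute with `T_ℓ` (helper92)

`q ∤ N` a prime, `α = heckeAlphaBar ℚ̄ N q`, `β = heckeBetaBar ℚ̄ N q : F_N → F_{Nq}`.

* `stbPushAlpha N q`, `stbPushBeta N q : JZero (N * q) →+ JZero N` : the push-forwards `α_*`,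
  `β_*` (`β_* = α_* ∘ w_q`) are those of `STB/Stmt.lean` (helper50); `stbPushAlpha_eq`,
  `stbPushBeta_eq` : they are `stbPush` of `PushCore.lean`;
* `stb_kummerRel_pushAlpha`, `stb_kummerRel_pushBeta` : Kummer form (norm along `α`, `β`);
* `stb_p3_alpha`, `stb_p3_beta` : for a prime `ℓ ∤ N q` and every torsion point `x` of `J₀(Nq)`:
  `α_* (T_ℓ x) = T_ℓ (α_* x)`, `β_* (T_ℓ x) = T_ℓ (β_* x)`.

Proof (Kummer form).  If `n · D = div u`, both sides have the Kummer function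
`N_{F_{Nqℓ}/F_N} (u(Q^ℓ))`: transitivity of norms and base change of the norm in the square
`F_N ⊂ F_{Nq}`, `F_{Nℓ} ⊂ F_{Nℓq}` (`stb_norm_square`, with the `q + 1` embeddings
`ES.G2.hnFam` of `F_{Nℓq}` over `F_{Nℓ}`, which are distinct at `j(Q^{qℓ})`).
-/

set_option autoImplicit false
set_option linter.style.haveILetI false
set_option linter.unusedSectionVars false

noncomputable section

namespace Fermat.Agent.STB

open AlgebraicCurve ModularCurve IntermediateField Fermat.Agent.ES Fermat.Agent.ES.G2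
  Fermat.Agent.UNIP

/-! ## The push-forwards -/

section Defs

variable (N q : ℕ) [NeZero N] [NeZero q]

/-- The norm formula along `β`. -/
theorem stb_normFormulaAlong_heckeBetaBar :
    NormFormulaAlong Qb (heckeBetaBar Qb N q) (H.finiteAlong_heckeBetaBar N q) := by
  let _ := algebraAlong (heckeBetaBar Qb N q)
  have := isScalarTower_along (heckeBetaBar Qb N q)
  have : FiniteDimensional (modularFunctionFieldBar N) (modularFunctionFieldBar (N * q)) :=
    H.finiteAlong_heckeBetaBar N q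
  exact H.pushforwardNormFormula (H.residue_bijective_FF N) (H.residue_bijective_FF (N * q))

/-- `α_*` of `Stmt.lean` is the generic push-forward -/
theorem stbPushAlpha_eq :
    stbPushAlpha N q = stbPush (heckeAlphaBar Qb N q) (H.heckeAlphaBarIntegral N q)
      (H.finiteAlong_heckeAlphaBar N q) (H.normFormulaAlong_heckeAlphaBar N q) := rfl

/-- `β_*` of `Stmt.lean` is the generic push-forward -/
theorem stbPushBeta_eq :
    stbPushBeta N q = stbPush (heckeBetaBar Qb N q) (H.heckeBetaBarIntegral N q)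
      (H.finiteAlong_heckeBetaBar N q) (stb_normFormulaAlong_heckeBetaBar N q) := rfl

/-- the norm along `α` of `Stmt.lean` is `stbNorm` -/
theorem stbNormAlpha_eq (y : modularFunctionFieldBar (N * q)) :
    stbNormAlpha N q y = stbNorm (heckeAlphaBar Qb N q).toRingHom y := rfl

/-- the norm along `β` of `Stmt.lean` is `stbNorm` -/
theorem stbNormBeta_eq (y : modularFunctionFieldBar (N * q)) :
    stbNormBeta N q y = stbNorm (heckeBetaBar Qb N q).toRingHom y := rfl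

/-- Kummer form of `α_*` -/
theorem stb_kummerRel_pushAlpha {n : ℕ} {x : JZero (N * q)}
    {u : modularFunctionFieldBar (N * q)} (h : KummerRel n x u) :
    KummerRel n (stbPushAlpha N q x) (stbNorm (heckeAlphaBar Qb N q).toRingHom u) := by
  rw [stbPushAlpha_eq]
  exact stb_kummerRel_push _ _ _ _ h

/-- Kummer form of `β_*` -/
theorem stb_kummerRel_pushBeta {n : ℕ} {x : JZero (N * q)}
    {u : modularFunctionFieldBar (N * q)} (h : KummerRel n x u) :
    KummerRel n (stbPushBeta N q x) (stbNorm (heckeBetaBar Qb N q).toRingHom u) := by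
  rw [stbPushBeta_eq]
  exact stb_kummerRel_push _ _ _ _ h

/-- Kummer form of `T_ℓ`, with `stbNorm` -/
theorem stb_kummerRel_hecke (ℓ : Nat.Primes) {n : ℕ} {x : JZero N}
    {u : modularFunctionFieldBar N} (h : KummerRel n x u) :
    haveI : NeZero (ℓ : ℕ) := ⟨ℓ.2.ne_zero⟩
    KummerRel n (heckeOperatorBar N ℓ x)
      (stbNorm (heckeAlphaBar Qb N (ℓ : ℕ)).toRingHom (heckeBetaBar Qb N (ℓ : ℕ) u)) :=
  KummerRel.hecke N ℓ h

end Defs

/-! ## The Atkin–Lehner swap and the degrees -/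

section Swap

variable (N q : ℕ) [NeZero N] [NeZero q]

theorem stb_alpha_eq_mk (x : modularFunctionFieldBar N)
    (h : (x : LaurentSeries Qb) ∈ modularFunctionFieldBar (N * q)) :
    heckeAlphaBar Qb N q x = ⟨(x : LaurentSeries Qb), h⟩ :=
  Subtype.ext (coe_heckeAlphaBar N q x)

theorem stb_beta_eq_mk (x : modularFunctionFieldBar N)
    (h : qExpand Qb q (x : LaurentSeries Qb) ∈ modularFunctionFieldBar (N * q)) :
    heckeBetaBar Qb N q x = ⟨qExpand Qb q (x : LaurentSeries Qb), h⟩ :=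
  Subtype.ext (coe_heckeBetaBar N q x)

theorem stb_w_alpha (hq : q.Prime) (hqN : ¬ q ∣ N) (x : modularFunctionFieldBar N) :
    atkinLehnerBar hq hqN (heckeAlphaBar Qb N q x) = heckeBetaBar Qb N q x := by
  have hmem : (x : LaurentSeries Qb) ∈ modularFunctionFieldBar (N * q) := by
    have := (heckeAlphaBar Qb N q x).2
    rwa [coe_heckeAlphaBar] at this
  rw [stb_alpha_eq_mk N q x hmem]
  apply Subtype.ext
  rw [atkinLehnerBar_of_mem_low hq hqN x.2 hmem, coe_heckeBetaBar]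

theorem stb_w_beta (hq : q.Prime) (hqN : ¬ q ∣ N) (x : modularFunctionFieldBar N) :
    atkinLehnerBar hq hqN (heckeBetaBar Qb N q x) = heckeAlphaBar Qb N q x := by
  have hmem : qExpand Qb q (x : LaurentSeries Qb) ∈ modularFunctionFieldBar (N * q) := by
    have := (heckeBetaBar Qb N q x).2
    rwa [coe_heckeBetaBar] at this
  rw [stb_beta_eq_mk N q x hmem]
  apply Subtype.ext
  rw [atkinLehnerBar_qExpand hq hqN x.2 hmem, coe_heckeAlphaBar]

/-- `w_q` as a ring equivalence -/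
def stbW (hq : q.Prime) (hqN : ¬ q ∣ N) :
    modularFunctionFieldBar (N * q) ≃+* modularFunctionFieldBar (N * q) :=
  (atkinLehnerBar hq hqN).toRingEquiv

theorem stbW_apply (hq : q.Prime) (hqN : ¬ q ∣ N) (y : modularFunctionFieldBar (N * q)) :
    stbW N q hq hqN y = atkinLehnerBar hq hqN y := rfl

theorem stbW_comp_beta (hq : q.Prime) (hqN : ¬ q ∣ N) :
    ((stbW N q hq hqN : modularFunctionFieldBar (N * q) →+* modularFunctionFieldBar (N * q))).comp
      (heckeBetaBar Qb N q).toRingHom = (heckeAlphaBar Qb N q).toRingHom :=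
  RingHom.ext fun x => stb_w_beta N q hq hqN x

theorem stbDeg_alpha (hq : q.Prime) (hqN : ¬ q ∣ N) :
    stbDeg (heckeAlphaBar Qb N q).toRingHom = q + 1 :=
  hdeg_finrank N q hq hqN

theorem stbDeg_beta (hq : q.Prime) (hqN : ¬ q ∣ N) :
    stbDeg (heckeBetaBar Qb N q).toRingHom = q + 1 := by
  rw [← stbDeg_alpha N q hq hqN, ← stbW_comp_beta N q hq hqN]
  exact (stb_finrank_equiv_comp _ _).symm

theorem stbFinite_alpha : StbFinite (heckeAlphaBar Qb N q).toRingHom :=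
  H.finiteAlong_heckeAlphaBar N q

theorem stbFinite_beta : StbFinite (heckeBetaBar Qb N q).toRingHom :=
  H.finiteAlong_heckeBetaBar N q

end Swap

/-! ## The square `F_N ⊂ F_{Nq}`, `F_{Nℓ} ⊂ F_{Nℓq}` -/

section Square

variable (N q ℓ : ℕ) [NeZero N] [NeZero q] [NeZero ℓ]

theorem stb_bar_eq :
    modularFunctionFieldBar (N * q * ℓ) = modularFunctionFieldBar (N * ℓ * q) :=
  congrArg modularFunctionFieldBar (by ring)

/-- the identification `F_{(Nq)ℓ} = F_{(Nℓ)q}` -/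
def stbEqv : modularFunctionFieldBar (N * q * ℓ) ≃+* modularFunctionFieldBar (N * ℓ * q) :=
  (IntermediateField.equivOfEq (stb_bar_eq N q ℓ)).toRingEquiv

omit [NeZero N] [NeZero q] [NeZero ℓ] in
theorem stb_equivOfEq_coe {k E : Type*} [Field k] [Field E] [Algebra k E]
    {S T : IntermediateField k E} (h : S = T) (y : S) :
    (((IntermediateField.equivOfEq h).toRingEquiv y : T) : E) = (y : E) := by
  subst h
  rfl

theorem stbEqv_coe (y : modularFunctionFieldBar (N * q * ℓ)) :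
    ((stbEqv N q ℓ y : modularFunctionFieldBar (N * ℓ * q)) : LaurentSeries Qb) =
      (y : LaurentSeries Qb) :=
  stb_equivOfEq_coe (stb_bar_eq N q ℓ) y

/-- `u ↦ u(Q^ℓ)`, `F_{Nq} → F_{(Nℓ)q}` -/
def stbG2 : modularFunctionFieldBar (N * q) →+* modularFunctionFieldBar (N * ℓ * q) :=
  ((stbEqv N q ℓ : modularFunctionFieldBar (N * q * ℓ) →+*
      modularFunctionFieldBar (N * ℓ * q))).comp (heckeBetaBar Qb (N * q) ℓ).toRingHom

theorem stbG2_apply (u : modularFunctionFieldBar (N * q)) :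
    stbG2 N q ℓ u = stbEqv N q ℓ (heckeBetaBar Qb (N * q) ℓ u) := rfl

theorem stbG2_coe (u : modularFunctionFieldBar (N * q)) :
    ((stbG2 N q ℓ u : modularFunctionFieldBar (N * ℓ * q)) : LaurentSeries Qb) =
      qExpand Qb ℓ (u : LaurentSeries Qb) := by
  rw [stbG2_apply, stbEqv_coe, coe_heckeBetaBar]

/-- the square for `α` commutes -/
theorem stb_sq_alpha (x : modularFunctionFieldBar N) :
    stbG2 N q ℓ (heckeAlphaBar Qb N q x) =
      heckeAlphaBar Qb (N * ℓ) q (heckeBetaBar Qb N ℓ x) := by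
  apply Subtype.ext
  rw [stbG2_coe, coe_heckeAlphaBar, coe_heckeAlphaBar, coe_heckeBetaBar]

/-- the square for `β` commutes -/
theorem stb_sq_beta (x : modularFunctionFieldBar N) :
    stbG2 N q ℓ (heckeBetaBar Qb N q x) =
      heckeBetaBar Qb (N * ℓ) q (heckeBetaBar Qb N ℓ x) := by
  apply Subtype.ext
  rw [stbG2_coe, coe_heckeBetaBar, coe_heckeBetaBar, coe_heckeBetaBar, qExpand_qExpand,
    qExpand_qExpand]
  exact qExpand_congr (Nat.mul_comm ℓ q) _

/-- the two inclusions `F_N → F_{(Nℓ)q}` agree -/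
theorem stb_incl_alpha :
    ((stbEqv N q ℓ : modularFunctionFieldBar (N * q * ℓ) →+*
      modularFunctionFieldBar (N * ℓ * q))).comp
        ((heckeAlphaBar Qb (N * q) ℓ).toRingHom.comp (heckeAlphaBar Qb N q).toRingHom) =
      (heckeAlphaBar Qb (N * ℓ) q).toRingHom.comp (heckeAlphaBar Qb N ℓ).toRingHom := by
  apply RingHom.ext
  intro x
  apply Subtype.ext
  show ((stbEqv N q ℓ (heckeAlphaBar Qb (N * q) ℓ (heckeAlphaBar Qb N q x)) :
    modularFunctionFieldBar (N * ℓ * q)) : LaurentSeries Qb) =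
    ((heckeAlphaBar Qb (N * ℓ) q (heckeAlphaBar Qb N ℓ x) :
      modularFunctionFieldBar (N * ℓ * q)) : LaurentSeries Qb)
  rw [stbEqv_coe, coe_heckeAlphaBar, coe_heckeAlphaBar, coe_heckeAlphaBar, coe_heckeAlphaBar]

/-- the two maps `x ↦ x(Q^q)`, `F_N → F_{(Nℓ)q}`, agree -/
theorem stb_incl_beta :
    ((stbEqv N q ℓ : modularFunctionFieldBar (N * q * ℓ) →+*
      modularFunctionFieldBar (N * ℓ * q))).comp
        ((heckeAlphaBar Qb (N * q) ℓ).toRingHom.comp (heckeBetaBar Qb N q).toRingHom) =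
      (heckeBetaBar Qb (N * ℓ) q).toRingHom.comp (heckeAlphaBar Qb N ℓ).toRingHom := by
  apply RingHom.ext
  intro x
  apply Subtype.ext
  show ((stbEqv N q ℓ (heckeAlphaBar Qb (N * q) ℓ (heckeBetaBar Qb N q x)) :
    modularFunctionFieldBar (N * ℓ * q)) : LaurentSeries Qb) =
    ((heckeBetaBar Qb (N * ℓ) q (heckeAlphaBar Qb N ℓ x) :
      modularFunctionFieldBar (N * ℓ * q)) : LaurentSeries Qb)
  rw [stbEqv_coe, coe_heckeAlphaBar, coe_heckeBetaBar, coe_heckeBetaBar, coe_heckeAlphaBar]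

/-- the element `j(Q^{qℓ})` of `F_{(Nℓ)q}` -/
def stbY : modularFunctionFieldBar (N * ℓ * q) :=
  heckeBetaBar Qb (N * ℓ) q (heckeBetaBar Qb N ℓ (hnJ N))

/-- the `q + 1` embeddings of `F_{(Nℓ)q}` over `F_{Nℓ}` are distinct at `j(Q^{qℓ})` -/
theorem stb_hnFam_injective_at (hq : q.Prime) (hqℓ : Nat.Coprime ℓ q)
    (w : modularFunctionFieldBar (N * ℓ * q) →+* modularFunctionFieldBar (N * ℓ * q))
    (hwβ : ∀ x, w (heckeBetaBar Qb (N * ℓ) q x) = heckeAlphaBar Qb (N * ℓ) q x)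
    (ζ : Qbˣ) (hζ : IsPrimitiveRoot ζ q) :
    Function.Injective fun i => hnFam (N * ℓ) q w ζ i (stbY N q ℓ) := by
  have hJ : ((heckeBetaBar Qb N ℓ (hnJ N) : modularFunctionFieldBar (N * ℓ)) :
      LaurentSeries Qb) = qExpand Qb ℓ (coeffEmb Qb jq) := by
    rw [coe_heckeBetaBar, hnJ_coe]
  have hcoefJ : (qExpand Qb ℓ (coeffEmb Qb jq)).coeff (-(ℓ : ℤ)) = 1 := by
    have h := qExpand_coeff_mul (R := Qb) ℓ (coeffEmb Qb jq) (-1)
    rw [mul_neg, mul_one] at h
    rw [h, hn_jBar_coeff]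
  have hcoef : ∀ b : Fin q, (kronRot (ζ ^ (b : ℕ)) (qExpand Qb ℓ (coeffEmb Qb jq))).coeff
      (-(ℓ : ℤ)) = (((ζ ^ (b : ℕ)) ^ (-(ℓ : ℤ)) : Qbˣ) : Qb) := by
    intro b
    rw [kronRot_coeff, hcoefJ, mul_one]
  have hinf : (qExpand Qb q (qExpand Qb q (qExpand Qb ℓ (coeffEmb Qb jq)))).coeff
      (-(ℓ : ℤ)) = 0 := by
    apply qExpand_coeff_of_not_dvd
    intro hdvd
    have h1 : ((q : ℤ)) ∣ (ℓ : ℤ) := (dvd_neg).1 hdvd
    have h2 : q ∣ ℓ := by exact_mod_cast h1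
    have h3 : q ∣ Nat.gcd ℓ q := Nat.dvd_gcd h2 dvd_rfl
    rw [hqℓ] at h3
    exact hq.one_lt.ne' (Nat.dvd_one.1 h3)
  have hvalInf : hnFam (N * ℓ) q w ζ none (stbY N q ℓ)
      = algebraMap HnOmega HnOmegaBar
          (qExpand Qb q (qExpand Qb q (qExpand Qb ℓ (coeffEmb Qb jq)))) := by
    have := hnInf_beta (N * ℓ) q (heckeBetaBar Qb N ℓ (hnJ N))
    rw [hJ] at this
    exact this
  have hvalRot : ∀ b : Fin q, hnFam (N * ℓ) q w ζ (some b) (stbY N q ℓ)
      = algebraMap HnOmega HnOmegaBar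
          (kronRot (ζ ^ (b : ℕ)) (qExpand Qb ℓ (coeffEmb Qb jq))) := by
    intro b
    have := hnRot_beta (N * ℓ) q w hwβ (ζ ^ (b : ℕ)) (heckeBetaBar Qb N ℓ (hnJ N))
    rw [hJ] at this
    exact this
  have hζℓ : IsPrimitiveRoot (ζ ^ ℓ) q := hζ.pow_of_coprime ℓ hqℓ
  intro i i' h
  have h' : hnFam (N * ℓ) q w ζ i (stbY N q ℓ) = hnFam (N * ℓ) q w ζ i' (stbY N q ℓ) := h
  cases i with
  | none =>
      cases i' with
      | none => rfl
      | some b' =>
          exfalso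
          rw [hvalInf, hvalRot] at h'
          have h2 := congrArg (fun g : LaurentSeries Qb => g.coeff (-(ℓ : ℤ)))
            (hn_algebraMap_injective h')
          simp only [hinf, hcoef] at h2
          exact Units.ne_zero _ h2.symm
  | some b =>
      cases i' with
      | none =>
          exfalso
          rw [hvalInf, hvalRot] at h'
          have h2 := congrArg (fun g : LaurentSeries Qb => g.coeff (-(ℓ : ℤ)))
            (hn_algebraMap_injective h')
          simp only [hinf, hcoef] at h2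
          exact Units.ne_zero _ h2
      | some b' =>
          rw [hvalRot, hvalRot] at h'
          have h2 := congrArg (fun g : LaurentSeries Qb => g.coeff (-(ℓ : ℤ)))
            (hn_algebraMap_injective h')
          simp only [hcoef] at h2
          have h3 : (ζ ^ (b : ℕ)) ^ (-(ℓ : ℤ)) = (ζ ^ (b' : ℕ)) ^ (-(ℓ : ℤ)) := Units.ext h2
          have h4 : (ζ ^ ℓ) ^ (b : ℕ) = (ζ ^ ℓ) ^ (b' : ℕ) := by
            have h5 := congrArg (fun u : Qbˣ => u⁻¹) h3
            simp only [zpow_neg, inv_inv, zpow_natCast] at h5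
            rw [← pow_mul, ← pow_mul] at h5
            rw [← pow_mul, ← pow_mul, mul_comm ℓ, mul_comm ℓ]
            exact h5
          have h6 : (b : ℕ) = (b' : ℕ) := hζℓ.pow_inj b.2 b'.2 h4
          exact congrArg some (Fin.ext h6)

end Square

/-! ## Base change of the norms and the main theorems -/

section Main

variable (N q ℓ : ℕ) [NeZero N] [NeZero q] [NeZero ℓ]

theorem stb_charZero_bar (M : ℕ) : CharZero (modularFunctionFieldBar M) :=
  charZero_of_injective_algebraMap (algebraMap Qb (modularFunctionFieldBar M)).injective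

theorem stb_card_option_fin : Fintype.card (Option (Fin q)) = q + 1 := by
  rw [Fintype.card_option, Fintype.card_fin]

/-- **base change of the norm**, `α`-version: `N_{F_{Nℓq}/F_{Nℓ}} (u(Q^ℓ)) = (N_{F_{Nq}/F_N} u)(Q^ℓ)` -/
theorem stb_norm_bc_alpha (hq : q.Prime) (hqN : ¬ q ∣ N) (hqℓ : Nat.Coprime ℓ q)
    (hqNℓ : ¬ q ∣ N * ℓ) (u : modularFunctionFieldBar (N * q)) :
    stbNorm (heckeAlphaBar Qb (N * ℓ) q).toRingHom (stbG2 N q ℓ u) =
      heckeBetaBar Qb N ℓ (stbNorm (heckeAlphaBar Qb N q).toRingHom u) := by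
  haveI := stb_charZero_bar N
  obtain ⟨ζ, hζ⟩ := frob_exists_primitiveRoot q hq.ne_zero
  set w : modularFunctionFieldBar (N * ℓ * q) →+* modularFunctionFieldBar (N * ℓ * q) :=
    (stbW (N * ℓ) q hq hqNℓ : modularFunctionFieldBar (N * ℓ * q) →+*
      modularFunctionFieldBar (N * ℓ * q)) with hw
  have hwα : ∀ x, w (heckeAlphaBar Qb (N * ℓ) q x) = heckeBetaBar Qb (N * ℓ) q x :=
    stb_w_alpha (N * ℓ) q hq hqNℓ
  have hwβ : ∀ x, w (heckeBetaBar Qb (N * ℓ) q x) = heckeAlphaBar Qb (N * ℓ) q x :=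
    stb_w_beta (N * ℓ) q hq hqNℓ
  refine stb_norm_square_charZero (Ω := HnOmegaBar) (heckeAlphaBar Qb N q).toRingHom
    (heckeAlphaBar Qb (N * ℓ) q).toRingHom (heckeBetaBar Qb N ℓ).toRingHom (stbG2 N q ℓ)
    (stb_sq_alpha N q ℓ) (stbFinite_alpha N q) (stbFinite_alpha (N * ℓ) q)
    (hnBase (N * ℓ) q) (hnFam (N * ℓ) q w ζ)
    (fun i x => hnFam_alpha (N * ℓ) q w hwα ζ hζ.pow_eq_one i x) ?_ ?_ ?_ u
  · rw [stb_card_option_fin, stbDeg_alpha (N * ℓ) q hq hqNℓ]
  · rw [stb_card_option_fin, stbDeg_alpha N q hq hqN]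
  · intro i i' h
    apply stb_hnFam_injective_at N q ℓ hq hqℓ w hwβ ζ hζ
    show hnFam (N * ℓ) q w ζ i (stbY N q ℓ) = hnFam (N * ℓ) q w ζ i' (stbY N q ℓ)
    have hY : stbY N q ℓ = stbG2 N q ℓ (heckeBetaBar Qb N q (hnJ N)) :=
      (stb_sq_beta N q ℓ (hnJ N)).symm
    rw [hY]
    exact congrArg (fun f : modularFunctionFieldBar (N * q) →+* HnOmegaBar =>
      f (heckeBetaBar Qb N q (hnJ N))) h

/-- **base change of the norm**, `β`-version -/
theorem stb_norm_bc_beta (hq : q.Prime) (hqN : ¬ q ∣ N) (hqℓ : Nat.Coprime ℓ q)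
    (hqNℓ : ¬ q ∣ N * ℓ) (u : modularFunctionFieldBar (N * q)) :
    stbNorm (heckeBetaBar Qb (N * ℓ) q).toRingHom (stbG2 N q ℓ u) =
      heckeBetaBar Qb N ℓ (stbNorm (heckeBetaBar Qb N q).toRingHom u) := by
  haveI := stb_charZero_bar N
  obtain ⟨ζ, hζ⟩ := frob_exists_primitiveRoot q hq.ne_zero
  set w : modularFunctionFieldBar (N * ℓ * q) →+* modularFunctionFieldBar (N * ℓ * q) :=
    (stbW (N * ℓ) q hq hqNℓ : modularFunctionFieldBar (N * ℓ * q) →+*
      modularFunctionFieldBar (N * ℓ * q)) with hw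
  have hwα : ∀ x, w (heckeAlphaBar Qb (N * ℓ) q x) = heckeBetaBar Qb (N * ℓ) q x :=
    stb_w_alpha (N * ℓ) q hq hqNℓ
  have hwβ : ∀ x, w (heckeBetaBar Qb (N * ℓ) q x) = heckeAlphaBar Qb (N * ℓ) q x :=
    stb_w_beta (N * ℓ) q hq hqNℓ
  refine stb_norm_square_charZero (Ω := HnOmegaBar) (heckeBetaBar Qb N q).toRingHom
    (heckeBetaBar Qb (N * ℓ) q).toRingHom (heckeBetaBar Qb N ℓ).toRingHom (stbG2 N q ℓ)
    (stb_sq_beta N q ℓ) (stbFinite_beta N q) (stbFinite_beta (N * ℓ) q)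
    (hnBase (N * ℓ) q) (fun i => (hnFam (N * ℓ) q w ζ i).comp w)
    (fun i x => by
      show hnFam (N * ℓ) q w ζ i (w (heckeBetaBar Qb (N * ℓ) q x)) = hnBase (N * ℓ) q x
      rw [hwβ]
      exact hnFam_alpha (N * ℓ) q w hwα ζ hζ.pow_eq_one i x) ?_ ?_ ?_ u
  · rw [stb_card_option_fin, stbDeg_beta (N * ℓ) q hq hqNℓ]
  · rw [stb_card_option_fin, stbDeg_beta N q hq hqN]
  · intro i i' h
    apply stb_hnFam_injective_at N q ℓ hq hqℓ w hwβ ζ hζ
    show hnFam (N * ℓ) q w ζ i (stbY N q ℓ) = hnFam (N * ℓ) q w ζ i' (stbY N q ℓ)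
    have hY : stbY N q ℓ = w (stbG2 N q ℓ (heckeAlphaBar Qb N q (hnJ N))) := by
      rw [stb_sq_alpha, hwα]
      rfl
    rw [hY]
    exact congrArg (fun f : modularFunctionFieldBar (N * q) →+* HnOmegaBar =>
      f (heckeAlphaBar Qb N q (hnJ N))) h

end Main

section Final

variable (N q : ℕ) [NeZero N] [NeZero q]

/-- the Kummer functions of `α_* T_ℓ x` and `T_ℓ α_* x` agree -/
theorem stb_p3_fun_alpha (hq : q.Prime) (hqN : ¬ q ∣ N) (ℓ : ℕ) [NeZero ℓ] (hℓ : ℓ.Prime)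
    (hℓNq : ¬ ℓ ∣ N * q) (u : modularFunctionFieldBar (N * q)) :
    stbNorm (heckeAlphaBar Qb N q).toRingHom
        (stbNorm (heckeAlphaBar Qb (N * q) ℓ).toRingHom (heckeBetaBar Qb (N * q) ℓ u)) =
      stbNorm (heckeAlphaBar Qb N ℓ).toRingHom
        (heckeBetaBar Qb N ℓ (stbNorm (heckeAlphaBar Qb N q).toRingHom u)) := by
  have hℓq : ℓ ≠ q := fun h => hℓNq (h ▸ dvd_mul_left _ _)
  have hcop : Nat.Coprime ℓ q := (Nat.coprime_primes hℓ hq).2 hℓq
  have hqNℓ : ¬ q ∣ N * ℓ := by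
    intro h
    rcases (Nat.Prime.dvd_mul hq).1 h with h | h
    · exact hqN h
    · exact hℓq ((Nat.prime_dvd_prime_iff_eq hq hℓ).1 h).symm
  rw [← stb_norm_bc_alpha N q ℓ hq hqN hcop hqNℓ u,
    stbNorm_comp _ _ (stbFinite_alpha N q) (stbFinite_alpha (N * q) ℓ),
    stbNorm_comp _ _ (stbFinite_alpha N ℓ) (stbFinite_alpha (N * ℓ) q),
    ← stb_incl_alpha N q ℓ]
  exact (stbNorm_equiv_comp _ (stbEqv N q ℓ) _).symm

/-- the Kummer functions of `β_* T_ℓ x` and `T_ℓ β_* x` agree -/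
theorem stb_p3_fun_beta (hq : q.Prime) (hqN : ¬ q ∣ N) (ℓ : ℕ) [NeZero ℓ] (hℓ : ℓ.Prime)
    (hℓNq : ¬ ℓ ∣ N * q) (u : modularFunctionFieldBar (N * q)) :
    stbNorm (heckeBetaBar Qb N q).toRingHom
        (stbNorm (heckeAlphaBar Qb (N * q) ℓ).toRingHom (heckeBetaBar Qb (N * q) ℓ u)) =
      stbNorm (heckeAlphaBar Qb N ℓ).toRingHom
        (heckeBetaBar Qb N ℓ (stbNorm (heckeBetaBar Qb N q).toRingHom u)) := by
  have hℓq : ℓ ≠ q := fun h => hℓNq (h ▸ dvd_mul_left _ _)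
  have hcop : Nat.Coprime ℓ q := (Nat.coprime_primes hℓ hq).2 hℓq
  have hqNℓ : ¬ q ∣ N * ℓ := by
    intro h
    rcases (Nat.Prime.dvd_mul hq).1 h with h | h
    · exact hqN h
    · exact hℓq ((Nat.prime_dvd_prime_iff_eq hq hℓ).1 h).symm
  rw [← stb_norm_bc_beta N q ℓ hq hqN hcop hqNℓ u,
    stbNorm_comp _ _ (stbFinite_beta N q) (stbFinite_alpha (N * q) ℓ),
    stbNorm_comp _ _ (stbFinite_alpha N ℓ) (stbFinite_beta (N * ℓ) q),
    ← stb_incl_beta N q ℓ]
  exact (stbNorm_equiv_comp _ (stbEqv N q ℓ) _).symm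

/-- **STB-P3, `α`**: `α_* (T_ℓ x) = T_ℓ (α_* x)` for every torsion point `x` of `J₀(Nq)`,
`q ∤ N`, `ℓ ∤ N q` primes. -/
theorem stb_p3_alpha (hq : q.Prime) (hqN : ¬ q ∣ N) (ℓ : Nat.Primes) (hℓ : ¬ (ℓ : ℕ) ∣ N * q)
    {n : ℕ} (hn : n ≠ 0) (x : JZero (N * q)) (hx : n • x = 0) :
    stbPushAlpha N q (heckeOperatorBar (N * q) ℓ x) =
      heckeOperatorBar N ℓ (stbPushAlpha N q x) := by
  haveI : NeZero (ℓ : ℕ) := ⟨ℓ.2.ne_zero⟩
  obtain ⟨u, hu⟩ := exists_kummerRel hx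
  have hL := stb_kummerRel_pushAlpha N q (stb_kummerRel_hecke (N * q) ℓ hu)
  have hR := stb_kummerRel_hecke N ℓ (stb_kummerRel_pushAlpha N q hu)
  rw [stb_p3_fun_alpha N q hq hqN (ℓ : ℕ) ℓ.2 hℓ u] at hL
  exact KummerRel.unique hn hL hR

/-- **STB-P3, `β`**: `β_* (T_ℓ x) = T_ℓ (β_* x)` for every torsion point `x` of `J₀(Nq)`,
`q ∤ N`, `ℓ ∤ N q` primes. -/
theorem stb_p3_beta (hq : q.Prime) (hqN : ¬ q ∣ N) (ℓ : Nat.Primes) (hℓ : ¬ (ℓ : ℕ) ∣ N * q)
    {n : ℕ} (hn : n ≠ 0) (x : JZero (N * q)) (hx : n • x = 0) :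
    stbPushBeta N q (heckeOperatorBar (N * q) ℓ x) =
      heckeOperatorBar N ℓ (stbPushBeta N q x) := by
  haveI : NeZero (ℓ : ℕ) := ⟨ℓ.2.ne_zero⟩
  obtain ⟨u, hu⟩ := exists_kummerRel hx
  have hL := stb_kummerRel_pushBeta N q (stb_kummerRel_hecke (N * q) ℓ hu)
  have hR := stb_kummerRel_hecke N ℓ (stb_kummerRel_pushBeta N q hu)
  rw [stb_p3_fun_beta N q hq hqN (ℓ : ℕ) ℓ.2 hℓ u] at hL
  exact KummerRel.unique hn hL hR

end Final

end Fermat.Agent.STB
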