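import Fermat.Agent.STB.MGTop
import Fermat.Agent.STB.MGNodeFinal
import Fermat.Agent.UNIP.MGChartsBeta0All

/-!
# STB-MG, final: the non-formal inputs of `StbData` at all levels

`stbd_stmtStbdInputs : StmtStbdInputs` from
* `UNIP.mgcb_all_SS1` (helper16) : (SS1) on the chart `j`,
* `stbmn_hnode₁`, `stbmn_hnode₂` (helper3) : the node dichotomy on the charts `j`, `1 / j`,
hence `stbd_stmtNewFrobKummer : StmtNewFrobKummer`.
-/

set_option autoImplicit false
set_option linter.style.haveILetI false
set_option linter.unusedSectionVars false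
set_option linter.unusedVariables false

noncomputable section

namespace Fermat.Agent.STB

open ModularCurve AlgebraicCurve Fermat.Agent.ES Fermat.Agent.ES.G2 Fermat.Agent.INJ
open Fermat.Agent.UNIP IntermediateField

set_option synthInstance.maxHeartbeats 400000 in
set_option maxHeartbeats 3200000 in
/-- **The non-formal inputs of `StbData`**, at all levels. -/
theorem stbd_stmtStbdInputs : StmtStbdInputs := by
  intro M₁ q _ _ hq hqM h2 h3 A hA K₁ _ _ _
  obtain ⟨π, hπ⟩ := IsDiscreteValuationRing.exists_irreducible ↥(mgcA A K₁)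
  exact ⟨π, hπ, mgdIota (mgcE A K₁),
    ⟨mgcb_all_SS1 K₁ hq hqM hA h2 h3 hπ (mgdIota (mgcE A K₁)),
      stbmn_hnode₁ K₁ hq hqM hA h2 h3 hπ (mgdIota (mgcE A K₁)),
      stbmn_hnode₂ K₁ hq hqM hA h2 h3 hπ (mgdIota (mgcE A K₁))⟩⟩

/-- **(P7-a) in Kummer form**, unconditional. -/
theorem stbd_stmtNewFrobKummer : StmtNewFrobKummer :=
  stmtNewFrobKummer_of_inputs stbd_stmtStbdInputs

end Fermat.Agent.STB
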