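import Mathlib

/-!
# STB-P1, field theory (helper46)

* `stb_p1_exists_equiv` : a ring automorphism of `ℚ̄ ⊂ ℂ` extends to a ring automorphism of `ℂ`;
* `stb_p1_exists_sigma` : two ring homomorphisms `ψ, χ : A → ℂ` with integral values and
  `ker ψ ≤ ker χ` are conjugate: `χ = σ ∘ ψ` for a ring automorphism `σ` of `ℂ`;
* `stb_p1_eq_zero_of_forall_pow_mul` : an algebraic integer divisible by `p ^ k` for all `k` in the
  ring of all algebraic integers is zero.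
-/

set_option autoImplicit false

namespace Fermat.Agent.STB

open MvPolynomial

/-- A ring automorphism of the algebraic closure of `ℚ` in `ℂ` extends to `ℂ`. -/
theorem stb_p1_exists_equiv (τ : algebraicClosure ℚ ℂ ≃+* algebraicClosure ℚ ℂ) :
    ∃ σ : ℂ ≃+* ℂ, ∀ z : algebraicClosure ℚ ℂ, σ (z : ℂ) = (τ z : ℂ) := by
  obtain ⟨s, hs⟩ := exists_isTranscendenceBasis (algebraicClosure ℚ ℂ) ℂ
  have := IsAlgClosed.isAlgClosure_of_transcendence_basis ((↑) : s → ℂ) hs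
  let e : Algebra.adjoin (algebraicClosure ℚ ℂ) (Set.range ((↑) : s → ℂ)) ≃+*
      Algebra.adjoin (algebraicClosure ℚ ℂ) (Set.range ((↑) : s → ℂ)) :=
    hs.1.aevalEquiv.symm.toRingEquiv.trans
      ((MvPolynomial.mapEquiv s τ).trans hs.1.aevalEquiv.toRingEquiv)
  refine ⟨IsAlgClosure.equivOfEquiv ℂ ℂ e, fun z => ?_⟩
  have h1 : (hs.1.aevalEquiv (C z) : ℂ) = z := by
    simp [AlgebraicIndependent.aevalEquiv_apply_coe]
  have h2 : (e (hs.1.aevalEquiv (C z)) : ℂ) = (τ z : ℂ) := by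
    simp [e, AlgebraicIndependent.aevalEquiv_apply_coe]
  have h3 := IsAlgClosure.equivOfEquiv_algebraMap ℂ ℂ e (hs.1.aevalEquiv (C z))
  have h4 : algebraMap (Algebra.adjoin (algebraicClosure ℚ ℂ) (Set.range ((↑) : s → ℂ))) ℂ
      (hs.1.aevalEquiv (C z)) = z := h1
  have h5 : algebraMap (Algebra.adjoin (algebraicClosure ℚ ℂ) (Set.range ((↑) : s → ℂ))) ℂ
      (e (hs.1.aevalEquiv (C z))) = (τ z : ℂ) := h2
  rw [h4, h5] at h3
  exact h3


/-- If `ψ : D → ℂ` is injective with integral values, then every ring homomorphism from `D` to a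
ring of characteristic zero is injective. -/
theorem stb_p1_injective_of_integral {D : Type*} [CommRing D] {R : Type*} [CommRing R]
    [CharZero R] (ψ : D →+* ℂ) (χ : D →+* R)
    (hψ : Function.Injective ψ) (hint : ∀ d, IsIntegral ℤ (ψ d)) : Function.Injective χ := by
  rw [injective_iff_map_eq_zero]
  intro d hd
  by_contra hne
  have hψd : ψ d ≠ 0 := fun h => hne (hψ (h.trans (map_zero ψ).symm))
  have hc : (minpoly ℤ (ψ d)).coeff 0 ≠ 0 := by
    have hQ := minpoly.coeff_zero_ne_zero (A := ℚ) (hint d).tower_top hψd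
    rw [minpoly.isIntegrallyClosed_eq_field_fractions' ℚ (hint d), Polynomial.coeff_map] at hQ
    intro h
    apply hQ
    rw [h, map_zero]
  have h0 : Polynomial.eval₂ (algebraMap ℤ ℂ) (ψ d) (minpoly ℤ (ψ d)) = 0 := by
    rw [← Polynomial.aeval_def]
    exact minpoly.aeval ℤ (ψ d)
  have h1 : Polynomial.eval₂ (algebraMap ℤ D) d (minpoly ℤ (ψ d)) = 0 := by
    apply hψ
    rw [map_zero, Polynomial.hom_eval₂]
    have hc : ψ.comp (algebraMap ℤ D) = algebraMap ℤ ℂ := RingHom.ext_int _ _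
    rw [hc]
    exact h0
  have h2 : Polynomial.eval₂ (algebraMap ℤ R) (χ d) (minpoly ℤ (ψ d)) = 0 := by
    have := congrArg χ h1
    rw [map_zero, Polynomial.hom_eval₂] at this
    have hc : χ.comp (algebraMap ℤ D) = algebraMap ℤ R := RingHom.ext_int _ _
    rw [hc] at this
    exact this
  rw [hd, Polynomial.eval₂_at_zero] at h2
  apply hc
  have h3 : (((minpoly ℤ (ψ d)).coeff 0 : ℤ) : R) = 0 := h2
  exact_mod_cast h3

/-- Two ring homomorphisms `ψ, χ : A → ℂ` with `ψ` integral-valued and `ker ψ ≤ ker χ` are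
conjugate under a ring automorphism of `ℂ`. -/
theorem stb_p1_exists_sigma {A : Type*} [CommRing A] (ψ χ : A →+* ℂ)
    (hint : ∀ a, IsIntegral ℤ (ψ a)) (hker : RingHom.ker ψ ≤ RingHom.ker χ) :
    ∃ σ : ℂ ≃+* ℂ, ∀ a, σ (ψ a) = χ a := by
  classical
  have hprime : (RingHom.ker ψ).IsPrime := RingHom.ker_isPrime ψ
  obtain ⟨ψb, hψb⟩ : ∃ ψb : A ⧸ RingHom.ker ψ →+* ℂ, ψb = RingHom.kerLift ψ := ⟨_, rfl⟩
  have hψinj : Function.Injective ψb := hψb ▸ RingHom.kerLift_injective ψ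
  have hψmk : ∀ a, ψb (Ideal.Quotient.mk _ a) = ψ a := fun a => by
    rw [hψb]
    exact RingHom.kerLift_mk ψ a
  obtain ⟨χb, hχb⟩ : ∃ χb : A ⧸ RingHom.ker ψ →+* ℂ,
      χb = Ideal.Quotient.lift (RingHom.ker ψ) χ (fun a ha => hker ha) := ⟨_, rfl⟩
  have hχmk : ∀ a, χb (Ideal.Quotient.mk _ a) = χ a := fun a => by
    rw [hχb]
    exact Ideal.Quotient.lift_mk _ _ _
  have hintb : ∀ d, IsIntegral ℤ (ψb d) := by
    intro d
    obtain ⟨a, rfl⟩ := Ideal.Quotient.mk_surjective d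
    rw [hψmk]
    exact hint a
  have hχinj : Function.Injective χb := stb_p1_injective_of_integral ψb χb hψinj hintb
  have hψQ : ∀ d, ψb d ∈ algebraicClosure ℚ ℂ := fun d =>
    mem_algebraicClosure_iff.mpr
      ((hintb d).isAlgebraic.extendScalars (algebraMap ℤ ℚ).injective_int)
  obtain ⟨i₁, hi₁⟩ : ∃ i₁ : A ⧸ RingHom.ker ψ →+* algebraicClosure ℚ ℂ,
      i₁ = ψb.codRestrict (algebraicClosure ℚ ℂ) hψQ := ⟨_, rfl⟩
  have hi₁c : ∀ d, ((i₁ d : algebraicClosure ℚ ℂ) : ℂ) = ψb d := fun d => by rw [hi₁]; rfl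
  have hi₁inj : Function.Injective i₁ := fun a b hab => hψinj (by rw [← hi₁c, ← hi₁c, hab])
  let alg1 : Algebra (A ⧸ RingHom.ker ψ) (algebraicClosure ℚ ℂ) := i₁.toAlgebra
  let alg2 : Algebra (A ⧸ RingHom.ker ψ) ℂ := χb.toAlgebra
  have hQalg : Algebra.IsAlgebraic ℚ (algebraicClosure ℚ ℂ) := algebraicClosure.isAlgebraic ℚ ℂ
  have htf1 : Module.IsTorsionFree (A ⧸ RingHom.ker ψ) (algebraicClosure ℚ ℂ) :=
    Module.isTorsionFree_iff_algebraMap_injective.mpr hi₁inj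
  have htf2 : Module.IsTorsionFree (A ⧸ RingHom.ker ψ) ℂ :=
    Module.isTorsionFree_iff_algebraMap_injective.mpr hχinj
  have halg : Algebra.IsAlgebraic (A ⧸ RingHom.ker ψ) (algebraicClosure ℚ ℂ) := by
    refine ⟨fun z => ?_⟩
    have hz : IsAlgebraic ℤ z := by
      have hzQ : IsAlgebraic ℚ z := Algebra.IsAlgebraic.isAlgebraic z
      exact (IsFractionRing.isAlgebraic_iff ℤ ℚ (algebraicClosure ℚ ℂ)).mpr hzQ
    obtain ⟨P, hP0, hP⟩ := hz
    refine ⟨P.map (algebraMap ℤ (A ⧸ RingHom.ker ψ)), ?_, ?_⟩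
    · intro h
      apply hP0
      have hinjZ : Function.Injective (algebraMap ℤ (A ⧸ RingHom.ker ψ)) := by
        intro m n hmn
        have := congrArg ψb hmn
        simpa using this
      exact (Polynomial.map_eq_zero_iff hinjZ).mp h
    · rw [Polynomial.aeval_map_algebraMap]
      exact hP
  obtain ⟨τ₀⟩ : Nonempty (algebraicClosure ℚ ℂ →ₐ[A ⧸ RingHom.ker ψ] ℂ) :=
    ⟨IsAlgClosed.lift⟩
  have hτ₀Q : ∀ z, τ₀ z ∈ algebraicClosure ℚ ℂ := by
    intro z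
    rw [mem_algebraicClosure_iff]
    have hzQ : IsAlgebraic ℚ z := Algebra.IsAlgebraic.isAlgebraic z
    obtain ⟨P, hP0, hP⟩ := hzQ
    refine ⟨P, hP0, ?_⟩
    have h1 : Polynomial.eval₂ (algebraMap ℚ (algebraicClosure ℚ ℂ)) z P = 0 := by
      rw [← Polynomial.aeval_def]; exact hP
    have h2 := congrArg (τ₀ : algebraicClosure ℚ ℂ →+* ℂ) h1
    rw [map_zero, Polynomial.hom_eval₂] at h2
    have hc : (τ₀ : algebraicClosure ℚ ℂ →+* ℂ).comp (algebraMap ℚ (algebraicClosure ℚ ℂ)) =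
        algebraMap ℚ ℂ := RingHom.ext_rat _ _
    rw [hc] at h2
    rw [Polynomial.aeval_def]
    exact h2
  obtain ⟨τ₁, hτ₁⟩ : ∃ τ₁ : algebraicClosure ℚ ℂ →ₐ[ℚ] algebraicClosure ℚ ℂ,
      ∀ z, ((τ₁ z : algebraicClosure ℚ ℂ) : ℂ) = τ₀ z :=
    ⟨((τ₀ : algebraicClosure ℚ ℂ →+* ℂ).codRestrict (algebraicClosure ℚ ℂ) hτ₀Q).toRatAlgHom,
      fun z => rfl⟩
  have hbij : Function.Bijective τ₁ := Algebra.IsAlgebraic.algHom_bijective τ₁
  obtain ⟨σ, hσ⟩ := stb_p1_exists_equiv (AlgEquiv.ofBijective τ₁ hbij).toRingEquiv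
  refine ⟨σ, fun a => ?_⟩
  have h1 : ψ a = ((i₁ (Ideal.Quotient.mk _ a) : algebraicClosure ℚ ℂ) : ℂ) := by
    rw [hi₁c, hψmk]
  rw [h1, hσ]
  have h2 : ((AlgEquiv.ofBijective τ₁ hbij).toRingEquiv (i₁ (Ideal.Quotient.mk _ a)) :
      algebraicClosure ℚ ℂ) = τ₁ (i₁ (Ideal.Quotient.mk _ a)) := rfl
  rw [h2, hτ₁]
  have h3 : τ₀ (i₁ (Ideal.Quotient.mk _ a)) = χb (Ideal.Quotient.mk _ a) :=
    τ₀.commutes (Ideal.Quotient.mk _ a)
  rw [h3, hχmk]


/-- A nonzero algebraic integer divides a nonzero rational integer in the ring of algebraic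
integers. -/
theorem stb_p1_exists_int_eq_mul {x : ℂ} (hx : IsIntegral ℤ x) (hx0 : x ≠ 0) :
    ∃ (c : ℤ) (w : ℂ), c ≠ 0 ∧ IsIntegral ℤ w ∧ (c : ℂ) = x * w := by
  have hc : (minpoly ℤ x).coeff 0 ≠ 0 := by
    have hQ := minpoly.coeff_zero_ne_zero (A := ℚ) hx.tower_top hx0
    rw [minpoly.isIntegrallyClosed_eq_field_fractions' ℚ hx, Polynomial.coeff_map] at hQ
    intro h
    apply hQ
    rw [h, map_zero]
  refine ⟨(minpoly ℤ x).coeff 0, - Polynomial.aeval x (minpoly ℤ x).divX, hc, ?_, ?_⟩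
  · apply IsIntegral.neg
    have h1 := Polynomial.aeval_subalgebra_coe (minpoly ℤ x).divX (integralClosure ℤ ℂ) ⟨x, hx⟩
    rw [← h1]
    exact (Polynomial.aeval (⟨x, hx⟩ : integralClosure ℤ ℂ) (minpoly ℤ x).divX).2
  · have h0 : Polynomial.aeval x (minpoly ℤ x) = 0 := minpoly.aeval ℤ x
    have h1 : Polynomial.aeval x (minpoly ℤ x) =
        x * Polynomial.aeval x (minpoly ℤ x).divX + (((minpoly ℤ x).coeff 0 : ℤ) : ℂ) := by
      conv_lhs => rw [← Polynomial.X_mul_divX_add (minpoly ℤ x)]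
      rw [map_add, map_mul, Polynomial.aeval_X, Polynomial.aeval_C]
      rfl
    rw [h0] at h1
    linear_combination -h1

/-- An algebraic integer which is divisible by `p ^ k` for every `k`, in the ring of all algebraic
integers, is zero. -/
theorem stb_p1_eq_zero_of_forall_pow_mul {p : ℕ} (hp : 1 < p) (x : ℂ)
    (h : ∀ k : ℕ, ∃ y : ℂ, IsIntegral ℤ y ∧ x = (p : ℂ) ^ k * y) : x = 0 := by
  by_contra hx0
  have hx : IsIntegral ℤ x := by
    obtain ⟨y, hy, hxy⟩ := h 0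
    rw [hxy, pow_zero, one_mul]
    exact hy
  obtain ⟨c, w, hc, hw, hcw⟩ := stb_p1_exists_int_eq_mul hx hx0
  have hdvd : ∀ k : ℕ, ((p : ℤ) ^ k) ∣ c := by
    intro k
    obtain ⟨y, hy, hxy⟩ := h k
    have hp0 : (p : ℂ) ^ k ≠ 0 := pow_ne_zero _ (Nat.cast_ne_zero.mpr (by omega))
    have hyw : IsIntegral ℤ (y * w) := hy.mul hw
    have hq : y * w = (((c : ℚ) / (p : ℚ) ^ k : ℚ) : ℂ) := by
      push_cast
      rw [eq_div_iff hp0, hcw, hxy]
      ring
    rw [hq] at hyw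
    have hyw' : IsIntegral ℤ ((c : ℚ) / (p : ℚ) ^ k : ℚ) :=
      (isIntegral_algebraMap_iff (algebraMap ℚ ℂ).injective).mp hyw
    obtain ⟨m, hm⟩ := IsIntegrallyClosed.isIntegral_iff.mp hyw'
    refine ⟨m, ?_⟩
    have hp0' : (p : ℚ) ^ k ≠ 0 := pow_ne_zero _ (Nat.cast_ne_zero.mpr (by omega))
    have h2 : (c : ℚ) = (p : ℚ) ^ k * (m : ℚ) := by
      have : (m : ℚ) = (c : ℚ) / (p : ℚ) ^ k := hm
      rw [this]
      field_simp
    exact_mod_cast h2
  have h1 := hdvd c.natAbs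
  have h2 : p ^ c.natAbs ∣ c.natAbs := by
    have := Int.natAbs_dvd_natAbs.mpr h1
    rwa [Int.natAbs_pow, Int.natAbs_natCast] at this
  have h3 : p ^ c.natAbs ≤ c.natAbs :=
    Nat.le_of_dvd (Int.natAbs_pos.mpr hc) h2
  exact absurd h3 (not_le.mpr (Nat.lt_pow_self hp))

end Fermat.Agent.STB
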