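import Fermat.Agent.S30.PseudoChar
import Fermat.Agent.S42.Int
import Fermat.Agent.Cheb.Final
import Fermat.Agent.Common.FrobExists
import Fermat.Agent.STB.P1Conj

/-!
# STB-P1, strong multiplicity one from the Eichler–Shimura package (helper46)

* `stb_p1_esDataInf_prod` : the `p`-adic Eichler–Shimura data of levels `M` and `M₁ ∣ M` give
  Eichler–Shimura data of level `M` on the product;
* `stb_p1_eval_eigen`, `stb_p1_isIntegral_heckeValue`, `stb_p1_heckeValue_congr` : Hecke polynomials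
  on normalised eigenforms;
* `stb_p1_smo_core`, `stb_p1_smo` : **strong multiplicity one**: normalised eigenforms `g`, `f₁`
  of levels `M`, `M₁ ∣ M` with `a_ℓ(f₁) = a_ℓ(g)` for all primes `ℓ` outside a finite set have
  `a_ℓ(f₁) = a_ℓ(g)` for all primes `ℓ ∤ M`.
-/

set_option autoImplicit false

noncomputable section

namespace Fermat.Agent.STB

open ModularCurve Fermat.Agent.ES Fermat.Agent.S31 Fermat.Agent.S30 ModularFormClass
  CongruenceSubgroup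

section prod

variable {M M₁ p : ℕ} {J J' : Type} [AddCommGroup J] [Module HeckeAlg J] [DistribMulAction GQ J]
  [AddCommGroup J'] [Module HeckeAlg J'] [DistribMulAction GQ J']

/-- Eichler–Shimura data of levels `M` and `M₁ ∣ M` give Eichler–Shimura data on the product. -/
theorem stb_p1_esDataInf_prod (hM₁ : M₁ ∣ M) (hJ : ESDataInf M p J) (hJ' : ESDataInf M₁ p J') :
    ESDataInf M p (J × J') where
  finite n := by
    refine ((hJ.finite n).prod (hJ'.finite n)).subset ?_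
    rintro ⟨x, y⟩ hxy
    have h1 : p ^ n • x = 0 := congrArg Prod.fst hxy
    have h2 : p ^ n • y = 0 := congrArg Prod.snd hxy
    exact ⟨h1, h2⟩
  divisible := by
    rintro ⟨x, y⟩ ⟨n, hn⟩
    obtain ⟨x', ⟨a, ha⟩, hx'⟩ := hJ.divisible x ⟨n, congrArg Prod.fst hn⟩
    obtain ⟨y', ⟨b, hb⟩, hy'⟩ := hJ'.divisible y ⟨n, congrArg Prod.snd hn⟩
    refine ⟨(x', y'), ⟨max a b, ?_⟩, ?_⟩
    · exact Prod.ext (torsion_le (le_max_left a b) ha) (torsion_le (le_max_right a b) hb)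
    · exact Prod.ext hx' hy'
  smul_comm σ t := by
    rintro ⟨x, y⟩
    exact Prod.ext (hJ.smul_comm σ t x) (hJ'.smul_comm σ t y)
  finite_level := by
    rintro ⟨x, y⟩ ⟨n, hn⟩
    obtain ⟨E₁, hE₁, h₁⟩ := hJ.finite_level x ⟨n, congrArg Prod.fst hn⟩
    obtain ⟨E₂, hE₂, h₂⟩ := hJ'.finite_level y ⟨n, congrArg Prod.snd hn⟩
    refine ⟨E₁ ⊔ E₂, IntermediateField.finiteDimensional_sup E₁ E₂, fun σ hσ => ?_⟩
    have hle₁ : E₁ ≤ E₁ ⊔ E₂ := le_sup_left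
    have hle₂ : E₂ ≤ E₁ ⊔ E₂ := le_sup_right
    exact Prod.ext (h₁ σ fun a ha => hσ a (hle₁ ha)) (h₂ σ fun a ha => hσ a (hle₂ ha))
  frob ℓ hℓ hℓMp A hA τ hτ := by
    rintro ⟨x, y⟩ ⟨n, hn⟩
    have hℓ' : ¬ ℓ ∣ M₁ * p := fun h => hℓMp (h.trans (Nat.mul_dvd_mul_right hM₁ p))
    exact Prod.ext (hJ.frob ℓ hℓ hℓMp A hA τ hτ x ⟨n, congrArg Prod.fst hn⟩)
      (hJ'.frob ℓ hℓ hℓ' A hA τ hτ y ⟨n, congrArg Prod.snd hn⟩)
  unram ℓ hℓ hℓMp A hA σ hσ := by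
    rintro ⟨x, y⟩ ⟨n, hn⟩
    have hℓ' : ¬ ℓ ∣ M₁ * p := fun h => hℓMp (h.trans (Nat.mul_dvd_mul_right hM₁ p))
    exact Prod.ext (hJ.unram ℓ hℓ hℓMp A hA σ hσ x ⟨n, congrArg Prod.fst hn⟩)
      (hJ'.unram ℓ hℓ hℓ' A hA σ hσ y ⟨n, congrArg Prod.snd hn⟩)
  supp g hg 𝔪 h𝔪 hp𝔪 := by
    obtain ⟨v, hv, hpv, hvt⟩ := hJ.supp g hg 𝔪 h𝔪 hp𝔪
    have h0 : p • (0 : J') = 0 := smul_zero _
    refine ⟨(v, 0), fun h => hv (congrArg Prod.fst h), Prod.ext hpv h0, ?_⟩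
    intro t ht hz
    have h1 : t • (0 : J') = 0 := smul_zero _
    exact Prod.ext (hvt t ht hz) h1

end prod


section eigen

variable {N : ℕ} [NeZero N]

omit [NeZero N] in
theorem stb_p1_heckeValue_X (g : CuspForm (Gamma0 N) 2) (ℓ : Nat.Primes) :
    heckeValue g (MvPolynomial.X ℓ) = qCoeff ⇑g ℓ := by
  unfold heckeValue
  exact MvPolynomial.aeval_X _ ℓ

omit [NeZero N] in
theorem stb_p1_heckeValue_algebraMap (g : CuspForm (Gamma0 N) 2) (r : ℤ) :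
    heckeValue g (algebraMap ℤ HeckeAlg r) = (r : ℂ) := by
  unfold heckeValue
  rw [AlgHom.commutes]
  rfl

omit [NeZero N] in
theorem stb_p1_heckeValue_add (g : CuspForm (Gamma0 N) 2) (x y : HeckeAlg) :
    heckeValue g (x + y) = heckeValue g x + heckeValue g y := by
  unfold heckeValue
  exact map_add _ x y

omit [NeZero N] in
theorem stb_p1_heckeValue_sub (g : CuspForm (Gamma0 N) 2) (x y : HeckeAlg) :
    heckeValue g (x - y) = heckeValue g x - heckeValue g y := by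
  unfold heckeValue
  exact map_sub _ x y

omit [NeZero N] in
theorem stb_p1_heckeValue_mul (g : CuspForm (Gamma0 N) 2) (x y : HeckeAlg) :
    heckeValue g (x * y) = heckeValue g x * heckeValue g y := by
  unfold heckeValue
  exact map_mul _ x y

/-- a Hecke polynomial in good variables acts on a normalised eigenform through `heckeValue` -/
theorem stb_p1_eval_eigen (g : CuspForm (Gamma0 N) 2) (hg : g.IsNormalizedEigenform)
    {Sg : Set Nat.Primes} (hSg : ∀ ℓ ∈ Sg, ¬ (ℓ : ℕ) ∣ N) {t : HeckeAlg}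
    (ht : t ∈ MvPolynomial.supported ℤ Sg) :
    ((CuspForm.heckeEvalForms N 2 t : CuspForm.heckeAlgebra N 2 ∅) :
      Module.End ℂ (CuspForm (Gamma0 N) 2)) g = heckeValue g t • g := by
  rw [MvPolynomial.supported_eq_adjoin_X] at ht
  induction ht using Algebra.adjoin_induction with
  | mem x hx =>
    obtain ⟨ℓ, hℓ, rfl⟩ := hx
    have h1 : CuspForm.heckeEvalForms N 2 (MvPolynomial.X ℓ) =
        CuspForm.heckeAlgebra.T ℓ.2 (hSg ℓ hℓ) (Set.notMem_empty _) :=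
      CuspForm.heckeEvalForms_heckeGen_of_not_dvd (N := N) (k := 2) (ℓ := ℓ) (hSg ℓ hℓ)
    rw [h1, CuspForm.heckeAlgebra.coe_T, stb_p1_heckeValue_X]
    exact Fermat.Agent.S42.heckeTLin_apply_eq_smul g hg ℓ.2 (hSg ℓ hℓ)
  | algebraMap r =>
    have h1 : CuspForm.heckeEvalForms N 2 (algebraMap ℤ HeckeAlg r) =
        algebraMap ℤ (CuspForm.heckeAlgebra N 2 ∅) r := CuspForm.heckeEvalForms_C N 2 r
    rw [h1, stb_p1_heckeValue_algebraMap, Subalgebra.coe_algebraMap, Algebra.algebraMap_eq_smul_one,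
      LinearMap.smul_apply, Module.End.one_apply]
    exact (Int.cast_smul_eq_zsmul ℂ r g).symm
  | add x y _ _ ihx ihy =>
    rw [map_add, Subalgebra.coe_add, LinearMap.add_apply, ihx, ihy, stb_p1_heckeValue_add,
      add_smul]
  | mul x y _ _ ihx ihy =>
    rw [map_mul, Subalgebra.coe_mul, Module.End.mul_apply, ihy, map_smul, ihx,
      stb_p1_heckeValue_mul, smul_smul, mul_comm]

/-- values of Hecke polynomials in good variables on a normalised eigenform are algebraic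
integers -/
theorem stb_p1_isIntegral_heckeValue (g : CuspForm (Gamma0 N) 2) (hg : g.IsNormalizedEigenform)
    {Sg : Set Nat.Primes} (hSg : ∀ ℓ ∈ Sg, ¬ (ℓ : ℕ) ∣ N) {t : HeckeAlg}
    (ht : t ∈ MvPolynomial.supported ℤ Sg) : IsIntegral ℤ (heckeValue g t) := by
  rw [MvPolynomial.supported_eq_adjoin_X] at ht
  induction ht using Algebra.adjoin_induction with
  | mem x hx =>
    obtain ⟨ℓ, hℓ, rfl⟩ := hx
    rw [stb_p1_heckeValue_X]
    exact Fermat.Agent.S42.isIntegral_qCoeff_prime g hg ℓ.2 (hSg ℓ hℓ)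
  | algebraMap r =>
    rw [stb_p1_heckeValue_algebraMap]
    exact isIntegral_algebraMap (R := ℤ) (A := ℂ) (x := r)
  | add x y _ _ ihx ihy =>
    rw [stb_p1_heckeValue_add]
    exact ihx.add ihy
  | mul x y _ _ ihx ihy =>
    rw [stb_p1_heckeValue_mul]
    exact ihx.mul ihy

omit [NeZero N] in
/-- the values of a Hecke polynomial on two eigenforms whose coefficients agree at the variables -/
theorem stb_p1_heckeValue_congr {N' : ℕ} (g : CuspForm (Gamma0 N) 2) (f : CuspForm (Gamma0 N') 2)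
    {Sg : Set Nat.Primes} (hSg : ∀ ℓ ∈ Sg, qCoeff ⇑f (ℓ : ℕ) = qCoeff ⇑g (ℓ : ℕ)) {t : HeckeAlg}
    (ht : t ∈ MvPolynomial.supported ℤ Sg) : heckeValue f t = heckeValue g t := by
  rw [MvPolynomial.supported_eq_adjoin_X] at ht
  induction ht using Algebra.adjoin_induction with
  | mem x hx =>
    obtain ⟨ℓ, hℓ, rfl⟩ := hx
    unfold heckeValue
    rw [MvPolynomial.aeval_X, MvPolynomial.aeval_X]
    exact hSg ℓ hℓ
  | algebraMap r =>
    unfold heckeValue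
    rw [AlgHom.commutes, AlgHom.commutes]
  | add x y _ _ ihx ihy =>
    unfold heckeValue at ihx ihy ⊢
    rw [map_add, map_add, ihx, ihy]
  | mul x y _ _ ihx ihy =>
    unfold heckeValue at ihx ihy ⊢
    rw [map_mul, map_mul, ihx, ihy]

end eigen


section smo

variable {M M₁ : ℕ} [NeZero M] [NeZero M₁]

/-- **Strong multiplicity one**, core: with an auxiliary prime `p ≠ ℓ₀`. -/
theorem stb_p1_smo_core (hM₁ : M₁ ∣ M) {p : ℕ} [Fact p.Prime]
    (hpkg : ESPkgFaith M p) (hpkg₁ : ESPkgFaith M₁ p)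
    (g : CuspForm (Gamma0 M) 2) (hg : g.IsNormalizedEigenform)
    (f₁ : CuspForm (Gamma0 M₁) 2) (hf₁ : f₁.IsNormalizedEigenform)
    (S : Finset ℕ) (hS : ∀ ℓ : ℕ, ℓ.Prime → ℓ ∉ S → qCoeff ⇑f₁ ℓ = qCoeff ⇑g ℓ)
    {ℓ₀ : ℕ} (hℓ₀ : ℓ₀.Prime) (hℓ₀M : ¬ ℓ₀ ∣ M) (hℓ₀p : ℓ₀ ≠ p) :
    qCoeff ⇑f₁ ℓ₀ = qCoeff ⇑g ℓ₀ := by
  classical
  obtain ⟨ℓ₀', rfl⟩ : ∃ ℓ₀' : Nat.Primes, (ℓ₀' : ℕ) = ℓ₀ := ⟨⟨ℓ₀, hℓ₀⟩, rfl⟩
  have hp : p.Prime := Fact.out
  have hM0 : M ≠ 0 := NeZero.ne M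
  obtain ⟨J, _, _, _, hJ, hFJ⟩ := hpkg
  obtain ⟨J', _, _, _, hJ', hFJ'⟩ := hpkg₁
  have hdvd₁ : ∀ r : ℕ, ¬ r ∣ M * p → ¬ r ∣ M₁ * p := fun r h h' =>
    h (h'.trans (Nat.mul_dvd_mul_right hM₁ p))
  -- the enlarged finite set
  obtain ⟨S', hS'⟩ : ∃ S' : Finset ℕ, S' = S ∪ M.primeFactors ∪ {p} := ⟨_, rfl⟩
  have hSS' : ∀ r : ℕ, r ∉ S' → r ∉ S := fun r h h' =>
    h (by rw [hS']; exact Finset.mem_union_left _ (Finset.mem_union_left _ h'))
  have hgood : ∀ r : ℕ, r.Prime → r ∉ S' → ¬ r ∣ M * p := by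
    intro r hr hrS' h
    apply hrS'
    rw [hS']
    rcases (Nat.Prime.dvd_mul hr).mp h with h | h
    · exact Finset.mem_union_left _ (Finset.mem_union_right _
        (Nat.mem_primeFactors.mpr ⟨hr, h, hM0⟩))
    · exact Finset.mem_union_right _
        (Finset.mem_singleton.mpr ((Nat.prime_dvd_prime_iff_eq hr hp).mp h))
  have hℓ₀Mp : ¬ (ℓ₀' : ℕ) ∣ M * p := by
    intro h
    rcases (Nat.Prime.dvd_mul hℓ₀).mp h with h | h
    · exact hℓ₀M h
    · exact hℓ₀p ((Nat.prime_dvd_prime_iff_eq hℓ₀ hp).mp h)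
  -- the set of variables
  obtain ⟨Sg, hSgdef⟩ : ∃ Sg : Set Nat.Primes,
      Sg = outsideVars (↑S' : Set ℕ) ∪ ({ℓ₀'} : Set Nat.Primes) := ⟨_, rfl⟩
  have hSg : ∀ r ∈ Sg, ¬ (r : ℕ) ∣ M * p := by
    intro r hr
    rw [hSgdef] at hr
    rcases hr with hr | hr
    · exact hgood r r.2 hr
    · rw [Set.mem_singleton_iff] at hr
      rw [hr]
      exact hℓ₀Mp
  have hSgM : Sg ⊆ goodPrimes M p := fun r hr => hSg r hr
  have hSgM₁ : Sg ⊆ goodPrimes M₁ p := fun r hr => hdvd₁ r (hSg r hr)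
  have hSgN : ∀ r ∈ Sg, ¬ (r : ℕ) ∣ M := fun r hr h => hSg r hr (h.mul_right p)
  have hSgN₁ : ∀ r ∈ Sg, ¬ (r : ℕ) ∣ M₁ := fun r hr h => hSgN r hr (h.trans hM₁)
  have hprod := stb_p1_esDataInf_prod hM₁ hJ hJ'
  obtain ⟨A, τ₀, hA, hτ₀⟩ := Fermat.Agent.Common.exists_isFrobeniusAt (ℓ₀' : ℕ) hℓ₀
  -- the key divisibility
  have key : ∀ k : ℕ, ∃ y : ℂ, IsIntegral ℤ y ∧
      qCoeff ⇑g (ℓ₀' : ℕ) - qCoeff ⇑f₁ (ℓ₀' : ℕ) = (p : ℂ) ^ k * y := by
    intro k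
    obtain ⟨n₁, hn₁⟩ := hFJ Sg hSgM k
    obtain ⟨n₂, hn₂⟩ := hFJ' Sg hSgM₁ k
    obtain ⟨h, hh, hApp⟩ := exists_approx Fermat.Agent.Cheb.weakChebotarev_holds hprod S' hgood
      (max n₁ n₂) τ₀
    have hfrob : Approx p (J × J') (max n₁ n₂) τ₀ (heckeGen ℓ₀') :=
      approx_frob hprod (max n₁ n₂) hℓ₀ hℓ₀Mp hA hτ₀
    have hh' : h ∈ MvPolynomial.supported ℤ Sg := by
      rw [hSgdef]
      exact MvPolynomial.supported_mono Set.subset_union_left hh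
    have hX : heckeGen ℓ₀' ∈ MvPolynomial.supported ℤ Sg := by
      rw [hSgdef]
      exact (MvPolynomial.X_mem_supported (R := ℤ)).mpr (Set.mem_union_right _ rfl)
    have hD : heckeGen ℓ₀' - h ∈ MvPolynomial.supported ℤ Sg := Subalgebra.sub_mem _ hX hh'
    have hDkill : ∀ z : J × J', p ^ (max n₁ n₂) • z = 0 → (heckeGen ℓ₀' - h) • z = 0 := by
      intro z hz
      rw [sub_smul, ← hfrob z hz, ← hApp z hz, sub_self]
    have hDJ : ∀ x : J, p ^ n₁ • x = 0 → (heckeGen ℓ₀' - h) • x = 0 := by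
      intro x hx
      have h0 : p ^ (max n₁ n₂) • (0 : J') = 0 := smul_zero _
      have hz : p ^ (max n₁ n₂) • ((x, 0) : J × J') = 0 :=
        Prod.ext (torsion_le (le_max_left n₁ n₂) hx) h0
      exact congrArg Prod.fst (hDkill (x, 0) hz)
    have hDJ' : ∀ x : J', p ^ n₂ • x = 0 → (heckeGen ℓ₀' - h) • x = 0 := by
      intro x hx
      have h0 : p ^ (max n₁ n₂) • (0 : J) = 0 := smul_zero _
      have hz : p ^ (max n₁ n₂) • ((0, x) : J × J') = 0 :=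
        Prod.ext h0 (torsion_le (le_max_right n₁ n₂) hx)
      exact congrArg Prod.snd (hDkill (0, x) hz)
    obtain ⟨s, hs, hDs⟩ := hn₁ _ hD hDJ
    obtain ⟨s', hs', hDs'⟩ := hn₂ _ hD hDJ'
    -- eigenvalues
    have e1 : heckeValue g (heckeGen ℓ₀' - h) = (p : ℂ) ^ k * heckeValue g s := by
      have h1 := stb_p1_eval_eigen g hg hSgN hD
      have h2 := stb_p1_eval_eigen g hg hSgN hs
      rw [hDs, Subalgebra.coe_smul, LinearMap.smul_apply, h2] at h1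
      have h3 : ((p : ℤ) ^ k • heckeValue g s - heckeValue g (heckeGen ℓ₀' - h)) • g = 0 := by
        rw [sub_smul, ← h1, smul_assoc, sub_self]
      rcases smul_eq_zero.mp h3 with h4 | h4
      · have h5 := (sub_eq_zero.mp h4).symm
        rw [h5, zsmul_eq_mul]
        push_cast
        rfl
      · exact absurd h4 (Fermat.Agent.S42.normalizedEigenform_ne_zero g hg)
    have e2 : heckeValue f₁ (heckeGen ℓ₀' - h) = (p : ℂ) ^ k * heckeValue f₁ s' := by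
      have h1 := stb_p1_eval_eigen f₁ hf₁ hSgN₁ hD
      have h2 := stb_p1_eval_eigen f₁ hf₁ hSgN₁ hs'
      rw [hDs', Subalgebra.coe_smul, LinearMap.smul_apply, h2] at h1
      have h3 : ((p : ℤ) ^ k • heckeValue f₁ s' -
          heckeValue f₁ (heckeGen ℓ₀' - h)) • f₁ = 0 := by
        rw [sub_smul, ← h1, smul_assoc, sub_self]
      rcases smul_eq_zero.mp h3 with h4 | h4
      · have h5 := (sub_eq_zero.mp h4).symm
        rw [h5, zsmul_eq_mul]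
        push_cast
        rfl
      · exact absurd h4 (Fermat.Agent.S42.normalizedEigenform_ne_zero f₁ hf₁)
    have e3 : heckeValue f₁ h = heckeValue g h :=
      stb_p1_heckeValue_congr g f₁ (fun r hr => hS r r.2 (hSS' r hr)) hh
    refine ⟨heckeValue g s - heckeValue f₁ s',
      (stb_p1_isIntegral_heckeValue g hg hSgN hs).sub
        (stb_p1_isIntegral_heckeValue f₁ hf₁ hSgN₁ hs'), ?_⟩
    rw [stb_p1_heckeValue_sub] at e1 e2
    have x1 : heckeValue g (heckeGen ℓ₀') = qCoeff ⇑g (ℓ₀' : ℕ) := stb_p1_heckeValue_X g ℓ₀'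
    have x2 : heckeValue f₁ (heckeGen ℓ₀') = qCoeff ⇑f₁ (ℓ₀' : ℕ) :=
      stb_p1_heckeValue_X f₁ ℓ₀'
    rw [x1] at e1
    rw [x2, e3] at e2
    linear_combination e1 - e2
  have hzero := stb_p1_eq_zero_of_forall_pow_mul hp.one_lt _ key
  exact (sub_eq_zero.mp hzero).symm

/-- **Strong multiplicity one** from the Eichler–Shimura package: two normalised eigenforms of
levels `M` and `M₁ ∣ M` whose `a_ℓ` agree for all primes `ℓ` outside a finite set `S` have the same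
`a_ℓ` for every prime `ℓ ∤ M`. -/
theorem stb_p1_smo
    (hpkg : ∀ (N p : ℕ) [NeZero N], p.Prime → ESPkgFaith N p) (hM₁ : M₁ ∣ M)
    (g : CuspForm (Gamma0 M) 2) (hg : g.IsNormalizedEigenform)
    (f₁ : CuspForm (Gamma0 M₁) 2) (hf₁ : f₁.IsNormalizedEigenform)
    (S : Finset ℕ) (hS : ∀ ℓ : ℕ, ℓ.Prime → ℓ ∉ S → qCoeff ⇑f₁ ℓ = qCoeff ⇑g ℓ)
    (ℓ₀ : ℕ) (hℓ₀ : ℓ₀.Prime) (hℓ₀M : ¬ ℓ₀ ∣ M) :
    qCoeff ⇑f₁ ℓ₀ = qCoeff ⇑g ℓ₀ := by
  by_cases h2 : ℓ₀ = 2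
  · have : Fact (Nat.Prime 3) := ⟨Nat.prime_three⟩
    exact stb_p1_smo_core hM₁ (hpkg M 3 Nat.prime_three) (hpkg M₁ 3 Nat.prime_three) g hg f₁ hf₁
      S hS hℓ₀ hℓ₀M (by omega)
  · have : Fact (Nat.Prime 2) := ⟨Nat.prime_two⟩
    exact stb_p1_smo_core hM₁ (hpkg M 2 Nat.prime_two) (hpkg M₁ 2 Nat.prime_two) g hg f₁ hf₁
      S hS hℓ₀ hℓ₀M h2

end smo

end Fermat.Agent.STB
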