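import Fermat.Agent.UNIP.CoordChart

/-!
# STB-L — the local factorisation (F) at a crossing point, for a general automorphism `g`

Phase 2 (S35) of item 34, plan STB, step (B2): `g := Φ = φ²` fixes the crossing point `𝔫`,
preserves the chart, the constants `A₀`, `q` and the two vertical valuations.  If the places of
the tube of `𝔫` moved by `g` in the support of `x` have multiplicity divisible by `m` and are
rational, then

  `g x / x = ε · γ ^ m`,  `ε ∈ O_𝔫^×`,  `γ = g g₀ / g₀`.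

`at_local_factor` (AT-c1, helper84) with `hcoord` from `unip_hcoord_node` (thick nodes included,
no `g`-fixed coordinates needed).  `stb_local_factor_disc` : the same at a smooth point.
-/

set_option autoImplicit false
set_option linter.style.haveILetI false
set_option linter.unusedSectionVars false
set_option linter.unusedVariables false

namespace Fermat.Agent.STB

open Polynomial IntermediateField Fermat.Agent.INJ AlgebraicCurve Fermat.Agent.UNIP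

section LocalFactor

variable {A₀ E F : Type*} [CommRing A₀] [IsDomain A₀] [IsDiscreteValuationRing A₀]
  [Field E] [Algebra A₀ E] [IsFractionRing A₀ E] [CharZero E]
  [Field F] [Algebra E F] [Algebra A₀ F] [IsScalarTower A₀ E F]
  {π : A₀} {κ : Type*}

/-- from the conclusion of `at_local_factor` to the form (F): `g x / x = ε γ ^ m` -/
theorem stb_factor_form (g : SemilinearAut E F) {x g₀ e : F} (hx : x ≠ 0) (hg₀ : g₀ ≠ 0)
    (m : ℕ) (h : (g • (x / g₀ ^ m)) / (x / g₀ ^ m) = e) :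
    g • g₀ / g₀ ≠ 0 ∧ g • x / x = e * (g • g₀ / g₀) ^ m := by
  have hgg₀ : g • g₀ ≠ 0 := by
    intro h0
    apply hg₀
    have := congrArg (fun y => g⁻¹ • y) h0
    simpa using this
  have hgx : g • (x / g₀ ^ m) = g • x / (g • g₀) ^ m := by
    rw [div_eq_mul_inv, div_eq_mul_inv, smul_mul', smul_inv'', smul_pow']
  refine ⟨div_ne_zero hgg₀ hg₀, ?_⟩
  rw [← h, hgx, div_pow]
  have h1 : g₀ ^ m ≠ 0 := pow_ne_zero m hg₀
  have h2 : (g • g₀) ^ m ≠ 0 := pow_ne_zero m hgg₀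
  field_simp

/-- **STB-L, (F) at a crossing point.** -/
theorem stb_local_factor (hπ : Irreducible π) {u : F} (hu : Transcendental E u)
    [FiniteDimensional E⟮u⟯ F] [Finite κ]
    [IsNoetherianRing ↥(zchClosure (A₀ := A₀) ({u} : Set F))]
    (V : κ → ValuationSubring F)
    (hBV : ∀ c (b : F), IsIntegral ↥(Algebra.adjoin A₀ {u}) b → b ∈ V c)
    (hπV : ∀ c, algebraMap A₀ F π ∈ (V c).nonunits)
    (hSS1 : ∀ b : F, IsIntegral ↥(Algebra.adjoin A₀ {u}) b → (∀ c, b ∈ (V c).nonunits) →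
      ∃ b' : F, IsIntegral ↥(Algebra.adjoin A₀ {u}) b' ∧ b = algebraMap A₀ F π * b')
    (hVloc : ∀ c (x : F), x ∈ V c → ∃ b s : F, IsIntegral ↥(Algebra.adjoin A₀ {u}) b ∧
      IsIntegral ↥(Algebra.adjoin A₀ {u}) s ∧ s ∉ (V c).nonunits ∧ s * x = b)
    (g : SemilinearAut E F) (hgu : g • u = u)
    (𝔫 : Ideal ↥(zchClosure (A₀ := A₀) ({u} : Set F))) [𝔫.IsPrime]
    (hπ𝔫 : algebraMap A₀ ↥(zchClosure (A₀ := A₀) ({u} : Set F)) π ∈ 𝔫)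
    (hgB : ∀ b : ↥(zchClosure (A₀ := A₀) ({u} : Set F)), b ∈ 𝔫 →
      ∃ b' : ↥(zchClosure (A₀ := A₀) ({u} : Set F)), b' ∈ 𝔫 ∧ g • (b : F) = b')
    (hgB' : ∀ b : ↥(zchClosure (A₀ := A₀) ({u} : Set F)), b ∈ 𝔫 →
      ∃ b' : ↥(zchClosure (A₀ := A₀) ({u} : Set F)), b' ∈ 𝔫 ∧ g⁻¹ • (b : F) = b')
    (hgB₀ : ∀ b : F, IsIntegral ↥(Algebra.adjoin A₀ {u}) b →
      IsIntegral ↥(Algebra.adjoin A₀ {u}) (g • b))
    (hgB₀' : ∀ b : F, IsIntegral ↥(Algebra.adjoin A₀ {u}) b →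
      IsIntegral ↥(Algebra.adjoin A₀ {u}) (g⁻¹ • b))
    (hgV : ∀ c (f : F), f ≠ 0 → (V c).valuation (g • f / f) = 1)
    (hgA : ∀ α : A₀, ∃ α' : A₀, g • algebraMap A₀ F α = algebraMap A₀ F α')
    (q : A₀) (hq0 : q ≠ 0) (hqπ : π ∣ q) (hgq : g • algebraMap A₀ F q = algebraMap A₀ F q)
    (c₁ c₂ : κ)
    (hc₁ : ∀ b : ↥(zchClosure (A₀ := A₀) ({u} : Set F)), (b : F) ∈ (V c₁).nonunits → b ∈ 𝔫)
    (hc₂ : ∀ b : ↥(zchClosure (A₀ := A₀) ({u} : Set F)), (b : F) ∈ (V c₂).nonunits → b ∈ 𝔫)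
    (hstage : ∀ n : ℕ, 1 ≤ n → ∃ (n' : ℕ) (X Y G : ↥(zchClosure (A₀ := A₀) ({u} : Set F))),
      (X : F) ∈ (V c₁).nonunits ∧ (Y : F) ∈ (V c₂).nonunits ∧
      (X : F) ∉ (V c₂).nonunits ∧ (Y : F) ∉ (V c₁).nonunits ∧
      X * Y = algebraMap A₀ ↥(zchClosure (A₀ := A₀) ({u} : Set F)) q ^ n' * G ∧
      NodesLocGen 𝔫 {algebraMap A₀ ↥(zchClosure (A₀ := A₀) ({u} : Set F)) π, X, Y} ∧
      (n ≤ n' ∨ G ∉ 𝔫))
    {x : F} (hx : x ≠ 0) (m : ℕ)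
    (hfin : {P : Place E F | LsTube ↥(zchClosure (A₀ := A₀) ({u} : Set F)) u 𝔫 P ∧
      g • P ≠ P ∧ P.ord x ≠ 0}.Finite)
    (hm : ∀ P : Place E F, LsTube ↥(zchClosure (A₀ := A₀) ({u} : Set F)) u 𝔫 P → g • P ≠ P →
      (m : ℤ) ∣ P.ord x)
    (hrat : ∀ P : Place E F, LsTube ↥(zchClosure (A₀ := A₀) ({u} : Set F)) u 𝔫 P →
      g • P ≠ P → P.ord x ≠ 0 → ∀ f ∈ P.toValuationSubring,
        ∃ c : E, f - algebraMap E F c ∈ P.toValuationSubring.nonunits) :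
    ∃ γ ε : F, γ ≠ 0 ∧ ε ∈ ls_localSubring (F := F) 𝔫 ∧ ε⁻¹ ∈ ls_localSubring (F := F) 𝔫 ∧
      g • x / x = ε * γ ^ m := by
  obtain ⟨g₀, e, hg₀, he, he', h⟩ := at_local_factor hπ hu V hBV hπV hSS1 hVloc g hgu 𝔫 hgB hgB'
    hgB₀ hgB₀' hgV hx m hfin hm
    (unip_hcoord_node hπ hu V hBV hπV hVloc g hgu 𝔫 hπ𝔫 hgB hgB₀' hgV hgA q hq0 hqπ hgq c₁ c₂
      hc₁ hc₂ hstage hrat)
  obtain ⟨hγ, hform⟩ := stb_factor_form g hx hg₀ m h
  exact ⟨_, e, hγ, he, he', hform⟩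

/-- **STB-L, (F) at a smooth point fixed by `g`** (`𝔫 = (π, s)` locally). -/
theorem stb_local_factor_disc (hπ : Irreducible π) {u : F} (hu : Transcendental E u)
    [FiniteDimensional E⟮u⟯ F] [Finite κ]
    [IsNoetherianRing ↥(zchClosure (A₀ := A₀) ({u} : Set F))]
    (V : κ → ValuationSubring F)
    (hBV : ∀ c (b : F), IsIntegral ↥(Algebra.adjoin A₀ {u}) b → b ∈ V c)
    (hπV : ∀ c, algebraMap A₀ F π ∈ (V c).nonunits)
    (hSS1 : ∀ b : F, IsIntegral ↥(Algebra.adjoin A₀ {u}) b → (∀ c, b ∈ (V c).nonunits) →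
      ∃ b' : F, IsIntegral ↥(Algebra.adjoin A₀ {u}) b' ∧ b = algebraMap A₀ F π * b')
    (hVloc : ∀ c (x : F), x ∈ V c → ∃ b s : F, IsIntegral ↥(Algebra.adjoin A₀ {u}) b ∧
      IsIntegral ↥(Algebra.adjoin A₀ {u}) s ∧ s ∉ (V c).nonunits ∧ s * x = b)
    (g : SemilinearAut E F) (hgu : g • u = u)
    (𝔫 : Ideal ↥(zchClosure (A₀ := A₀) ({u} : Set F))) [𝔫.IsPrime]
    (hπ𝔫 : algebraMap A₀ ↥(zchClosure (A₀ := A₀) ({u} : Set F)) π ∈ 𝔫)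
    (hgB : ∀ b : ↥(zchClosure (A₀ := A₀) ({u} : Set F)), b ∈ 𝔫 →
      ∃ b' : ↥(zchClosure (A₀ := A₀) ({u} : Set F)), b' ∈ 𝔫 ∧ g • (b : F) = b')
    (hgB' : ∀ b : ↥(zchClosure (A₀ := A₀) ({u} : Set F)), b ∈ 𝔫 →
      ∃ b' : ↥(zchClosure (A₀ := A₀) ({u} : Set F)), b' ∈ 𝔫 ∧ g⁻¹ • (b : F) = b')
    (hgB₀ : ∀ b : F, IsIntegral ↥(Algebra.adjoin A₀ {u}) b →
      IsIntegral ↥(Algebra.adjoin A₀ {u}) (g • b))
    (hgB₀' : ∀ b : F, IsIntegral ↥(Algebra.adjoin A₀ {u}) b →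
      IsIntegral ↥(Algebra.adjoin A₀ {u}) (g⁻¹ • b))
    (hgV : ∀ c (f : F), f ≠ 0 → (V c).valuation (g • f / f) = 1)
    (s : ↥(zchClosure (A₀ := A₀) ({u} : Set F))) (hs : s ∈ 𝔫)
    (hgen : NodesLocGen 𝔫 {algebraMap A₀ ↥(zchClosure (A₀ := A₀) ({u} : Set F)) π, s})
    {x : F} (hx : x ≠ 0) (m : ℕ)
    (hfin : {P : Place E F | LsTube ↥(zchClosure (A₀ := A₀) ({u} : Set F)) u 𝔫 P ∧
      g • P ≠ P ∧ P.ord x ≠ 0}.Finite)
    (hm : ∀ P : Place E F, LsTube ↥(zchClosure (A₀ := A₀) ({u} : Set F)) u 𝔫 P → g • P ≠ P →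
      (m : ℤ) ∣ P.ord x)
    (hrat : ∀ P : Place E F, LsTube ↥(zchClosure (A₀ := A₀) ({u} : Set F)) u 𝔫 P →
      g • P ≠ P → P.ord x ≠ 0 → ∀ f ∈ P.toValuationSubring,
        ∃ c : E, f - algebraMap E F c ∈ P.toValuationSubring.nonunits) :
    ∃ γ ε : F, γ ≠ 0 ∧ ε ∈ ls_localSubring (F := F) 𝔫 ∧ ε⁻¹ ∈ ls_localSubring (F := F) 𝔫 ∧
      g • x / x = ε * γ ^ m := by
  obtain ⟨g₀, e, hg₀, he, he', h⟩ := at_local_factor hπ hu V hBV hπV hSS1 hVloc g hgu 𝔫 hgB hgB'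
    hgB₀ hgB₀' hgV hx m hfin hm (unip_hcoord_disc hπ hu 𝔫 hπ𝔫 s hs hgen g hrat)
  obtain ⟨hγ, hform⟩ := stb_factor_form g hx hg₀ m h
  exact ⟨_, e, hγ, he, he', hform⟩

end LocalFactor

end Fermat.Agent.STB
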