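import Fermat.Agent.STB.SmoothFac
import Fermat.Agent.STB.LocalFactor
import Fermat.Agent.UNIP.CoordTransport

/-!
# STB-L, part 2 — (F) at a point fixed by `g`, in the form `StbFacAt` of STB-T, from U5's data

`stb_cross_facAt` : `StbFacAt (atLoc 𝔫) m (g • x / x)` at a closed point `𝔫` of the chart `u`
(ramified base) fixed by `g` (crossing points for `g = Φ`), directly from the dichotomy of U5 on
the unramified chart `R` (`MgcRamified`), `at_local_factor` and `unip_hcoord_of_nodes`.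
`stb_cross_facAt_inl`, `stb_cross_facAt_inr` : the same for `atO π t i`.
-/

set_option autoImplicit false
set_option linter.style.haveILetI false
set_option linter.unusedSectionVars false
set_option linter.unusedVariables false

namespace Fermat.Agent.STB

open Polynomial IntermediateField Fermat.Agent.INJ AlgebraicCurve Fermat.Agent.UNIP

section CrossFac

variable {A₀ E F : Type*} [CommRing A₀] [IsDomain A₀] [IsDiscreteValuationRing A₀]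
  [Field E] [Algebra A₀ E] [IsFractionRing A₀ E] [CharZero E]
  [Field F] [Algebra E F] [Algebra A₀ F] [IsScalarTower A₀ E F]
  {π : A₀} {κ : Type*}

/-- `g • x / x ≠ 0` -/
theorem stb_smul_div_ne_zero (g : SemilinearAut E F) {x : F} (hx : x ≠ 0) : g • x / x ≠ 0 := by
  refine div_ne_zero (fun h0 => hx ?_) hx
  have := congrArg (fun y => g⁻¹ • y) h0
  simpa using this

/-- **STB-L, (F) at a closed point of the chart `u` fixed by `g`**, in the form `StbFacAt`. -/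
theorem stb_cross_facAt (hπ : Irreducible π) {u : F} (hu : Transcendental E u)
    [FiniteDimensional E⟮u⟯ F] [Finite κ]
    [IsNoetherianRing ↥(zchClosure (A₀ := A₀) ({u} : Set F))]
    (V : κ → ValuationSubring F)
    (hBV : ∀ c (b : F), IsIntegral ↥(Algebra.adjoin A₀ {u}) b → b ∈ V c)
    (hπV : ∀ c, algebraMap A₀ F π ∈ (V c).nonunits)
    (hSS1 : ∀ b : F, IsIntegral ↥(Algebra.adjoin A₀ {u}) b → (∀ c, b ∈ (V c).nonunits) →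
      ∃ b' : F, IsIntegral ↥(Algebra.adjoin A₀ {u}) b' ∧ b = algebraMap A₀ F π * b')
    (hVloc : ∀ c (x : F), x ∈ V c → ∃ b s : F, IsIntegral ↥(Algebra.adjoin A₀ {u}) b ∧
      IsIntegral ↥(Algebra.adjoin A₀ {u}) s ∧ s ∉ (V c).nonunits ∧ s * x = b)
    (g : SemilinearAut E F) (hgu : g • u = u)
    (𝔫 : AtPt (F := F) π u)
    (hgB : ∀ b : ↥(zchClosure (A₀ := A₀) ({u} : Set F)), b ∈ 𝔫.1 →
      ∃ b' : ↥(zchClosure (A₀ := A₀) ({u} : Set F)), b' ∈ 𝔫.1 ∧ g • (b : F) = b')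
    (hgB' : ∀ b : ↥(zchClosure (A₀ := A₀) ({u} : Set F)), b ∈ 𝔫.1 →
      ∃ b' : ↥(zchClosure (A₀ := A₀) ({u} : Set F)), b' ∈ 𝔫.1 ∧ g⁻¹ • (b : F) = b')
    (hgB₀ : ∀ b : F, IsIntegral ↥(Algebra.adjoin A₀ {u}) b →
      IsIntegral ↥(Algebra.adjoin A₀ {u}) (g • b))
    (hgB₀' : ∀ b : F, IsIntegral ↥(Algebra.adjoin A₀ {u}) b →
      IsIntegral ↥(Algebra.adjoin A₀ {u}) (g⁻¹ • b))
    (hgV : ∀ c (f : F), f ≠ 0 → (V c).valuation (g • f / f) = 1)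
    (hgA : ∀ α : A₀, ∃ α' : A₀, g • algebraMap A₀ F α = algebraMap A₀ F α')
    (q : A₀) (hq0 : q ≠ 0) (hqπ : π ∣ q) (hgq : g • algebraMap A₀ F q = algebraMap A₀ F q)
    {R : Type*} [CommRing R] (j : R →+* ↥(zchClosure (A₀ := A₀) ({u} : Set F))) (p : R)
    (hram : MgcRamified j (algebraMap A₀ ↥(zchClosure (A₀ := A₀) ({u} : Set F)) π) p)
    (hjp : j p = algebraMap A₀ ↥(zchClosure (A₀ := A₀) ({u} : Set F)) q)
    (c₁ c₂ : κ) (hκ : ∀ c, c = c₁ ∨ c = c₂)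
    (hnode : (∃ s : R, j s ∈ 𝔫.1 ∧ NodesLocGen (𝔫.1.comap j) {p, s}) ∨
      ((∀ x : R, ((j x : ↥(zchClosure (A₀ := A₀) ({u} : Set F))) : F) ∈ (V c₁).nonunits →
          j x ∈ 𝔫.1) ∧
       (∀ x : R, ((j x : ↥(zchClosure (A₀ := A₀) ({u} : Set F))) : F) ∈ (V c₂).nonunits →
          j x ∈ 𝔫.1) ∧
       ∃ X Y : R, ((j X : ↥(zchClosure (A₀ := A₀) ({u} : Set F))) : F) ∈ (V c₁).nonunits ∧
         ((j Y : ↥(zchClosure (A₀ := A₀) ({u} : Set F))) : F) ∈ (V c₂).nonunits ∧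
         NodesLocGen (𝔫.1.comap j) {p, X, Y}))
    {x : F} (hx : x ≠ 0) (m : ℕ)
    (hfin : {P : Place E F | LsTube ↥(zchClosure (A₀ := A₀) ({u} : Set F)) u 𝔫.1 P ∧
      g • P ≠ P ∧ P.ord x ≠ 0}.Finite)
    (hm : ∀ P : Place E F, LsTube ↥(zchClosure (A₀ := A₀) ({u} : Set F)) u 𝔫.1 P → g • P ≠ P →
      (m : ℤ) ∣ P.ord x)
    (hrat : ∀ P : Place E F, LsTube ↥(zchClosure (A₀ := A₀) ({u} : Set F)) u 𝔫.1 P →
      g • P ≠ P → P.ord x ≠ 0 → ∀ f ∈ P.toValuationSubring,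
        ∃ c : E, f - algebraMap E F c ∈ P.toValuationSubring.nonunits) :
    StbFacAt (atLoc 𝔫) m (g • x / x) := by
  haveI := 𝔫.2.1.isPrime
  obtain ⟨g₀, e, hg₀, he, he', h⟩ := at_local_factor hπ hu V hBV hπV hSS1 hVloc g hgu 𝔫.1 hgB hgB'
    hgB₀ hgB₀' hgV hx m hfin hm
    (unip_hcoord_of_nodes hπ hu V hBV hπV hSS1 hVloc g hgu 𝔫.1 𝔫.2.2 hgB hgB₀' hgV hgA q hq0 hqπ
      hgq j p hram hjp c₁ c₂ hκ hnode hrat)
  obtain ⟨-, hform⟩ := stb_factor_form g hx hg₀ m h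
  exact stb_facAt_of_mem _ (stb_smul_div_ne_zero g hx) he he' hform

/-- `stb_cross_facAt` for a point of the chart `t`, as a point of `AtPt π t ⊕ AtPt π t⁻¹` -/
theorem stb_cross_facAt_inl (hπ : Irreducible π) {t : F} (ht : Transcendental E t)
    [FiniteDimensional E⟮t⟯ F] [Finite κ]
    [IsNoetherianRing ↥(zchClosure (A₀ := A₀) ({t} : Set F))]
    (V : κ → ValuationSubring F)
    (hBV : ∀ c (b : F), IsIntegral ↥(Algebra.adjoin A₀ {t}) b → b ∈ V c)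
    (hπV : ∀ c, algebraMap A₀ F π ∈ (V c).nonunits)
    (hSS1 : ∀ b : F, IsIntegral ↥(Algebra.adjoin A₀ {t}) b → (∀ c, b ∈ (V c).nonunits) →
      ∃ b' : F, IsIntegral ↥(Algebra.adjoin A₀ {t}) b' ∧ b = algebraMap A₀ F π * b')
    (hVloc : ∀ c (x : F), x ∈ V c → ∃ b s : F, IsIntegral ↥(Algebra.adjoin A₀ {t}) b ∧
      IsIntegral ↥(Algebra.adjoin A₀ {t}) s ∧ s ∉ (V c).nonunits ∧ s * x = b)
    (g : SemilinearAut E F) (hgt : g • t = t)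
    (𝔫 : AtPt (F := F) π t)
    (hgB : ∀ b : ↥(zchClosure (A₀ := A₀) ({t} : Set F)), b ∈ 𝔫.1 →
      ∃ b' : ↥(zchClosure (A₀ := A₀) ({t} : Set F)), b' ∈ 𝔫.1 ∧ g • (b : F) = b')
    (hgB' : ∀ b : ↥(zchClosure (A₀ := A₀) ({t} : Set F)), b ∈ 𝔫.1 →
      ∃ b' : ↥(zchClosure (A₀ := A₀) ({t} : Set F)), b' ∈ 𝔫.1 ∧ g⁻¹ • (b : F) = b')
    (hgB₀ : ∀ b : F, IsIntegral ↥(Algebra.adjoin A₀ {t}) b →
      IsIntegral ↥(Algebra.adjoin A₀ {t}) (g • b))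
    (hgB₀' : ∀ b : F, IsIntegral ↥(Algebra.adjoin A₀ {t}) b →
      IsIntegral ↥(Algebra.adjoin A₀ {t}) (g⁻¹ • b))
    (hgV : ∀ c (f : F), f ≠ 0 → (V c).valuation (g • f / f) = 1)
    (hgA : ∀ α : A₀, ∃ α' : A₀, g • algebraMap A₀ F α = algebraMap A₀ F α')
    (q : A₀) (hq0 : q ≠ 0) (hqπ : π ∣ q) (hgq : g • algebraMap A₀ F q = algebraMap A₀ F q)
    {R : Type*} [CommRing R] (j : R →+* ↥(zchClosure (A₀ := A₀) ({t} : Set F))) (p : R)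
    (hram : MgcRamified j (algebraMap A₀ ↥(zchClosure (A₀ := A₀) ({t} : Set F)) π) p)
    (hjp : j p = algebraMap A₀ ↥(zchClosure (A₀ := A₀) ({t} : Set F)) q)
    (c₁ c₂ : κ) (hκ : ∀ c, c = c₁ ∨ c = c₂)
    (hnode : (∃ s : R, j s ∈ 𝔫.1 ∧ NodesLocGen (𝔫.1.comap j) {p, s}) ∨
      ((∀ x : R, ((j x : ↥(zchClosure (A₀ := A₀) ({t} : Set F))) : F) ∈ (V c₁).nonunits →
          j x ∈ 𝔫.1) ∧
       (∀ x : R, ((j x : ↥(zchClosure (A₀ := A₀) ({t} : Set F))) : F) ∈ (V c₂).nonunits →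
          j x ∈ 𝔫.1) ∧
       ∃ X Y : R, ((j X : ↥(zchClosure (A₀ := A₀) ({t} : Set F))) : F) ∈ (V c₁).nonunits ∧
         ((j Y : ↥(zchClosure (A₀ := A₀) ({t} : Set F))) : F) ∈ (V c₂).nonunits ∧
         NodesLocGen (𝔫.1.comap j) {p, X, Y}))
    {x : F} (hx : x ≠ 0) (m : ℕ)
    (hfin : {P : Place E F | LsTube ↥(zchClosure (A₀ := A₀) ({t} : Set F)) t 𝔫.1 P ∧
      g • P ≠ P ∧ P.ord x ≠ 0}.Finite)
    (hm : ∀ P : Place E F, LsTube ↥(zchClosure (A₀ := A₀) ({t} : Set F)) t 𝔫.1 P → g • P ≠ P →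
      (m : ℤ) ∣ P.ord x)
    (hrat : ∀ P : Place E F, LsTube ↥(zchClosure (A₀ := A₀) ({t} : Set F)) t 𝔫.1 P →
      g • P ≠ P → P.ord x ≠ 0 → ∀ f ∈ P.toValuationSubring,
        ∃ c : E, f - algebraMap E F c ∈ P.toValuationSubring.nonunits) :
    StbFacAt (atO π t (Sum.inl 𝔫)) m (g • x / x) :=
  stb_cross_facAt hπ ht V hBV hπV hSS1 hVloc g hgt 𝔫 hgB hgB' hgB₀ hgB₀' hgV hgA q hq0 hqπ hgq
    j p hram hjp c₁ c₂ hκ hnode hx m hfin hm hrat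

/-- `stb_cross_facAt` for a point of the chart `t⁻¹`, as a point of `AtPt π t ⊕ AtPt π t⁻¹` -/
theorem stb_cross_facAt_inr (hπ : Irreducible π) {t : F} (ht' : Transcendental E t⁻¹)
    [FiniteDimensional E⟮t⁻¹⟯ F] [Finite κ]
    [IsNoetherianRing ↥(zchClosure (A₀ := A₀) ({t⁻¹} : Set F))]
    (V : κ → ValuationSubring F)
    (hBV : ∀ c (b : F), IsIntegral ↥(Algebra.adjoin A₀ {t⁻¹}) b → b ∈ V c)
    (hπV : ∀ c, algebraMap A₀ F π ∈ (V c).nonunits)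
    (hSS1 : ∀ b : F, IsIntegral ↥(Algebra.adjoin A₀ {t⁻¹}) b → (∀ c, b ∈ (V c).nonunits) →
      ∃ b' : F, IsIntegral ↥(Algebra.adjoin A₀ {t⁻¹}) b' ∧ b = algebraMap A₀ F π * b')
    (hVloc : ∀ c (x : F), x ∈ V c → ∃ b s : F, IsIntegral ↥(Algebra.adjoin A₀ {t⁻¹}) b ∧
      IsIntegral ↥(Algebra.adjoin A₀ {t⁻¹}) s ∧ s ∉ (V c).nonunits ∧ s * x = b)
    (g : SemilinearAut E F) (hgt : g • t⁻¹ = t⁻¹)
    (𝔫 : AtPt (F := F) π t⁻¹)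
    (hgB : ∀ b : ↥(zchClosure (A₀ := A₀) ({t⁻¹} : Set F)), b ∈ 𝔫.1 →
      ∃ b' : ↥(zchClosure (A₀ := A₀) ({t⁻¹} : Set F)), b' ∈ 𝔫.1 ∧ g • (b : F) = b')
    (hgB' : ∀ b : ↥(zchClosure (A₀ := A₀) ({t⁻¹} : Set F)), b ∈ 𝔫.1 →
      ∃ b' : ↥(zchClosure (A₀ := A₀) ({t⁻¹} : Set F)), b' ∈ 𝔫.1 ∧ g⁻¹ • (b : F) = b')
    (hgB₀ : ∀ b : F, IsIntegral ↥(Algebra.adjoin A₀ {t⁻¹}) b →
      IsIntegral ↥(Algebra.adjoin A₀ {t⁻¹}) (g • b))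
    (hgB₀' : ∀ b : F, IsIntegral ↥(Algebra.adjoin A₀ {t⁻¹}) b →
      IsIntegral ↥(Algebra.adjoin A₀ {t⁻¹}) (g⁻¹ • b))
    (hgV : ∀ c (f : F), f ≠ 0 → (V c).valuation (g • f / f) = 1)
    (hgA : ∀ α : A₀, ∃ α' : A₀, g • algebraMap A₀ F α = algebraMap A₀ F α')
    (q : A₀) (hq0 : q ≠ 0) (hqπ : π ∣ q) (hgq : g • algebraMap A₀ F q = algebraMap A₀ F q)
    {R : Type*} [CommRing R] (j : R →+* ↥(zchClosure (A₀ := A₀) ({t⁻¹} : Set F))) (p : R)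
    (hram : MgcRamified j (algebraMap A₀ ↥(zchClosure (A₀ := A₀) ({t⁻¹} : Set F)) π) p)
    (hjp : j p = algebraMap A₀ ↥(zchClosure (A₀ := A₀) ({t⁻¹} : Set F)) q)
    (c₁ c₂ : κ) (hκ : ∀ c, c = c₁ ∨ c = c₂)
    (hnode : (∃ s : R, j s ∈ 𝔫.1 ∧ NodesLocGen (𝔫.1.comap j) {p, s}) ∨
      ((∀ x : R, ((j x : ↥(zchClosure (A₀ := A₀) ({t⁻¹} : Set F))) : F) ∈ (V c₁).nonunits →
          j x ∈ 𝔫.1) ∧
       (∀ x : R, ((j x : ↥(zchClosure (A₀ := A₀) ({t⁻¹} : Set F))) : F) ∈ (V c₂).nonunits →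
          j x ∈ 𝔫.1) ∧
       ∃ X Y : R, ((j X : ↥(zchClosure (A₀ := A₀) ({t⁻¹} : Set F))) : F) ∈ (V c₁).nonunits ∧
         ((j Y : ↥(zchClosure (A₀ := A₀) ({t⁻¹} : Set F))) : F) ∈ (V c₂).nonunits ∧
         NodesLocGen (𝔫.1.comap j) {p, X, Y}))
    {x : F} (hx : x ≠ 0) (m : ℕ)
    (hfin : {P : Place E F | LsTube ↥(zchClosure (A₀ := A₀) ({t⁻¹} : Set F)) t⁻¹ 𝔫.1 P ∧
      g • P ≠ P ∧ P.ord x ≠ 0}.Finite)
    (hm : ∀ P : Place E F, LsTube ↥(zchClosure (A₀ := A₀) ({t⁻¹} : Set F)) t⁻¹ 𝔫.1 P →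
      g • P ≠ P → (m : ℤ) ∣ P.ord x)
    (hrat : ∀ P : Place E F, LsTube ↥(zchClosure (A₀ := A₀) ({t⁻¹} : Set F)) t⁻¹ 𝔫.1 P →
      g • P ≠ P → P.ord x ≠ 0 → ∀ f ∈ P.toValuationSubring,
        ∃ c : E, f - algebraMap E F c ∈ P.toValuationSubring.nonunits) :
    StbFacAt (atO π t (Sum.inr 𝔫)) m (g • x / x) :=
  stb_cross_facAt hπ ht' V hBV hπV hSS1 hVloc g hgt 𝔫 hgB hgB' hgB₀ hgB₀' hgV hgA q hq0 hqπ hgq
    j p hram hjp c₁ c₂ hκ hnode hx m hfin hm hrat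

end CrossFac

end Fermat.Agent.STB
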