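import Fermat.Agent.STB.FrobPoint
import Fermat.Agent.UNIP.NodesFrobInst
import Fermat.Agent.UNIP.NodesGauss
import Fermat.Agent.UNIP.MGPlaces
import Fermat.Agent.UNIP.NodesSwapInv
import Fermat.Agent.UNIP.NodesModular

/-!
# STB-X (`FrobFix`), part 2d: `StbFrobVal` on the charts of `F_{Mq}(E)`

Base convention of `NodesFrob.lean` / `NodesGauss.lean`: `A` a domain, `E = Frac A`,
`r : A →+* k`, `GaussBase r π`; `F = modularFunctionFieldFullC E (M * q)`.

* `stbVinf hB N`  : the Gauss valuation ring `F_N(E) ∩ gaussRing` (`gaussVS`);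
* `stbAtk ιC hq hqM` : the Atkin–Lehner involution as a ring automorphism of `F`;
* `stbV0 hB ιC hq hqM := (stbVinf hB (M * q)).comap w`;
* `stb_frobVal_chart` : **`StbFrobVal B Vinf V0 w Ψ q`** for the chart `B` of a coordinate `u` and
  `Ψ = mgRingAut (M * q) s`, `s : E ≃+* E` a Frobenius lift.
-/

set_option autoImplicit false
set_option linter.style.haveILetI false
set_option linter.unusedSectionVars false
set_option linter.unusedVariables false
set_option synthInstance.maxHeartbeats 400000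
set_option maxHeartbeats 1000000

noncomputable section

namespace Fermat.Agent.STB

open ModularCurve Polynomial IntermediateField Fermat.Agent.INJ Fermat.Agent.AL Fermat.Agent.UNIP

section Val

variable {K L : Type*} [Field K] [Field L]

/-- nonunits of a pulled-back valuation subring -/
theorem stb_mem_nonunits_comap (V : ValuationSubring L) (f : K →+* L) (x : K) :
    x ∈ (V.comap f).nonunits ↔ f x ∈ V.nonunits := by
  rw [ValuationSubring.mem_nonunits_iff_or, ValuationSubring.mem_nonunits_iff_or,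
    ValuationSubring.mem_comap, map_inv₀, map_eq_zero]

end Val

section Base

variable {A E k : Type*} [CommRing A] [IsDomain A] [WfDvdMonoid A] [Field E] [Algebra A E]
  [IsFractionRing A E] [Field k] {r : A →+* k} {π : A}

theorem stb_full_le_gaussFrac (N : ℕ) [NeZero N] :
    modularFunctionFieldFullC E N ≤ gaussFracField A :=
  fun _ hx => nodesFrob_full_le (A := A) N hx

/-- the Gauss valuation ring `V_∞` of `F_N(E)` -/
def stbVinf (hB : GaussBase r π) (N : ℕ) [NeZero N] :
    ValuationSubring (modularFunctionFieldFullC E N) :=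
  gaussVS hB (modularFunctionFieldFullC E N) (stb_full_le_gaussFrac N)

theorem mem_stbVinf (hB : GaussBase r π) (N : ℕ) [NeZero N] {x : modularFunctionFieldFullC E N} :
    x ∈ stbVinf hB N ↔ (x : LaurentSeries E) ∈ gaussRing (algebraMap A E) r := Iff.rfl

theorem mem_nonunits_stbVinf (hB : GaussBase r π) (N : ℕ) [NeZero N]
    {x : modularFunctionFieldFullC E N} :
    x ∈ (stbVinf hB N).nonunits ↔
      ∃ hx : (x : LaurentSeries E) ∈ gaussRing (algebraMap A E) r,
        gaussRed r (IsFractionRing.injective A E) ⟨(x : LaurentSeries E), hx⟩ = 0 :=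
  mem_nonunits_gaussVS hB _ _

end Base

section AL

variable {E : Type*} [Field E] (ιC : E →+* ℂ)
  {q M : ℕ} [NeZero q] [NeZero M] [NeZero (M * q)] (hq : q.Prime) (hqM : ¬ q ∣ M)

/-- the Atkin–Lehner involution `w_q` as a ring automorphism of `F_{Mq}(E)` -/
def stbAtk : modularFunctionFieldFullC E (M * q) ≃+* modularFunctionFieldFullC E (M * q) :=
  (atkinLehner E ιC hq hqM).toRingEquiv

@[simp] theorem stbAtk_apply (x : modularFunctionFieldFullC E (M * q)) :
    stbAtk ιC hq hqM x = atkinLehner E ιC hq hqM x := rfl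

theorem stbAtk_invol (x : modularFunctionFieldFullC E (M * q)) :
    stbAtk ιC hq hqM (stbAtk ιC hq hqM x) = x :=
  atkinLehner_invol E ιC hq hqM x

/-- `Ψ w = w Ψ` for the coefficientwise action `Ψ` of an automorphism of `E` -/
theorem stbAtk_mgRingAut (s : E ≃+* E) (x : modularFunctionFieldFullC E (M * q)) :
    mgRingAut (M * q) s (stbAtk ιC hq hqM x) = stbAtk ιC hq hqM (mgRingAut (M * q) s x) := by
  apply Subtype.ext
  exact (atkinLehner_coeffMap E ιC hq hqM (s : E →+* E) x).symm

end AL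

section Main

variable {A E k : Type*} [CommRing A] [IsDomain A] [WfDvdMonoid A] [Field E] [Algebra A E]
  [IsFractionRing A E] [Field k] {r : A →+* k} {π : A} (hB : GaussBase r π) (ιC : E →+* ℂ)
  {q M : ℕ} [NeZero q] [NeZero M] [NeZero (M * q)] (hq : q.Prime) (hqM : ¬ q ∣ M)
  [Algebra A (modularFunctionFieldFullC E (M * q))]
  [IsScalarTower A E (modularFunctionFieldFullC E (M * q))]

/-- the valuation ring `V_0 = V_∞ ∘ w_q` -/
def stbV0 : ValuationSubring (modularFunctionFieldFullC E (M * q)) :=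
  (stbVinf hB (M * q)).comap
    (stbAtk ιC hq hqM : modularFunctionFieldFullC E (M * q) →+* modularFunctionFieldFullC E (M * q))

theorem mem_stbV0 {x : modularFunctionFieldFullC E (M * q)} :
    x ∈ stbV0 hB ιC hq hqM ↔ stbAtk ιC hq hqM x ∈ stbVinf hB (M * q) := Iff.rfl

theorem mem_nonunits_stbV0 (x : modularFunctionFieldFullC E (M * q)) :
    x ∈ (stbV0 hB ιC hq hqM).nonunits ↔ stbAtk ιC hq hqM x ∈ (stbVinf hB (M * q)).nonunits :=
  stb_mem_nonunits_comap _ _ x

/-- the coefficientwise action of a ring automorphism `s` of `E` preserving `A` preserves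
`𝔪(V_∞)` -/
theorem stb_mgRingAut_mem_nonunits (s : E ≃+* E) (ψA : A →+* A) (θ : k →+* k)
    (hψ : ∀ a, s (algebraMap A E a) = algebraMap A E (ψA a))
    (hθ : ∀ a, r (ψA a) = θ (r a)) (N : ℕ) [NeZero N]
    {x : modularFunctionFieldFullC E N} (hx : x ∈ (stbVinf hB N).nonunits) :
    mgRingAut N s x ∈ (stbVinf hB N).nonunits := by
  rw [mem_nonunits_stbVinf] at hx ⊢
  obtain ⟨hxG, hx0⟩ := hx
  refine ⟨frStab_mem_gaussRing (algebraMap A E) r ψA (s : E →+* E) θ hψ hθ hxG, ?_⟩
  have := frStab_gaussRed r ψA (s : E →+* E) θ (IsFractionRing.injective A E) hψ hθ ⟨_, hxG⟩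
  rw [hx0, map_zero] at this
  exact this

/-- the coefficientwise action preserves `V_∞` -/
theorem stb_mgRingAut_mem (s : E ≃+* E) (ψA : A →+* A) (θ : k →+* k)
    (hψ : ∀ a, s (algebraMap A E a) = algebraMap A E (ψA a))
    (hθ : ∀ a, r (ψA a) = θ (r a)) (N : ℕ) [NeZero N]
    {x : modularFunctionFieldFullC E N} (hx : x ∈ stbVinf hB N) :
    mgRingAut N s x ∈ stbVinf hB N :=
  frStab_mem_gaussRing (algebraMap A E) r ψA (s : E →+* E) θ hψ hθ hx

/-- the coefficientwise action preserves the chart of a fixed coordinate `u` -/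
theorem stb_mgRingAut_isIntegral (s : E ≃+* E) (ψA : A →+* A)
    (hψ : ∀ a, s (algebraMap A E a) = algebraMap A E (ψA a))
    (u : modularFunctionFieldFullC E (M * q))
    (hsu : coeffMap (s : E →+* E) (u : LaurentSeries E) = (u : LaurentSeries E))
    {x : modularFunctionFieldFullC E (M * q)} (hx : IsIntegral (Algebra.adjoin A {u}) x) :
    IsIntegral (Algebra.adjoin A {u}) (mgRingAut (M * q) s x) :=
  frStab_chart (M * q) (s : E →+* E) ψA hψ u hsu hx

theorem stb_coeffMap_symm_fixed (s : E ≃+* E) {u : LaurentSeries E}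
    (hsu : coeffMap (s : E →+* E) u = u) : coeffMap (s.symm : E →+* E) u = u := by
  conv_lhs => rw [← hsu]
  rw [coeffMap_coeffMap,
    coeffMap_congr (g := RingHom.id E) (RingHom.ext fun a => s.symm_apply_apply a) u, coeffMap_id]

/-- **The Frobenius congruence (G3) at `V_∞`**: for `c ∈ F_M(E)` in the Gauss ring,
`w c - (Ψ⁻¹ c) ^ q ∈ 𝔪(V_∞)`, `Ψ⁻¹` the coefficientwise action of an inverse Frobenius lift. -/
theorem stb_frob_G3 [Fact q.Prime] [CharP k q]
    (s : E ≃+* E) (ψA' : A →+* A) (θ : k →+* k)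
    (hψ' : ∀ a, s.symm (algebraMap A E a) = algebraMap A E (ψA' a))
    (hθ : ∀ a, r (ψA' a) = θ (r a)) (hθq : ∀ x, θ x ^ q = x)
    (c : modularFunctionFieldFullC E (M * q))
    (hcM : (c : LaurentSeries E) ∈ modularFunctionFieldFullC E M)
    (hcG : (c : LaurentSeries E) ∈ gaussRing (algebraMap A E) r) :
    stbAtk ιC hq hqM c - ((mgRingAut (M * q) s).symm c) ^ q ∈ (stbVinf hB (M * q)).nonunits := by
  have h1 := nodesFrob_G3_mem r ιC hq hqM hcM hcG
  have h2 : coeffMap (s.symm : E →+* E) (c : LaurentSeries E) ∈ gaussRing (algebraMap A E) r :=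
    frStab_mem_gaussRing (algebraMap A E) r ψA' (s.symm : E →+* E) θ hψ' hθ hcG
  have key := nodesFrobInst_raw r ιC hq hqM ψA' (s.symm : E →+* E) θ hψ' hθ hθq hcM hcG h1 h2
  rw [mem_nonunits_stbVinf]
  have hc : c = ⟨(c : LaurentSeries E), al_mem_of_mem_low E hcM⟩ := rfl
  have hmem : ((stbAtk ιC hq hqM c - ((mgRingAut (M * q) s).symm c) ^ q :
      modularFunctionFieldFullC E (M * q)) : LaurentSeries E) ∈ gaussRing (algebraMap A E) r := by
    refine Subring.sub_mem _ ?_ (Subring.pow_mem _ h2 q)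
    rw [stbAtk_apply]
    exact h1
  refine ⟨hmem, ?_⟩
  have e : (⟨_, hmem⟩ : gaussRing (algebraMap A E) r) =
      ⟨_, h1⟩ - (⟨_, h2⟩ : gaussRing (algebraMap A E) r) ^ q := Subtype.ext rfl
  rw [e, map_sub, map_pow, key, sub_self]

/-- **`StbFrobVal` on the chart of the coordinate `u` of `F_{Mq}(E)`**, `Ψ` the coefficientwise
action of a Frobenius lift `s` of `E` (`s⁻¹` reduces to `θ = Frob⁻¹` on `k`).

Inputs from U5: `hwB` (`nodesSwap_chartJ`, `nodesSwap_chartInv`) and `hsurj`
(`ρ(B) = ρ(C)`, `NodesRankData.exists_eq`). -/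
theorem stb_frobVal_chart [Fact q.Prime] [CharP k q]
    (s : E ≃+* E) (ψA ψA' : A →+* A) (θ : k →+* k)
    (hψ : ∀ a, s (algebraMap A E a) = algebraMap A E (ψA a))
    (hψ' : ∀ a, s.symm (algebraMap A E a) = algebraMap A E (ψA' a))
    (hθ : ∀ a, r (ψA' a) = θ (r a)) (hθq : ∀ x, θ x ^ q = x)
    (u : modularFunctionFieldFullC E (M * q))
    (hu : (u : LaurentSeries E) ∈ gaussRing (algebraMap A E) r)
    (hwu : ((atkinLehner E ιC hq hqM u : modularFunctionFieldFullC E (M * q)) :
      LaurentSeries E) ∈ gaussRing (algebraMap A E) r)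
    (hsu : coeffMap (s : E →+* E) (u : LaurentSeries E) = (u : LaurentSeries E))
    (hwB : ∀ b : modularFunctionFieldFullC E (M * q), IsIntegral (Algebra.adjoin A {u}) b →
      ∃ e : modularFunctionFieldFullC E (M * q), IsIntegral (Algebra.adjoin A {u}) e ∧
        e - 1 ∈ (stbVinf hB (M * q)).nonunits ∧
        IsIntegral (Algebra.adjoin A {u}) (e * atkinLehner E ιC hq hqM b))
    (hsurj : ∀ b : modularFunctionFieldFullC E (M * q), IsIntegral (Algebra.adjoin A {u}) b →
      ∃ c : modularFunctionFieldFullC E (M * q), IsIntegral (Algebra.adjoin A {u}) c ∧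
        (c : LaurentSeries E) ∈ modularFunctionFieldFullC E M ∧
        b - c ∈ (stbVinf hB (M * q)).nonunits) :
    StbFrobVal
      ((integralClosure (Algebra.adjoin A {u}) (modularFunctionFieldFullC E (M * q))).restrictScalars
        A).toSubring
      (stbVinf hB (M * q)) (stbV0 hB ιC hq hqM) (stbAtk ιC hq hqM) (mgRingAut (M * q) s) q where
  hBinf := fun b hb =>
    nodesFrob_G1_id r hB.ne_zero hB.not_unit hB.ker hB.map_pi (nodesFrob_full_le (M * q)) u hu hb
  hB0 := fun b hb =>
    nodesFrob_G1 r hB.ne_zero hB.not_unit hB.ker hB.map_pi (nodesFrob_full_le (M * q))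
      (atkinLehner E ιC hq hqM).toAlgHom u hwu hb
  hww := stbAtk_invol ιC hq hqM
  hΨw := stbAtk_mgRingAut ιC hq hqM s
  hV0 := mem_nonunits_stbV0 hB ιC hq hqM
  hΨV := fun x hx => stb_mgRingAut_mem_nonunits hB s.symm ψA' θ hψ' hθ (M * q) hx
  hΨB := fun b hb => stb_mgRingAut_isIntegral s ψA hψ u hsu hb
  hΨB' := fun b hb =>
    stb_mgRingAut_isIntegral s.symm ψA' hψ' u (stb_coeffMap_symm_fixed s hsu) hb
  hwB := hwB
  hkey := fun b hb => by
    obtain ⟨c, hc, hcM, hbc⟩ := hsurj b hb
    have hcG : (c : LaurentSeries E) ∈ gaussRing (algebraMap A E) r :=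
      nodesFrob_G1_id r hB.ne_zero hB.not_unit hB.ker hB.map_pi (nodesFrob_full_le (M * q))
        u hu hc
    exact ⟨c, hc, hbc, stb_frob_G3 hB ιC hq hqM s ψA' θ hψ' hθ hθq c hcM hcG⟩

end Main

/-! ## `hsurj` from the rank data of U5 -/

section Surj

variable {B C K : Type*} [CommRing B] [CommRing C] [Field K]

/-- **`ρ(B) = ρ(C)`** (hom form of `NodesRankData.exists_eq`). -/
theorem stb_exists_eq_of_homData {φ : C →+* B} {π' : C} {ρ ρ₀ : B →+* K} {q : ℕ}
    (hd : NodesHomData φ π' ρ ρ₀ q)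
    (icl : ∀ x : K, IsIntegral (ρ.comp φ).range x → ∀ c₁ c₂ : C, ρ (φ c₂) ≠ 0 →
      ρ (φ c₂) * x = ρ (φ c₁) → ∃ c : C, ρ (φ c) = x)
    (hint : ∀ b : B, IsIntegral (ρ.comp φ).range (ρ b)) (b : B) :
    ∃ c : C, ρ (φ c) = ρ b := by
  have hrange : φ.range.map ρ = (ρ.comp φ).range := RingHom.map_range ρ φ
  obtain ⟨_, ⟨c, rfl⟩, hr⟩ := hd.toRankData.exists_eq
    (by
      intro x hx r₁ hr₁ r₂ hr₂ hne hrel
      obtain ⟨c₁, rfl⟩ := hr₁
      obtain ⟨c₂, rfl⟩ := hr₂
      have hx' : IsIntegral (ρ.comp φ).range x := by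
        rw [← hrange]; exact hx
      obtain ⟨c, hc⟩ := icl x hx' c₁ c₂ hne hrel
      exact ⟨φ c, ⟨c, rfl⟩, hc⟩)
    (by
      intro b
      rw [hrange]
      exact hint b) b
  exact ⟨c, hr⟩

end Surj

section Modular

variable {A E k : Type*} [CommRing A] [IsDomain A] [WfDvdMonoid A] [Field E] [Algebra A E]
  [IsFractionRing A E] [Field k] {r : A →+* k} {π : A} (hB : GaussBase r π) (ιC : E →+* ℂ)
  {q M : ℕ} [NeZero q] [NeZero M] [NeZero (M * q)] (hq : q.Prime) (hqM : ¬ q ∣ M)
  [Algebra A (modularFunctionFieldFullC E M)]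
  [IsScalarTower A E (modularFunctionFieldFullC E M)]
  [Algebra A (modularFunctionFieldFullC E (M * q))]
  [IsScalarTower A E (modularFunctionFieldFullC E (M * q))]

/-- **`hsurj` of `stb_frobVal_chart`** from the inputs of `nodes_modular_chart`
(`hd : NodesHomData`, normality of the special fibre of the chart of level `M`). -/
theorem stb_hsurj_modular
    (w : modularFunctionFieldFullC E (M * q) →ₐ[E] modularFunctionFieldFullC E (M * q))
    (t : modularFunctionFieldFullC E M)
    (ht : (t : LaurentSeries E) ∈ gaussRing (algebraMap A E) r)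
    (hwt : ((w (nodesInstIncl E M q t) :
      modularFunctionFieldFullC E (M * q)) : LaurentSeries E) ∈ gaussRing (algebraMap A E) r)
    [IsDomain (integralClosure (Algebra.adjoin A {t}) (modularFunctionFieldFullC E M) ⧸
      Ideal.span {algebraMap A
        (integralClosure (Algebra.adjoin A {t}) (modularFunctionFieldFullC E M)) π})]
    [IsIntegrallyClosed
      (integralClosure (Algebra.adjoin A {t}) (modularFunctionFieldFullC E M) ⧸
      Ideal.span {algebraMap A
        (integralClosure (Algebra.adjoin A {t}) (modularFunctionFieldFullC E M)) π})]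
    (hd : NodesHomData (nodesPhi A M q t)
      (algebraMap A (integralClosure (Algebra.adjoin A {t}) (modularFunctionFieldFullC E M)) π)
      (nodesFrobChartRed r hB.ne_zero hB.not_unit hB.ker hB.map_pi (nodesFrob_full_le (M * q))
        (nodesInstIncl E M q t) (nodesInst_ht' r M q t ht))
      (nodesSwapRho₀ r hB.ne_zero hB.not_unit hB.ker hB.map_pi (nodesFrob_full_le (M * q))
        w (nodesInstIncl E M q t) hwt) q)
    (b : modularFunctionFieldFullC E (M * q))
    (hb : IsIntegral (Algebra.adjoin A {nodesInstIncl E M q t}) b) :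
    ∃ c : modularFunctionFieldFullC E (M * q),
      IsIntegral (Algebra.adjoin A {nodesInstIncl E M q t}) c ∧
      (c : LaurentSeries E) ∈ modularFunctionFieldFullC E M ∧
      b - c ∈ (stbVinf hB (M * q)).nonunits := by
  have hφint := nodesModular_phi_isIntegral (A := A) M q t
  have hρπ := nodesInst_rho_phi_pi r hB.ne_zero hB.not_unit hB.ker hB.map_pi M q t ht
  obtain ⟨c, hc⟩ := stb_exists_eq_of_homData hd
    (nodes_icl_of_isIntegrallyClosed _ _ hρπ hd.ker_sub)
    (nodes_hint_of_isIntegral _ hφint) ⟨b, hb⟩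
  refine ⟨(nodesPhi A M q t c : integralClosure (Algebra.adjoin A {nodesInstIncl E M q t})
      (modularFunctionFieldFullC E (M * q))), (nodesPhi A M q t c).2, ?_, ?_⟩
  · rw [nodesPhi_coe_coe]
    exact (c : modularFunctionFieldFullC E M).2
  · rw [mem_nonunits_stbVinf]
    have hbG := nodesFrob_G1_id r hB.ne_zero hB.not_unit hB.ker hB.map_pi
      (nodesFrob_full_le (M * q)) (nodesInstIncl E M q t) (nodesInst_ht' r M q t ht) hb
    have hcG := nodesFrob_G1_id r hB.ne_zero hB.not_unit hB.ker hB.map_pi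
      (nodesFrob_full_le (M * q)) (nodesInstIncl E M q t) (nodesInst_ht' r M q t ht)
      (nodesPhi A M q t c).2
    have hmem : ((b - (nodesPhi A M q t c : integralClosure
        (Algebra.adjoin A {nodesInstIncl E M q t}) (modularFunctionFieldFullC E (M * q))) :
        modularFunctionFieldFullC E (M * q)) : LaurentSeries E) ∈
        gaussRing (algebraMap A E) r := Subring.sub_mem _ hbG hcG
    refine ⟨hmem, ?_⟩
    have e : (⟨_, hmem⟩ : gaussRing (algebraMap A E) r) =
        ⟨_, hbG⟩ - (⟨_, hcG⟩ : gaussRing (algebraMap A E) r) := Subtype.ext rfl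
    rw [e, map_sub, sub_eq_zero]
    have h1 := nodesFrobChartRed_apply r hB.ne_zero hB.not_unit hB.ker hB.map_pi
      (nodesFrob_full_le (M * q)) (nodesInstIncl E M q t) (nodesInst_ht' r M q t ht) ⟨b, hb⟩ hbG
    have h2 := nodesFrobChartRed_apply r hB.ne_zero hB.not_unit hB.ker hB.map_pi
      (nodesFrob_full_le (M * q)) (nodesInstIncl E M q t) (nodesInst_ht' r M q t ht)
      (nodesPhi A M q t c) hcG
    rw [← h1, ← h2]
    exact hc.symm

/-- **`StbFrobVal` on a chart of `F_{Mq}(E)`, from the inputs of `nodes_modular_chart`.** -/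
theorem stb_frobVal_modular [Fact q.Prime] [CharP k q]
    (s : E ≃+* E) (ψA ψA' : A →+* A) (θ : k →+* k)
    (hψ : ∀ a, s (algebraMap A E a) = algebraMap A E (ψA a))
    (hψ' : ∀ a, s.symm (algebraMap A E a) = algebraMap A E (ψA' a))
    (hθ : ∀ a, r (ψA' a) = θ (r a)) (hθq : ∀ x, θ x ^ q = x)
    (t : modularFunctionFieldFullC E M)
    (ht : (t : LaurentSeries E) ∈ gaussRing (algebraMap A E) r)
    (hτ : coeffMap (s : E →+* E) (t : LaurentSeries E) = (t : LaurentSeries E))
    (hwt : (((atkinLehner E ιC hq hqM).toAlgHom (nodesInstIncl E M q t) :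
      modularFunctionFieldFullC E (M * q)) : LaurentSeries E) ∈ gaussRing (algebraMap A E) r)
    [IsDomain (integralClosure (Algebra.adjoin A {t}) (modularFunctionFieldFullC E M) ⧸
      Ideal.span {algebraMap A
        (integralClosure (Algebra.adjoin A {t}) (modularFunctionFieldFullC E M)) π})]
    [IsIntegrallyClosed
      (integralClosure (Algebra.adjoin A {t}) (modularFunctionFieldFullC E M) ⧸
      Ideal.span {algebraMap A
        (integralClosure (Algebra.adjoin A {t}) (modularFunctionFieldFullC E M)) π})]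
    (hd : NodesHomData (nodesPhi A M q t)
      (algebraMap A (integralClosure (Algebra.adjoin A {t}) (modularFunctionFieldFullC E M)) π)
      (nodesFrobChartRed r hB.ne_zero hB.not_unit hB.ker hB.map_pi (nodesFrob_full_le (M * q))
        (nodesInstIncl E M q t) (nodesInst_ht' r M q t ht))
      (nodesSwapRho₀ r hB.ne_zero hB.not_unit hB.ker hB.map_pi (nodesFrob_full_le (M * q))
        (atkinLehner E ιC hq hqM).toAlgHom (nodesInstIncl E M q t) hwt) q)
    (hwB : ∀ b : modularFunctionFieldFullC E (M * q),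
      IsIntegral (Algebra.adjoin A {nodesInstIncl E M q t}) b →
      ∃ e : modularFunctionFieldFullC E (M * q),
        IsIntegral (Algebra.adjoin A {nodesInstIncl E M q t}) e ∧
        e - 1 ∈ (stbVinf hB (M * q)).nonunits ∧
        IsIntegral (Algebra.adjoin A {nodesInstIncl E M q t})
          (e * atkinLehner E ιC hq hqM b)) :
    StbFrobVal
      ((integralClosure (Algebra.adjoin A {nodesInstIncl E M q t})
        (modularFunctionFieldFullC E (M * q))).restrictScalars A).toSubring
      (stbVinf hB (M * q)) (stbV0 hB ιC hq hqM) (stbAtk ιC hq hqM) (mgRingAut (M * q) s) q :=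
  stb_frobVal_chart hB ιC hq hqM s ψA ψA' θ hψ hψ' hθ hθq (nodesInstIncl E M q t)
    (nodesInst_ht' r M q t ht) hwt (by rw [nodesInstIncl_coe]; exact hτ) hwB
    (fun b hb => stb_hsurj_modular hB (atkinLehner E ιC hq hqM).toAlgHom t ht hwt hd b hb)

end Modular

end Fermat.Agent.STB
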