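import Fermat.Agent.STB.FrobChartJ
import Fermat.Agent.UNIP.NodesFinalReg

/-!
# STB-X (`FrobFix`), part 2f: `StbFrobVal` on the charts `j`, `1/j`, level-`M` input `RegChart`

Same statements as `stb_frobVal_J`, `stb_frobVal_Jinv` (`FrobChartJ.lean`), with the data of
`RegInst.tsHyp_jline` (which force `q ≥ 5`) replaced by ONE hypothesis
`h : RegChart (E := K₀) π (bgJ K₀ M)` resp. `h : RegChart (E := K₀) π (bgJ K₀ M)⁻¹`
(helper20, `UNIP/RegTransferMod.lean`: `regChart_J`, `regChart_h2_J`, `regChart_h3_J`, … — so that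
`q ∈ {2, 3}` are covered), as in `UNIP/NodesFinalReg.lean`.

* **`stb_frobVal_reg_J`**, **`stb_frobVal_reg_Jinv`**.
-/

set_option autoImplicit false
set_option linter.style.haveILetI false
set_option linter.unusedSectionVars false
set_option linter.unusedVariables false
set_option linter.style.longLine false
set_option synthInstance.maxHeartbeats 400000
set_option maxHeartbeats 1000000

noncomputable section

namespace Fermat.Agent.STB

open ModularCurve Polynomial IntermediateField Fermat.Agent.INJ Fermat.Agent.AL Fermat.Agent.UNIP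

section JCharts

variable (K₀ : IntermediateField ℚ NfQb) {A₀ : Type} [CommRing A₀] [IsDomain A₀]
  [IsDiscreteValuationRing A₀] [Algebra A₀ K₀] [IsFractionRing A₀ K₀]
  {k : Type*} [Field k] {r : A₀ →+* k} {π : A₀} (ιC : K₀ →+* ℂ)
  {q M : ℕ} [NeZero q] [NeZero M] [NeZero (M * q)] (hq : q.Prime) (hqM : ¬ q ∣ M)
  [Algebra A₀ (modularFunctionFieldFullC K₀ M)]
  [IsScalarTower A₀ K₀ (modularFunctionFieldFullC K₀ M)]
  [Algebra A₀ (modularFunctionFieldFullC K₀ (M * q))]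
  [IsScalarTower A₀ K₀ (modularFunctionFieldFullC K₀ (M * q))]

/-- **`StbFrobVal` on the chart `j` of `F_{Mq}(K₀)`** (level-`M` input: `RegChart`); `Ψ` the
coefficientwise action of a Frobenius lift `s` of `K₀` (`ψA`, `ψA'` the restrictions of `s`,
`s⁻¹` to `A₀`, `θ = Frob⁻¹`). -/
theorem stb_frobVal_reg_J [Fact q.Prime] [CharP k q]
    (hV : VtBase (algebraMap A₀ K₀) r π) (hπ : Irreducible π)
    (h : RegChart (E := K₀) π (bgJ K₀ M))
    (s : K₀ ≃+* K₀) (ψA ψA' : A₀ →+* A₀) (θ : k →+* k)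
    (hψ : ∀ a, s (algebraMap A₀ K₀ a) = algebraMap A₀ K₀ (ψA a))
    (hψ' : ∀ a, s.symm (algebraMap A₀ K₀ a) = algebraMap A₀ K₀ (ψA' a))
    (hθ : ∀ a, r (ψA' a) = θ (r a)) (hθq : ∀ x, θ x ^ q = x) :
    StbFrobVal
      ((integralClosure (Algebra.adjoin A₀ {bgJ K₀ (M * q)})
        (modularFunctionFieldFullC K₀ (M * q))).restrictScalars A₀).toSubring
      (vtFam hV ιC hq hqM true) (vtFam hV ιC hq hqM false) (stbAtk ιC hq hqM)
      (mgRingAut (M * q) s) q := by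
  have hB : GaussBase r π := stb_gaussBase_of_vtBase hV
  haveI := h.isDomain
  haveI := h.isIntegrallyClosed
  have hd := nodesReg_hd_J K₀ r ιC hq hqM hπ hV.ker hV.rπ h
  have key := stb_frobVal_modular hB ιC hq hqM s ψA ψA' θ hψ hψ' hθ hθq (bgJ K₀ M)
    (nodesFinal_J_mem K₀ r) (nodesFinal_J_fixed K₀ (s : K₀ →+* K₀))
    (nodesFinal_wJ_mem K₀ r ιC hq hqM) hd
    (by
      rw [nodesFinal_incl_J]
      exact fun b hb => stb_hwB_J ιC hq hqM hB b hb)
  rw [stb_incl_J] at key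
  exact key.congr_val (stbVinf_eq_vtFam ιC hq hqM hB hV) (stbV0_eq_vtFam ιC hq hqM hB hV)

/-- **`StbFrobVal` on the chart `1/j` of `F_{Mq}(K₀)`** (level-`M` input: `RegChart`). -/
theorem stb_frobVal_reg_Jinv [Fact q.Prime] [CharP k q]
    (hV : VtBase (algebraMap A₀ K₀) r π) (hπ : Irreducible π)
    (h : RegChart (E := K₀) π (bgJ K₀ M)⁻¹)
    (s : K₀ ≃+* K₀) (ψA ψA' : A₀ →+* A₀) (θ : k →+* k)
    (hψ : ∀ a, s (algebraMap A₀ K₀ a) = algebraMap A₀ K₀ (ψA a))
    (hψ' : ∀ a, s.symm (algebraMap A₀ K₀ a) = algebraMap A₀ K₀ (ψA' a))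
    (hθ : ∀ a, r (ψA' a) = θ (r a)) (hθq : ∀ x, θ x ^ q = x) :
    StbFrobVal
      ((integralClosure (Algebra.adjoin A₀ {(bgJ K₀ (M * q))⁻¹})
        (modularFunctionFieldFullC K₀ (M * q))).restrictScalars A₀).toSubring
      (vtFam hV ιC hq hqM true) (vtFam hV ιC hq hqM false) (stbAtk ιC hq hqM)
      (mgRingAut (M * q) s) q := by
  have hB : GaussBase r π := stb_gaussBase_of_vtBase hV
  haveI := h.isDomain
  haveI := h.isIntegrallyClosed
  have hd := nodesReg_hd_Jinv K₀ r ιC hq hqM hπ hV.ker hV.rπ h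
  have key := stb_frobVal_modular hB ιC hq hqM s ψA ψA' θ hψ hψ' hθ hθq (bgJ K₀ M)⁻¹
    (nodesFinal_Jinv_mem K₀ r) (nodesFinal_Jinv_fixed K₀ (s : K₀ →+* K₀))
    (nodesFinal_wJinv_mem K₀ r ιC hq hqM) hd
    (by
      rw [stb_incl_Jinv, stb_bgJ_eq]
      exact fun b hb => stb_hwB_Jinv ιC hq hqM hB b hb)
  rw [stb_incl_Jinv] at key
  exact key.congr_val (stbVinf_eq_vtFam ιC hq hqM hB hV) (stbV0_eq_vtFam ιC hq hqM hB hV)

end JCharts

end Fermat.Agent.STB
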