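import Fermat.Agent.STB.CrossFrob
import Fermat.Agent.STB.FrobGal
import Fermat.Agent.UNIP.MGConcrete

/-!
# STB-MG, `hfrob₁` / `hfrob₂` : `StbCrossFrob` in the concrete setting

Setting of `UNIP/MGConcrete.lean` : `E′ = mgcE A K₁`, `A′ = mgcA A K₁`, `F′ = mgcF A K₁ N`,
`φ` a Frobenius element at `A`, `g = φ̂²` (`φ̂ = mgcGal N φ hφ`).

* `stbmf_hΨR` : the Frobenius congruence on the base in the form `hΨR` of `stb_cross_hfrobB`;
* `stbmf_crossFrob` : `StbCrossFrob g (q ^ 2) 𝔫` at a crossing point `𝔫` of the chart `u`, from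
  `StbFrobVal (zchClosure {u}).toSubring V₁ V₂ w (mgRingAut N s) q` (STB-X, helper45).
-/

set_option autoImplicit false
set_option linter.style.haveILetI false
set_option linter.unusedSectionVars false
set_option linter.unusedVariables false

noncomputable section

namespace Fermat.Agent.STB

open ModularCurve AlgebraicCurve Fermat.Agent.ES Fermat.Agent.ES.G2 Fermat.Agent.INJ
open IntermediateField Fermat.Agent.UNIP

section Concrete

variable {A : ValuationSubring Qb} {K₁ : IntermediateField ℚ Qb} {N : ℕ} [NeZero N]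
  [IsDiscreteValuationRing ↥(mgcA A K₁)]

/-- the Frobenius congruence on the base `A′`, in the form `hΨR` of `stb_cross_hfrobB` -/
theorem stbmf_hΨR {q : ℕ} {φ : Qb ≃ₐ[ℚ] Qb} (hφF : A.IsFrobeniusAt φ q)
    (hφ : ∀ x ∈ mgcE A K₁, φ x ∈ mgcE A K₁)
    {π : ↥(mgcA A K₁)} (hπ : Irreducible π) (a : ↥(mgcA A K₁)) :
    ∃ c : ↥(mgcA A K₁),
      mgRingAut N (mgaRestrictEquiv (mgcE A K₁) φ hφ)
          (algebraMap ↥(mgcA A K₁) ↥(mgcF A K₁ N) a) =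
        algebraMap ↥(mgcA A K₁) ↥(mgcF A K₁ N) (a ^ q + π * c) := by
  obtain ⟨c, hc⟩ := stb_frob_congr_ring (mgcE A K₁) hφF hφ hπ a
  refine ⟨c, ?_⟩
  rw [← hc]
  exact mgRingAut_algebraMap N (mgaRestrictEquiv (mgcE A K₁) φ hφ) (a : ↥(mgcE A K₁))

/-- **`hfrob`, concrete form, one chart.**  `StbCrossFrob g (q ^ 2) 𝔫` at a crossing point `𝔫`
of the chart `u` of `F′ = F_N(E′)` over `A′`, `g = φ̂²`, from `StbFrobVal` on the chart. -/
theorem stbmf_crossFrob {q : ℕ} (hq : q.Prime) (hA : A.LiesOverPrime q)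
    {π : ↥(mgcA A K₁)} (hπ : Irreducible π)
    {φ : Qb ≃ₐ[ℚ] Qb} (hφF : A.IsFrobeniusAt φ q) (hφ : ∀ x ∈ mgcE A K₁, φ x ∈ mgcE A K₁)
    {u : ↥(mgcF A K₁ N)} (V₁ V₂ : ValuationSubring ↥(mgcF A K₁ N))
    (w : ↥(mgcF A K₁ N) ≃+* ↥(mgcF A K₁ N))
    (h : StbFrobVal (zchClosure (A₀ := ↥(mgcA A K₁)) ({u} : Set ↥(mgcF A K₁ N))).toSubring
      V₁ V₂ w (mgRingAut N (mgaRestrictEquiv (mgcE A K₁) φ hφ)) q)
    (g : SemilinearAut ↥(mgcE A K₁) ↥(mgcF A K₁ N))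
    (hg : ∀ x : ↥(mgcF A K₁ N), g • x = mgcGal N φ hφ • (mgcGal N φ hφ • x))
    (𝔫 : AtPt (F := ↥(mgcF A K₁ N)) π u) (hc₁ : atThrough 𝔫 V₁) (hc₂ : atThrough 𝔫 V₂) :
    StbCrossFrob g (q ^ 2) 𝔫 := by
  haveI : IsAlgClosed (IsLocalRing.ResidueField ↥(mgcA A K₁)) :=
    stb_isAlgClosed_residue hq hA (le_sup_left : beta0Field A ≤ mgcE A K₁)
  exact stb_cf_crossFrob hπ V₁ V₂ w (mgRingAut N (mgaRestrictEquiv (mgcE A K₁) φ hφ)) q
    hq.ne_zero h g (fun x => hg x) (stbmf_hΨR hφF hφ hπ) 𝔫 hc₁ hc₂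

end Concrete

end Fermat.Agent.STB
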