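import Fermat.Agent.STB.MainTwo
import Fermat.Agent.UNIP.MGChartsConcrete
import Fermat.Agent.UNIP.MGVert
import Fermat.Agent.UNIP.NodesSwap
import Fermat.Agent.UNIP.MGCoord

/-!
# STB-MG: `hnode₁` / `hnode₂` of `StbdInputs`, generic layers (helper3)

* `stbmn_ramified_of_associated` : `MgcRamified` does not depend on the uniformizer (up to a unit).
* `stbmn_stage` : abstract stage (setting of `UNIP/MGChartsStage.lean`): MG-4 `mgc_ramified` + the
  dictionary "`x ∈ 𝔪(V_c)` ⇔ `ρ_c x = 0`" + the weak form of U5 on the unramified chart give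
  `∃ j, MgcRamified j ϖ π ∧ j π = π ∧ ∀ 𝔫, StbNodeAt V₁ V₂ 𝔫 j π`, for ANY uniformizer `ϖ` of `A′`.
* `stbmn_modular` : the same for `K = F_N(E₀)`, `L = F_N(E′)`.
* `stbmn_rho_iff`, `stbmn_rho₀_iff` : the dictionary for `V = vtFam hB ιC hq hqM`.
* `stbmn_vt` : the vertical-valuation layer; inputs (SS1) and (SS2) ∨ (SS3) in the exact shape of
  `nodesReg_ker_J`, `nodesReg_chart_J` (resp. `nodesFull_…`).

Final statements: `STB/MGNodeReg.lean` (generic base, `RegChart` form), `STB/MGNodeFinal.lean`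
(`stbmn_hnode₁`, `stbmn_hnode₂`: unconditional, exact shape of `StbdInputs`).
-/

set_option autoImplicit false
set_option linter.style.haveILetI false
set_option linter.unusedSectionVars false
set_option linter.unusedVariables false

open Polynomial IntermediateField Fermat.Agent.INJ AlgebraicCurve ModularCurve Fermat.Agent.UNIP
open Fermat.Agent.AL

namespace Fermat.Agent.STB

section Unif

/-- `MgcRamified` does not depend on the choice of the uniformizer (up to a unit). -/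
theorem stbmn_ramified_of_associated {R R' : Type*} [CommRing R] [CommRing R']
    {j : R →+* R'} {ϖ₀ ϖ : R'} {p : R} (h : MgcRamified j ϖ₀ p) (hass : Associated ϖ₀ ϖ) :
    MgcRamified j ϖ p := by
  obtain ⟨w, hw⟩ := hass
  refine ⟨?_, ?_, ?_⟩
  · obtain ⟨z, hz⟩ := h.dvd
    refine ⟨(↑w⁻¹ : R') * z, ?_⟩
    rw [hz, ← hw]
    have := w.mul_inv
    calc ϖ₀ * z = ϖ₀ * ((w : R') * (↑w⁻¹ : R')) * z := by rw [this, mul_one]
      _ = ϖ₀ * ↑w * (↑w⁻¹ * z) := by ring
  · intro x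
    obtain ⟨c, z, hz⟩ := h.decomp x
    refine ⟨c, (↑w⁻¹ : R') * z, ?_⟩
    rw [hz, ← hw]
    have := w.mul_inv
    calc j c + ϖ₀ * z = j c + ϖ₀ * ((w : R') * (↑w⁻¹ : R')) * z := by rw [this, mul_one]
      _ = j c + ϖ₀ * ↑w * (↑w⁻¹ * z) := by ring
  · intro c hc
    apply h.cancel c
    obtain ⟨z, hz⟩ := hc
    exact ⟨(w : R') * z, by rw [hz, ← hw]; ring⟩

end Unif

section Stage

universe u v

variable {A₀ E₀ K : Type u} [CommRing A₀] [IsDomain A₀] [IsDiscreteValuationRing A₀]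
  [Field E₀] [CharZero E₀] [Algebra A₀ E₀] [IsFractionRing A₀ E₀]
  [Field K] [Algebra E₀ K] [Algebra A₀ K] [IsScalarTower A₀ E₀ K]

variable {A' E' L : Type v} [CommRing A'] [IsDomain A'] [IsDiscreteValuationRing A']
  [Field E'] [Algebra A' E'] [IsFractionRing A' E'] [CharZero E']
  [Field L] [Algebra E' L] [Algebra A' L] [IsScalarTower A' E' L]
  [Algebra A₀ A'] [Algebra K L] [Algebra A₀ L] [IsScalarTower A₀ K L] [IsScalarTower A₀ A' L]

/-- **hnode, abstract stage.**  `B₀ = integralClosure A₀[τ] K` the chart over the unramified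
base, `B' = zchClosure {τ}` the chart over `A'` (MG-4: `B'` has the same special fibre),
`V₁ V₂` two valuation subrings of `L` whose maximal ideals cut out `ker ρ₁`, `ker ρ₂` on `B₀`.
The dichotomy of U5 at every closed point of the special fibre of `B₀` gives `StbNodeAt` at
every closed point of `B'`, for ANY uniformizer `ϖ` of `A'`. -/
theorem stbmn_stage {π : A₀} (hπ : Irreducible π) (τ : K) [FiniteDimensional E₀⟮τ⟯ K]
    (hπu : ¬ IsUnit (algebraMap A₀ (integralClosure (Algebra.adjoin A₀ {τ}) K) π))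
    (hred : ∀ c : integralClosure (Algebra.adjoin A₀ {τ}) K,
      algebraMap A₀ (integralClosure (Algebra.adjoin A₀ {τ}) K) π ∣ c ^ 2 →
        algebraMap A₀ (integralClosure (Algebra.adjoin A₀ {τ}) K) π ∣ c)
    [Algebra.IsIntegral A₀ A']
    {π' : A'} (hπ' : Irreducible π') {e : ℕ}
    (hram : π' ^ e ∣ algebraMap A₀ A' π)
    (g₀ : A₀[X]) (hgm : g₀.Monic) (hroot : aeval π' g₀ = 0) (hdeg : g₀.natDegree ≤ e)
    (htop : Algebra.adjoin K ({algebraMap A' L π'} : Set L) = ⊤)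
    {ϖ : A'} (hϖ : Irreducible ϖ)
    (V₁ V₂ : ValuationSubring L)
    {S₁ S₂ : Type*} [CommRing S₁] [CommRing S₂]
    (ρ₁ : integralClosure (Algebra.adjoin A₀ {τ}) K →+* S₁)
    (ρ₂ : integralClosure (Algebra.adjoin A₀ {τ}) K →+* S₂)
    (hρ₁ : ∀ x : integralClosure (Algebra.adjoin A₀ {τ}) K,
      algebraMap K L (x : K) ∈ V₁.nonunits ↔ ρ₁ x = 0)
    (hρ₂ : ∀ x : integralClosure (Algebra.adjoin A₀ {τ}) K,
      algebraMap K L (x : K) ∈ V₂.nonunits ↔ ρ₂ x = 0)
    (hU5 : ∀ 𝔪 : Ideal (integralClosure (Algebra.adjoin A₀ {τ}) K), 𝔪.IsMaximal →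
      algebraMap A₀ (integralClosure (Algebra.adjoin A₀ {τ}) K) π ∈ 𝔪 →
      (∃ s ∈ 𝔪, NodesLocGen 𝔪
        {algebraMap A₀ (integralClosure (Algebra.adjoin A₀ {τ}) K) π, s}) ∨
      ((∀ x, ρ₁ x = 0 → x ∈ 𝔪) ∧ (∀ x, ρ₂ x = 0 → x ∈ 𝔪) ∧
        ∃ X Y : integralClosure (Algebra.adjoin A₀ {τ}) K, ρ₁ X = 0 ∧ ρ₂ Y = 0 ∧
          NodesLocGen 𝔪 {algebraMap A₀ (integralClosure (Algebra.adjoin A₀ {τ}) K) π, X, Y})) :
    ∃ j : integralClosure (Algebra.adjoin A₀ {τ}) K →+*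
        ↥(zchClosure (A₀ := A') ({algebraMap K L τ} : Set L)),
      MgcRamified j (algebraMap A' ↥(zchClosure (A₀ := A') ({algebraMap K L τ} : Set L)) ϖ)
        (algebraMap A₀ (integralClosure (Algebra.adjoin A₀ {τ}) K) π) ∧
      j (algebraMap A₀ (integralClosure (Algebra.adjoin A₀ {τ}) K) π) =
        algebraMap A' ↥(zchClosure (A₀ := A') ({algebraMap K L τ} : Set L))
          (algebraMap A₀ A' π) ∧
      ∀ 𝔫 : AtPt (F := L) ϖ (algebraMap K L τ),
        StbNodeAt V₁ V₂ 𝔫 j (algebraMap A₀ (integralClosure (Algebra.adjoin A₀ {τ}) K) π) := by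
  have hinj : Function.Injective
      (algebraMap ↥(zchClosure (A₀ := A') ({algebraMap K L τ} : Set L)) L) :=
    Subtype.val_injective
  have hB : ∀ y : L,
      y ∈ (algebraMap ↥(zchClosure (A₀ := A') ({algebraMap K L τ} : Set L)) L).range ↔
        IsIntegral (Algebra.adjoin A' ({algebraMap K L τ} : Set L)) y := by
    intro y
    constructor
    · rintro ⟨b, rfl⟩
      exact mem_zchClosure.mp b.2
    · intro hy
      exact ⟨⟨y, mem_zchClosure.mpr hy⟩, rfl⟩
  obtain ⟨j, hj, hR₀⟩ := mgc_ramified (E₀ := E₀)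
    (B' := ↥(zchClosure (A₀ := A') ({algebraMap K L τ} : Set L))) hπ τ hπu hred hπ'.ne_zero
    hπ'.not_isUnit hram g₀ hgm hroot hdeg htop hinj hB
  have hass : Associated
      (algebraMap A' ↥(zchClosure (A₀ := A') ({algebraMap K L τ} : Set L)) π')
      (algebraMap A' ↥(zchClosure (A₀ := A') ({algebraMap K L τ} : Set L)) ϖ) :=
    (IsDiscreteValuationRing.associated_of_irreducible A' hπ' hϖ).map
      (algebraMap A' ↥(zchClosure (A₀ := A') ({algebraMap K L τ} : Set L)))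
  have hR : MgcRamified j
      (algebraMap A' ↥(zchClosure (A₀ := A') ({algebraMap K L τ} : Set L)) ϖ)
      (algebraMap A₀ (integralClosure (Algebra.adjoin A₀ {τ}) K) π) :=
    stbmn_ramified_of_associated hR₀ hass
  have hjL : ∀ x : integralClosure (Algebra.adjoin A₀ {τ}) K,
      ((j x : ↥(zchClosure (A₀ := A') ({algebraMap K L τ} : Set L))) : L) =
        algebraMap K L (x : K) := hj
  refine ⟨j, hR, ?_, ?_⟩
  · apply hinj
    rw [hj, ← IsScalarTower.algebraMap_apply A' _ L,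
      ← IsScalarTower.algebraMap_apply A₀ A' L]
    have : ((algebraMap A₀ (integralClosure (Algebra.adjoin A₀ {τ}) K) π :
        integralClosure (Algebra.adjoin A₀ {τ}) K) : K) = algebraMap A₀ K π := rfl
    rw [this, ← IsScalarTower.algebraMap_apply A₀ K L]
  · intro 𝔫
    haveI := 𝔫.2.1
    have hmax : (𝔫.1.comap j).IsMaximal := hR.mgg_comap_isMaximal 𝔫.1 𝔫.2.2
    have hp : algebraMap A₀ (integralClosure (Algebra.adjoin A₀ {τ}) K) π ∈ 𝔫.1.comap j :=
      hR.mgg_mem_comap 𝔫.2.2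
    rcases hU5 (𝔫.1.comap j) hmax hp with ⟨s, hs, hgen⟩ | ⟨h1, h2, X, Y, hX, hY, hgen⟩
    · exact Or.inl ⟨s, Ideal.mem_comap.1 hs, hgen⟩
    · refine Or.inr ⟨fun x hx => Ideal.mem_comap.1 (h1 x ((hρ₁ x).1 ?_)),
        fun x hx => Ideal.mem_comap.1 (h2 x ((hρ₂ x).1 ?_)), X, Y, ?_, ?_, hgen⟩
      · rw [← hjL x]; exact hx
      · rw [← hjL x]; exact hx
      · rw [hjL X]; exact (hρ₁ X).2 hX
      · rw [hjL Y]; exact (hρ₂ Y).2 hY

end Stage


section Modular

universe u v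

variable {A₀ E₀ : Type u} [CommRing A₀] [IsDomain A₀] [IsDiscreteValuationRing A₀]
  [Field E₀] [CharZero E₀] [Algebra A₀ E₀] [IsFractionRing A₀ E₀]
  {A' E' : Type v} [CommRing A'] [IsDomain A'] [IsDiscreteValuationRing A']
  [Field E'] [CharZero E'] [Algebra A' E'] [IsFractionRing A' E']
  [Algebra E₀ E'] [Algebra A₀ A'] (N : ℕ)
  [Algebra A₀ (modularFunctionFieldFullC E₀ N)]
  [IsScalarTower A₀ E₀ (modularFunctionFieldFullC E₀ N)]
  [Algebra A' (modularFunctionFieldFullC E' N)]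
  [IsScalarTower A' E' (modularFunctionFieldFullC E' N)]

/-- **hnode, modular layer.**  `K = F_N(E₀)`, `L = F_N(E')`, chart `t = ` the image of the
coordinate `τ` of `K`. -/
theorem stbmn_modular
    (hcomp : ∀ a : A₀, algebraMap A' E' (algebraMap A₀ A' a) =
      algebraMap E₀ E' (algebraMap A₀ E₀ a))
    [Algebra.IsIntegral A₀ A']
    {π : A₀} (hπ : Irreducible π) (τ : modularFunctionFieldFullC E₀ N)
    [FiniteDimensional E₀⟮τ⟯ (modularFunctionFieldFullC E₀ N)]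
    (hπu : ¬ IsUnit (algebraMap A₀
      (integralClosure (Algebra.adjoin A₀ {τ}) (modularFunctionFieldFullC E₀ N)) π))
    (hred : ∀ c : integralClosure (Algebra.adjoin A₀ {τ}) (modularFunctionFieldFullC E₀ N),
      algebraMap A₀ (integralClosure (Algebra.adjoin A₀ {τ})
        (modularFunctionFieldFullC E₀ N)) π ∣ c ^ 2 →
      algebraMap A₀ (integralClosure (Algebra.adjoin A₀ {τ})
        (modularFunctionFieldFullC E₀ N)) π ∣ c)
    {π' : A'} (hπ' : Irreducible π') {e : ℕ}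
    (hram : π' ^ e ∣ algebraMap A₀ A' π)
    (g₀ : A₀[X]) (hgm : g₀.Monic) (hroot : aeval π' g₀ = 0) (hdeg : g₀.natDegree ≤ e)
    (hadj : Algebra.adjoin E₀ ({algebraMap A' E' π'} : Set E') = ⊤)
    (halg : IsAlgebraic E₀ (algebraMap A' E' π'))
    {t : modularFunctionFieldFullC E' N} (ht : mgcEmb E₀ E' N τ = t)
    {ϖ : A'} (hϖ : Irreducible ϖ)
    (V₁ V₂ : ValuationSubring (modularFunctionFieldFullC E' N))
    {S₁ S₂ : Type*} [CommRing S₁] [CommRing S₂]
    (ρ₁ : integralClosure (Algebra.adjoin A₀ {τ}) (modularFunctionFieldFullC E₀ N) →+* S₁)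
    (ρ₂ : integralClosure (Algebra.adjoin A₀ {τ}) (modularFunctionFieldFullC E₀ N) →+* S₂)
    (hρ₁ : ∀ x : integralClosure (Algebra.adjoin A₀ {τ}) (modularFunctionFieldFullC E₀ N),
      mgcEmb E₀ E' N (x : modularFunctionFieldFullC E₀ N) ∈ V₁.nonunits ↔ ρ₁ x = 0)
    (hρ₂ : ∀ x : integralClosure (Algebra.adjoin A₀ {τ}) (modularFunctionFieldFullC E₀ N),
      mgcEmb E₀ E' N (x : modularFunctionFieldFullC E₀ N) ∈ V₂.nonunits ↔ ρ₂ x = 0)
    (hU5 : ∀ 𝔪 : Ideal (integralClosure (Algebra.adjoin A₀ {τ})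
        (modularFunctionFieldFullC E₀ N)), 𝔪.IsMaximal →
      algebraMap A₀ (integralClosure (Algebra.adjoin A₀ {τ})
        (modularFunctionFieldFullC E₀ N)) π ∈ 𝔪 →
      (∃ s ∈ 𝔪, NodesLocGen 𝔪 {algebraMap A₀ (integralClosure (Algebra.adjoin A₀ {τ})
        (modularFunctionFieldFullC E₀ N)) π, s}) ∨
      ((∀ x, ρ₁ x = 0 → x ∈ 𝔪) ∧ (∀ x, ρ₂ x = 0 → x ∈ 𝔪) ∧
        ∃ X Y : integralClosure (Algebra.adjoin A₀ {τ}) (modularFunctionFieldFullC E₀ N),
          ρ₁ X = 0 ∧ ρ₂ Y = 0 ∧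
          NodesLocGen 𝔪 {algebraMap A₀ (integralClosure (Algebra.adjoin A₀ {τ})
            (modularFunctionFieldFullC E₀ N)) π, X, Y})) :
    ∃ j : integralClosure (Algebra.adjoin A₀ {τ}) (modularFunctionFieldFullC E₀ N) →+*
        ↥(zchClosure (A₀ := A') ({t} : Set (modularFunctionFieldFullC E' N))),
      MgcRamified j (algebraMap A' ↥(zchClosure (A₀ := A')
          ({t} : Set (modularFunctionFieldFullC E' N))) ϖ)
        (algebraMap A₀ (integralClosure (Algebra.adjoin A₀ {τ})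
          (modularFunctionFieldFullC E₀ N)) π) ∧
      j (algebraMap A₀ (integralClosure (Algebra.adjoin A₀ {τ})
          (modularFunctionFieldFullC E₀ N)) π) =
        algebraMap A' ↥(zchClosure (A₀ := A') ({t} : Set (modularFunctionFieldFullC E' N)))
          (algebraMap A₀ A' π) ∧
      ∀ 𝔫 : AtPt (F := modularFunctionFieldFullC E' N) ϖ t,
        StbNodeAt V₁ V₂ 𝔫 j (algebraMap A₀ (integralClosure (Algebra.adjoin A₀ {τ})
          (modularFunctionFieldFullC E₀ N)) π) := by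
  letI := mgcAlgebra E₀ E' N
  letI := mgccAlgebra (A₀ := A₀) (E₀ := E₀) (E' := E') N
  haveI := mgcc_isScalarTower (A₀ := A₀) (E₀ := E₀) (E' := E') N
  haveI := mgcc_isScalarTower' (A₀ := A₀) (E₀ := E₀) (A' := A') (E' := E') N hcomp
  subst ht
  exact stbmn_stage (E₀ := E₀) hπ τ hπu hred hπ' hram g₀ hgm hroot hdeg
    (mgcc_htop (E₀ := E₀) N hadj halg) hϖ V₁ V₂ ρ₁ ρ₂ hρ₁ hρ₂ hU5

end Modular

section Dict

variable {A₀ E₀ k : Type*} [CommRing A₀] [IsDomain A₀] [IsDiscreteValuationRing A₀]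
  [Field E₀] [Algebra A₀ E₀] [IsFractionRing A₀ E₀] [Field k] {r : A₀ →+* k} {π : A₀}
  (hB : VtBase (algebraMap A₀ E₀) r π) (hπu : ¬ IsUnit π) (ιC : E₀ →+* ℂ)
  {q M : ℕ} [NeZero q] [NeZero M] [NeZero (M * q)] (hq : q.Prime) (hqM : ¬ q ∣ M)
  [Algebra A₀ (modularFunctionFieldFullC E₀ (M * q))]
  [IsScalarTower A₀ E₀ (modularFunctionFieldFullC E₀ (M * q))]
  (t : modularFunctionFieldFullC E₀ (M * q))

/-- **Dictionary at `∞`**: on the chart, `𝔪(V_∞) = ker ρ`. -/
theorem stbmn_rho_iff (ht : (t : LaurentSeries E₀) ∈ gaussRing (algebraMap A₀ E₀) r)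
    (x : integralClosure (Algebra.adjoin A₀ {t}) (modularFunctionFieldFullC E₀ (M * q))) :
    (x : modularFunctionFieldFullC E₀ (M * q)) ∈ (vtFam hB ιC hq hqM true).nonunits ↔
      nodesFrobChartRed r hB.ne hπu hB.ker hB.rπ (nodesFrob_full_le (M * q)) t ht x = 0 := by
  rw [vtFam_mem_nonunits_iff]
  constructor
  · rintro ⟨h, h0⟩
    exact h0
  · intro h
    exact ⟨_, h⟩

/-- **Dictionary at `0`**: on the chart, `𝔪(V_0) = ker ρ₀`. -/
theorem stbmn_rho₀_iff
    (hwt : (((atkinLehner E₀ ιC hq hqM).toAlgHom t : modularFunctionFieldFullC E₀ (M * q)) :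
      LaurentSeries E₀) ∈ gaussRing (algebraMap A₀ E₀) r)
    (x : integralClosure (Algebra.adjoin A₀ {t}) (modularFunctionFieldFullC E₀ (M * q))) :
    (x : modularFunctionFieldFullC E₀ (M * q)) ∈ (vtFam hB ιC hq hqM false).nonunits ↔
      nodesSwapRho₀ r hB.ne hπu hB.ker hB.rπ (nodesFrob_full_le (M * q))
        (atkinLehner E₀ ιC hq hqM).toAlgHom t hwt x = 0 := by
  rw [vtFam_mem_nonunits_iff]
  constructor
  · rintro ⟨h, h0⟩
    exact h0
  · intro h
    exact ⟨_, h⟩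

end Dict

section VtLayer

universe u v

variable {A₀ E₀ : Type u} [CommRing A₀] [IsDomain A₀] [IsDiscreteValuationRing A₀]
  [Field E₀] [CharZero E₀] [Algebra A₀ E₀] [IsFractionRing A₀ E₀]
  {A' E' : Type v} [CommRing A'] [IsDomain A'] [IsDiscreteValuationRing A']
  [Field E'] [CharZero E'] [Algebra A' E'] [IsFractionRing A' E']
  [Algebra E₀ E'] [Algebra A₀ A']
  {q M : ℕ} [NeZero q] [NeZero M] [NeZero (M * q)] (hq : q.Prime) (hqM : ¬ q ∣ M)
  [Algebra A₀ (modularFunctionFieldFullC E₀ (M * q))]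
  [IsScalarTower A₀ E₀ (modularFunctionFieldFullC E₀ (M * q))]
  [Algebra A' (modularFunctionFieldFullC E' (M * q))]
  [IsScalarTower A' E' (modularFunctionFieldFullC E' (M * q))]
  {k : Type*} [Field k] {r : A₀ →+* k} {k' : Type*} [Field k'] {r' : A' →+* k'}

/-- the image of `π` in the chart, as an element of `F` -/
theorem stbmn_unif_coe {π : A₀} (t : modularFunctionFieldFullC E₀ (M * q)) :
    ((algebraMap A₀ (integralClosure (Algebra.adjoin A₀ {t})
      (modularFunctionFieldFullC E₀ (M * q))) π :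
        integralClosure (Algebra.adjoin A₀ {t}) (modularFunctionFieldFullC E₀ (M * q))) :
      modularFunctionFieldFullC E₀ (M * q)) =
      mgaConst E₀ (M * q) (algebraMap A₀ E₀ π) := by
  rw [mgaConst_apply, ← IsScalarTower.algebraMap_apply A₀ E₀]
  rfl

/-- **hnode, vertical-valuation layer.**  The two valuation rings are `vtFam hB' ιC' hq hqM`
over the ramified base, `ρ`, `ρ₀` are the two reductions of U5 on the chart `τ` over the
unramified base; inputs: (SS1) `ker ρ ∩ ker ρ₀ = π B₀` and the dichotomy (SS2) ∨ (SS3) in the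
exact shape of `nodes_modular_chart`. -/
theorem stbmn_vt
    (hcomp : ∀ a : A₀, algebraMap A' E' (algebraMap A₀ A' a) =
      algebraMap E₀ E' (algebraMap A₀ E₀ a))
    [Algebra.IsIntegral A₀ A']
    {π : A₀} (hπ : Irreducible π) (hB : VtBase (algebraMap A₀ E₀) r π) (ιC₀ : E₀ →+* ℂ)
    (τ : modularFunctionFieldFullC E₀ (M * q))
    [FiniteDimensional E₀⟮τ⟯ (modularFunctionFieldFullC E₀ (M * q))]
    (hτ : (τ : LaurentSeries E₀) ∈ gaussRing (algebraMap A₀ E₀) r)
    (hwτ : (((atkinLehner E₀ ιC₀ hq hqM).toAlgHom τ : modularFunctionFieldFullC E₀ (M * q)) :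
      LaurentSeries E₀) ∈ gaussRing (algebraMap A₀ E₀) r)
    {π' : A'} (hπ' : Irreducible π') {e : ℕ}
    (hram : π' ^ e ∣ algebraMap A₀ A' π)
    (g₀ : A₀[X]) (hgm : g₀.Monic) (hroot : aeval π' g₀ = 0) (hdeg : g₀.natDegree ≤ e)
    (hadj : Algebra.adjoin E₀ ({algebraMap A' E' π'} : Set E') = ⊤)
    (halg : IsAlgebraic E₀ (algebraMap A' E' π'))
    {t : modularFunctionFieldFullC E' (M * q)} (ht : mgcEmb E₀ E' (M * q) τ = t)
    {ϖ : A'} (hϖ : Irreducible ϖ) (hB' : VtBase (algebraMap A' E') r' ϖ) (ιC' : E' →+* ℂ)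
    {κ : k →+* k'}
    (hc : VtCompat (algebraMap A₀ E₀) r (algebraMap A' E') r' (algebraMap E₀ E') κ)
    (hker : ∀ x : integralClosure (Algebra.adjoin A₀ {τ}) (modularFunctionFieldFullC E₀ (M * q)),
      nodesFrobChartRed r hB.ne hπ.not_isUnit hB.ker hB.rπ (nodesFrob_full_le (M * q)) τ hτ x
        = 0 →
      nodesSwapRho₀ r hB.ne hπ.not_isUnit hB.ker hB.rπ (nodesFrob_full_le (M * q))
        (atkinLehner E₀ ιC₀ hq hqM).toAlgHom τ hwτ x = 0 →
      algebraMap A₀ (integralClosure (Algebra.adjoin A₀ {τ})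
        (modularFunctionFieldFullC E₀ (M * q))) π ∣ x)
    (hU5 : ∀ 𝔫 : Ideal (integralClosure (Algebra.adjoin A₀ {τ})
        (modularFunctionFieldFullC E₀ (M * q))), 𝔫.IsMaximal →
      algebraMap A₀ (integralClosure (Algebra.adjoin A₀ {τ})
        (modularFunctionFieldFullC E₀ (M * q))) π ∈ 𝔫 →
      (∃ s ∈ 𝔫, NodesLocGen 𝔫 {algebraMap A₀ (integralClosure (Algebra.adjoin A₀ {τ})
        (modularFunctionFieldFullC E₀ (M * q))) π, s}) ∨
      ((∀ x, nodesFrobChartRed r hB.ne hπ.not_isUnit hB.ker hB.rπ (nodesFrob_full_le (M * q))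
          τ hτ x = 0 → x ∈ 𝔫) ∧
       (∀ x, nodesSwapRho₀ r hB.ne hπ.not_isUnit hB.ker hB.rπ (nodesFrob_full_le (M * q))
          (atkinLehner E₀ ιC₀ hq hqM).toAlgHom τ hwτ x = 0 → x ∈ 𝔫) ∧
        ∃ X Y : integralClosure (Algebra.adjoin A₀ {τ}) (modularFunctionFieldFullC E₀ (M * q)),
          nodesFrobChartRed r hB.ne hπ.not_isUnit hB.ker hB.rπ (nodesFrob_full_le (M * q))
            τ hτ X = 0 ∧
          nodesSwapRho₀ r hB.ne hπ.not_isUnit hB.ker hB.rπ (nodesFrob_full_le (M * q))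
            (atkinLehner E₀ ιC₀ hq hqM).toAlgHom τ hwτ Y = 0 ∧
          NodesSmoothAt (nodesSwapRho₀ r hB.ne hπ.not_isUnit hB.ker hB.rπ
            (nodesFrob_full_le (M * q)) (atkinLehner E₀ ιC₀ hq hqM).toAlgHom τ hwτ) 𝔫 X ∧
          NodesSmoothAt (nodesFrobChartRed r hB.ne hπ.not_isUnit hB.ker hB.rπ
            (nodesFrob_full_le (M * q)) τ hτ) 𝔫 Y ∧
          algebraMap A₀ (integralClosure (Algebra.adjoin A₀ {τ})
            (modularFunctionFieldFullC E₀ (M * q))) π ∣ X * Y ∧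
          NodesLocGen 𝔫 {algebraMap A₀ (integralClosure (Algebra.adjoin A₀ {τ})
            (modularFunctionFieldFullC E₀ (M * q))) π, X, Y})) :
    ∃ j : integralClosure (Algebra.adjoin A₀ {τ}) (modularFunctionFieldFullC E₀ (M * q)) →+*
        ↥(zchClosure (A₀ := A') ({t} : Set (modularFunctionFieldFullC E' (M * q)))),
      MgcRamified j (algebraMap A' ↥(zchClosure (A₀ := A')
          ({t} : Set (modularFunctionFieldFullC E' (M * q)))) ϖ)
        (algebraMap A₀ (integralClosure (Algebra.adjoin A₀ {τ})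
          (modularFunctionFieldFullC E₀ (M * q))) π) ∧
      j (algebraMap A₀ (integralClosure (Algebra.adjoin A₀ {τ})
          (modularFunctionFieldFullC E₀ (M * q))) π) =
        algebraMap A' ↥(zchClosure (A₀ := A')
          ({t} : Set (modularFunctionFieldFullC E' (M * q)))) (algebraMap A₀ A' π) ∧
      ∀ 𝔫 : AtPt (F := modularFunctionFieldFullC E' (M * q)) ϖ t,
        StbNodeAt (vtFam hB' ιC' hq hqM true) (vtFam hB' ιC' hq hqM false) 𝔫 j
          (algebraMap A₀ (integralClosure (Algebra.adjoin A₀ {τ})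
            (modularFunctionFieldFullC E₀ (M * q))) π) := by
  -- `ρ π = 0`, `ρ₀ π = 0`
  have hρπ : nodesFrobChartRed r hB.ne hπ.not_isUnit hB.ker hB.rπ (nodesFrob_full_le (M * q))
      τ hτ (algebraMap A₀ (integralClosure (Algebra.adjoin A₀ {τ})
        (modularFunctionFieldFullC E₀ (M * q))) π) = 0 := by
    rw [← stbmn_rho_iff hB hπ.not_isUnit ιC₀ hq hqM τ hτ, stbmn_unif_coe]
    exact vtFam_unif_mem_nonunits hB ιC₀ hq hqM true
  have hρ₀π : nodesSwapRho₀ r hB.ne hπ.not_isUnit hB.ker hB.rπ (nodesFrob_full_le (M * q))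
      (atkinLehner E₀ ιC₀ hq hqM).toAlgHom τ hwτ
      (algebraMap A₀ (integralClosure (Algebra.adjoin A₀ {τ})
        (modularFunctionFieldFullC E₀ (M * q))) π) = 0 := by
    rw [← stbmn_rho₀_iff hB hπ.not_isUnit ιC₀ hq hqM τ hwτ, stbmn_unif_coe]
    exact vtFam_unif_mem_nonunits hB ιC₀ hq hqM false
  have hπu := mgc_not_isUnit_of_map_eq_zero _ hρπ
  have hred := mgc_hred_of_ker hρπ hρ₀π hker
  refine stbmn_modular (A₀ := A₀) (E₀ := E₀) (A' := A') (E' := E') (M * q) hcomp hπ τ hπu hred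
    hπ' hram g₀ hgm hroot hdeg hadj halg ht hϖ
    (vtFam hB' ιC' hq hqM true) (vtFam hB' ιC' hq hqM false)
    (nodesFrobChartRed r hB.ne hπ.not_isUnit hB.ker hB.rπ (nodesFrob_full_le (M * q)) τ hτ)
    (nodesSwapRho₀ r hB.ne hπ.not_isUnit hB.ker hB.rπ (nodesFrob_full_le (M * q))
      (atkinLehner E₀ ιC₀ hq hqM).toAlgHom τ hwτ) ?_ ?_ ?_
  · intro x
    exact (vtFam_baseChange_mem_nonunits_iff hB hB' ιC₀ ιC' hq hqM hc true _).trans
      (stbmn_rho_iff hB hπ.not_isUnit ιC₀ hq hqM τ hτ x)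
  · intro x
    exact (vtFam_baseChange_mem_nonunits_iff hB hB' ιC₀ ιC' hq hqM hc false _).trans
      (stbmn_rho₀_iff hB hπ.not_isUnit ιC₀ hq hqM τ hwτ x)
  · intro 𝔪 h𝔪 hp
    exact mgcoord_u5_weaken _ _ _ 𝔪 (hU5 𝔪 h𝔪 hp)

end VtLayer

end Fermat.Agent.STB
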