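import Fermat.Agent.STB.FrobChartJ
import Fermat.Agent.UNIP.MGVertInertia

/-!
# STB: the bridge `stbVinf` / `stbV0` (STB/FrobChart) = `mgvV` (UNIP/MGVertInertia)

`A` a valuation subring of `ℚ̄`, `K₀ ⊆ ℚ̄` with `A ∩ K₀` a discrete valuation ring, uniformizer `π`.

* `stb_mgb_gaussBase hπ : GaussBase (residue) π`;
* `stb_mgb_Vinf` : `stbVinf hB (M * q) = mgvV hπ ιC hq hqM true`;
* `stb_mgb_V0`   : `stbV0 hB ιC hq hqM = mgvV hπ ιC hq hqM false`

(for ANY `hB : GaussBase (residue) π`; `stb_mgb_Vinf'`, `stb_mgb_V0'` with `hB = stb_mgb_gaussBase hπ`).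
-/

set_option autoImplicit false
set_option linter.unusedSectionVars false
set_option linter.style.haveILetI false
set_option synthInstance.maxHeartbeats 400000

noncomputable section

namespace Fermat.Agent.STB

open ModularCurve Fermat.Agent.INJ Fermat.Agent.ES.G2 Fermat.Agent.UNIP

variable {A : ValuationSubring Qb} {K₀ : IntermediateField ℚ Qb}
  [IsDiscreteValuationRing ↥(beta0Ring A K₀)] {π : ↥(beta0Ring A K₀)} (hπ : Irreducible π)
  (ιC : ↥K₀ →+* ℂ) {q M : ℕ} [NeZero q] [NeZero M] [NeZero (M * q)]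
  (hq : q.Prime) (hqM : ¬ q ∣ M)

/-- the Gauss base of `A ∩ K₀` -/
theorem stb_mgb_gaussBase {π : ↥(beta0Ring A K₀)} (hπ : Irreducible π) :
    GaussBase (IsLocalRing.residue ↥(beta0Ring A K₀)) π :=
  stb_gaussBase_of_vtBase (E := ↥K₀) (vtBase_residue hπ)

/-- `V_∞` of STB/FrobChart is `mgvV … true` -/
theorem stb_mgb_Vinf (hB : GaussBase (IsLocalRing.residue ↥(beta0Ring A K₀)) π) :
    stbVinf (E := ↥K₀) hB (M * q) = mgvV hπ ιC hq hqM true :=
  SetLike.ext fun _ => Iff.rfl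

/-- `V_0` of STB/FrobChart is `mgvV … false` -/
theorem stb_mgb_V0 (hB : GaussBase (IsLocalRing.residue ↥(beta0Ring A K₀)) π) :
    stbV0 (E := ↥K₀) hB ιC hq hqM = mgvV hπ ιC hq hqM false :=
  SetLike.ext fun _ => Iff.rfl

theorem stb_mgb_Vinf' :
    stbVinf (E := ↥K₀) (stb_mgb_gaussBase hπ) (M * q) = mgvV hπ ιC hq hqM true :=
  stb_mgb_Vinf hπ ιC hq hqM _

theorem stb_mgb_V0' :
    stbV0 (E := ↥K₀) (stb_mgb_gaussBase hπ) ιC hq hqM = mgvV hπ ιC hq hqM false :=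
  stb_mgb_V0 hπ ιC hq hqM _

end Fermat.Agent.STB
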