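import Fermat.Agent.ES.MuCore
import Fermat.Agent.ES.RC.PlaceCusp
import Fermat.Agent.ES.CuspRoot

/-!
# STB-P2, analytic half (MuPar): the multiplier character of a torsion class is parabolic

`MuRel M n x χ` (ES/Mu.lean): `χ` is the multiplier character of an `n`-th root of a Kummer
function `u` of the class `x ∈ J₀(M)(ℚ̄)[n]`.  The orders of `u` at all places of `K_ℚ̄` are
divisible by `n`; every cusp `σ∞` with period `h` is a place of `K_ℂ` (`RC.stmtCusp`), which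
restricts to a place of `K_ℚ̄` (`baseChangeDown`); hence the order of `u ∘ σ` in `q_h` is divisible
by `n`, the root is `h`-periodic near `i∞` (`periodic_cross_of_pow_mul_eq`), and the multiplier of
`σ T^h σ⁻¹` is `1`.

* `stb_mupar_conj` : an element of `SL(2, ℤ)` with `tr² = 4` is `± σ T^k σ⁻¹`;
* `stb_mupar_dvd_ordCusp` : `n ∣ ord_cusp a − ord_cusp g` for a Kummer function `u = a / g`;
* `stb_mupar` : `MuRel M n x χ → IsParabolicHom (Gamma0 M) χ`.
-/

set_option autoImplicit false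
set_option linter.style.haveILetI false

noncomputable section

namespace Fermat.Agent.STB

open ModularCurve AlgebraicCurve CongruenceSubgroup UpperHalfPlane ModularCurve.Period
open Fermat.Agent.ES Fermat.Agent.S24 Fermat.Agent.S28 Fermat.Agent.ES.RC
open scoped MatrixGroups Manifold

attribute [local instance] algKbC

/-! ### Parabolic elements are `± σ T^k σ⁻¹` -/

/-- an upper triangular element of `SL(2, ℤ)` is `± T^k` -/
theorem stb_mupar_upper (β : SL(2, ℤ)) (hβ : β 1 0 = 0) :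
    ∃ k : ℤ, β = ModularGroup.T ^ k ∨ β = -(ModularGroup.T ^ k) := by
  have hdet : β 0 0 * β 1 1 - β 0 1 * β 1 0 = 1 := by
    have h := β.det_coe
    rwa [Matrix.det_fin_two] at h
  rw [hβ, mul_zero, sub_zero] at hdet
  rcases Int.eq_one_or_neg_one_of_mul_eq_one' hdet with ⟨h0, h1⟩ | ⟨h0, h1⟩
  · refine ⟨β 0 1, Or.inl ?_⟩
    apply Subtype.ext
    rw [ModularGroup.coe_T_zpow]
    ext i j
    fin_cases i <;> fin_cases j
    · simpa using h0
    · simp
    · simpa using hβ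
    · simpa using h1
  · refine ⟨-β 0 1, Or.inr ?_⟩
    apply Subtype.ext
    rw [Matrix.SpecialLinearGroup.coe_neg, ModularGroup.coe_T_zpow]
    ext i j
    fin_cases i <;> fin_cases j
    · simpa using h0
    · simp
    · simpa using hβ
    · simpa using h1

/-- an element of `SL(2, ℤ)` with `tr² = 4` is `± σ T^k σ⁻¹` -/
theorem stb_mupar_conj (γ : SL(2, ℤ))
    (hγ : ((γ : SL(2, ℤ)) : Matrix (Fin 2) (Fin 2) ℤ).trace ^ 2 = 4) :
    ∃ (σ : SL(2, ℤ)) (k : ℤ),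
      γ = σ * ModularGroup.T ^ k * σ⁻¹ ∨ γ = -(σ * ModularGroup.T ^ k * σ⁻¹) := by
  obtain ⟨δ, β, hβ, hγδ⟩ := Fermat.Agent.S21.parabolic_exists_conj_upper γ hγ
  have e : γ = δ * β * δ⁻¹ := by
    rw [← hγδ]; group
  obtain ⟨k, hk | hk⟩ := stb_mupar_upper β hβ
  · exact ⟨δ, k, Or.inl (by rw [e, hk])⟩
  · refine ⟨δ, k, Or.inr ?_⟩
    rw [e, hk]
    simp

variable (M : ℕ) [NeZero M]

omit [NeZero M] in
theorem stb_mupar_neg_mem {γ : SL(2, ℤ)} (h : γ ∈ Gamma0 M) : -γ ∈ Gamma0 M := by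
  rw [Gamma0_mem] at h ⊢
  rw [Matrix.SpecialLinearGroup.coe_neg, Matrix.neg_apply]
  push_cast
  rw [h, neg_zero]

/-! ### Divisibility of the order at a cusp -/

/-- **Cusp divisibility.**  If all orders of `u ∈ K_ℚ̄` at the places of `K_ℚ̄` are divisible by
`n` and `u = a / g` analytically, then `n` divides `ord_cusp a − ord_cusp g` at every cusp. -/
theorem stb_mupar_dvd_ordCusp {n : ℕ} {u : modularFunctionFieldBar M} (hu0 : u ≠ 0)
    (hdvd : ∀ v : Place Kb (modularFunctionFieldBar M), (n : ℤ) ∣ v.ord u)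
    {a g : ℍ → ℂ} (hfrac : IsAnFrac M u a g) {h : ℕ} {σ : SL(2, ℤ)}
    (hp : IsCuspPeriod M h σ) :
    a ≠ 0 ∧ (n : ℤ) ∣ ordCusp h σ a - ordCusp h σ g := by
  obtain ⟨ha, hg, hg0, hL⟩ := hfrac
  have hιu : iotaC M u ≠ 0 := fun h0 => hu0 (iotaC_injective M (by rw [h0, map_zero]))
  have hg' : laurentOf g ≠ 0 := fun h0 => hg0 ((laurentOf_eq_zero_iff hg.isMerInf).mp h0)
  have ha0 : a ≠ 0 := by
    rintro rfl
    rw [laurentOf_zero] at hL
    rcases mul_eq_zero.mp hL with h1 | h1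
    · exact hιu (Subtype.ext h1)
    · exact hg' h1
  refine ⟨ha0, ?_⟩
  letI := rc_algebra M
  haveI := rc_isScalarTower M
  haveI := rc_isFractionRing M
  set a' : modFunAlg M := ⟨a, ha⟩ with ha'
  set g' : modFunAlg M := ⟨g, hg⟩ with hg''
  have ha'0 : a' ≠ 0 := fun h0 => ha0 (congrArg Subtype.val h0)
  have hg'0 : g' ≠ 0 := fun h0 => hg0 (congrArg Subtype.val h0)
  have hG := algebraMap_modFunAlg_ne_zero M (modularFunctionFieldFullC ℂ M) hg'0
  have hA := algebraMap_modFunAlg_ne_zero M (modularFunctionFieldFullC ℂ M) ha'0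
  have hquot : algebraMap (modFunAlg M) (modularFunctionFieldFullC ℂ M) a' /
      algebraMap (modFunAlg M) (modularFunctionFieldFullC ℂ M) g' = iotaC M u := by
    rw [div_eq_iff hG]
    apply Subtype.ext
    exact hL.symm
  obtain ⟨w, e, -, hw⟩ := stmtCusp M (modularFunctionFieldFullC ℂ M) σ h hp
  have h1 : w.ord (iotaC M u) =
      w.ord (algebraMap (modFunAlg M) (modularFunctionFieldFullC ℂ M) a') -
        w.ord (algebraMap (modFunAlg M) (modularFunctionFieldFullC ℂ M) g') := by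
    rw [← hquot, div_eq_mul_inv, Place.ord_mul w hA (inv_ne_zero hG), Place.ord_inv,
      sub_eq_add_neg]
  have h2 : (n : ℤ) ∣ w.ord (iotaC M u) := by
    rcases baseChangeDown M w with h0 | ⟨v, e', -, hv⟩
    · rw [h0 u]
      exact dvd_zero _
    · rw [hv u]
      exact Dvd.dvd.mul_left (hdvd v) e'
  have h3 := hw a' ha'0
  have h4 := hw g' hg'0
  show (n : ℤ) ∣ ordCusp h σ (a' : ℍ → ℂ) - ordCusp h σ (g' : ℍ → ℂ)
  rw [h3, h4, ← mul_sub, ← h1]
  exact Dvd.dvd.mul_left h2 _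

/-! ### The multiplier of a parabolic element -/

/-- the multiplier of `σ T^h σ⁻¹` (`h > 0` a period of the cusp `σ∞`) is `1` -/
theorem stb_mupar_mult_period {n : ℕ} {x : JZero M} {u : modularFunctionFieldBar M}
    {a g : ℍ → ℂ} {R : RootData (Gamma0 M) n}
    (hK : KummerRel n x u) (hfrac : IsAnFrac M u a g)
    (hpow : ∀ τ : ℍ, R.a τ ^ n * g τ = a τ * R.g τ ^ n)
    {h : ℕ} {σ : SL(2, ℤ)} (hp : IsCuspPeriod M h σ) :
    R.mult ⟨σ * ModularGroup.T ^ h * σ⁻¹, hp.2⟩ = 1 := by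
  have hn0 : n ≠ 0 := R.p_ne_zero
  have hu0 : u ≠ 0 := hK.ne_zero
  have hdvd : ∀ v : Place Kb (modularFunctionFieldBar M), (n : ℤ) ∣ v.ord u := by
    obtain ⟨D, -, -, hD⟩ := hK
    intro v
    exact ⟨_, (hD v).symm⟩
  obtain ⟨ha0, hord⟩ := stb_mupar_dvd_ordCusp M hu0 hdvd hfrac hp
  obtain ⟨ha, hg, hg0, -⟩ := hfrac
  have hFper : IsPer h (fun τ => a (σ • τ)) := rc_isPer_comp ha hp
  have hGper : IsPer h (fun τ => g (σ • τ)) := rc_isPer_comp hg hp
  have hFm := rc_meromorphicAt_cuspFn_comp ha hp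
  have hGm := rc_meromorphicAt_cuspFn_comp hg hp
  have hF := (rc_coe_ordCusp M hp (f := ⟨a, ha⟩) (fun h0 => ha0 (congrArg Subtype.val h0))).symm
  have hG := (rc_coe_ordCusp M hp (f := ⟨g, hg⟩) (fun h0 => hg0 (congrArg Subtype.val h0))).symm
  have hA : MDiff (fun τ => R.a (σ • τ)) := mdiff_comp_SL R.mdiff_a σ
  have hB : MDiff (fun τ => R.g (σ • τ)) := mdiff_comp_SL R.mdiff_g σ
  obtain ⟨Y, -, hcross⟩ := periodic_cross_of_pow_mul_eq hp.1 hn0 hFper hGper hFm hGm hF hG hord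
    hA hB (Filter.Eventually.of_forall fun τ => hpow (σ • τ))
  -- a point near the cusp where `A · (B ∘ shift)` does not vanish
  have hBs : MDiff (fun τ => R.g (σ • (ModularGroup.T ^ h • τ))) :=
    mdiff_comp_SL hB (ModularGroup.T ^ h)
  have hA0 : (fun τ => R.a (σ • τ)) ≠ 0 := fun h0 => R.a_ne_zero ((comp_SL_eq_zero_iff σ).mp h0)
  have hB0 : (fun τ => R.g (σ • τ)) ≠ 0 := fun h0 => R.g_ne_zero ((comp_SL_eq_zero_iff σ).mp h0)
  have hBs0 : (fun τ => R.g (σ • (ModularGroup.T ^ h • τ))) ≠ 0 := fun h0 =>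
    hB0 ((comp_SL_eq_zero_iff (w := fun τ => R.g (σ • τ)) (ModularGroup.T ^ h)).mp h0)
  obtain ⟨τ, hτY, hτ⟩ := exists_ne_zero_im_gt (hA.mul hBs) (mdiff_mul_ne_zero hA hBs hA0 hBs0) Y
  have hsm : (σ * ModularGroup.T ^ h * σ⁻¹) • (σ • τ) = σ • (ModularGroup.T ^ h • τ) := by
    rw [← mul_smul, inv_mul_cancel_right, mul_smul]
  have hspec := R.mult_spec ⟨σ * ModularGroup.T ^ h * σ⁻¹, hp.2⟩ (σ • τ)
  simp only [hsm] at hspec
  have hc := hcross τ hτY
  rw [← rc_T_pow_smul] at hc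
  have hne : R.a (σ • τ) * R.g (σ • (ModularGroup.T ^ h • τ)) ≠ 0 := hτ
  apply Units.ext
  rw [Units.val_one]
  have h5 : ((R.mult ⟨σ * ModularGroup.T ^ h * σ⁻¹, hp.2⟩ : ℂˣ) : ℂ) *
      (R.a (σ • τ) * R.g (σ • (ModularGroup.T ^ h • τ))) =
      1 * (R.a (σ • τ) * R.g (σ • (ModularGroup.T ^ h • τ))) := by
    rw [one_mul, ← hspec]
    exact hc
  exact mul_right_cancel₀ hne h5

/-- **MuPar.**  The multiplier character of a torsion class is trivial on the elements of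
trace `±2`. -/
theorem stb_mupar {n : ℕ} {x : JZero M} {χ : CharGrp M} (hrel : MuRel M n x χ) :
    IsParabolicHom (Gamma0 M) χ := by
  obtain ⟨u, a, g, R, hK, hfrac, hpow, rfl⟩ := hrel
  intro γ hγ
  rw [RootData.multAdd_apply]
  suffices h : R.mult γ = 1 by rw [h]; rfl
  obtain ⟨σ, k, hk⟩ := stb_mupar_conj (γ : SL(2, ℤ)) hγ
  -- `γ₁ = σ T^k σ⁻¹ ∈ Γ₀(M)` has the same multiplier
  have hmem : σ * ModularGroup.T ^ k * σ⁻¹ ∈ Gamma0 M := by
    rcases hk with hk | hk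
    · rw [← hk]; exact γ.2
    · have h1 := stb_mupar_neg_mem M γ.2
      rw [hk, neg_neg] at h1
      exact h1
  have hγ₁ : R.mult γ = R.mult ⟨σ * ModularGroup.T ^ k * σ⁻¹, hmem⟩ := by
    rcases hk with hk | hk
    · congr 1
      exact Subtype.ext hk
    · exact R.mult_eq_of_eq_neg hk
  rw [hγ₁]
  -- reduce to a positive period
  rcases lt_trichotomy k 0 with hneg | rfl | hpos
  · -- `k < 0`: use the inverse
    obtain ⟨h, rfl⟩ : ∃ h : ℕ, k = -(h : ℤ) := ⟨(-k).toNat, by omega⟩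
    have hh : 0 < h := by omega
    have hinv : σ * ModularGroup.T ^ h * σ⁻¹ ∈ Gamma0 M := by
      have := (Gamma0 M).inv_mem hmem
      have e : (σ * ModularGroup.T ^ (-(h : ℤ)) * σ⁻¹)⁻¹ = σ * ModularGroup.T ^ h * σ⁻¹ := by
        rw [zpow_neg, zpow_natCast]; group
      rwa [e] at this
    have h1 := stb_mupar_mult_period M hK hfrac hpow (h := h) (σ := σ) ⟨hh, hinv⟩
    have e2 : (⟨σ * ModularGroup.T ^ (-(h : ℤ)) * σ⁻¹, hmem⟩ : Gamma0 M) =
        (⟨σ * ModularGroup.T ^ h * σ⁻¹, hinv⟩ : Gamma0 M)⁻¹ := by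
      apply Subtype.ext
      show σ * ModularGroup.T ^ (-(h : ℤ)) * σ⁻¹ = (σ * ModularGroup.T ^ h * σ⁻¹)⁻¹
      rw [zpow_neg, zpow_natCast]; group
    rw [e2, map_inv, h1, inv_one]
  · have e0 : (⟨σ * ModularGroup.T ^ (0 : ℤ) * σ⁻¹, hmem⟩ : Gamma0 M) = 1 := by
      apply Subtype.ext
      show σ * ModularGroup.T ^ (0 : ℤ) * σ⁻¹ = 1
      rw [zpow_zero, mul_one, mul_inv_cancel]
    rw [e0, map_one]
  · obtain ⟨h, rfl⟩ : ∃ h : ℕ, k = (h : ℤ) := ⟨k.toNat, by omega⟩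
    have hh : 0 < h := by omega
    have hmem' : σ * ModularGroup.T ^ h * σ⁻¹ ∈ Gamma0 M := by
      rw [← zpow_natCast]; exact hmem
    have h1 := stb_mupar_mult_period M hK hfrac hpow (h := h) (σ := σ) ⟨hh, hmem'⟩
    have e2 : (⟨σ * ModularGroup.T ^ (h : ℤ) * σ⁻¹, hmem⟩ : Gamma0 M) =
        ⟨σ * ModularGroup.T ^ h * σ⁻¹, hmem'⟩ := by
      apply Subtype.ext
      show σ * ModularGroup.T ^ (h : ℤ) * σ⁻¹ = σ * ModularGroup.T ^ h * σ⁻¹
      rw [zpow_natCast]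
    rw [e2, h1]

end Fermat.Agent.STB
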