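import Fermat.Agent.STB.SmoothPoint

/-!
# STB-S3 — the preimage of a one-component point under `Φ`, and the whole smooth disjunct of `hpts`

`Φ : F ≃+* F` (in the application `Φ = φ²`, `φ` a Frobenius lift acting on the coefficients)
preserves the chart `B_u` (together with `Φ⁻¹`), maps `π` into `π A₀` (together with `Φ⁻¹`), and
preserves `𝔪(V c)` (together with `Φ⁻¹`).  For a closed point `𝔫` of the special fibre of `B_u`: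

* `stbStEquiv`, `stbStPre` : the restriction `B_u ≃+* B_u` of `Φ`, the closed point
  `𝔫₁ := Φ⁻¹ 𝔫`;
* `stb_st_through`, `stb_st_only`, `stb_st_locGen`, `stb_st_map_loc` : `𝔫₁` inherits "the
  component `c` passes through", "only `c` passes through", "`𝔫₁ = (π, Φ⁻¹ s)` locally",
  and `Φ (O_{𝔫₁}) ⊆ O_𝔫`;
* `stb_st_smooth` : **the smooth disjunct** — `StbSmooth (atLoc 𝔫) (atLoc (Φ⁻¹ 𝔫)) (V c) Φ m y`
  from the data at `𝔫` alone (plus the tube hypotheses at all points);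
* `stb_st_hpts_inl`, `stb_st_hpts_inr` : exactly the second disjunct of `hpts` of
  `stb_main_points` at `i = Sum.inl 𝔫`, resp. `i = Sum.inr 𝔫`;
* `stb_st_map_pi` : `Φ π ∈ π A₀` if `Φ` and `Φ⁻¹` preserve the constants `A₀`.
-/

set_option autoImplicit false
set_option linter.style.haveILetI false
set_option linter.unusedSectionVars false
set_option linter.unusedVariables false

namespace Fermat.Agent.STB

open Polynomial IntermediateField Fermat.Agent.INJ AlgebraicCurve Fermat.Agent.UNIP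

section Transport

variable {A₀ E F : Type*} [CommRing A₀] [IsDomain A₀] [IsDiscreteValuationRing A₀]
  [Field E] [Algebra A₀ E] [IsFractionRing A₀ E] [CharZero E]
  [Field F] [Algebra E F] [Algebra A₀ F] [IsScalarTower A₀ E F]
  {π : A₀} {κ : Type*}

/-- the restriction to the chart `B_u` of an automorphism of `F` preserving it -/
def stbStEquiv {u : F} (Φ : F ≃+* F)
    (hΦB : ∀ b : F, IsIntegral ↥(Algebra.adjoin A₀ {u}) b →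
      IsIntegral ↥(Algebra.adjoin A₀ {u}) (Φ b))
    (hΦB' : ∀ b : F, IsIntegral ↥(Algebra.adjoin A₀ {u}) b →
      IsIntegral ↥(Algebra.adjoin A₀ {u}) (Φ.symm b)) :
    ↥(zchClosure (A₀ := A₀) ({u} : Set F)) ≃+* ↥(zchClosure (A₀ := A₀) ({u} : Set F)) where
  toFun b := ⟨Φ (b : F), mem_zchClosure.mpr (hΦB _ (mem_zchClosure.mp b.2))⟩
  invFun b := ⟨Φ.symm (b : F), mem_zchClosure.mpr (hΦB' _ (mem_zchClosure.mp b.2))⟩
  left_inv b := Subtype.ext (Φ.symm_apply_apply _)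
  right_inv b := Subtype.ext (Φ.apply_symm_apply _)
  map_mul' x y := Subtype.ext (map_mul Φ _ _)
  map_add' x y := Subtype.ext (map_add Φ _ _)

theorem stbStEquiv_coe {u : F} (Φ : F ≃+* F)
    (hΦB : ∀ b : F, IsIntegral ↥(Algebra.adjoin A₀ {u}) b →
      IsIntegral ↥(Algebra.adjoin A₀ {u}) (Φ b))
    (hΦB' : ∀ b : F, IsIntegral ↥(Algebra.adjoin A₀ {u}) b →
      IsIntegral ↥(Algebra.adjoin A₀ {u}) (Φ.symm b))
    (b : ↥(zchClosure (A₀ := A₀) ({u} : Set F))) :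
    ((stbStEquiv Φ hΦB hΦB' b : ↥(zchClosure (A₀ := A₀) ({u} : Set F))) : F) = Φ (b : F) := rfl

theorem stbStEquiv_symm_coe {u : F} (Φ : F ≃+* F)
    (hΦB : ∀ b : F, IsIntegral ↥(Algebra.adjoin A₀ {u}) b →
      IsIntegral ↥(Algebra.adjoin A₀ {u}) (Φ b))
    (hΦB' : ∀ b : F, IsIntegral ↥(Algebra.adjoin A₀ {u}) b →
      IsIntegral ↥(Algebra.adjoin A₀ {u}) (Φ.symm b))
    (b : ↥(zchClosure (A₀ := A₀) ({u} : Set F))) :
    (((stbStEquiv Φ hΦB hΦB').symm b : ↥(zchClosure (A₀ := A₀) ({u} : Set F))) : F) =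
      Φ.symm (b : F) := rfl

/-- `Φ π ∈ π A₀` if `Φ` and `Φ⁻¹` preserve the constants. -/
theorem stb_st_map_pi (E : Type*) [Field E] [Algebra A₀ E] [IsFractionRing A₀ E]
    [Algebra E F] [IsScalarTower A₀ E F] (hπ : Irreducible π) (Φ : F ≃+* F)
    (hΦA : ∀ a : A₀, ∃ a' : A₀, Φ (algebraMap A₀ F a) = algebraMap A₀ F a')
    (hΦA' : ∀ a : A₀, ∃ a' : A₀, Φ.symm (algebraMap A₀ F a) = algebraMap A₀ F a') :
    ∃ a : A₀, Φ (algebraMap A₀ F π) = algebraMap A₀ F (π * a) := by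
  have hinjA : Function.Injective (algebraMap A₀ F) := unip_algebraMap_injective E
  obtain ⟨a', ha'⟩ := hΦA π
  have hnu : ¬ IsUnit a' := by
    intro hu
    obtain ⟨b', hb'⟩ := hu.exists_right_inv
    obtain ⟨b'', hb''⟩ := hΦA' b'
    have h1 : algebraMap A₀ F π * algebraMap A₀ F b'' = 1 := by
      have h2 : Φ.symm (algebraMap A₀ F a' * algebraMap A₀ F b') = 1 := by
        rw [← map_mul, hb', map_one, map_one]
      rw [map_mul, ← ha', Φ.symm_apply_apply, hb''] at h2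
      exact h2
    have h3 : π * b'' = 1 := hinjA (by rw [map_mul, h1, map_one])
    exact hπ.not_isUnit (IsUnit.of_mul_eq_one _ h3)
  have hmem : a' ∈ IsLocalRing.maximalIdeal A₀ := (IsLocalRing.mem_maximalIdeal _).mpr hnu
  rw [hπ.maximalIdeal_eq, Ideal.mem_span_singleton] at hmem
  obtain ⟨a, rfl⟩ := hmem
  exact ⟨a, ha'⟩

/-- **The preimage point** `𝔫₁ = Φ⁻¹ 𝔫`. -/
def stbStPre {u : F} (Φ : F ≃+* F)
    (hΦB : ∀ b : F, IsIntegral ↥(Algebra.adjoin A₀ {u}) b →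
      IsIntegral ↥(Algebra.adjoin A₀ {u}) (Φ b))
    (hΦB' : ∀ b : F, IsIntegral ↥(Algebra.adjoin A₀ {u}) b →
      IsIntegral ↥(Algebra.adjoin A₀ {u}) (Φ.symm b))
    (hΦπ : ∃ a : A₀, Φ (algebraMap A₀ F π) = algebraMap A₀ F (π * a))
    (𝔫 : AtPt (F := F) π u) : AtPt (F := F) π u :=
  ⟨Ideal.comap (stbStEquiv Φ hΦB hΦB') 𝔫.1, by
    haveI := 𝔫.2.1
    refine ⟨Ideal.comap_isMaximal_of_equiv (stbStEquiv Φ hΦB hΦB'), ?_⟩
    rw [Ideal.mem_comap]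
    obtain ⟨a, ha⟩ := hΦπ
    have e : stbStEquiv Φ hΦB hΦB' (algebraMap A₀ ↥(zchClosure (A₀ := A₀) ({u} : Set F)) π) =
        algebraMap A₀ ↥(zchClosure (A₀ := A₀) ({u} : Set F)) π *
          algebraMap A₀ ↥(zchClosure (A₀ := A₀) ({u} : Set F)) a := by
      apply Subtype.ext
      show Φ (algebraMap A₀ F π) = algebraMap A₀ F π * algebraMap A₀ F a
      rw [ha, map_mul]
    rw [e]
    exact 𝔫.1.mul_mem_right _ 𝔫.2.2⟩

theorem stb_st_mem_pre {u : F} (Φ : F ≃+* F)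
    (hΦB : ∀ b : F, IsIntegral ↥(Algebra.adjoin A₀ {u}) b →
      IsIntegral ↥(Algebra.adjoin A₀ {u}) (Φ b))
    (hΦB' : ∀ b : F, IsIntegral ↥(Algebra.adjoin A₀ {u}) b →
      IsIntegral ↥(Algebra.adjoin A₀ {u}) (Φ.symm b))
    (hΦπ : ∃ a : A₀, Φ (algebraMap A₀ F π) = algebraMap A₀ F (π * a))
    (𝔫 : AtPt (F := F) π u) (b : ↥(zchClosure (A₀ := A₀) ({u} : Set F))) :
    b ∈ (stbStPre Φ hΦB hΦB' hΦπ 𝔫).1 ↔ stbStEquiv Φ hΦB hΦB' b ∈ 𝔫.1 := Iff.rfl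

/-- a component through `𝔫` passes through `Φ⁻¹ 𝔫` (`Φ` preserves `𝔪(W)`) -/
theorem stb_st_through {u : F} (Φ : F ≃+* F)
    (hΦB : ∀ b : F, IsIntegral ↥(Algebra.adjoin A₀ {u}) b →
      IsIntegral ↥(Algebra.adjoin A₀ {u}) (Φ b))
    (hΦB' : ∀ b : F, IsIntegral ↥(Algebra.adjoin A₀ {u}) b →
      IsIntegral ↥(Algebra.adjoin A₀ {u}) (Φ.symm b))
    (hΦπ : ∃ a : A₀, Φ (algebraMap A₀ F π) = algebraMap A₀ F (π * a))
    (𝔫 : AtPt (F := F) π u) (W : ValuationSubring F)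
    (hΦW : ∀ x ∈ W.nonunits, Φ x ∈ W.nonunits) (h : atThrough 𝔫 W) :
    atThrough (stbStPre Φ hΦB hΦB' hΦπ 𝔫) W := fun b hb =>
  (stb_st_mem_pre Φ hΦB hΦB' hΦπ 𝔫 b).mpr (h _ (hΦW _ hb))

/-- a component through `Φ⁻¹ 𝔫` passes through `𝔫` (`Φ⁻¹` preserves `𝔪(W)`) -/
theorem stb_st_through_of_pre {u : F} (Φ : F ≃+* F)
    (hΦB : ∀ b : F, IsIntegral ↥(Algebra.adjoin A₀ {u}) b →
      IsIntegral ↥(Algebra.adjoin A₀ {u}) (Φ b))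
    (hΦB' : ∀ b : F, IsIntegral ↥(Algebra.adjoin A₀ {u}) b →
      IsIntegral ↥(Algebra.adjoin A₀ {u}) (Φ.symm b))
    (hΦπ : ∃ a : A₀, Φ (algebraMap A₀ F π) = algebraMap A₀ F (π * a))
    (𝔫 : AtPt (F := F) π u) (W : ValuationSubring F)
    (hΦW' : ∀ x ∈ W.nonunits, Φ.symm x ∈ W.nonunits)
    (h : atThrough (stbStPre Φ hΦB hΦB' hΦπ 𝔫) W) : atThrough 𝔫 W := fun b hb => by
  have h1 := h ((stbStEquiv Φ hΦB hΦB').symm b) (hΦW' _ hb)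
  rw [stb_st_mem_pre, RingEquiv.apply_symm_apply] at h1
  exact h1

/-- `Φ (O_{𝔫₁}) ⊆ O_𝔫` for `𝔫₁ = Φ⁻¹ 𝔫` -/
theorem stb_st_map_loc {u : F} (Φ : F ≃+* F)
    (hΦB : ∀ b : F, IsIntegral ↥(Algebra.adjoin A₀ {u}) b →
      IsIntegral ↥(Algebra.adjoin A₀ {u}) (Φ b))
    (hΦB' : ∀ b : F, IsIntegral ↥(Algebra.adjoin A₀ {u}) b →
      IsIntegral ↥(Algebra.adjoin A₀ {u}) (Φ.symm b))
    (hΦπ : ∃ a : A₀, Φ (algebraMap A₀ F π) = algebraMap A₀ F (π * a))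
    (𝔫 : AtPt (F := F) π u) :
    ∀ x ∈ atLoc (stbStPre Φ hΦB hΦB' hΦπ 𝔫), Φ.toRingHom x ∈ atLoc 𝔫 :=
  stb_sp_map_loc 𝔫 (stbStPre Φ hΦB hΦB' hΦπ 𝔫) Φ.toRingHom fun b =>
    ⟨stbStEquiv Φ hΦB hΦB' b, rfl, fun hb => hb⟩

/-- `𝔫₁ = (π, Φ⁻¹ s)` locally if `𝔫 = (π, s)` locally -/
theorem stb_st_locGen {u : F} (Φ : F ≃+* F)
    (hΦB : ∀ b : F, IsIntegral ↥(Algebra.adjoin A₀ {u}) b →
      IsIntegral ↥(Algebra.adjoin A₀ {u}) (Φ b))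
    (hΦB' : ∀ b : F, IsIntegral ↥(Algebra.adjoin A₀ {u}) b →
      IsIntegral ↥(Algebra.adjoin A₀ {u}) (Φ.symm b))
    (hΦπ : ∃ a : A₀, Φ (algebraMap A₀ F π) = algebraMap A₀ F (π * a))
    (hΦπ' : ∃ a : A₀, Φ.symm (algebraMap A₀ F π) = algebraMap A₀ F (π * a))
    (𝔫 : AtPt (F := F) π u)
    (s : ↥(zchClosure (A₀ := A₀) ({u} : Set F))) (hs : s ∈ 𝔫.1)
    (hgen : NodesLocGen 𝔫.1 {algebraMap A₀ ↥(zchClosure (A₀ := A₀) ({u} : Set F)) π, s}) :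
    (stbStEquiv Φ hΦB hΦB').symm s ∈ (stbStPre Φ hΦB hΦB' hΦπ 𝔫).1 ∧
    NodesLocGen (stbStPre Φ hΦB hΦB' hΦπ 𝔫).1
      {algebraMap A₀ ↥(zchClosure (A₀ := A₀) ({u} : Set F)) π,
        (stbStEquiv Φ hΦB hΦB').symm s} := by
  refine ⟨?_, fun b hb => ?_⟩
  · rw [stb_st_mem_pre, RingEquiv.apply_symm_apply]
    exact hs
  · rw [stb_st_mem_pre] at hb
    obtain ⟨v, hv, hvb⟩ := hgen _ hb
    rw [Ideal.mem_span_pair] at hvb
    obtain ⟨c₁, c₂, hc⟩ := hvb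
    refine ⟨(stbStEquiv Φ hΦB hΦB').symm v, ?_, ?_⟩
    · rw [stb_st_mem_pre, RingEquiv.apply_symm_apply]
      exact hv
    · obtain ⟨a, ha⟩ := hΦπ'
      have e : (stbStEquiv Φ hΦB hΦB').symm
          (algebraMap A₀ ↥(zchClosure (A₀ := A₀) ({u} : Set F)) π) =
          algebraMap A₀ ↥(zchClosure (A₀ := A₀) ({u} : Set F)) π *
            algebraMap A₀ ↥(zchClosure (A₀ := A₀) ({u} : Set F)) a := by
        apply Subtype.ext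
        show Φ.symm (algebraMap A₀ F π) = algebraMap A₀ F π * algebraMap A₀ F a
        rw [ha, map_mul]
      have h1 := congrArg (stbStEquiv Φ hΦB hΦB').symm hc
      rw [map_add, map_mul, map_mul, map_mul, RingEquiv.symm_apply_apply, e] at h1
      rw [Ideal.mem_span_pair]
      refine ⟨(stbStEquiv Φ hΦB hΦB').symm c₁ *
        algebraMap A₀ ↥(zchClosure (A₀ := A₀) ({u} : Set F)) a,
        (stbStEquiv Φ hΦB hΦB').symm c₂, ?_⟩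
      rw [← h1]
      ring

/-- **The smooth disjunct, from the data at `𝔫` alone.**  `Φ` preserves the chart `B_u`, `π A₀`
and the `𝔪(V c')`, together with `Φ⁻¹`; `𝔫 = (π, s)` locally, only the component `c` passes
through `𝔫`; `y ≡ tt ^ m` at `V c`; tube hypotheses for `y` at every closed point of the chart.
Then `StbSmooth O_𝔫 O_{Φ⁻¹𝔫} (V c) Φ m y`, and `c` passes through `Φ⁻¹ 𝔫`. -/
theorem stb_st_smooth (hπ : Irreducible π) {u : F} (hu : Transcendental E u)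
    [FiniteDimensional E⟮u⟯ F] [Finite κ]
    [IsNoetherianRing ↥(zchClosure (A₀ := A₀) ({u} : Set F))]
    (V : κ → ValuationSubring F)
    (hBV : ∀ c (b : F), IsIntegral ↥(Algebra.adjoin A₀ {u}) b → b ∈ V c)
    (hπV : ∀ c, algebraMap A₀ F π ∈ (V c).nonunits)
    (hSS1 : ∀ b : F, IsIntegral ↥(Algebra.adjoin A₀ {u}) b → (∀ c, b ∈ (V c).nonunits) →
      ∃ b' : F, IsIntegral ↥(Algebra.adjoin A₀ {u}) b' ∧ b = algebraMap A₀ F π * b')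
    (hVloc : ∀ c (x : F), x ∈ V c → ∃ b s : F, IsIntegral ↥(Algebra.adjoin A₀ {u}) b ∧
      IsIntegral ↥(Algebra.adjoin A₀ {u}) s ∧ s ∉ (V c).nonunits ∧ s * x = b)
    (c : κ)
    (hunif : ∀ x : F, x ≠ 0 → ∃ k : ℤ, (V c).valuation (x / algebraMap A₀ F π ^ k) = 1)
    (Φ : F ≃+* F)
    (hΦB : ∀ b : F, IsIntegral ↥(Algebra.adjoin A₀ {u}) b →
      IsIntegral ↥(Algebra.adjoin A₀ {u}) (Φ b))
    (hΦB' : ∀ b : F, IsIntegral ↥(Algebra.adjoin A₀ {u}) b →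
      IsIntegral ↥(Algebra.adjoin A₀ {u}) (Φ.symm b))
    (hΦπ : ∃ a : A₀, Φ (algebraMap A₀ F π) = algebraMap A₀ F (π * a))
    (hΦπ' : ∃ a : A₀, Φ.symm (algebraMap A₀ F π) = algebraMap A₀ F (π * a))
    (hΦV : ∀ c', ∀ x ∈ (V c').nonunits, Φ x ∈ (V c').nonunits)
    (hΦV' : ∀ c', ∀ x ∈ (V c').nonunits, Φ.symm x ∈ (V c').nonunits)
    (𝔫 : AtPt (F := F) π u)
    (s : ↥(zchClosure (A₀ := A₀) ({u} : Set F))) (hs : s ∈ 𝔫.1)
    (hgen : NodesLocGen 𝔫.1 {algebraMap A₀ ↥(zchClosure (A₀ := A₀) ({u} : Set F)) π, s})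
    (hc : atThrough 𝔫 (V c)) (honly : ∀ c', atThrough 𝔫 (V c') → c' = c)
    {y : F} (m : ℕ) (tt : F) (htoric : y / tt ^ m - 1 ∈ (V c).nonunits)
    (hfin : ∀ 𝔫' : AtPt (F := F) π u, {P : Place E F |
      LsTube ↥(zchClosure (A₀ := A₀) ({u} : Set F)) u 𝔫'.1 P ∧ P.ord y ≠ 0}.Finite)
    (hm : ∀ 𝔫' : AtPt (F := F) π u, ∀ P : Place E F,
      LsTube ↥(zchClosure (A₀ := A₀) ({u} : Set F)) u 𝔫'.1 P → (m : ℤ) ∣ P.ord y)
    (hrat : ∀ 𝔫' : AtPt (F := F) π u, ∀ P : Place E F,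
      LsTube ↥(zchClosure (A₀ := A₀) ({u} : Set F)) u 𝔫'.1 P → P.ord y ≠ 0 →
        ∀ f ∈ P.toValuationSubring,
          ∃ c : E, f - algebraMap E F c ∈ P.toValuationSubring.nonunits) :
    atThrough (stbStPre Φ hΦB hΦB' hΦπ 𝔫) (V c) ∧
      StbSmooth (atLoc 𝔫) (atLoc (stbStPre Φ hΦB hΦB' hΦπ 𝔫)) (V c) Φ.toRingHom m y := by
  have hc₁ := stb_st_through Φ hΦB hΦB' hΦπ 𝔫 (V c) (hΦV c) hc
  obtain ⟨hs₁, hgen₁⟩ := stb_st_locGen Φ hΦB hΦB' hΦπ hΦπ' 𝔫 s hs hgen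
  refine ⟨hc₁, ?_⟩
  exact stb_sp_smooth hπ hu hu V hBV hBV hπV hSS1 hSS1 hVloc hVloc c hunif 𝔫
    (stbStPre Φ hΦB hΦB' hΦπ 𝔫) s hs hgen _ hs₁ hgen₁ hc hc₁ honly
    (fun c' hc' => honly c'
      (stb_st_through_of_pre Φ hΦB hΦB' hΦπ 𝔫 (V c') (hΦV' c') hc'))
    Φ.toRingHom (stb_st_map_loc Φ hΦB hΦB' hΦπ 𝔫) m tt htoric
    (hfin 𝔫) (hm 𝔫) (hrat 𝔫) (hfin _) (hm _) (hrat _)

/-- **The second disjunct of `hpts` of `stb_main_points`** at a one-component point of the chart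
`t`. -/
theorem stb_st_hpts_inl (hπ : Irreducible π) {t : F} (hu : Transcendental E t)
    [FiniteDimensional E⟮t⟯ F] [Finite κ]
    [IsNoetherianRing ↥(zchClosure (A₀ := A₀) ({t} : Set F))]
    (V : κ → ValuationSubring F)
    (hBV : ∀ c (b : F), IsIntegral ↥(Algebra.adjoin A₀ {t}) b → b ∈ V c)
    (hπV : ∀ c, algebraMap A₀ F π ∈ (V c).nonunits)
    (hSS1 : ∀ b : F, IsIntegral ↥(Algebra.adjoin A₀ {t}) b → (∀ c, b ∈ (V c).nonunits) →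
      ∃ b' : F, IsIntegral ↥(Algebra.adjoin A₀ {t}) b' ∧ b = algebraMap A₀ F π * b')
    (hVloc : ∀ c (x : F), x ∈ V c → ∃ b s : F, IsIntegral ↥(Algebra.adjoin A₀ {t}) b ∧
      IsIntegral ↥(Algebra.adjoin A₀ {t}) s ∧ s ∉ (V c).nonunits ∧ s * x = b)
    (c : κ)
    (hunif : ∀ x : F, x ≠ 0 → ∃ k : ℤ, (V c).valuation (x / algebraMap A₀ F π ^ k) = 1)
    (Φ : F ≃+* F)
    (hΦB : ∀ b : F, IsIntegral ↥(Algebra.adjoin A₀ {t}) b →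
      IsIntegral ↥(Algebra.adjoin A₀ {t}) (Φ b))
    (hΦB' : ∀ b : F, IsIntegral ↥(Algebra.adjoin A₀ {t}) b →
      IsIntegral ↥(Algebra.adjoin A₀ {t}) (Φ.symm b))
    (hΦπ : ∃ a : A₀, Φ (algebraMap A₀ F π) = algebraMap A₀ F (π * a))
    (hΦπ' : ∃ a : A₀, Φ.symm (algebraMap A₀ F π) = algebraMap A₀ F (π * a))
    (hΦV : ∀ c', ∀ x ∈ (V c').nonunits, Φ x ∈ (V c').nonunits)
    (hΦV' : ∀ c', ∀ x ∈ (V c').nonunits, Φ.symm x ∈ (V c').nonunits)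
    (𝔫 : AtPt (F := F) π t)
    (s : ↥(zchClosure (A₀ := A₀) ({t} : Set F))) (hs : s ∈ 𝔫.1)
    (hgen : NodesLocGen 𝔫.1 {algebraMap A₀ ↥(zchClosure (A₀ := A₀) ({t} : Set F)) π, s})
    (hc : atInc π t V (Sum.inl 𝔫) c) (honly : ∀ c', atInc π t V (Sum.inl 𝔫) c' → c' = c)
    {y : F} (m : ℕ) (tt : F) (htoric : y / tt ^ m - 1 ∈ (V c).nonunits)
    (hfin : ∀ 𝔫' : AtPt (F := F) π t, {P : Place E F |
      LsTube ↥(zchClosure (A₀ := A₀) ({t} : Set F)) t 𝔫'.1 P ∧ P.ord y ≠ 0}.Finite)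
    (hm : ∀ 𝔫' : AtPt (F := F) π t, ∀ P : Place E F,
      LsTube ↥(zchClosure (A₀ := A₀) ({t} : Set F)) t 𝔫'.1 P → (m : ℤ) ∣ P.ord y)
    (hrat : ∀ 𝔫' : AtPt (F := F) π t, ∀ P : Place E F,
      LsTube ↥(zchClosure (A₀ := A₀) ({t} : Set F)) t 𝔫'.1 P → P.ord y ≠ 0 →
        ∀ f ∈ P.toValuationSubring,
          ∃ c : E, f - algebraMap E F c ∈ P.toValuationSubring.nonunits) :
    ∃ c, atInc π t V (Sum.inl 𝔫) c ∧ (∀ c', atInc π t V (Sum.inl 𝔫) c' → c' = c) ∧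
      ∃ i₁ : AtPt (F := F) π t ⊕ AtPt (F := F) π t⁻¹, atInc π t V i₁ c ∧
        StbSmooth (atO π t (Sum.inl 𝔫)) (atO π t i₁) (V c) Φ.toRingHom m y := by
  obtain ⟨hc₁, hsm⟩ := stb_st_smooth hπ hu V hBV hπV hSS1 hVloc c hunif Φ hΦB hΦB' hΦπ hΦπ'
    hΦV hΦV' 𝔫 s hs hgen hc honly m tt htoric hfin hm hrat
  exact ⟨c, hc, honly, Sum.inl (stbStPre Φ hΦB hΦB' hΦπ 𝔫), hc₁, hsm⟩

/-- **The second disjunct of `hpts` of `stb_main_points`** at a one-component point of the chart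
`t⁻¹`. -/
theorem stb_st_hpts_inr (hπ : Irreducible π) {t : F} (hu : Transcendental E t⁻¹)
    [FiniteDimensional E⟮t⁻¹⟯ F] [Finite κ]
    [IsNoetherianRing ↥(zchClosure (A₀ := A₀) ({t⁻¹} : Set F))]
    (V : κ → ValuationSubring F)
    (hBV : ∀ c (b : F), IsIntegral ↥(Algebra.adjoin A₀ {t⁻¹}) b → b ∈ V c)
    (hπV : ∀ c, algebraMap A₀ F π ∈ (V c).nonunits)
    (hSS1 : ∀ b : F, IsIntegral ↥(Algebra.adjoin A₀ {t⁻¹}) b → (∀ c, b ∈ (V c).nonunits) →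
      ∃ b' : F, IsIntegral ↥(Algebra.adjoin A₀ {t⁻¹}) b' ∧ b = algebraMap A₀ F π * b')
    (hVloc : ∀ c (x : F), x ∈ V c → ∃ b s : F, IsIntegral ↥(Algebra.adjoin A₀ {t⁻¹}) b ∧
      IsIntegral ↥(Algebra.adjoin A₀ {t⁻¹}) s ∧ s ∉ (V c).nonunits ∧ s * x = b)
    (c : κ)
    (hunif : ∀ x : F, x ≠ 0 → ∃ k : ℤ, (V c).valuation (x / algebraMap A₀ F π ^ k) = 1)
    (Φ : F ≃+* F)
    (hΦB : ∀ b : F, IsIntegral ↥(Algebra.adjoin A₀ {t⁻¹}) b →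
      IsIntegral ↥(Algebra.adjoin A₀ {t⁻¹}) (Φ b))
    (hΦB' : ∀ b : F, IsIntegral ↥(Algebra.adjoin A₀ {t⁻¹}) b →
      IsIntegral ↥(Algebra.adjoin A₀ {t⁻¹}) (Φ.symm b))
    (hΦπ : ∃ a : A₀, Φ (algebraMap A₀ F π) = algebraMap A₀ F (π * a))
    (hΦπ' : ∃ a : A₀, Φ.symm (algebraMap A₀ F π) = algebraMap A₀ F (π * a))
    (hΦV : ∀ c', ∀ x ∈ (V c').nonunits, Φ x ∈ (V c').nonunits)
    (hΦV' : ∀ c', ∀ x ∈ (V c').nonunits, Φ.symm x ∈ (V c').nonunits)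
    (𝔫 : AtPt (F := F) π t⁻¹)
    (s : ↥(zchClosure (A₀ := A₀) ({t⁻¹} : Set F))) (hs : s ∈ 𝔫.1)
    (hgen : NodesLocGen 𝔫.1 {algebraMap A₀ ↥(zchClosure (A₀ := A₀) ({t⁻¹} : Set F)) π, s})
    (hc : atInc π t V (Sum.inr 𝔫) c) (honly : ∀ c', atInc π t V (Sum.inr 𝔫) c' → c' = c)
    {y : F} (m : ℕ) (tt : F) (htoric : y / tt ^ m - 1 ∈ (V c).nonunits)
    (hfin : ∀ 𝔫' : AtPt (F := F) π t⁻¹, {P : Place E F |
      LsTube ↥(zchClosure (A₀ := A₀) ({t⁻¹} : Set F)) t⁻¹ 𝔫'.1 P ∧ P.ord y ≠ 0}.Finite)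
    (hm : ∀ 𝔫' : AtPt (F := F) π t⁻¹, ∀ P : Place E F,
      LsTube ↥(zchClosure (A₀ := A₀) ({t⁻¹} : Set F)) t⁻¹ 𝔫'.1 P → (m : ℤ) ∣ P.ord y)
    (hrat : ∀ 𝔫' : AtPt (F := F) π t⁻¹, ∀ P : Place E F,
      LsTube ↥(zchClosure (A₀ := A₀) ({t⁻¹} : Set F)) t⁻¹ 𝔫'.1 P → P.ord y ≠ 0 →
        ∀ f ∈ P.toValuationSubring,
          ∃ c : E, f - algebraMap E F c ∈ P.toValuationSubring.nonunits) :
    ∃ c, atInc π t V (Sum.inr 𝔫) c ∧ (∀ c', atInc π t V (Sum.inr 𝔫) c' → c' = c) ∧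
      ∃ i₁ : AtPt (F := F) π t ⊕ AtPt (F := F) π t⁻¹, atInc π t V i₁ c ∧
        StbSmooth (atO π t (Sum.inr 𝔫)) (atO π t i₁) (V c) Φ.toRingHom m y := by
  obtain ⟨hc₁, hsm⟩ := stb_st_smooth hπ hu V hBV hπV hSS1 hVloc c hunif Φ hΦB hΦB' hΦπ hΦπ'
    hΦV hΦV' 𝔫 s hs hgen hc honly m tt htoric hfin hm hrat
  exact ⟨c, hc, honly, Sum.inr (stbStPre Φ hΦB hΦB' hΦπ 𝔫), hc₁, hsm⟩

end Transport

end Fermat.Agent.STB
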