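/-
RIB / MP, piece MP-FROB (helper3), concrete base facts for the (F)-transfer
`ribmp_frob_fac_up_charts` (`RIB/MP/FrobFac.lean`) — helper45.

Setting of `STB/SwapFrobMG.lean`: `A` a valuation subring of `ℚ̄` over `q`, `E₀ = beta0Field A`,
`A₀ = beta0Ring A E₀`, `E′ = mgcE A K₁ = E₀ ⊔ K₁`, `A′ = mgcA A K₁`, level `N`,
`up = mgcEmb E₀ E′ N : F_N(E₀) → F_N(E′)`, `ι = beta0RingIncl le_sup_left : A₀ → A′`.

* `stbsw_emb_hup`   : `up (algebraMap A₀ F₀ a) = algebraMap A′ F′ (ι a)`;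
* `stbsw_emb_hres`  : `∀ a′ : A′, ∃ a : A₀, π′ ∣ a′ − ι a`   (same residue field);
* `stbsw_emb_hdvd`  : `π′ ∣ ι q`;
* `stbsw_emb_J`, `stbsw_emb_Jinv` : `up j = mgcT`, `up j⁻¹ = mgcT⁻¹`;
* `stbsw_emb_nfEmb` : `nfEmb E′ N (up y) = nfEmb E₀ N y`.
(The first lemma asked for, `nfEmb (g x) = φ • w_q (nfEmb x)`, is `nfEmb_stbswG` of
`STB/SwapFrobMG.lean`.)
-/
import Fermat.Agent.UNIP.MGConcrete
import Fermat.Agent.INJ.NFEmb
import Fermat.Agent.UNIP.MGChartsField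
import Fermat.Agent.STB.MGData
import Fermat.Agent.UNIP.Beta0Inst
import Fermat.Agent.UNIP.Beta0Ext

set_option autoImplicit false
set_option linter.style.haveILetI false
set_option linter.unusedSectionVars false
set_option linter.unusedVariables false

noncomputable section

namespace Fermat.Agent.STB

open ModularCurve AlgebraicCurve Fermat.Agent.ES Fermat.Agent.ES.G2 Fermat.Agent.INJ
open IntermediateField Fermat.Agent.UNIP Fermat.Agent.AL

section Emb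

variable (A : ValuationSubring Qb) (K₁ : IntermediateField ℚ Qb) (N : ℕ)

/-- `up` on the constants of `A₀` -/
theorem stbsw_emb_hup (a : ↥(beta0Ring A (beta0Field A))) :
    letI := beta0InstFieldAlgebra A K₁
    mgcEmb ↥(beta0Field A) ↥(mgcE A K₁) N
        (algebraMap ↥(beta0Ring A (beta0Field A))
          ↥(modularFunctionFieldFullC ↥(beta0Field A) N) a) =
      algebraMap ↥(mgcA A K₁) ↥(mgcF A K₁ N)
        (beta0RingIncl (A := A) (le_sup_left : beta0Field A ≤ beta0Field A ⊔ K₁) a) := by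
  letI := beta0InstFieldAlgebra A K₁
  exact mgcEmb_algebraMap ↥(beta0Field A) ↥(mgcE A K₁) N (a : ↥(beta0Field A))

/-- `up j = j` -/
theorem stbsw_emb_J :
    letI := beta0InstFieldAlgebra A K₁
    mgcEmb ↥(beta0Field A) ↥(mgcE A K₁) N (bgJ ↥(beta0Field A) N) = mgcT A K₁ N := by
  letI := beta0InstFieldAlgebra A K₁
  exact Subtype.ext (coeffMap_jqModC _)

/-- `up j⁻¹ = j⁻¹` -/
theorem stbsw_emb_Jinv :
    letI := beta0InstFieldAlgebra A K₁
    mgcEmb ↥(beta0Field A) ↥(mgcE A K₁) N (bgJ ↥(beta0Field A) N)⁻¹ = (mgcT A K₁ N)⁻¹ := by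
  letI := beta0InstFieldAlgebra A K₁
  rw [map_inv₀, stbsw_emb_J]

/-- `nfEmb ∘ up = nfEmb` -/
theorem stbsw_emb_nfEmb (y : ↥(modularFunctionFieldFullC ↥(beta0Field A) N)) :
    letI := beta0InstFieldAlgebra A K₁
    nfEmb (mgcE A K₁) N (mgcEmb ↥(beta0Field A) ↥(mgcE A K₁) N y) =
      nfEmb (beta0Field A) N y := by
  letI := beta0InstFieldAlgebra A K₁
  apply Subtype.ext
  rw [nfEmb_coe, nfEmb_coe, mgcEmb_coe, coeffMap_coeffMap]
  rfl

variable {A K₁} {q : ℕ} [NeZero q]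

/-- `A₀` and `A′` have the same residue field -/
theorem stbsw_emb_hres (hq : q.Prime) (hA : A.LiesOverPrime q)
    [IsDiscreteValuationRing ↥(mgcA A K₁)] {π' : ↥(mgcA A K₁)} (hπ' : Irreducible π')
    (a' : ↥(mgcA A K₁)) :
    ∃ a : ↥(beta0Ring A (beta0Field A)),
      π' ∣ a' - beta0RingIncl (A := A) (le_sup_left : beta0Field A ≤ beta0Field A ⊔ K₁) a := by
  obtain ⟨b, hbE, hbA, hab⟩ :=
    beta0_exists_residue hq hA (a := ((a' : ↥(mgcE A K₁)) : Qb)) a'.2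
  refine ⟨⟨⟨b, hbE⟩, hbA⟩, ?_⟩
  have h1 : a' - beta0RingIncl (A := A) (le_sup_left : beta0Field A ≤ beta0Field A ⊔ K₁)
      ⟨⟨b, hbE⟩, hbA⟩ ∈ IsLocalRing.maximalIdeal ↥(mgcA A K₁) := by
    rw [beta0Ring_mem_maximalIdeal_iff]
    exact hab
  rw [hπ'.maximalIdeal_eq] at h1
  exact Ideal.mem_span_singleton.mp h1

/-- `π′ ∣ ι q` -/
theorem stbsw_emb_hdvd (hA : A.LiesOverPrime q)
    [IsDiscreteValuationRing ↥(mgcA A K₁)] {π' : ↥(mgcA A K₁)} (hπ' : Irreducible π') :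
    π' ∣ beta0RingIncl (A := A) (le_sup_left : beta0Field A ≤ beta0Field A ⊔ K₁)
      ((q : ℕ) : ↥(beta0Ring A (beta0Field A))) := by
  rw [map_natCast]
  exact stbd_dvd_natCast hπ' hA

end Emb

end Fermat.Agent.STB
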