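import Fermat.Agent.STB.ToricTransfer
import Fermat.Agent.STB.NewToricKummer

/-!
# STB-MG-t, pack: the hypothesis `htoric` of `stb_main_points` from NEW ⇒ TORIC

`stb_mgt_pack` : with the hypotheses of `stb_a_exists_toric_kummer` (piece (A), over `ℚ̄`), there
is a number field `K₀` such that for every intermediate field `E′ ⊇ K₀` there are
`tt : Bool → F_{Mq}(E′)` (descents of the toric factors `t`, `t′`) such that for EVERY discrete
base `hB : VtBase ι r π` of `E′` compatible with `A`, and every descent `y₀ ∈ F_{Mq}(E′)` of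
`y = τ² u / u`:  `∀ c, y₀ / tt c ^ m - 1 ∈ 𝔪(vtFam hB ιC hq hqM c)`  (= `htoric`).

`stb_mgt_pack_beta0` : the same for the base `A ∩ E′` (`beta0Ring A E′`).
-/

set_option autoImplicit false
set_option linter.unusedSectionVars false
set_option linter.style.haveILetI false

noncomputable section

namespace Fermat.Agent.STB

open ModularCurve AlgebraicCurve Fermat.Agent.INJ Fermat.Agent.ES Fermat.Agent.ES.G2
  Fermat.Agent.UNIP

universe u v

variable {q M : ℕ} [NeZero q] [NeZero M] [NeZero (M * q)] (hq : q.Prime) (hqM : ¬ q ∣ M)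

/-- **STB-MG-t, pack.** -/
theorem stb_mgt_pack (A : ValuationSubring Qb) (τ : Qb ≃ₐ[ℚ] Qb)
    (hτ : A.IsFrobeniusAt τ q) (hK : StmtKronQAt hq hqM A τ)
    {u : modularFunctionFieldBar (M * q)} (hu : u ≠ 0) (m : ℕ) (hm : m ≠ 0)
    (h1 : ∃ (c : Qb) (f : modularFunctionFieldBar M),
      stbNormAlpha M q u = algebraMap Qb (modularFunctionFieldBar M) c * f ^ m)
    (h2 : ∃ (c : Qb) (f : modularFunctionFieldBar M),
      stbNormBeta M q u = algebraMap Qb (modularFunctionFieldBar M) c * f ^ m) :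
    ∃ K₀ : IntermediateField ℚ Qb, FiniteDimensional ℚ K₀ ∧
      ∀ E' : IntermediateField ℚ Qb, K₀ ≤ E' →
        ∃ tt : Bool → modularFunctionFieldFullC ↥E' (M * q), (∀ c, tt c ≠ 0) ∧
          ∀ {A₀ : Type u} {k : Type v} [CommRing A₀] [Field k] {ι : A₀ →+* ↥E'}
            {r : A₀ →+* k} {π : A₀} (hB : VtBase ι r π),
            (∀ a, algebraMap ↥E' Qb (ι a) ∈ A) →
            (∀ a, algebraMap ↥E' Qb (ι a) ∈ A.nonunits → r a = 0) →
            ∀ (ιC : ↥E' →+* ℂ) (y₀ : modularFunctionFieldFullC ↥E' (M * q)),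
              nfEmb E' (M * q) y₀ =
                (arithmeticGalois (modularFunctionFieldFull (M * q)) τ •
                  arithmeticGalois (modularFunctionFieldFull (M * q)) τ • u) / u →
              ∀ c : Bool, y₀ / tt c ^ m - 1 ∈ (vtFam hB ιC hq hqM c).nonunits := by
  obtain ⟨t, t', ht, ht', k1, k2⟩ := stb_a_exists_toric_kummer hq hqM A τ hτ hK hu m hm h1 h2
  obtain ⟨K₀, hK₀, hdesc⟩ := stb_mgt_exists_descent (M * q) t t'
  refine ⟨K₀, hK₀, fun E' hE => ?_⟩
  obtain ⟨t₀, t₀', e, e'⟩ := hdesc E' hE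
  refine ⟨fun c => bif c then t₀ else t₀', ?_, ?_⟩
  · intro c
    cases c
    · show t₀' ≠ 0
      rintro rfl
      rw [map_zero] at e'
      exact ht' e'.symm
    · show t₀ ≠ 0
      rintro rfl
      rw [map_zero] at e
      exact ht e.symm
  · intro A₀ k _ _ ι r π hB c1 c2 ιC y₀ hy
    exact stb_mgt_htoric_of_eq hB A ιC hq hqM c1 c2 hy e e' m k1 k2

/-- **STB-MG-t, pack**, for the base `A ∩ E′`. -/
theorem stb_mgt_pack_beta0 (A : ValuationSubring Qb) (τ : Qb ≃ₐ[ℚ] Qb)
    (hτ : A.IsFrobeniusAt τ q) (hK : StmtKronQAt hq hqM A τ)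
    {u : modularFunctionFieldBar (M * q)} (hu : u ≠ 0) (m : ℕ) (hm : m ≠ 0)
    (h1 : ∃ (c : Qb) (f : modularFunctionFieldBar M),
      stbNormAlpha M q u = algebraMap Qb (modularFunctionFieldBar M) c * f ^ m)
    (h2 : ∃ (c : Qb) (f : modularFunctionFieldBar M),
      stbNormBeta M q u = algebraMap Qb (modularFunctionFieldBar M) c * f ^ m) :
    ∃ K₀ : IntermediateField ℚ Qb, FiniteDimensional ℚ K₀ ∧
      ∀ E' : IntermediateField ℚ Qb, K₀ ≤ E' →
        ∃ tt : Bool → modularFunctionFieldFullC ↥E' (M * q), (∀ c, tt c ≠ 0) ∧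
          ∀ {π' : ↥(beta0Ring A E')}
            (hB : VtBase (algebraMap ↥(beta0Ring A E') ↥E')
              (IsLocalRing.residue ↥(beta0Ring A E')) π')
            (ιC : ↥E' →+* ℂ) (y₀ : modularFunctionFieldFullC ↥E' (M * q)),
              nfEmb E' (M * q) y₀ =
                (arithmeticGalois (modularFunctionFieldFull (M * q)) τ •
                  arithmeticGalois (modularFunctionFieldFull (M * q)) τ • u) / u →
              ∀ c : Bool, y₀ / tt c ^ m - 1 ∈ (vtFam hB ιC hq hqM c).nonunits := by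
  obtain ⟨K₀, hK₀, h⟩ := stb_mgt_pack hq hqM A τ hτ hK hu m hm h1 h2
  refine ⟨K₀, hK₀, fun E' hE => ?_⟩
  obtain ⟨tt, htt, h'⟩ := h E' hE
  exact ⟨tt, htt, fun hB ιC y₀ hy => h' hB (stb_mgt_c1 A E') (stb_mgt_c2 A E') ιC y₀ hy⟩

end Fermat.Agent.STB
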